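import Mathlib
import Fermat.Agent.S52.M2.Main
import Fermat.Agent.P7.VCAdd

/-!
# S58 / [FQ-gen] — the Frobenius quadratic equation for a general Weierstrass curve over `𝔽_ℓ`

`S52.M2.frob_quadratic` proves `φ² - a φ + ℓ = 0` on `E0(k)` for a *short* Weierstrass curve `E0`
over `𝔽_ℓ`.  For `ℓ ≥ 5` every Weierstrass curve over `𝔽_ℓ` is carried to its short model by an
`𝔽_ℓ`-rational change of variables (`S52.VC.shortVC`), which is additive on points
(`P7.VCAdd.baseEquivBC`), commutes with the Frobenius endomorphism and preserves the number of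
rational points.  Hence the quadratic equation holds for every Weierstrass curve with `Δ ≠ 0`
(`frob_quadratic_general`).
-/

set_option autoImplicit false

namespace Fermat.Agent.S58.FrobQuadGen

open WeierstrassCurve WeierstrassCurve.Affine
open Fermat.Agent.S52.M2 Fermat.Agent.S52.VC Fermat.Agent.P7.VCAdd

noncomputable section

section Hom

variable {F : Type*} [Field F] {K : Type*} [Field K] [Algebra F K] [DecidableEq K]
  (C : VariableChange F) (E : WeierstrassCurve F)

omit [DecidableEq K] in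
lemma xMap_algHom (φ : K →ₐ[F] K) (x : K) :
    xMap (C.map (algebraMap F K)) (φ x) = φ (xMap (C.map (algebraMap F K)) x) := by
  simp only [xMap, VariableChange.map, Units.coe_map_inv, MonoidHom.coe_coe, map_mul, map_pow,
    map_sub, AlgHom.commutes]

omit [DecidableEq K] in
lemma yMap_algHom (φ : K →ₐ[F] K) (x y : K) :
    yMap (C.map (algebraMap F K)) (φ x) (φ y) = φ (yMap (C.map (algebraMap F K)) x y) := by
  simp only [yMap, VariableChange.map, Units.coe_map_inv, MonoidHom.coe_coe, map_mul, map_pow,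
    map_sub, AlgHom.commutes]

/-- `baseEquivBC` commutes with the maps on points induced by `F`-algebra endomorphisms of `K`. -/
theorem baseEquivBC_map (φ : K →ₐ[F] K) (P : (E⁄K).toAffine.Point) :
    baseEquivBC (K := K) C E (Point.map (W' := E.toAffine) φ P) =
      Point.map (W' := (C • E).toAffine) φ (baseEquivBC (K := K) C E P) := by
  rcases P with _ | ⟨x, y, h⟩
  · show baseEquivBC (K := K) C E (Point.map (W' := E.toAffine) φ (0 : (E⁄K).toAffine.Point)) =
      Point.map (W' := (C • E).toAffine) φ (baseEquivBC (K := K) C E 0)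
    rw [_root_.map_zero, _root_.map_zero, _root_.map_zero]
  · obtain ⟨h', e'⟩ := baseEquivBC_some (K := K) C E x y h
    rw [e', Point.map_some, Point.map_some]
    generalize_proofs hφ hφ'
    obtain ⟨h'', e''⟩ := baseEquivBC_some (K := K) C E _ _ hφ
    rw [e'']
    exact some_congr _ _ (xMap_algHom C φ x) (yMap_algHom C φ x y)

end Hom

section Main

variable (ℓ : ℕ) [Fact ℓ.Prime]

/-- **The Frobenius quadratic equation for a general Weierstrass curve over `𝔽_ℓ`, `ℓ ≥ 5`.** -/
theorem frob_quadratic_general (h5 : 5 ≤ ℓ) (E0 : WeierstrassCurve (ZMod ℓ)) (hΔ : E0.Δ ≠ 0)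
    (K : Type) [Field K] [Algebra (ZMod ℓ) K] [IsAlgClosed K] [DecidableEq K]
    (P : (E0.toAffine⁄K).Point) :
    frobPt ℓ E0 K (frobPt ℓ E0 K P)
      - ((ℓ : ℤ) + 1 - (Nat.card E0.toAffine.Point : ℤ)) • frobPt ℓ E0 K P + (ℓ : ℤ) • P = 0 := by
  have h6 : (6 : ZMod ℓ) ≠ 0 := six_ne_zero_zmod ℓ h5
  set C : VariableChange (ZMod ℓ) := shortVC E0 h6 with hC
  have hsm : C • E0 = ⟨0, 0, 0, -27 * E0.c₄, -54 * E0.c₆⟩ := shortVC_smul E0 h6
  have hΔ' : (C • E0).Δ ≠ 0 := by
    rw [variableChange_Δ]
    exact mul_ne_zero (pow_ne_zero _ (Units.ne_zero _)) hΔ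
  have hcard : Nat.card (C • E0).toAffine.Point = Nat.card E0.toAffine.Point :=
    card_variableChange C E0
  have key := frob_quadratic ℓ (C • E0) K (by rw [hsm]) (by rw [hsm]) (by rw [hsm]) hΔ'
    (baseEquivBC (K := K) C E0 P)
  have hfrob : ∀ Q : (E0.toAffine⁄K).Point,
      frobPt ℓ (C • E0) K (baseEquivBC (K := K) C E0 Q) =
        baseEquivBC (K := K) C E0 (frobPt ℓ E0 K Q) := fun Q =>
    (baseEquivBC_map C E0 (FiniteField.frobeniusAlgHom (ZMod ℓ) K) Q).symm
  rw [hcard] at key
  apply (baseEquivBC (K := K) C E0).injective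
  rw [_root_.map_zero, map_add, map_sub, map_zsmul, map_zsmul, ← hfrob (frobPt ℓ E0 K P),
    ← hfrob P]
  exact key

end Main

end

end Fermat.Agent.S58.FrobQuadGen
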