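import Mathlib
import Fermat.Prelude.Def_FLTPrelim_Modularity
import Fermat.Prelude.Def_EllipticCurve_FrobeniusTrace
import Fermat.Prelude.Def_FLTPrelim_Ramification
import Fermat.Agent.Lib.DivPoly.OddTorsion
import Fermat.Agent.Lib.FrobAlt
import Fermat.Agent.P7.RedFix
import Fermat.Agent.S05.Inertia

/-!
# S58 [RED]: the reduction homomorphism on odd prime-to-`q` torsion

For an integral Weierstrass model `W` with good reduction at a prime `q`, a valuation subring `A`
of `ℚ̄` over `q` and an odd `N` prime to `q`, coordinatewise reduction is an injective group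
homomorphism `W(ℚ̄)[N] → W̃(k_A)` (`exists_red`).  Consequence: inertia at `A` acts trivially on
`W(ℚ̄)[N]` (`inertia_smul_eq_of_good`).

The proof of additivity uses the "slope trick": if `P`, `Q`, `P + Q` are nonzero torsion points,
their abscissas are integral, hence the slope `L` of the chord (or tangent) is integral because
`x(P + Q) = L² + a₁ L - a₂ - x(P) - x(Q)`.  The two relations
`L (x₁ - x₂) = y₁ - y₂` and
`L (y₁ + y₂ + a₁ x₁ + a₃) = x₁² + x₁ x₂ + x₂² + a₂ (x₁ + x₂) + a₄ - a₁ y₂`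
hold in characteristic zero, reduce modulo the maximal ideal, and characterise Mathlib's `slope`
at a nonsingular point.
-/

set_option autoImplicit false
set_option linter.unusedSectionVars false

namespace Fermat.Agent.S58.Red

open WeierstrassCurve WeierstrassCurve.Affine

noncomputable section

/-! ### Slopes over a field -/

section Field

variable {F : Type*} [Field F] [DecidableEq F] (E : Affine F)

/-- The two relations satisfied by Mathlib's `slope` (chord or tangent). -/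
theorem rel_of_slope {x₁ y₁ x₂ y₂ : F} (h₁ : E.Equation x₁ y₁) (h₂ : E.Equation x₂ y₂)
    (hxy : ¬(x₁ = x₂ ∧ y₁ = E.negY x₂ y₂)) :
    E.slope x₁ x₂ y₁ y₂ * (x₁ - x₂) = y₁ - y₂ ∧
    E.slope x₁ x₂ y₁ y₂ * (y₁ + y₂ + E.a₁ * x₁ + E.a₃) =
      x₁ ^ 2 + x₁ * x₂ + x₂ ^ 2 + E.a₂ * (x₁ + x₂) + E.a₄ - E.a₁ * y₂ := by
  rw [equation_iff] at h₁ h₂
  by_cases hx : x₁ = x₂
  · have hy : y₁ ≠ E.negY x₂ y₂ := fun h => hxy ⟨hx, h⟩
    have hyy : y₁ = y₂ := Y_eq_of_Y_ne ((equation_iff _ _).mpr h₁) ((equation_iff _ _).mpr h₂) hx hy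
    subst hx
    subst hyy
    rw [slope_of_Y_ne rfl hy]
    have hd : y₁ - E.negY x₁ y₁ ≠ 0 := sub_ne_zero.mpr hy
    have hd' : y₁ - E.negY x₁ y₁ = y₁ + y₁ + E.a₁ * x₁ + E.a₃ := by
      simp only [negY]; ring
    refine ⟨by ring, ?_⟩
    rw [← hd', div_mul_cancel₀ _ hd]
    ring
  · rw [slope_of_X_ne hx]
    have hd : x₁ - x₂ ≠ 0 := sub_ne_zero.mpr hx
    refine ⟨div_mul_cancel₀ _ hd, ?_⟩
    rw [div_mul_eq_mul_div, div_eq_iff hd]
    linear_combination h₁ - h₂

/-- Conversely, the two relations characterise the slope at a nonsingular point. -/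
theorem slope_eq_of_rel {x₁ y₁ x₂ y₂ l : F} (hns : E.Nonsingular x₁ y₁)
    (hR1 : l * (x₁ - x₂) = y₁ - y₂)
    (hR2 : l * (y₁ + y₂ + E.a₁ * x₁ + E.a₃) =
      x₁ ^ 2 + x₁ * x₂ + x₂ ^ 2 + E.a₂ * (x₁ + x₂) + E.a₄ - E.a₁ * y₂) :
    ¬(x₁ = x₂ ∧ y₁ = E.negY x₂ y₂) ∧ E.slope x₁ x₂ y₁ y₂ = l := by
  by_cases hx : x₁ = x₂
  · subst hx
    have hyy : y₁ = y₂ := by
      rw [sub_self, mul_zero] at hR1
      exact sub_eq_zero.mp hR1.symm
    subst hyy
    have hd : y₁ + y₁ + E.a₁ * x₁ + E.a₃ ≠ 0 := by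
      intro h0
      rw [h0, mul_zero] at hR2
      rw [nonsingular_iff'] at hns
      rcases hns.2 with h | h
      · apply h
        linear_combination hR2
      · apply h
        linear_combination h0
    have hy : y₁ ≠ E.negY x₁ y₁ := by
      intro h
      apply hd
      have : y₁ - E.negY x₁ y₁ = 0 := sub_eq_zero.mpr h
      simp only [negY] at this
      linear_combination this
    refine ⟨fun h => hy h.2, ?_⟩
    rw [slope_of_Y_ne rfl hy]
    have hd' : y₁ - E.negY x₁ y₁ = y₁ + y₁ + E.a₁ * x₁ + E.a₃ := by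
      simp only [negY]; ring
    rw [hd', div_eq_iff hd]
    linear_combination -hR2
  · refine ⟨fun h => hx h.1, ?_⟩
    rw [slope_of_X_ne hx, div_eq_iff (sub_ne_zero.mpr hx)]
    exact hR1.symm

end Field

/-! ### Reduction of integral points -/

section Val

variable {L : Type*} [Field L] [DecidableEq L] (A : ValuationSubring L) (W : WeierstrassCurve ℤ)

/-- Classical decidable equality on the residue field (needed for the group law). -/
instance instDecEqResidue : DecidableEq (IsLocalRing.ResidueField A) := Classical.decEq _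

/-- The model over the big field. -/
abbrev EL : Affine L := (W.map (Int.castRingHom L)).toAffine

/-- The reduced curve over the residue field of `A`. -/
abbrev Ek : Affine (IsLocalRing.ResidueField A) :=
  (W.map (Int.castRingHom (IsLocalRing.ResidueField A))).toAffine

variable {A W}

theorem intCast_mem (n : ℤ) : ((n : ℤ) : L) ∈ A :=
  (A.valuation_le_one_iff _).mp (Fermat.Agent.Lib.FrobAlt.val_intCast_le_one A n)

theorem eqn_of_equation {a b : A} (h : (EL (L := L) W).Equation (a : L) (b : L)) :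
    Fermat.Agent.P7.RedFix.Eqn W A a b :=
  Fermat.Agent.P7.RedFix.Eqn.of_map W A.subtype Subtype.coe_injective
    ((Fermat.Agent.P7.RedFix.equation_iff_eqn W L _ _).mp h)

theorem equation_res {a b : A} (h : (EL (L := L) W).Equation (a : L) (b : L)) :
    (Ek A W).Equation (IsLocalRing.residue A a) (IsLocalRing.residue A b) :=
  (Fermat.Agent.P7.RedFix.equation_iff_eqn W _ _ _).mpr
    (Fermat.Agent.P7.RedFix.Eqn.map W (IsLocalRing.residue A) (eqn_of_equation h))

theorem nonsingular_res (hΔ : (Ek A W).Δ ≠ 0) {a b : A}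
    (h : (EL (L := L) W).Equation (a : L) (b : L)) :
    (Ek A W).Nonsingular (IsLocalRing.residue A a) (IsLocalRing.residue A b) :=
  ((Ek A W).equation_iff_nonsingular_of_Δ_ne_zero hΔ).mp (equation_res h)

/-- **Slope trick + reduction of the slope.** -/
theorem exists_slope_res (hΔ : (Ek A W).Δ ≠ 0) {a₁ b₁ a₂ b₂ : A}
    (h₁ : (EL (L := L) W).Equation (a₁ : L) (b₁ : L))
    (h₂ : (EL (L := L) W).Equation (a₂ : L) (b₂ : L))
    (hxy : ¬((a₁ : L) = a₂ ∧ (b₁ : L) = (EL (L := L) W).negY a₂ b₂))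
    (hx₃ : (EL (L := L) W).addX a₁ a₂ ((EL (L := L) W).slope a₁ a₂ b₁ b₂) ∈ A) :
    ∃ l : A, (l : L) = (EL (L := L) W).slope a₁ a₂ b₁ b₂ ∧
      ¬(IsLocalRing.residue A a₁ = IsLocalRing.residue A a₂ ∧
        IsLocalRing.residue A b₁ =
          (Ek A W).negY (IsLocalRing.residue A a₂) (IsLocalRing.residue A b₂)) ∧
      (Ek A W).slope (IsLocalRing.residue A a₁) (IsLocalRing.residue A a₂)
        (IsLocalRing.residue A b₁) (IsLocalRing.residue A b₂) = IsLocalRing.residue A l := by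
  set l0 : L := (EL (L := L) W).slope a₁ a₂ b₁ b₂ with hl0
  -- the slope is integral
  have hl0A : l0 ∈ A := by
    refine Fermat.Agent.P7.RedFix.mem_of_quadratic A (b := ((W.a₁ : ℤ) : L))
      (c := (EL (L := L) W).addX a₁ a₂ l0 + ((W.a₂ : ℤ) : L) + a₁ + a₂) (intCast_mem _)
      (add_mem (add_mem (add_mem hx₃ (intCast_mem _)) a₁.2) a₂.2) ?_
    simp only [addX, map_a₁, map_a₂, eq_intCast]
    ring
  obtain ⟨hR1, hR2⟩ := rel_of_slope (EL (L := L) W) h₁ h₂ hxy
  rw [← hl0] at hR1 hR2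
  simp only [map_a₁, map_a₂, map_a₃, map_a₄, eq_intCast] at hR1 hR2
  refine ⟨⟨l0, hl0A⟩, rfl, ?_⟩
  -- the relations in `A`
  have hR1A : (⟨l0, hl0A⟩ : A) * (a₁ - a₂) = b₁ - b₂ := by
    apply Subtype.coe_injective
    push_cast
    exact hR1
  have hR2A : (⟨l0, hl0A⟩ : A) * (b₁ + b₂ + ((W.a₁ : ℤ) : A) * a₁ + ((W.a₃ : ℤ) : A)) =
      a₁ ^ 2 + a₁ * a₂ + a₂ ^ 2 + ((W.a₂ : ℤ) : A) * (a₁ + a₂) + ((W.a₄ : ℤ) : A)
        - ((W.a₁ : ℤ) : A) * b₂ := by
    apply Subtype.coe_injective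
    push_cast
    exact hR2
  have hR1k := congrArg (IsLocalRing.residue A) hR1A
  have hR2k := congrArg (IsLocalRing.residue A) hR2A
  simp only [map_mul, map_sub, map_add, map_pow, map_intCast] at hR1k hR2k
  refine slope_eq_of_rel (Ek A W) (nonsingular_res hΔ h₁) hR1k ?_
  simp only [map_a₁, map_a₂, map_a₃, map_a₄, eq_intCast]
  exact hR2k

/-- Integrality of a point: the point at infinity, or an affine point with coordinates in `A`. -/
def IsInt (A : ValuationSubring L) (W : WeierstrassCurve ℤ) : (EL (L := L) W).Point → Prop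
  | .zero => True
  | .some x y _ => x ∈ A ∧ y ∈ A

open Classical in
/-- Coordinatewise reduction of a point (junk value `0` at non-integral points). -/
def redPt (hΔ : (Ek A W).Δ ≠ 0) : (EL (L := L) W).Point → (Ek A W).Point
  | .zero => 0
  | .some x y h =>
    if hxy : x ∈ A ∧ y ∈ A then
      .some (IsLocalRing.residue A ⟨x, hxy.1⟩) (IsLocalRing.residue A ⟨y, hxy.2⟩)
        (nonsingular_res hΔ (a := ⟨x, hxy.1⟩) (b := ⟨y, hxy.2⟩) h.1)
    else 0

theorem redPt_zero (hΔ : (Ek A W).Δ ≠ 0) : redPt hΔ (0 : (EL (L := L) W).Point) = 0 := rfl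

theorem redPt_some (hΔ : (Ek A W).Δ ≠ 0) {x y : L} (h : (EL (L := L) W).Nonsingular x y)
    (hx : x ∈ A) (hy : y ∈ A) :
    redPt hΔ (Point.some x y h) =
      Point.some (IsLocalRing.residue A ⟨x, hx⟩) (IsLocalRing.residue A ⟨y, hy⟩)
        (nonsingular_res hΔ (a := ⟨x, hx⟩) (b := ⟨y, hy⟩) h.1) := by
  simp only [redPt, dif_pos (And.intro hx hy)]

theorem redPt_eq_zero_iff (hΔ : (Ek A W).Δ ≠ 0) {P : (EL (L := L) W).Point}
    (hP : IsInt A W P) : redPt hΔ P = 0 ↔ P = 0 := by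
  rcases P with _ | ⟨x, y, h⟩
  · exact ⟨fun _ => rfl, fun _ => rfl⟩
  · rw [redPt_some hΔ h hP.1 hP.2]
    exact ⟨fun h0 => absurd h0 (Point.some_ne_zero _), fun h0 => absurd h0 (Point.some_ne_zero _)⟩

/-- **Additivity of the reduction** on integral points whose sum is integral. -/
theorem redPt_add (hΔ : (Ek A W).Δ ≠ 0) {P Q : (EL (L := L) W).Point}
    (hP : IsInt A W P) (hQ : IsInt A W Q) (hPQ : IsInt A W (P + Q)) :
    redPt hΔ (P + Q) = redPt hΔ P + redPt hΔ Q := by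
  rcases P with _ | ⟨x₁, y₁, h₁⟩
  · have h0 : (Point.zero : (EL (L := L) W).Point) = 0 := rfl
    rw [h0, zero_add, redPt_zero, zero_add]
  rcases Q with _ | ⟨x₂, y₂, h₂⟩
  · have h0 : (Point.zero : (EL (L := L) W).Point) = 0 := rfl
    rw [h0, add_zero, redPt_zero, add_zero]
  obtain ⟨hx₁, hy₁⟩ := hP
  obtain ⟨hx₂, hy₂⟩ := hQ
  rw [redPt_some hΔ h₁ hx₁ hy₁, redPt_some hΔ h₂ hx₂ hy₂]
  by_cases hxy : x₁ = x₂ ∧ y₁ = (EL (L := L) W).negY x₂ y₂
  · -- `P + Q = 0`
    rw [Point.add_of_Y_eq hxy.1 hxy.2, redPt_zero]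
    symm
    apply Point.add_of_Y_eq
    · exact congrArg (IsLocalRing.residue A) (Subtype.ext hxy.1)
    · have hy : (⟨y₁, hy₁⟩ : A) =
          -⟨y₂, hy₂⟩ - ((W.a₁ : ℤ) : A) * ⟨x₂, hx₂⟩ - ((W.a₃ : ℤ) : A) := by
        apply Subtype.ext
        push_cast
        rw [hxy.2]
        simp only [negY, map_a₁, map_a₃, eq_intCast]
      rw [hy]
      simp only [negY, map_a₁, map_a₃, eq_intCast, map_sub, map_neg, map_mul, map_intCast]
  · -- the generic case
    rw [Point.add_some hxy] at hPQ ⊢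
    obtain ⟨hx₃, hy₃⟩ := hPQ
    obtain ⟨l, hl, hxyk, hslope⟩ := exists_slope_res (A := A) (W := W) hΔ
      (a₁ := ⟨x₁, hx₁⟩) (b₁ := ⟨y₁, hy₁⟩) (a₂ := ⟨x₂, hx₂⟩) (b₂ := ⟨y₂, hy₂⟩) h₁.1 h₂.1 hxy hx₃
    rw [redPt_some hΔ _ hx₃ hy₃, Point.add_some hxyk]
    simp only [Point.some.injEq]
    rw [hslope]
    constructor
    · have hx : (⟨_, hx₃⟩ : A) =
          l ^ 2 + ((W.a₁ : ℤ) : A) * l - ((W.a₂ : ℤ) : A) - ⟨x₁, hx₁⟩ - ⟨x₂, hx₂⟩ := by
        apply Subtype.ext
        push_cast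
        rw [hl]
        simp only [addX, map_a₁, map_a₂, eq_intCast]
      rw [hx]
      simp only [addX, map_a₁, map_a₂, eq_intCast, map_sub, map_add, map_pow, map_mul,
        map_intCast]
    · have hy : (⟨_, hy₃⟩ : A) =
          -(l * (l ^ 2 + ((W.a₁ : ℤ) : A) * l - ((W.a₂ : ℤ) : A) - ⟨x₁, hx₁⟩ - ⟨x₂, hx₂⟩
              - ⟨x₁, hx₁⟩) + ⟨y₁, hy₁⟩)
            - ((W.a₁ : ℤ) : A) *
              (l ^ 2 + ((W.a₁ : ℤ) : A) * l - ((W.a₂ : ℤ) : A) - ⟨x₁, hx₁⟩ - ⟨x₂, hx₂⟩)
            - ((W.a₃ : ℤ) : A) := by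
        apply Subtype.ext
        push_cast
        rw [hl]
        simp only [addY, negAddY, negY, addX, map_a₁, map_a₂, map_a₃, eq_intCast]
      rw [hy]
      simp only [addY, negAddY, negY, addX, map_a₁, map_a₂, map_a₃, eq_intCast, map_sub,
        map_add, map_neg, map_pow, map_mul, map_intCast]

/-- Points killed by an odd `N` which is a unit of `A` have integral coordinates. -/
theorem isInt_of_nsmul {N : ℕ} (hN : Odd N) (hNA : A.valuation ((N : ℤ) : L) = 1)
    {P : (EL (L := L) W).Point} (hP : N • P = 0) : IsInt A W P := by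
  rcases P with _ | ⟨x, y, h⟩
  · trivial
  · have h1 := (Fermat.Agent.Lib.DivPoly.nsmul_eq_zero_iff_preΨ' (EL (L := L) W) h hN).mp hP
    rw [WeierstrassCurve.map_preΨ'] at h1
    have hlcf : (W.preΨ' N).leadingCoeff = (N : ℤ) := by
      rw [W.leadingCoeff_preΨ' (by exact_mod_cast hN.pos.ne'),
        if_neg (Nat.not_even_iff_odd.mpr hN)]
    have hx : x ∈ A :=
      Fermat.Agent.P7.RedFix.mem_of_root A (W.preΨ' N) (by rw [hlcf]; exact hNA) h1
    refine ⟨hx, ?_⟩
    have he := (Fermat.Agent.P7.RedFix.equation_iff_eqn W L x y).mp h.1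
    refine Fermat.Agent.P7.RedFix.mem_of_quadratic A (b := ((W.a₁ : ℤ) : L) * x + ((W.a₃ : ℤ) : L))
      (c := x ^ 3 + ((W.a₂ : ℤ) : L) * x ^ 2 + ((W.a₄ : ℤ) : L) * x + ((W.a₆ : ℤ) : L))
      ?_ ?_ ?_
    · exact add_mem (mul_mem (intCast_mem _) hx) (intCast_mem _)
    · exact add_mem (add_mem (add_mem (pow_mem hx 3) (mul_mem (intCast_mem _) (pow_mem hx 2)))
        (mul_mem (intCast_mem _) hx)) (intCast_mem _)
    · unfold Fermat.Agent.P7.RedFix.Eqn at he
      linear_combination he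

theorem mem_torsionBy_iff_nsmul {G : Type*} [AddCommGroup G] {N : ℕ} {P : G} :
    P ∈ Submodule.torsionBy ℤ G N ↔ N • P = 0 := by
  rw [Submodule.mem_torsionBy_iff, natCast_zsmul]

/-- The reduced discriminant is nonzero at a good prime. -/
theorem Δ_res_ne_zero {q : ℕ} (hq : q.Prime) (hA : (q : L) ∈ A.nonunits)
    (hgood : ¬ (q : ℤ) ∣ W.Δ) : (Ek A W).Δ ≠ 0 := by
  rw [WeierstrassCurve.map_Δ, eq_intCast]
  exact Fermat.Agent.P7.RedFix.residue_intCast_ne_zero A
    (Fermat.Agent.Lib.FrobAlt.val_intCast_eq_one A hq hA hgood)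

/-- **[RED], generic field.** -/
theorem exists_red_aux {q N : ℕ} (hq : q.Prime) (hN : Odd N) (hqN : ¬ q ∣ N)
    (hgood : ¬ (q : ℤ) ∣ W.Δ) (hA : (q : L) ∈ A.nonunits) :
    ∃ red : Submodule.torsionBy ℤ (EL (L := L) W).Point N →+ (Ek A W).Point,
      Function.Injective red ∧
      ∀ (P : Submodule.torsionBy ℤ (EL (L := L) W).Point N) (x y : L)
        (h : (EL (L := L) W).Nonsingular x y), (P : (EL (L := L) W).Point) = Point.some x y h →
        ∃ (hx : x ∈ A) (hy : y ∈ A)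
          (h' : (Ek A W).Nonsingular (IsLocalRing.residue A ⟨x, hx⟩)
            (IsLocalRing.residue A ⟨y, hy⟩)),
          red P = Point.some _ _ h' := by
  have hNA : A.valuation ((N : ℤ) : L) = 1 := by
    apply Fermat.Agent.Lib.FrobAlt.val_intCast_eq_one A hq hA
    rw [Int.natCast_dvd_natCast]
    exact hqN
  have hΔ : (Ek A W).Δ ≠ 0 := Δ_res_ne_zero hq hA hgood
  have hint : ∀ P : Submodule.torsionBy ℤ (EL (L := L) W).Point N,
      IsInt A W (P : (EL (L := L) W).Point) := fun P =>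
    isInt_of_nsmul hN hNA (mem_torsionBy_iff_nsmul.mp P.2)
  let red : Submodule.torsionBy ℤ (EL (L := L) W).Point N →+ (Ek A W).Point :=
    AddMonoidHom.mk' (fun P => redPt hΔ (P : (EL (L := L) W).Point))
      (fun P Q => redPt_add hΔ (hint P) (hint Q) (hint (P + Q)))
  refine ⟨red, ?_, ?_⟩
  · refine (injective_iff_map_eq_zero red).mpr fun P hP => ?_
    exact Subtype.ext ((redPt_eq_zero_iff hΔ (hint P)).mp hP)
  · intro P x y h hPxy
    have hi := hint P
    rw [hPxy] at hi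
    refine ⟨hi.1, hi.2, nonsingular_res hΔ (a := ⟨x, hi.1⟩) (b := ⟨y, hi.2⟩) h.1, ?_⟩
    show redPt hΔ (P : (EL (L := L) W).Point) = _
    rw [hPxy, redPt_some hΔ h hi.1 hi.2]

end Val

/-! ### The statements over `ℚ̄` -/

section Qbar

local notation "Qb" => AlgebraicClosure ℚ

/-- The integral model over `ℚ`. -/
abbrev EQ (W : WeierstrassCurve ℤ) : WeierstrassCurve ℚ := W.map (Int.castRingHom ℚ)

/-- **[RED]** For an integral model `W` with good reduction at `q`, a valuation subring `A` of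
`ℚ̄` over `q` and an odd `N` prime to `q`, coordinatewise reduction is an injective group
homomorphism from `W(ℚ̄)[N]` to the points of the reduced curve over the residue field of `A`. -/
theorem exists_red (W : WeierstrassCurve ℤ) {q N : ℕ} (hq : q.Prime) (hN : Odd N)
    (hqN : ¬ q ∣ N) (hgood : ¬ (q : ℤ) ∣ W.Δ) (A : ValuationSubring Qb)
    (hA : A.LiesOverPrime q) :
    ∃ red : Submodule.torsionBy ℤ ((EQ W).toAffine⁄Qb).Point N →+ (Ek A W).Point,
      Function.Injective red ∧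
      ∀ (P : Submodule.torsionBy ℤ ((EQ W).toAffine⁄Qb).Point N) (x y : Qb)
        (h : ((EQ W).toAffine⁄Qb).Nonsingular x y),
        (P : ((EQ W).toAffine⁄Qb).Point) = Point.some x y h →
        ∃ (hx : x ∈ A) (hy : y ∈ A)
          (h' : (Ek A W).Nonsingular (IsLocalRing.residue A ⟨x, hx⟩)
            (IsLocalRing.residue A ⟨y, hy⟩)),
          red P = Point.some _ _ h' := by
  have key := exists_red_aux (L := Qb) (A := A) (W := W) hq hN hqN hgood hA
  have hE : ((EQ W).toAffine⁄Qb) = EL (L := Qb) W := Fermat.Agent.P7.RedFix.baseChange_eq W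
  rw [hE]
  exact key

/-- Two elements of `A` whose difference is a nonunit have the same residue. -/
theorem residue_eq_of_sub_mem {L : Type*} [Field L] (A : ValuationSubring L) {x y : L}
    (hx : x ∈ A) (hy : y ∈ A) (h : x - y ∈ A.nonunits) :
    IsLocalRing.residue A ⟨x, hx⟩ = IsLocalRing.residue A ⟨y, hy⟩ := by
  rw [← sub_eq_zero, ← map_sub, IsLocalRing.residue_eq_zero_iff,
    ← ValuationSubring.coe_mem_nonunits_iff]
  exact h

/-- **[E-good]** Inertia at a prime of good reduction acts trivially on the odd prime-to-`q`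
torsion of `W(ℚ̄)`. -/
theorem inertia_smul_eq_of_good (W : WeierstrassCurve ℤ) {q N : ℕ} (hq : q.Prime) (hN : Odd N)
    (hqN : ¬ q ∣ N) (hgood : ¬ (q : ℤ) ∣ W.Δ) (A : ValuationSubring Qb)
    (hA : A.LiesOverPrime q) (σ : Qb ≃ₐ[ℚ] Qb) (hσ : σ ∈ A.inertiaSubgroupIn ℚ)
    (P : Submodule.torsionBy ℤ ((EQ W).toAffine⁄Qb).Point N) : σ • P = P := by
  obtain ⟨red, hinj, hchar⟩ := exists_red W hq hN hqN hgood A hA
  have hcoe : ((σ • P : Submodule.torsionBy ℤ ((EQ W).toAffine⁄Qb).Point N) :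
      ((EQ W).toAffine⁄Qb).Point) = σ • (P : ((EQ W).toAffine⁄Qb).Point) := rfl
  rcases hP : (P : ((EQ W).toAffine⁄Qb).Point) with _ | ⟨x, y, h⟩
  · apply Subtype.ext
    rw [hcoe, hP]
    rfl
  · apply hinj
    have hσP : ((σ • P : Submodule.torsionBy ℤ ((EQ W).toAffine⁄Qb).Point N) :
        ((EQ W).toAffine⁄Qb).Point) = Point.some (σ x) (σ y)
          ((WeierstrassCurve.Affine.baseChange_nonsingular _ σ.toAlgHom.injective _ _).mpr h) := by
      rw [hcoe, hP, Point.algEquiv_smul_def, Point.map_some]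
      rfl
    obtain ⟨hx, hy, h', hred⟩ := hchar P x y h hP
    obtain ⟨hx', hy', h'', hred'⟩ := hchar (σ • P) _ _ _ hσP
    rw [hred, hred']
    simp only [Point.some.injEq]
    exact ⟨residue_eq_of_sub_mem A hx' hx (Fermat.Agent.S05.Inertia.sub_mem_nonunits A hσ hx),
      residue_eq_of_sub_mem A hy' hy (Fermat.Agent.S05.Inertia.sub_mem_nonunits A hσ hy)⟩

/-- A Frobenius element at `A` raises residues to the `q`-th power. -/
theorem frob_residue {A : ValuationSubring Qb} {q : ℕ} {σ : Qb ≃ₐ[ℚ] Qb}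
    (hσ : A.IsFrobeniusAt σ q) {x : Qb} (hx : x ∈ A) :
    ∃ hx' : σ x ∈ A, IsLocalRing.residue A ⟨σ x, hx'⟩ = IsLocalRing.residue A ⟨x, hx⟩ ^ q := by
  let g : A.decompositionSubgroup ℚ := ⟨σ, hσ.mem_decompositionSubgroup⟩
  have hcoe : ((g • (⟨x, hx⟩ : A) : A) : Qb) = σ x := rfl
  refine ⟨hcoe ▸ (g • (⟨x, hx⟩ : A)).2, ?_⟩
  have h1 : (⟨σ x, hcoe ▸ (g • (⟨x, hx⟩ : A)).2⟩ : A) = g • (⟨x, hx⟩ : A) := Subtype.ext hcoe.symm
  rw [h1, IsLocalRing.ResidueField.residue_smul]
  exact hσ.smul_residue_eq _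

/-- The coordinates of `σ • P` for an affine torsion point. -/
theorem coe_smul_some (W : WeierstrassCurve ℤ) {N : ℕ} (σ : Qb ≃ₐ[ℚ] Qb)
    (P : Submodule.torsionBy ℤ ((EQ W).toAffine⁄Qb).Point N) {x y : Qb}
    {h : ((EQ W).toAffine⁄Qb).Nonsingular x y}
    (hP : (P : ((EQ W).toAffine⁄Qb).Point) = Point.some x y h) :
    ((σ • P : Submodule.torsionBy ℤ ((EQ W).toAffine⁄Qb).Point N) :
        ((EQ W).toAffine⁄Qb).Point) = Point.some (σ x) (σ y)
          ((WeierstrassCurve.Affine.baseChange_nonsingular _ σ.toAlgHom.injective _ _).mpr h) := by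
  have hcoe : ((σ • P : Submodule.torsionBy ℤ ((EQ W).toAffine⁄Qb).Point N) :
      ((EQ W).toAffine⁄Qb).Point) = σ • (P : ((EQ W).toAffine⁄Qb).Point) := rfl
  rw [hcoe, hP, Point.algEquiv_smul_def, Point.map_some]
  rfl

/-- **[RED] with its equivariance properties**: the reduction homomorphism is injective, is
given by coordinatewise residues, is invariant under inertia, and intertwines a Frobenius
element at `A` with the `q`-power map on coordinates. -/
theorem exists_red_equivariant (W : WeierstrassCurve ℤ) {q N : ℕ} (hq : q.Prime) (hN : Odd N)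
    (hqN : ¬ q ∣ N) (hgood : ¬ (q : ℤ) ∣ W.Δ) (A : ValuationSubring Qb)
    (hA : A.LiesOverPrime q) :
    ∃ red : Submodule.torsionBy ℤ ((EQ W).toAffine⁄Qb).Point N →+ (Ek A W).Point,
      Function.Injective red ∧
      (∀ (P : Submodule.torsionBy ℤ ((EQ W).toAffine⁄Qb).Point N) (x y : Qb)
        (h : ((EQ W).toAffine⁄Qb).Nonsingular x y),
        (P : ((EQ W).toAffine⁄Qb).Point) = Point.some x y h →
        ∃ (hx : x ∈ A) (hy : y ∈ A)
          (h' : (Ek A W).Nonsingular (IsLocalRing.residue A ⟨x, hx⟩)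
            (IsLocalRing.residue A ⟨y, hy⟩)),
          red P = Point.some _ _ h') ∧
      (∀ σ : Qb ≃ₐ[ℚ] Qb, σ ∈ A.inertiaSubgroupIn ℚ →
        ∀ P : Submodule.torsionBy ℤ ((EQ W).toAffine⁄Qb).Point N, red (σ • P) = red P) ∧
      (∀ σ : Qb ≃ₐ[ℚ] Qb, A.IsFrobeniusAt σ q →
        ∀ (P : Submodule.torsionBy ℤ ((EQ W).toAffine⁄Qb).Point N)
          (u v : IsLocalRing.ResidueField A) (h : (Ek A W).Nonsingular u v),
          red P = Point.some u v h →
          ∃ h' : (Ek A W).Nonsingular (u ^ q) (v ^ q), red (σ • P) = Point.some _ _ h') := by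
  obtain ⟨red, hinj, hchar⟩ := exists_red W hq hN hqN hgood A hA
  refine ⟨red, hinj, hchar, ?_, ?_⟩
  · intro σ hσ P
    rw [inertia_smul_eq_of_good W hq hN hqN hgood A hA σ hσ P]
  · intro σ hσ P u v h hPuv
    rcases hP : (P : ((EQ W).toAffine⁄Qb).Point) with _ | ⟨x, y, hxy⟩
    · exfalso
      have hP0 : P = 0 := Subtype.ext hP
      rw [hP0, map_zero] at hPuv
      exact Point.some_ne_zero _ hPuv.symm
    · obtain ⟨hx, hy, h', hred⟩ := hchar P x y hxy hP
      rw [hred] at hPuv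
      simp only [Point.some.injEq] at hPuv
      obtain ⟨hu, hv⟩ := hPuv
      obtain ⟨hx', hy', h'', hred'⟩ := hchar (σ • P) _ _ _ (coe_smul_some W σ P hP)
      obtain ⟨hx'', hfx⟩ := frob_residue hσ hx
      obtain ⟨hy'', hfy⟩ := frob_residue hσ hy
      have e1 : IsLocalRing.residue A ⟨σ x, hx'⟩ = u ^ q := by rw [← hu]; exact hfx
      have e2 : IsLocalRing.residue A ⟨σ y, hy'⟩ = v ^ q := by rw [← hv]; exact hfy
      refine ⟨e1 ▸ e2 ▸ h'', ?_⟩
      rw [hred']
      simp only [Point.some.injEq]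
      exact ⟨e1, e2⟩

end Qbar

end

end Fermat.Agent.S58.Red
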