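import Mathlib
import Fermat.Agent.S22
import Fermat.Agent.P5.G9.Main

/-!
# S58 [ATT]: the coefficient datum of a normalised eigenform at a prime `λ`

For a normalised eigenform `g` of level `M`, a prime `λ` and a finite set `S` of primes, the
statements S35 and S36 take a datum `(O', chig, iota)`: a complete discrete valuation ring `O'`
of characteristic zero with finite residue field and `λ ∈ 𝔪`, the eigencharacter
`chig : 𝕋_S → ℂ` of `g`, and a ring homomorphism `iota : chig.range → O'`.

`exists_datum` constructs such a datum with `iota` INJECTIVE (`O'` is the completion of the ring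
of integers of a number field containing the Hecke eigenvalues at a prime above `λ`).
`comp_eq_intCast` / `eq_intCast_of_comp` translate between integer eigenvalues and their images.
-/

set_option autoImplicit false

open scoped NumberField

namespace Fermat.Agent.S58.Att

/-- Integer eigenvalues are sent to integers. -/
theorem comp_eq_intCast {T R : Type*} [CommRing T] [CommRing R] (chig : T →+* ℂ)
    (iota : chig.range →+* R) (t : T) (a : ℤ) (h : chig t = (a : ℂ)) :
    (iota.comp chig.rangeRestrict) t = (a : R) := by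
  have h1 : chig.rangeRestrict t = ((a : ℤ) : chig.range) := Subtype.ext (by simpa using h)
  rw [RingHom.comp_apply, h1, map_intCast]

/-- Conversely, if `iota` is injective, an eigenvalue sent to an integer is that integer. -/
theorem eq_intCast_of_comp {T R : Type*} [CommRing T] [CommRing R] (chig : T →+* ℂ)
    (iota : chig.range →+* R) (hinj : Function.Injective iota) (t : T) (a : ℤ)
    (h : (iota.comp chig.rangeRestrict) t = (a : R)) : chig t = (a : ℂ) := by
  rw [RingHom.comp_apply, ← map_intCast iota a] at h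
  have h1 := congrArg (Subtype.val : chig.range → ℂ) (hinj h)
  simpa using h1

/-- **The coefficient datum of a normalised eigenform at `λ`**, with `iota` injective. -/
theorem exists_datum {M : ℕ} [NeZero M] {g : CuspForm (CongruenceSubgroup.Gamma0 M) 2}
    (hg : g.IsNormalizedEigenform) (lam : ℕ) [Fact lam.Prime] (S : Finset ℕ) :
    ∃ (O' : Type) (_ : CommRing O') (_ : IsDomain O') (_ : IsDiscreteValuationRing O')
      (_ : IsAdicComplete (IsLocalRing.maximalIdeal O') O')
      (_ : Finite (IsLocalRing.ResidueField O')) (_ : CharZero O')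
      (chig : CuspForm.heckeAlgebra M 2 (↑S : Set ℕ) →+* ℂ) (iota : chig.range →+* O'),
      (lam : O') ∈ IsLocalRing.maximalIdeal O' ∧
      (∀ (ℓ : ℕ) (hℓ : ℓ.Prime) (hℓM : ¬ ℓ ∣ M) (hℓS : ℓ ∉ (↑S : Set ℕ)),
        chig (CuspForm.heckeAlgebra.T hℓ hℓM hℓS) = ModularFormClass.qCoeff g ℓ) ∧
      Function.Injective iota := by
  classical
  have hlam : lam.Prime := Fact.out
  let χc : CuspForm.heckeAlgebra M 2 (↑S : Set ℕ) →+* ℂ :=
    Fermat.Agent.P5.G9.EigenHom.eigenChar hg (↑S : Set ℕ)
  have : Module.Finite ℤ (CuspForm.heckeAlgebra M 2 (↑S : Set ℕ)) :=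
    Fermat.Agent.S22.result M 2 _
  obtain ⟨K, hKfin, hK⟩ := Fermat.Agent.P5.G9.exists_numberField_hull χc
  have : NumberField K := { to_charZero := inferInstance, to_finiteDimensional := hKfin }
  have hint : ∀ t, IsIntegral ℤ (χc t) := fun t =>
    (Algebra.IsIntegral.isIntegral (R := ℤ) t).map χc.toIntAlgHom
  have hrK : ∀ x : χc.range, (x : ℂ) ∈ K := by
    rintro ⟨x, t, rfl⟩
    exact hK t
  let j : χc.range →+* K := (χc.range.subtype).codRestrict K hrK
  have hjint : ∀ x : χc.range, IsIntegral ℤ (j x) := by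
    rintro ⟨x, t, rfl⟩
    exact (isIntegral_algebraMap_iff (algebraMap K ℂ).injective).mp (hint t)
  let j₀ : χc.range →+* 𝓞 K := Fermat.Agent.P5.G9.toRingOfIntegers j hjint
  have hj₀inj : Function.Injective j₀ := by
    intro x y hxy
    have h1 : ((j₀ x : 𝓞 K) : K) = ((j₀ y : 𝓞 K) : K) := by rw [hxy]
    have h2 : ((j x : K) : ℂ) = ((j y : K) : ℂ) := congrArg (fun z : K => (z : ℂ)) h1
    exact Subtype.ext h2
  -- a prime of `𝓞 K` above `λ`
  have hmaxℤ : (Ideal.span {(lam : ℤ)}).IsMaximal :=
    PrincipalIdealRing.isMaximal_of_irreducible (Nat.prime_iff_prime_int.mp hlam).irreducible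
  obtain ⟨Q, hQmax, hQ⟩ := Ideal.exists_ideal_over_maximal_of_isIntegral (S := 𝓞 K)
    (Ideal.span {(lam : ℤ)}) (by
      rw [(RingHom.injective_iff_ker_eq_bot _).mp (FaithfulSMul.algebraMap_injective ℤ (𝓞 K))]
      exact bot_le)
  have hlamQ : (lam : 𝓞 K) ∈ Q := by
    have h1 : (lam : ℤ) ∈ Q.comap (algebraMap ℤ (𝓞 K)) := by
      rw [hQ]
      exact Ideal.mem_span_singleton_self _
    rw [Ideal.mem_comap] at h1
    simpa using h1
  have hQ0 : Q ≠ ⊥ := fun h => by
    rw [h, Ideal.mem_bot] at hlamQ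
    exact hlam.ne_zero (Nat.cast_eq_zero.mp hlamQ)
  obtain ⟨O, i1, i2, i3, i4, i5, i6, f, hf, -⟩ :=
    Fermat.Agent.P5.G9.completionStmt K ⟨Q, hQmax.isPrime, hQ0⟩
  have hfinj : Function.Injective f := by
    rw [RingHom.injective_iff_ker_eq_bot]
    apply Ideal.eq_bot_of_comap_eq_bot (R := ℤ)
    rw [eq_bot_iff]
    intro n hn
    rw [Ideal.mem_comap, RingHom.mem_ker, eq_intCast, map_intCast] at hn
    rw [Ideal.mem_bot]
    exact_mod_cast hn
  refine ⟨O, i1, i2, i3, i4, i5, i6, χc, f.comp j₀, ?_, ?_, hfinj.comp hj₀inj⟩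
  · have h1 := (hf (lam : 𝓞 K)).mpr hlamQ
    rwa [map_natCast] at h1
  · intro ℓ hℓ hℓM hℓS
    exact Fermat.Agent.P5.G9.EigenHom.eigenChar_T hg hℓ hℓM hℓS

end Fermat.Agent.S58.Att
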