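import Mathlib
import Fermat.Agent.S31.Alg
import Fermat.Agent.P5.CycloDelta
import Fermat.Agent.P7.NonEis
import Fermat.Agent.Lib.WeakCheb.Final
import Fermat.Agent.Lib.DivPoly.Count

/-!
# S58 block [TRANSFER]: from `ρ` to `W[λⁿ]` and back (owner: helper42)

`W` an integral Weierstrass model with `Δ ≠ 0`, `λ` an odd prime, `ρ` a `λ`-adic Galois
representation over a discrete valuation ring `O` (`λ ∈ 𝔪`) whose Frobenius characteristic
polynomials at the good primes `ℓ ∉ S₀`, `ℓ ≠ λ` are `X² - a_ℓ(W) X + ℓ` (`hρ`), and the Frobenius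
quadratic equation `σ² - a_ℓ(W) σ + ℓ = 0` on `W[λⁿ]` for Frobenius elements at good primes
`ℓ ≥ 5`, `ℓ ≠ λ` (`hFQ`, a hypothesis here).

* `core` : for every `g`, `n` and `P ∈ W[λⁿ]` there are `t : ℤ`, `d : ℕ` with
  `t ≡ tr ρ(g)`, `d ≡ det ρ(g)` modulo `λⁿ`, `g² P - t g P + d P = 0`, and `g ζ = ζ ^ d` on the
  `λⁿ`-th roots of unity (weak Chebotarev + Lucas sequences).
* `charpoly_eq_of_unipotent` (T1) : if `(g - 1)² = 0` on every `W[λⁿ]` and `g` fixes the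
  `λ`-power roots of unity, then `ρ(g)` has characteristic polynomial `(X - 1)²`.
* `quad_of_charpoly` (T2) : if `ρ(g)` has characteristic polynomial `X² - T X + D` with integers
  `T`, `D`, then `g² - T g + D = 0` on every `W[λⁿ]`.
* `trace_eq_of_quad` (T3) : if `ρ(g)` has characteristic polynomial `X² - s X + d` and
  `g² - a g + d = 0` on every `W[λⁿ]` (`a : ℤ`, `d : ℕ`), then `s = a`.
-/

set_option autoImplicit false

namespace Fermat.Agent.S58.Transfer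

open Polynomial WeierstrassCurve WeierstrassCurve.Affine WeierstrassCurve.Affine.Point

local notation "Qb" => AlgebraicClosure ℚ

/-! ## Algebra -/

section Algebra

variable {T : Type*} [CommRing T] {V : Type*} [AddCommGroup V] [Module T V]
  [Module.Free T V] [Module.Finite T V]

/-- Rank `2`: the characteristic polynomial is `X² - tr·X + det`, and
`tr(f²) = tr(f)² - 2 det(f)`. -/
theorem charpoly_tr_det (f : Module.End T V) (hrank : Module.finrank T V = 2) :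
    f.charpoly = X ^ 2 - C (LinearMap.trace T V f) * X + C (LinearMap.det f) ∧
    LinearMap.trace T V (f * f) = LinearMap.trace T V f ^ 2 - 2 * LinearMap.det f := by
  nontriviality T
  let b : Module.Basis (Fin 2) T V := Module.finBasisOfFinrankEq T V hrank
  refine ⟨?_, ?_⟩
  · rw [← LinearMap.charpoly_toMatrix f b, Matrix.charpoly_fin_two,
      LinearMap.trace_eq_matrix_trace T b, ← LinearMap.det_toMatrix b]
  · rw [LinearMap.trace_eq_matrix_trace T b, LinearMap.trace_eq_matrix_trace T b,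
      ← LinearMap.det_toMatrix b, LinearMap.toMatrix_mul, Matrix.trace_fin_two,
      Matrix.trace_fin_two, Matrix.det_fin_two, Matrix.mul_apply, Matrix.mul_apply,
      Fin.sum_univ_two, Fin.sum_univ_two]
    ring

/-- Trace and determinant read off from a characteristic polynomial `X² - sX + d` (rank `2`). -/
theorem tr_det_of_charpoly (f : Module.End T V) (hrank : Module.finrank T V = 2) (s d : T)
    (h : f.charpoly = X ^ 2 - C s * X + C d) :
    LinearMap.trace T V f = s ∧ LinearMap.det f = d := by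
  have hc := (charpoly_tr_det f hrank).1
  rw [hc] at h
  have h1 := congrArg (fun p : T[X] => p.coeff 1) h
  have h0 := congrArg (fun p : T[X] => p.coeff 0) h
  simp [coeff_X, coeff_C, coeff_X_pow] at h1 h0
  exact ⟨h1, h0⟩

end Algebra

section Local

variable {O : Type*} [CommRing O] [IsDomain O] [IsLocalRing O] [CharZero O]

/-- An integer whose image lies in `λⁿ O` is divisible by `λⁿ` (`λ ∈ 𝔪`). -/
theorem int_dvd_of_mem_span {lam : ℕ} (hlam : lam.Prime)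
    (hlamO : (lam : O) ∈ IsLocalRing.maximalIdeal O) (n : ℕ) (z : ℤ)
    (hz : (z : O) ∈ Ideal.span {(lam : O) ^ n}) : (lam : ℤ) ^ n ∣ z := by
  induction n generalizing z with
  | zero => simp
  | succ n ih =>
    have hz' : (z : O) ∈ Ideal.span {(lam : O) ^ n} := by
      obtain ⟨c, hc⟩ := Ideal.mem_span_singleton'.mp hz
      exact Ideal.mem_span_singleton'.mpr ⟨c * lam, by rw [← hc]; ring⟩
    obtain ⟨z', rfl⟩ := ih z hz'
    obtain ⟨c, hc⟩ := Ideal.mem_span_singleton'.mp hz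
    have hlam0 : (lam : O) ≠ 0 := Nat.cast_ne_zero.mpr hlam.ne_zero
    have hz'O : (z' : O) = c * lam := by
      have h1 : (lam : O) ^ n * (z' : O) = (lam : O) ^ n * (c * lam) := by
        have : (((lam : ℤ) ^ n * z' : ℤ) : O) = (lam : O) ^ n * (z' : O) := by push_cast; ring
        rw [← this, ← hc]; ring
      exact mul_left_cancel₀ (pow_ne_zero n hlam0) h1
    have hdvd : (lam : ℤ) ∣ z' := by
      by_contra hnd
      have hcop : IsCoprime (lam : ℤ) z' :=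
        (Nat.prime_iff_prime_int.mp hlam).coprime_iff_not_dvd.mpr hnd
      obtain ⟨u, v, huv⟩ := hcop
      have h1 : ((u * lam + v * z' : ℤ) : O) = 1 := by rw [huv]; simp
      have h2 : ((u * lam + v * z' : ℤ) : O) ∈ IsLocalRing.maximalIdeal O := by
        push_cast
        refine Ideal.add_mem _ (Ideal.mul_mem_left _ _ hlamO) (Ideal.mul_mem_left _ _ ?_)
        rw [hz'O]
        exact Ideal.mul_mem_left _ _ hlamO
      rw [h1] at h2
      exact (Ideal.ne_top_iff_one _).mp (IsLocalRing.maximalIdeal.isMaximal O).ne_top h2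
    obtain ⟨w, rfl⟩ := hdvd
    exact ⟨w, by ring⟩

omit [IsDomain O] [CharZero O] in
/-- `λⁿ O ⊆ 𝔪ⁿ`. -/
theorem span_pow_le_maximalIdeal_pow {lam : ℕ}
    (hlamO : (lam : O) ∈ IsLocalRing.maximalIdeal O) (n : ℕ) :
    Ideal.span {(lam : O) ^ n} ≤ IsLocalRing.maximalIdeal O ^ n := by
  rw [Ideal.span_singleton_le_iff_mem]
  exact Ideal.pow_mem_pow hlamO n

omit [IsDomain O] [CharZero O] in
/-- `2` is a unit of `O` when the odd prime `λ` lies in `𝔪`. -/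
theorem isUnit_two {lam : ℕ} (hlam : lam.Prime) (hlam2 : lam ≠ 2)
    (hlamO : (lam : O) ∈ IsLocalRing.maximalIdeal O) : IsUnit (2 : O) := by
  by_contra h2
  have h2m : (2 : O) ∈ IsLocalRing.maximalIdeal O := (IsLocalRing.mem_maximalIdeal _).mpr h2
  obtain ⟨m, hm⟩ := hlam.odd_of_ne_two hlam2
  have h1 : (1 : O) = (lam : O) - 2 * (m : O) := by
    have : (lam : O) = ((2 * m + 1 : ℕ) : O) := by rw [hm]
    rw [this]; push_cast; ring
  have : (1 : O) ∈ IsLocalRing.maximalIdeal O := by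
    rw [h1]
    exact Ideal.sub_mem _ hlamO (Ideal.mul_mem_right _ _ h2m)
  exact (Ideal.ne_top_iff_one _).mp (IsLocalRing.maximalIdeal.isMaximal O).ne_top this

end Local

section DVR

variable {O : Type*} [CommRing O] [IsDomain O] [IsDiscreteValuationRing O] [CharZero O]

/-- Some power of the maximal ideal lies in `λⁿ O`. -/
theorem exists_maximalIdeal_pow_le {lam : ℕ} (hlam : lam.Prime) (n : ℕ) :
    ∃ k : ℕ, IsLocalRing.maximalIdeal O ^ k ≤ Ideal.span {(lam : O) ^ n} := by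
  obtain ⟨ϖ, hϖ⟩ := IsDiscreteValuationRing.exists_irreducible O
  have hlam0 : (lam : O) ≠ 0 := Nat.cast_ne_zero.mpr hlam.ne_zero
  obtain ⟨e, u, hu⟩ := IsDiscreteValuationRing.eq_unit_mul_pow_irreducible hlam0 hϖ
  refine ⟨e * n, ?_⟩
  rw [hϖ.maximalIdeal_eq, Ideal.span_singleton_pow, Ideal.span_singleton_le_span_singleton]
  refine ⟨(↑(u⁻¹ ^ n) : O), ?_⟩
  have hinv : (u : O) ^ n * ((u⁻¹ ^ n : Oˣ) : O) = 1 := by
    rw [← Units.val_pow_eq_pow_val, ← Units.val_mul, ← mul_pow, mul_inv_cancel, one_pow,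
      Units.val_one]
  rw [hu, mul_pow, pow_mul, mul_comm ((u : O) ^ n), mul_assoc, hinv, mul_one]

omit [CharZero O] in
/-- Krull: an element of all `𝔪ⁿ` is zero. -/
theorem eq_zero_of_forall_mem_maximalIdeal_pow (x : O)
    (h : ∀ n : ℕ, x ∈ IsLocalRing.maximalIdeal O ^ n) : x = 0 := by
  have h1 : x ∈ ⨅ i : ℕ, IsLocalRing.maximalIdeal O ^ i := by
    rw [Ideal.mem_iInf]; exact h
  rw [Ideal.iInf_pow_eq_bot_of_isLocalRing _ (IsLocalRing.maximalIdeal.isMaximal O).ne_top] at h1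
  exact h1

end DVR


/-! ## Galois representations -/

section Galois

local instance isAlgebraicQbar_s58 : Algebra.IsAlgebraic ℚ (AlgebraicClosure ℚ) :=
  AlgebraicClosure.isAlgebraic ℚ
local instance isAlgClosureQbar_s58 : IsAlgClosure ℚ (AlgebraicClosure ℚ) :=
  ⟨inferInstance, inferInstance⟩
local instance normalQbar_s58 : Normal ℚ (AlgebraicClosure ℚ) :=
  IsAlgClosure.normal ℚ (AlgebraicClosure ℚ)

/-- Traces of two Galois elements agreeing on a level of `ρ mod I` are congruent mod `I`. -/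
theorem trace_sub_mem {T : Type} [CommRing T] [IsLocalRing T] (ρ : GaloisRepAdic T)
    (I : Ideal T) (L : IntermediateField ℚ Qb)
    (hL : ∀ σ : Qb ≃ₐ[ℚ] Qb, (∀ x ∈ L, σ x = x) →
      ∀ v : ρ.V, ρ.ρ σ v - v ∈ I • (⊤ : Submodule T ρ.V))
    (a b : Qb ≃ₐ[ℚ] Qb) (hab : ∀ x ∈ L, a x = b x) :
    LinearMap.trace T ρ.V (ρ.ρ a) - LinearMap.trace T ρ.V (ρ.ρ b) ∈ I := by
  have hη : ∀ x ∈ L, (b⁻¹ * a) x = x := by
    intro x hx
    rw [AlgEquiv.mul_apply, hab x hx, AlgEquiv.aut_inv]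
    exact b.symm_apply_apply x
  have hfac : ρ.ρ a = ρ.ρ b * ρ.ρ (b⁻¹ * a) := by rw [← map_mul, mul_inv_cancel_left]
  have hdiff : LinearMap.trace T ρ.V (ρ.ρ a) - LinearMap.trace T ρ.V (ρ.ρ b)
      = LinearMap.trace T ρ.V (ρ.ρ b * (ρ.ρ (b⁻¹ * a) - 1)) := by
    rw [mul_sub, mul_one, map_sub, ← hfac]
  rw [hdiff]
  apply Fermat.Agent.S31.Alg.trace_mem_of_forall_mem_smul_top
  intro v
  rw [Module.End.mul_apply, LinearMap.sub_apply, Module.End.one_apply]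
  have h1 := hL _ hη v
  refine Submodule.smul_induction_on
    (p := fun w => ρ.ρ b w ∈ I • (⊤ : Submodule T ρ.V)) h1 ?_ ?_
  · intro r hr w _
    rw [map_smul]
    exact Submodule.smul_mem_smul hr Submodule.mem_top
  · intro x y hx hy
    rw [map_add]
    exact Submodule.add_mem _ hx hy

/-- Powers of a Frobenius at `ℓ ≠ p` on `p`-power roots of unity. -/
theorem frob_pow_apply' (p : ℕ) [Fact p.Prime] {ℓ : ℕ} (hℓ : ℓ.Prime) (hℓp : ℓ ≠ p)
    (A : ValuationSubring Qb) (hA : A.LiesOverPrime ℓ) (σ : Qb ≃ₐ[ℚ] Qb)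
    (hσ : A.IsFrobeniusAt σ ℓ) (k j : ℕ) (ζ : Qb) (hζ : ζ ^ p ^ k = 1) :
    (σ ^ j) ζ = ζ ^ (ℓ ^ j) := by
  induction j generalizing ζ with
  | zero => simp
  | succ j ih =>
    rw [pow_succ, AlgEquiv.mul_apply,
      P5.CycloDelta.frob_apply_rootOfUnity p hℓ hℓp A hA σ hσ k ζ hζ,
      ih (ζ ^ ℓ) (by rw [← pow_mul, mul_comm, pow_mul, hζ, one_pow]), ← pow_mul, pow_succ']

/-- A Galois element preserves a normal intermediate field. -/
theorem apply_mem_of_normal' (M : IntermediateField ℚ Qb) [Normal ℚ M] (g : Qb ≃ₐ[ℚ] Qb) {y : Qb}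
    (hy : y ∈ M) : g y ∈ M := by
  have h := AlgEquiv.restrictNormal_commutes g M ⟨y, hy⟩
  have h' : g y = ((g.restrictNormal M ⟨y, hy⟩ : M) : Qb) := h.symm
  rw [h']
  exact (g.restrictNormal M ⟨y, hy⟩).2

end Galois


/-! ## Points of exact order `λⁿ` -/

section Order

/-- In an abelian group, a point killed by `λ^(n+1)` but not by `λⁿ` has annihilator
`λ^(n+1) ℤ`. -/
theorem dvd_of_zsmul_eq_zero {G : Type*} [AddCommGroup G] {lam : ℕ} (hlam : lam.Prime) (n : ℕ)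
    (P : G) (h1 : lam ^ (n + 1) • P = 0) (h0 : lam ^ n • P ≠ 0) (z : ℤ) (hz : z • P = 0) :
    (lam : ℤ) ^ (n + 1) ∣ z := by
  have hord : addOrderOf P = lam ^ (n + 1) := by
    obtain ⟨a, ha, hPa⟩ := (Nat.dvd_prime_pow hlam).mp (addOrderOf_dvd_of_nsmul_eq_zero h1)
    rcases Nat.lt_or_ge a (n + 1) with hlt | hge
    · exfalso
      apply h0
      have e : lam ^ n = lam ^ (n - a) * lam ^ a := by
        rw [← pow_add]; congr 1; omega
      rw [e, mul_smul, ← hPa, addOrderOf_nsmul_eq_zero, smul_zero]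
    · rw [hPa, le_antisymm ha hge]
  have h := (addOrderOf_dvd_iff_zsmul_eq_zero (x := P) (i := z)).mpr hz
  rw [hord] at h
  exact_mod_cast h

/-- `W(ℚ̄)` has a point of exact order `λ^(n+1)`. -/
theorem exists_exact_order (W : WeierstrassCurve ℤ) (hΔ : W.Δ ≠ 0) {lam : ℕ} (hlam : lam.Prime)
    (n : ℕ) : ∃ P : ((W.map (Int.castRingHom ℚ)).toAffine⁄Qb).Point,
      lam ^ (n + 1) • P = 0 ∧ lam ^ n • P ≠ 0 := by
  by_contra hcon
  push Not at hcon
  have hEΔ : ((W.map (Int.castRingHom ℚ)).toAffine⁄Qb).Δ ≠ 0 := by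
    rw [Fermat.Agent.P7.RedFix.baseChange_eq W, WeierstrassCurve.map_Δ]
    simpa using hΔ
  have hc1 := Fermat.Agent.Lib.DivPoly.card_torsionBy_of_natCast_ne_zero
    ((W.map (Int.castRingHom ℚ)).toAffine⁄Qb) hEΔ (lam ^ (n + 1))
    (Nat.cast_ne_zero.mpr (pow_ne_zero _ hlam.ne_zero))
  have hc0 := Fermat.Agent.Lib.DivPoly.card_torsionBy_of_natCast_ne_zero
    ((W.map (Int.castRingHom ℚ)).toAffine⁄Qb) hEΔ (lam ^ n)
    (Nat.cast_ne_zero.mpr (pow_ne_zero _ hlam.ne_zero))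
  have heq : Submodule.torsionBy ℤ ((W.map (Int.castRingHom ℚ)).toAffine⁄Qb).Point
        ((lam ^ (n + 1) : ℕ) : ℤ)
      = Submodule.torsionBy ℤ ((W.map (Int.castRingHom ℚ)).toAffine⁄Qb).Point
        ((lam ^ n : ℕ) : ℤ) := by
    ext P
    simp only [Submodule.mem_torsionBy_iff, natCast_zsmul]
    constructor
    · exact hcon P
    · intro h
      rw [pow_succ', mul_smul, h, smul_zero]
  rw [heq, hc0] at hc1
  have hlt : lam ^ n < lam ^ (n + 1) := Nat.pow_lt_pow_right hlam.one_lt (Nat.lt_succ_self n)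
  have := Nat.pow_lt_pow_left hlt (two_ne_zero)
  omega

end Order


/-! ## The core -/

section Core

local instance isAlgebraicQbar_s58c : Algebra.IsAlgebraic ℚ (AlgebraicClosure ℚ) :=
  AlgebraicClosure.isAlgebraic ℚ
local instance isAlgClosureQbar_s58c : IsAlgClosure ℚ (AlgebraicClosure ℚ) :=
  ⟨inferInstance, inferInstance⟩
local instance normalQbar_s58c : Normal ℚ (AlgebraicClosure ℚ) :=
  IsAlgClosure.normal ℚ (AlgebraicClosure ℚ)

set_option maxHeartbeats 1600000 in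
/-- **[TRANSFER], core.**  For every `g`, `n` and `P ∈ W[λⁿ]` there are `t : ℤ`, `d : ℕ`
(namely `V_j(a_ℓ, ℓ)` and `ℓ^j` for a suitable good prime `ℓ`) such that `t ≡ tr ρ(g)` and
`d ≡ det ρ(g)` modulo `λⁿ`, `g² P - t g P + d P = 0`, and `g ζ = ζ ^ d` for all `λⁿ`-th roots of
unity `ζ`. -/
theorem core (W : WeierstrassCurve ℤ) (hΔ : W.Δ ≠ 0) {lam : ℕ} [Fact lam.Prime] (hlam2 : lam ≠ 2)
    (hFQ : ∀ (n ℓ : ℕ), ℓ.Prime → 5 ≤ ℓ → ℓ ≠ lam → W.IsGoodPrimeFor ℓ →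
      ∀ A : ValuationSubring Qb, A.LiesOverPrime ℓ → ∀ σ : Qb ≃ₐ[ℚ] Qb, A.IsFrobeniusAt σ ℓ →
        ∀ P : ((W.map (Int.castRingHom ℚ)).toAffine⁄Qb).Point, lam ^ n • P = 0 →
          σ • σ • P - W.apOfModel ℓ • σ • P + (ℓ : ℤ) • P = 0)
    {O : Type} [CommRing O] [IsDomain O] [IsDiscreteValuationRing O] [CharZero O]
    (hlamO : (lam : O) ∈ IsLocalRing.maximalIdeal O) (ρ : GaloisRepAdic O) (S₀ : Finset ℕ)
    (hρ : ∀ ℓ : ℕ, ℓ.Prime → ℓ ∉ S₀ → W.IsGoodPrimeFor ℓ → ℓ ≠ lam →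
      ∀ A : ValuationSubring Qb, A.LiesOverPrime ℓ → ∀ σ : Qb ≃ₐ[ℚ] Qb, A.IsFrobeniusAt σ ℓ →
        LinearMap.charpoly (ρ.ρ σ) = X ^ 2 - C ((W.apOfModel ℓ : ℤ) : O) * X + C (ℓ : O))
    (g : Qb ≃ₐ[ℚ] Qb) (n : ℕ) (P : ((W.map (Int.castRingHom ℚ)).toAffine⁄Qb).Point)
    (hP : lam ^ n • P = 0) :
    ∃ (t : ℤ) (d : ℕ),
      (t : O) - LinearMap.trace O ρ.V (ρ.ρ g) ∈ Ideal.span {(lam : O) ^ n} ∧
      (d : O) - LinearMap.det (ρ.ρ g) ∈ Ideal.span {(lam : O) ^ n} ∧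
      g • g • P - t • g • P + (d : ℤ) • P = 0 ∧
      ∀ ζ : Qb, ζ ^ lam ^ n = 1 → g ζ = ζ ^ d := by
  have hlam : lam.Prime := Fact.out
  obtain ⟨k, hk⟩ := exists_maximalIdeal_pow_le (O := O) hlam n
  obtain ⟨L, hLfin, hL⟩ := ρ.isAdicContinuous k
  -- a finite Galois extension containing everything
  let Cset : Set Qb := Fermat.Agent.P7.NonEis.coords P ∪ Fermat.Agent.P7.NonEis.coords (g • P)
  have hCfin : Cset.Finite :=
    (Fermat.Agent.P7.NonEis.coords_finite P).union (Fermat.Agent.P7.NonEis.coords_finite _)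
  have : Finite Cset := hCfin
  have : FiniteDimensional ℚ (IntermediateField.adjoin ℚ Cset) :=
    IntermediateField.finiteDimensional_adjoin fun x _ => Algebra.IsIntegral.isIntegral x
  have : FiniteDimensional ℚ L := hLfin
  let M₀ : IntermediateField ℚ Qb :=
    (L ⊔ IntermediateField.adjoin ℚ Cset) ⊔ Fermat.Agent.P5.CycloDelta.level lam n
  have : FiniteDimensional ℚ M₀ := by
    have h1 : FiniteDimensional ℚ (L ⊔ IntermediateField.adjoin ℚ Cset : IntermediateField ℚ Qb) :=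
      IntermediateField.finiteDimensional_sup _ _
    exact IntermediateField.finiteDimensional_sup _ _
  let M : IntermediateField ℚ Qb := IntermediateField.normalClosure ℚ M₀ Qb
  have : FiniteDimensional ℚ M := normalClosure.is_finiteDimensional ℚ M₀ Qb
  have : Normal ℚ M := normalClosure.normal ℚ M₀ Qb
  have : IsGalois ℚ M := ⟨⟩
  have hM₀ : M₀ ≤ M := IntermediateField.le_normalClosure M₀
  have hLM : ∀ x ∈ L, x ∈ M := fun x hx =>
    hM₀ ((le_sup_left : L ⊔ IntermediateField.adjoin ℚ Cset ≤ M₀)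
      ((le_sup_left : L ≤ L ⊔ IntermediateField.adjoin ℚ Cset) hx))
  have hCM : ∀ c ∈ Cset, c ∈ M := fun c hc =>
    hM₀ ((le_sup_left : L ⊔ IntermediateField.adjoin ℚ Cset ≤ M₀)
      ((le_sup_right : IntermediateField.adjoin ℚ Cset ≤ L ⊔ IntermediateField.adjoin ℚ Cset)
        (IntermediateField.subset_adjoin ℚ Cset hc)))
  have hζM : ∀ ζ : Qb, ζ ^ lam ^ n = 1 → ζ ∈ M := fun ζ hζ =>
    hM₀ ((le_sup_right : Fermat.Agent.P5.CycloDelta.level lam n ≤ M₀)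
      (Fermat.Agent.P5.CycloDelta.mem_level lam hζ))
  -- weak Chebotarev
  obtain ⟨ℓ, hℓ, hℓS, A, hA, σ, hσ, j, hj⟩ :=
    Fermat.Agent.Lib.WeakCheb.weakChebotarev' M g (S₀ ∪ {lam, 2, 3} ∪ W.Δ.natAbs.primeFactors)
  have hℓS₀ : ℓ ∉ S₀ := fun hmem => hℓS (by simp [hmem])
  have hℓlam : ℓ ≠ lam := fun hmem => hℓS (by simp [hmem])
  have hℓ2 : ℓ ≠ 2 := fun hmem => hℓS (by simp [hmem])
  have hℓ3 : ℓ ≠ 3 := fun hmem => hℓS (by simp [hmem])
  have h5 : 5 ≤ ℓ := by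
    by_contra hlt
    have hlt' : ℓ < 5 := Nat.lt_of_not_ge hlt
    interval_cases ℓ
    · exact Nat.not_prime_zero hℓ
    · exact Nat.not_prime_one hℓ
    · exact hℓ2 rfl
    · exact hℓ3 rfl
    · exact (by decide : ¬ Nat.Prime 4) hℓ
  have hgood : W.IsGoodPrimeFor ℓ := by
    intro hdvd
    apply hℓS
    have h1 : ℓ ∣ W.Δ.natAbs := Int.natCast_dvd.mp hdvd
    have h2 : ℓ ∈ W.Δ.natAbs.primeFactors :=
      Nat.mem_primeFactors.mpr ⟨hℓ, h1, Int.natAbs_ne_zero.mpr hΔ⟩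
    simp [h2]
  -- the `ρ`-side
  have hchar := hρ ℓ hℓ hℓS₀ hgood hℓlam A hA σ hσ
  have hchar' : LinearMap.charpoly (ρ.ρ σ)
      = X ^ 2 - C ((W.apOfModel ℓ : ℤ) : O) * X + C (((ℓ : ℤ) : ℤ) : O) := by
    rw [hchar, Int.cast_natCast]
  have htr := Fermat.Agent.S31.Alg.trace_pow_eq_aeval_lucas (ρ.ρ σ) ((W.apOfModel ℓ : ℤ) : O)
    (ℓ : ℤ) ρ.finrank_eq hchar' j
  have htr' : LinearMap.trace O ρ.V (ρ.ρ (σ ^ j))
      = (((Fermat.Agent.S31.Alg.lucas (ℓ : ℤ) j).eval (W.apOfModel ℓ) : ℤ) : O) := by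
    rw [map_pow, htr, ← eq_intCast (algebraMap ℤ O) (W.apOfModel ℓ),
      Polynomial.aeval_algebraMap_apply, eq_intCast, Polynomial.coe_aeval_eq_eval]
  have hdet : LinearMap.det (ρ.ρ (σ ^ j)) = ((ℓ ^ j : ℕ) : O) := by
    rw [map_pow, map_pow, (tr_det_of_charpoly (ρ.ρ σ) ρ.finrank_eq _ _ hchar).2, Nat.cast_pow]
  have hLM' : ∀ τ : Qb ≃ₐ[ℚ] Qb, (∀ x ∈ M, τ x = x) → ∀ v : ρ.V,
      ρ.ρ τ v - v ∈ (IsLocalRing.maximalIdeal O ^ k) • (⊤ : Submodule O ρ.V) :=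
    fun τ hτ => hL τ fun x hx => hτ x (hLM x hx)
  have h1 := trace_sub_mem ρ (IsLocalRing.maximalIdeal O ^ k) M hLM' (σ ^ j) g hj
  have h2 := trace_sub_mem ρ (IsLocalRing.maximalIdeal O ^ k) M hLM' (σ ^ j * σ ^ j) (g * g)
    (fun x hx => by
      rw [AlgEquiv.mul_apply, AlgEquiv.mul_apply, hj x hx, hj _ (apply_mem_of_normal' M g hx)])
  rw [map_mul ρ.ρ (σ ^ j) (σ ^ j), map_mul ρ.ρ g g, (charpoly_tr_det (ρ.ρ (σ ^ j)) ρ.finrank_eq).2,
    (charpoly_tr_det (ρ.ρ g) ρ.finrank_eq).2] at h2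
  have hdet' : ((ℓ ^ j : ℕ) : O) - LinearMap.det (ρ.ρ g) ∈ IsLocalRing.maximalIdeal O ^ k := by
    have h3 : (2 : O) * (((ℓ ^ j : ℕ) : O) - LinearMap.det (ρ.ρ g))
        ∈ IsLocalRing.maximalIdeal O ^ k := by
      have e : (2 : O) * (((ℓ ^ j : ℕ) : O) - LinearMap.det (ρ.ρ g))
          = (LinearMap.trace O ρ.V (ρ.ρ (σ ^ j)) - LinearMap.trace O ρ.V (ρ.ρ g))
              * (LinearMap.trace O ρ.V (ρ.ρ (σ ^ j)) + LinearMap.trace O ρ.V (ρ.ρ g))
            - (LinearMap.trace O ρ.V (ρ.ρ (σ ^ j)) ^ 2 - 2 * LinearMap.det (ρ.ρ (σ ^ j))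
              - (LinearMap.trace O ρ.V (ρ.ρ g) ^ 2 - 2 * LinearMap.det (ρ.ρ g))) := by
        rw [hdet]; ring
      rw [e]
      exact Ideal.sub_mem _ (Ideal.mul_mem_right _ _ h1) h2
    exact (Ideal.unit_mul_mem_iff_mem _ (isUnit_two hlam hlam2 hlamO)).mp h3
  rw [htr'] at h1
  -- the `W`-side
  have hstab : ∀ (τ : Qb ≃ₐ[ℚ] Qb) (x : ((W.map (Int.castRingHom ℚ)).toAffine⁄Qb).Point),
      lam ^ n • x = 0 → lam ^ n • (τ • x) = 0 := by
    intro τ x hx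
    rw [smul_comm, hx]
    exact smul_zero (A := ((W.map (Int.castRingHom ℚ)).toAffine⁄Qb).Point) τ
  have hW := Fermat.Agent.S31.Alg.aeval_lucas_apply (G := Qb ≃ₐ[ℚ] Qb)
    (J := ((W.map (Int.castRingHom ℚ)).toAffine⁄Qb).Point) σ
    (algebraMap ℤ (Module.End ℤ ((W.map (Int.castRingHom ℚ)).toAffine⁄Qb).Point)
      (W.apOfModel ℓ)) (ℓ : ℤ) (fun x => lam ^ n • x = 0) (hstab σ) (hstab σ⁻¹)
    (fun x hx => by
      rw [Module.algebraMap_end_apply]
      exact hFQ n ℓ hℓ h5 hℓlam hgood A hA σ hσ x hx) j (σ ^ j • P) (hstab _ P hP)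
  rw [Polynomial.aeval_algebraMap_apply, Module.algebraMap_end_apply,
    Polynomial.coe_aeval_eq_eval, inv_smul_smul] at hW
  have e1 : σ ^ j • P = g • P :=
    Fermat.Agent.P7.NonEis.smul_eq_smul_of_coords (σ ^ j) g P
      fun c hc => hj c (hCM c (Or.inl hc))
  have e2 : σ ^ j • (g • P) = g • (g • P) :=
    Fermat.Agent.P7.NonEis.smul_eq_smul_of_coords (σ ^ j) g (g • P)
      fun c hc => hj c (hCM c (Or.inr hc))
  rw [e1, e2] at hW
  refine ⟨(Fermat.Agent.S31.Alg.lucas (ℓ : ℤ) j).eval (W.apOfModel ℓ), ℓ ^ j, hk ?_, hk hdet',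
    ?_, ?_⟩
  · exact h1
  · rw [hW]
    push_cast
    abel
  · intro ζ hζ
    rw [← hj ζ (hζM ζ hζ)]
    exact frob_pow_apply' lam hℓ hℓlam A hA σ hσ n j ζ hζ

end Core


/-! ## The three transfer statements -/

section Transfer

/-- `z • Q = 0` when `λⁿ ∣ z` and `λⁿ • Q = 0`. -/
theorem zsmul_eq_zero_of_dvd {G : Type*} [AddCommGroup G] {lam n : ℕ} {z : ℤ}
    (h : (lam : ℤ) ^ n ∣ z) {Q : G} (hQ : lam ^ n • Q = 0) : z • Q = 0 := by
  obtain ⟨u, rfl⟩ := h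
  rw [mul_comm, mul_smul, ← Nat.cast_pow, natCast_zsmul, hQ, smul_zero]

/-- The image of a multiple of `λⁿ` lies in `λⁿ O`. -/
theorem intCast_mem_span_of_dvd {O : Type*} [CommRing O] {lam n : ℕ} {z : ℤ}
    (h : (lam : ℤ) ^ n ∣ z) : (z : O) ∈ Ideal.span {(lam : O) ^ n} := by
  obtain ⟨u, rfl⟩ := h
  push_cast
  exact Ideal.mul_mem_right _ _ (Ideal.mem_span_singleton_self _)

/-- If `ζ = ζ ^ d` for a primitive `m`-th root of unity `ζ`, then `m ∣ d - 1`. -/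
theorem dvd_sub_one_of_eq_pow {R : Type*} [CommRing R] (ζ : R) (m : ℕ) (hm : m ≠ 0)
    (hζ : IsPrimitiveRoot ζ m) (d : ℕ) (h : ζ = ζ ^ d) : (m : ℤ) ∣ (d : ℤ) - 1 := by
  obtain ⟨u, rfl⟩ := hζ.isUnit hm
  have hu : IsPrimitiveRoot u m := IsPrimitiveRoot.coe_units_iff.1 hζ
  have h' : u ^ 1 = u ^ d := Units.ext (by simpa using h)
  have hmod : 1 ≡ d [MOD m] := by
    rw [hu.eq_orderOf]
    exact pow_eq_pow_iff_modEq.1 h'
  have := Nat.modEq_iff_dvd.mp hmod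
  simpa using this

/-- Galois conjugates of a point of exact order `λ^(n+1)` have exact order `λ^(n+1)`. -/
theorem smul_exact_order (W : WeierstrassCurve ℤ) (g : Qb ≃ₐ[ℚ] Qb) {lam n : ℕ}
    (P : ((W.map (Int.castRingHom ℚ)).toAffine⁄Qb).Point) (h1 : lam ^ (n + 1) • P = 0)
    (h0 : lam ^ n • P ≠ 0) : lam ^ (n + 1) • (g • P) = 0 ∧ lam ^ n • (g • P) ≠ 0 := by
  constructor
  · rw [smul_comm, h1]
    exact smul_zero (A := ((W.map (Int.castRingHom ℚ)).toAffine⁄Qb).Point) g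
  · intro h
    apply h0
    rw [smul_comm] at h
    have h' : g⁻¹ • (g • (lam ^ n • P)) = g⁻¹ • (0 : ((W.map (Int.castRingHom ℚ)).toAffine⁄Qb).Point) :=
      congrArg (fun Q => g⁻¹ • Q) h
    rw [inv_smul_smul] at h'
    rw [h']
    exact smul_zero (A := ((W.map (Int.castRingHom ℚ)).toAffine⁄Qb).Point) g⁻¹

variable (W : WeierstrassCurve ℤ) (hΔ : W.Δ ≠ 0) {lam : ℕ} [Fact lam.Prime] (hlam2 : lam ≠ 2)
    (hFQ : ∀ (n ℓ : ℕ), ℓ.Prime → 5 ≤ ℓ → ℓ ≠ lam → W.IsGoodPrimeFor ℓ →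
      ∀ A : ValuationSubring Qb, A.LiesOverPrime ℓ → ∀ σ : Qb ≃ₐ[ℚ] Qb, A.IsFrobeniusAt σ ℓ →
        ∀ P : ((W.map (Int.castRingHom ℚ)).toAffine⁄Qb).Point, lam ^ n • P = 0 →
          σ • σ • P - W.apOfModel ℓ • σ • P + (ℓ : ℤ) • P = 0)
    {O : Type} [CommRing O] [IsDomain O] [IsDiscreteValuationRing O] [CharZero O]
    (hlamO : (lam : O) ∈ IsLocalRing.maximalIdeal O) (ρ : GaloisRepAdic O) (S₀ : Finset ℕ)
    (hρ : ∀ ℓ : ℕ, ℓ.Prime → ℓ ∉ S₀ → W.IsGoodPrimeFor ℓ → ℓ ≠ lam →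
      ∀ A : ValuationSubring Qb, A.LiesOverPrime ℓ → ∀ σ : Qb ≃ₐ[ℚ] Qb, A.IsFrobeniusAt σ ℓ →
        LinearMap.charpoly (ρ.ρ σ) = X ^ 2 - C ((W.apOfModel ℓ : ℤ) : O) * X + C (ℓ : O))
    (g : Qb ≃ₐ[ℚ] Qb)

include hΔ hlam2 hFQ hlamO hρ

/-- **(T2)** `ρ ⟹ W`: if `ρ(g)` has characteristic polynomial `X² - T X + D` with integers
`T`, `D`, then `g² - T g + D = 0` on `W[λⁿ]`. -/
theorem quad_of_charpoly (T D : ℤ)
    (hg : LinearMap.charpoly (ρ.ρ g) = X ^ 2 - C (T : O) * X + C (D : O))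
    (n : ℕ) (P : ((W.map (Int.castRingHom ℚ)).toAffine⁄Qb).Point) (hP : lam ^ n • P = 0) :
    g • g • P - T • g • P + D • P = 0 := by
  have hlam : lam.Prime := Fact.out
  obtain ⟨t, d, ht, hd, hrel, -⟩ := core W hΔ hlam2 hFQ hlamO ρ S₀ hρ g n P hP
  obtain ⟨htr, hdet⟩ := tr_det_of_charpoly (ρ.ρ g) ρ.finrank_eq _ _ hg
  rw [htr] at ht
  rw [hdet] at hd
  have h1 : (lam : ℤ) ^ n ∣ t - T :=
    int_dvd_of_mem_span hlam hlamO n (t - T) (by push_cast; exact ht)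
  have h2 : (lam : ℤ) ^ n ∣ (d : ℤ) - D :=
    int_dvd_of_mem_span hlam hlamO n _ (by push_cast; exact hd)
  have hgP : lam ^ n • (g • P) = 0 := by
    rw [smul_comm, hP]
    exact smul_zero (A := ((W.map (Int.castRingHom ℚ)).toAffine⁄Qb).Point) g
  have e : g • g • P - T • g • P + D • P
      = (g • g • P - t • g • P + (d : ℤ) • P) + (t - T) • (g • P) - ((d : ℤ) - D) • P := by
    rw [sub_smul, sub_smul]; abel
  rw [e, hrel, zsmul_eq_zero_of_dvd h1 hgP, zsmul_eq_zero_of_dvd h2 hP]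
  simp

/-- **(T1)** `W ⟹ ρ`: if `(g - 1)² = 0` on every `W[λⁿ]` and `g` fixes the `λ`-power roots of
unity, then `ρ(g)` has characteristic polynomial `(X - 1)²`. -/
theorem charpoly_eq_of_unipotent
    (hcyc : ∀ (k : ℕ) (ζ : Qb), ζ ^ lam ^ k = 1 → g ζ = ζ)
    (hunip : ∀ (n : ℕ) (P : ((W.map (Int.castRingHom ℚ)).toAffine⁄Qb).Point),
      lam ^ n • P = 0 → g • g • P - (2 : ℤ) • g • P + P = 0) :
    LinearMap.charpoly (ρ.ρ g) = (X - 1) ^ 2 := by
  have hlam : lam.Prime := Fact.out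
  have key : ∀ n : ℕ,
      (2 : O) - LinearMap.trace O ρ.V (ρ.ρ g) ∈ Ideal.span {(lam : O) ^ (n + 1)} ∧
      (1 : O) - LinearMap.det (ρ.ρ g) ∈ Ideal.span {(lam : O) ^ (n + 1)} := by
    intro n
    obtain ⟨P, hP1, hP0⟩ := exists_exact_order W hΔ hlam n
    obtain ⟨t, d, ht, hd, hrel, hζ⟩ := core W hΔ hlam2 hFQ hlamO ρ S₀ hρ g (n + 1) P hP1
    have hd1 : (lam : ℤ) ^ (n + 1) ∣ (d : ℤ) - 1 := by
      have hm : lam ^ (n + 1) ≠ 0 := pow_ne_zero _ hlam.ne_zero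
      have : NeZero (lam ^ (n + 1)) := ⟨hm⟩
      obtain ⟨ζ, hζprim⟩ := HasEnoughRootsOfUnity.exists_primitiveRoot Qb (lam ^ (n + 1))
      have h1 := hζ ζ hζprim.pow_eq_one
      rw [hcyc (n + 1) ζ hζprim.pow_eq_one] at h1
      have := dvd_sub_one_of_eq_pow ζ (lam ^ (n + 1)) hm hζprim d h1
      exact_mod_cast this
    have hu := hunip (n + 1) P hP1
    have e : (2 - t) • (g • P) = 0 := by
      have e' : (2 - t) • (g • P)
          = (g • g • P - t • g • P + (d : ℤ) • P) - (g • g • P - (2 : ℤ) • g • P + P)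
            - ((d : ℤ) - 1) • P := by
        rw [sub_smul, sub_smul, one_smul]; abel
      rw [e', hrel, hu, zsmul_eq_zero_of_dvd hd1 hP1]
      simp
    obtain ⟨hgP1, hgP0⟩ := smul_exact_order W g P hP1 hP0
    have h2t : (lam : ℤ) ^ (n + 1) ∣ 2 - t := dvd_of_zsmul_eq_zero hlam n (g • P) hgP1 hgP0 _ e
    constructor
    · have e1 : (2 : O) - LinearMap.trace O ρ.V (ρ.ρ g)
          = ((2 - t : ℤ) : O) + ((t : O) - LinearMap.trace O ρ.V (ρ.ρ g)) := by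
        push_cast; ring
      rw [e1]
      exact Ideal.add_mem _ (intCast_mem_span_of_dvd h2t) ht
    · have e1 : (1 : O) - LinearMap.det (ρ.ρ g)
          = -(((d : ℤ) - 1 : ℤ) : O) + ((d : O) - LinearMap.det (ρ.ρ g)) := by
        push_cast; ring
      rw [e1]
      exact Ideal.add_mem _ (neg_mem (intCast_mem_span_of_dvd hd1)) hd
  have hmem : ∀ (x : O), (∀ n : ℕ, x ∈ Ideal.span {(lam : O) ^ (n + 1)}) → x = 0 := by
    intro x hx
    refine eq_zero_of_forall_mem_maximalIdeal_pow x fun n => ?_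
    exact Ideal.pow_le_pow_right (Nat.le_succ n)
      (span_pow_le_maximalIdeal_pow hlamO (n + 1) (hx n))
  have htr : LinearMap.trace O ρ.V (ρ.ρ g) = 2 :=
    (sub_eq_zero.mp (hmem _ fun n => (key n).1)).symm
  have hdet : LinearMap.det (ρ.ρ g) = 1 :=
    (sub_eq_zero.mp (hmem _ fun n => (key n).2)).symm
  rw [(charpoly_tr_det (ρ.ρ g) ρ.finrank_eq).1, htr, hdet, map_one]
  have h2 : (C (2 : O) : O[X]) = 2 := map_ofNat C 2
  rw [h2]
  ring

/-- **(T3)** if `ρ(g)` has characteristic polynomial `X² - s X + d` and `g² - a g + d = 0` on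
every `W[λⁿ]` (`a : ℤ`, `d : ℕ`), then `s = a`. -/
theorem trace_eq_of_quad (a : ℤ) (d₀ : ℕ) (s : O)
    (hg : LinearMap.charpoly (ρ.ρ g) = X ^ 2 - C s * X + C (d₀ : O))
    (hW : ∀ (n : ℕ) (P : ((W.map (Int.castRingHom ℚ)).toAffine⁄Qb).Point),
      lam ^ n • P = 0 → g • g • P - a • g • P + (d₀ : ℤ) • P = 0) :
    s = (a : O) := by
  have hlam : lam.Prime := Fact.out
  obtain ⟨htr, hdet⟩ := tr_det_of_charpoly (ρ.ρ g) ρ.finrank_eq _ _ hg
  have key : ∀ n : ℕ, (a : O) - s ∈ Ideal.span {(lam : O) ^ (n + 1)} := by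
    intro n
    obtain ⟨P, hP1, hP0⟩ := exists_exact_order W hΔ hlam n
    obtain ⟨t, d, ht, hd, hrel, -⟩ := core W hΔ hlam2 hFQ hlamO ρ S₀ hρ g (n + 1) P hP1
    rw [htr] at ht
    rw [hdet] at hd
    have hdd : (lam : ℤ) ^ (n + 1) ∣ (d : ℤ) - d₀ :=
      int_dvd_of_mem_span hlam hlamO _ _ (by push_cast; exact hd)
    have e : (a - t) • (g • P) = 0 := by
      have e' : (a - t) • (g • P)
          = (g • g • P - t • g • P + (d : ℤ) • P) - (g • g • P - a • g • P + (d₀ : ℤ) • P)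
            - ((d : ℤ) - d₀) • P := by
        rw [sub_smul, sub_smul]; abel
      rw [e', hrel, hW (n + 1) P hP1, zsmul_eq_zero_of_dvd hdd hP1]
      simp
    obtain ⟨hgP1, hgP0⟩ := smul_exact_order W g P hP1 hP0
    have hat : (lam : ℤ) ^ (n + 1) ∣ a - t := dvd_of_zsmul_eq_zero hlam n (g • P) hgP1 hgP0 _ e
    have e1 : (a : O) - s = ((a - t : ℤ) : O) + ((t : O) - s) := by push_cast; ring
    rw [e1]
    exact Ideal.add_mem _ (intCast_mem_span_of_dvd hat) ht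
  have h0 : (a : O) - s = 0 := by
    refine eq_zero_of_forall_mem_maximalIdeal_pow _ fun n => ?_
    exact Ideal.pow_le_pow_right (Nat.le_succ n)
      (span_pow_le_maximalIdeal_pow hlamO (n + 1) (key n))
  exact (sub_eq_zero.mp h0).symm

end Transfer

end Fermat.Agent.S58.Transfer
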