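import Mathlib
import Fermat.Agent.S35
import Fermat.Agent.S58.Att
import Fermat.Agent.S58.Transfer

/-!
# S58 (A3): the coefficients of the newform of `W` at ALL good primes prime to its level

`qCoeff_eq_apOfModel`: let `g` be a newform of level `M` with `a_ℓ(g) = a_ℓ(W)` at almost all good
primes `ℓ` of the integral Weierstrass model `W`.  Then `a_ℓ₀(g) = a_ℓ₀(W)` at EVERY good prime
`ℓ₀ ∤ M`, provided the Frobenius quadratic relation `σ² - a_ℓ(W) σ + ℓ = 0` holds on the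
prime-power torsion of `W` for the Frobenius elements at the good primes `ℓ ≥ 5` and at `ℓ₀`
(hypothesis `hFQ`).

Proof: the `λ`-adic representation of `g` given by S35 (`λ` an odd prime `≠ ℓ₀`) has
`charpoly ρ(σ₀) = X² - a_ℓ₀(g) X + ℓ₀` at a Frobenius element `σ₀` at `ℓ₀`;
`Transfer.trace_eq_of_quad` identifies the trace with `a_ℓ₀(W)`, and the coefficient embedding
`iota` of `Att.exists_datum` is injective.
-/

set_option autoImplicit false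

open Polynomial WeierstrassCurve WeierstrassCurve.Affine WeierstrassCurve.Affine.Point

namespace Fermat.Agent.S58.GoodCoeff

local notation "Qb" => AlgebraicClosure ℚ

/-- **(A3)**: `a_ℓ₀(g) = a_ℓ₀(W)` at every good prime `ℓ₀ ∤ M`. -/
theorem qCoeff_eq_apOfModel (W : WeierstrassCurve ℤ) (hΔ : W.Δ ≠ 0) {M : ℕ} [NeZero M]
    {g : CuspForm (CongruenceSubgroup.Gamma0 M) 2} (hg : g.IsNewform) (S₁ : Finset ℕ)
    (hag : ∀ ℓ : ℕ, ℓ.Prime → ℓ ∉ S₁ → W.IsGoodPrimeFor ℓ →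
      ModularFormClass.qCoeff g ℓ = (W.apOfModel ℓ : ℂ))
    {ℓ0 : ℕ} (hℓ0 : ℓ0.Prime) (hgood : W.IsGoodPrimeFor ℓ0) (hℓ0M : ¬ ℓ0 ∣ M)
    (hFQ : ∀ (lam n ℓ : ℕ), lam.Prime → lam ≠ 2 → ℓ.Prime → (5 ≤ ℓ ∨ ℓ = ℓ0) → ℓ ≠ lam →
      W.IsGoodPrimeFor ℓ →
      ∀ A : ValuationSubring Qb, A.LiesOverPrime ℓ → ∀ σ : Qb ≃ₐ[ℚ] Qb, A.IsFrobeniusAt σ ℓ →
        ∀ P : ((W.map (Int.castRingHom ℚ)).toAffine⁄Qb).Point, lam ^ n • P = 0 →
          σ • σ • P - W.apOfModel ℓ • σ • P + (ℓ : ℤ) • P = 0) :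
    ModularFormClass.qCoeff g ℓ0 = (W.apOfModel ℓ0 : ℂ) := by
  classical
  obtain ⟨lam, hlamge, hlam⟩ := Nat.exists_infinite_primes (ℓ0 + 3)
  have : Fact lam.Prime := ⟨hlam⟩
  have hlam2 : lam ≠ 2 := by omega
  have hℓ0lam : ℓ0 ≠ lam := by omega
  set S : Finset ℕ := insert lam M.primeFactors with hS
  have hlamS : lam ∈ S := Finset.mem_insert_self _ _
  have hMS : ∀ p : ℕ, p.Prime → p ∣ M → p ∈ S := fun p hp hpM =>
    Finset.mem_insert_of_mem (Nat.mem_primeFactors.mpr ⟨hp, hpM, NeZero.ne M⟩)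
  obtain ⟨O', _, _, _, _, _, _, chig, iota, hlamO', hchig, hinj⟩ :=
    Fermat.Agent.S58.Att.exists_datum hg.1 lam S
  obtain ⟨O'', _, _, _, _, _, _, _, _, _, hinj'', ρ, hρ1, -⟩ :=
    Fermat.Agent.S35.result hg lam S O' hlamO' chig hchig iota hlamS hMS
  have hlamO'' : (lam : O'') ∈ IsLocalRing.maximalIdeal O'' := by
    have h1 : algebraMap O' O'' (lam : O') ∈ IsLocalRing.maximalIdeal O'' := by
      rw [IsLocalRing.mem_maximalIdeal, mem_nonunits_iff] at hlamO' ⊢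
      exact fun h => hlamO' (isUnit_of_map_unit (algebraMap O' O'') _ h)
    rwa [map_natCast] at h1
  have hρ : ∀ ℓ : ℕ, ℓ.Prime → ℓ ∉ S ∪ S₁ → W.IsGoodPrimeFor ℓ → ℓ ≠ lam →
      ∀ A : ValuationSubring Qb, A.LiesOverPrime ℓ → ∀ σ : Qb ≃ₐ[ℚ] Qb, A.IsFrobeniusAt σ ℓ →
        LinearMap.charpoly (ρ.ρ σ) = X ^ 2 - C ((W.apOfModel ℓ : ℤ) : O'') * X + C (ℓ : O'') := by
    intro ℓ hℓ hℓS hgoodℓ hℓlam A hA σ hσ
    have hℓS' : ℓ ∉ (↑S : Set ℕ) := fun h => hℓS (Finset.mem_union_left _ (Finset.mem_coe.mp h))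
    have hℓS₁ : ℓ ∉ S₁ := fun h => hℓS (Finset.mem_union_right _ h)
    have hℓM : ¬ ℓ ∣ M := fun h => hℓS' (Finset.mem_coe.mpr (hMS ℓ hℓ h))
    rw [hρ1 ℓ hℓ hℓM hℓS' A hA σ hσ,
      Fermat.Agent.S58.Att.comp_eq_intCast chig iota (CuspForm.heckeAlgebra.T hℓ hℓM hℓS')
        (W.apOfModel ℓ) ((hchig ℓ hℓ hℓM hℓS').trans (hag ℓ hℓ hℓS₁ hgoodℓ)), map_intCast]
  have hℓ0S : ℓ0 ∉ (↑S : Set ℕ) := by
    rw [Finset.mem_coe, hS, Finset.mem_insert, not_or]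
    exact ⟨hℓ0lam, fun h => hℓ0M (Nat.dvd_of_mem_primeFactors h)⟩
  obtain ⟨A, hA, σ, hσ⟩ := Fermat.Agent.Lib.FrobAlt.exists_isFrobeniusAt ℓ0 hℓ0
  have hch := hρ1 ℓ0 hℓ0 hℓ0M hℓ0S A hA σ hσ
  have hs := Fermat.Agent.S58.Transfer.trace_eq_of_quad W hΔ hlam2
    (fun n ℓ hℓ h5 hℓlam hgoodℓ A hA σ hσ P hP =>
      hFQ lam n ℓ hlam hlam2 hℓ (Or.inl h5) hℓlam hgoodℓ A hA σ hσ P hP)
    hlamO'' ρ (S ∪ S₁) hρ σ (W.apOfModel ℓ0) ℓ0 _ hch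
    (fun n P hP => hFQ lam n ℓ0 hlam hlam2 hℓ0 (Or.inr rfl) hℓ0lam hgood A hA σ hσ P hP)
  have h2 : (iota.comp chig.rangeRestrict) (CuspForm.heckeAlgebra.T hℓ0 hℓ0M hℓ0S) =
      ((W.apOfModel ℓ0 : ℤ) : O') := by
    apply hinj''
    rw [hs, map_intCast]
  have h3 := Fermat.Agent.S58.Att.eq_intCast_of_comp chig iota hinj _ _ h2
  rw [← hchig ℓ0 hℓ0 hℓ0M hℓ0S]
  exact h3

end Fermat.Agent.S58.GoodCoeff
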