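import Mathlib

/-!
# S58 package [E], abstract core: inertia acts unipotently on torsion at a node

Let `G` be an abelian group of odd exponent with affine coordinates `X, Y : G → K` on a Weierstrass
model over a valued field `(K, v)`, such that all nonzero points have `v`-integral coordinates
(this is automatic for torsion of order prime to the residue characteristic: the division
polynomial has unit leading coefficient).  Then the chord/tangent slope of any two points is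
`v`-integral (`Base.chord`, `Base.tangent`) — no reduction of the group law is needed — and:

* `Base.moved`: if an "inertia-like" automorphism `σ` moves `P`, both partial derivatives of the
  Weierstrass equation are non-units at `P`; hence `σ = 1` when the reduction is nonsingular
  (`Base.fixed_of_good`);
* for a model centred at a node, `Y² + a₁XY = X³ + a₂X² + e` with `v e < 1` and tangent
  directions `α₁, α₂` (`v (α₂ - α₁) = 1`): the points with unit abscissa form a subgroup `T`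
  (`Node.T`, Vieta rule), `σ` fixes `T` pointwise (`Node.fixed_of_unit`), a point reducing to the
  node has tangent coordinates `Y - α₁X`, `Y - α₂X` of different values (`Node.val_ne_of_node`,
  uses odd exponent) and `σ P - P ∈ T` (`Node.sub_mem_T`).  Hence `(σ - 1)² = 0`
  (`Node.unipotent`).
-/

set_option autoImplicit false

namespace Fermat.Agent.S58.InertiaCore

/-- A group with affine coordinates on a Weierstrass model
`Y² + a₁XY + a₃Y = X³ + a₂X² + a₄X + a₆`. -/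
structure WData (G : Type*) [AddCommGroup G] (K : Type*) [Field K] where
  a1 : K
  a2 : K
  a3 : K
  a4 : K
  a6 : K
  X : G → K
  Y : G → K
  eqn : ∀ P, P ≠ 0 →
    Y P ^ 2 + a1 * X P * Y P + a3 * Y P = X P ^ 3 + a2 * X P ^ 2 + a4 * X P + a6
  X_neg : ∀ P, P ≠ 0 → X (-P) = X P
  Y_neg : ∀ P, P ≠ 0 → Y (-P) = -Y P - a1 * X P - a3
  inj : ∀ P Q, P ≠ 0 → Q ≠ 0 → X P = X Q → Y P = Y Q → P = Q
  add_X : ∀ P Q, P ≠ 0 → Q ≠ 0 → X P ≠ X Q →
    X (P + Q) * (X P - X Q) ^ 2 = (Y P - Y Q) ^ 2 + a1 * (Y P - Y Q) * (X P - X Q)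
      - (a2 + X P + X Q) * (X P - X Q) ^ 2
  dbl_X : ∀ P, P ≠ 0 → P + P ≠ 0 →
    X (P + P) * (2 * Y P + a1 * X P + a3) ^ 2 =
      (3 * X P ^ 2 + 2 * a2 * X P + a4 - a1 * Y P) ^ 2
      + a1 * (3 * X P ^ 2 + 2 * a2 * X P + a4 - a1 * Y P) * (2 * Y P + a1 * X P + a3)
      - (a2 + 2 * X P) * (2 * Y P + a1 * X P + a3) ^ 2

namespace WData

variable {G : Type*} [AddCommGroup G] {K : Type*} [Field K] (D : WData G K)

/-- Points with the same abscissa are equal or opposite. -/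
theorem eq_or_eq_neg {P Q : G} (hP : P ≠ 0) (hQ : Q ≠ 0) (hx : D.X P = D.X Q) :
    P = Q ∨ P = -Q := by
  have e1 := D.eqn P hP
  have e2 := D.eqn Q hQ
  have hy : (D.Y P - D.Y Q) * (D.Y P + D.Y Q + D.a1 * D.X Q + D.a3) = 0 := by
    rw [hx] at e1
    linear_combination e1 - e2
  rcases mul_eq_zero.mp hy with h | h
  · exact Or.inl (D.inj P Q hP hQ hx (sub_eq_zero.mp h))
  · refine Or.inr (D.inj P (-Q) hP (neg_ne_zero.mpr hQ) (by rw [D.X_neg Q hQ, hx]) ?_)
    rw [D.Y_neg Q hQ]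
    linear_combination h

theorem add_ne_zero_of_X_ne {P Q : G} (hP : P ≠ 0) (hx : D.X P ≠ D.X Q) : P + Q ≠ 0 := by
  intro h
  have hQ : Q = -P := by
    rw [eq_neg_iff_add_eq_zero, add_comm]; exact h
  apply hx
  rw [hQ, D.X_neg P hP]

theorem dbl_ne {P : G} (hP : P ≠ 0) (h2 : P + P ≠ 0) :
    2 * D.Y P + D.a1 * D.X P + D.a3 ≠ 0 := by
  intro h
  apply h2
  have : P = -P := by
    refine D.inj P (-P) hP (neg_ne_zero.mpr hP) (D.X_neg P hP).symm ?_
    rw [D.Y_neg P hP]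
    linear_combination h
  calc P + P = P + -P := by rw [← this]
    _ = 0 := add_neg_cancel P

/-- The same group with coordinates translated by `(x₀, y₀)`. -/
def translate (x₀ y₀ : K) : WData G K where
  a1 := D.a1
  a2 := D.a2 + 3 * x₀
  a3 := D.a3 + D.a1 * x₀ + 2 * y₀
  a4 := D.a4 + 2 * D.a2 * x₀ + 3 * x₀ ^ 2 - D.a1 * y₀
  a6 := D.a6 + D.a4 * x₀ + D.a2 * x₀ ^ 2 + x₀ ^ 3 - y₀ ^ 2 - D.a1 * x₀ * y₀ - D.a3 * y₀
  X := fun P => D.X P - x₀
  Y := fun P => D.Y P - y₀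
  eqn := fun P hP => by linear_combination D.eqn P hP
  X_neg := fun P hP => by rw [D.X_neg P hP]
  Y_neg := fun P hP => by rw [D.Y_neg P hP]; ring
  inj := fun P Q hP hQ hx hy => D.inj P Q hP hQ (sub_left_injective hx) (sub_left_injective hy)
  add_X := fun P Q hP hQ hx => by
    have hx' : D.X P ≠ D.X Q := fun h => hx (by rw [h])
    linear_combination D.add_X P Q hP hQ hx'
  dbl_X := fun P hP h2 => by linear_combination D.dbl_X P hP h2

end WData

section Val

variable {K : Type*} [Field K]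
variable {Γ₀ : Type*} [LinearOrderedCommGroupWithZero Γ₀] {v : Valuation K Γ₀}

/-- An element whose "Weierstrass quadratic" `l² + a l` is integral is integral. -/
theorem val_le_one_of_quad {l a c : K} (ha : v a ≤ 1) (hc : v c ≤ 1) (h : l ^ 2 + a * l = c) :
    v l ≤ 1 := by
  by_contra hl
  rw [not_le] at hl
  have h1 : v (a * l) < v (l ^ 2) := by
    rw [map_mul, map_pow, pow_two]
    have hl0 : 0 < v l := lt_trans zero_lt_one hl
    calc v a * v l ≤ 1 * v l := mul_le_mul_of_nonneg_right ha (le_of_lt hl0)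
      _ < v l * v l := mul_lt_mul_of_pos_right hl hl0
  have h2 : v (l ^ 2 + a * l) = v (l ^ 2) := Valuation.map_add_eq_of_lt_left v h1
  rw [h, map_pow] at h2
  have h3 : (1 : Γ₀) < v l ^ 2 := one_lt_pow₀ hl (by norm_num)
  rw [← h2] at h3
  exact absurd hc (not_le.mpr h3)

theorem val_two_le : v (2 : K) ≤ 1 := by
  have h : (2 : K) = 1 + 1 := by norm_num
  rw [h]
  exact Valuation.map_add_le v (by simp) (by simp)

theorem val_three_le : v (3 : K) ≤ 1 := by
  have h : (3 : K) = 2 + 1 := by norm_num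
  rw [h]
  exact Valuation.map_add_le v val_two_le (by simp)

/-- final step of both unit criteria -/
theorem val_eq_one_of_mul_sq {x d : K} {M : Γ₀} (hM : 0 < M) (hd : v d ≤ M) (hx : v x ≤ 1)
    (h : v x * v d ^ 2 = M ^ 2) : v x = 1 := by
  by_contra hne
  have hlt : v x < 1 := lt_of_le_of_ne hx hne
  have hM2 : 0 < M ^ 2 := pow_pos hM 2
  have hd2 : v d ^ 2 ≤ M ^ 2 := pow_le_pow_left₀ zero_le hd 2
  have h1 : v x * v d ^ 2 < M ^ 2 := by
    calc v x * v d ^ 2 ≤ v x * M ^ 2 := mul_le_mul_right hd2 _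
      _ < 1 * M ^ 2 := mul_lt_mul_of_pos_right hlt hM2
      _ = M ^ 2 := one_mul _
  rw [h] at h1
  exact lt_irrefl _ h1

/-- **Tangent criterion.**  On `Y² + a1 XY = X³ + a2 X² + e` with tangent coordinates
`A = Y - α₁ X`, `B = Y - α₂ X`: if `v A = v B < 1` then the abscissa of the double is a unit. -/
theorem tangent_unit {X Y l a1 a2 α₁ α₂ X2 : K}
    (hsum : α₁ + α₂ = -a1) (hprod : α₁ * α₂ = -a2) (hδ : v (α₂ - α₁) = 1)
    (hl : l * (2 * Y + a1 * X) = 3 * X ^ 2 + 2 * a2 * X - a1 * Y)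
    (hX2 : X2 = l ^ 2 + a1 * l - a2 - 2 * X)
    (hne : 2 * Y + a1 * X ≠ 0)
    (hAB : v (Y - α₁ * X) = v (Y - α₂ * X)) (hm : v (Y - α₁ * X) < 1)
    (hX2int : v X2 ≤ 1) : v X2 = 1 := by
  set A := Y - α₁ * X with hA
  set B := Y - α₂ * X with hB
  set δ := α₂ - α₁ with hδdef
  have hApB : A + B = 2 * Y + a1 * X := by
    rw [hA, hB]; linear_combination (-X) * hsum
  have h1 : (l - α₁) * (A + B) = δ * A + 3 * X ^ 2 := by
    rw [hApB, hA, hδdef]
    linear_combination hl + (2 * X) * hprod - (Y + α₁ * X) * hsum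
  have h2 : (l - α₂) * (A + B) = -δ * B + 3 * X ^ 2 := by
    rw [hApB, hB, hδdef]
    linear_combination hl + (2 * X) * hprod - (Y + α₂ * X) * hsum
  have h3 : X2 = (l - α₁) * (l - α₂) - 2 * X := by
    rw [hX2]; linear_combination l * hsum - hprod
  have hkey : X2 * (A + B) ^ 2 = (δ * A + 3 * X ^ 2) * (-δ * B + 3 * X ^ 2)
      - 2 * X * (A + B) ^ 2 := by
    rw [h3, ← h1, ← h2]; ring
  have hAmB : A - B = δ * X := by rw [hA, hB, hδdef]; ring
  set m := v A with hmdef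
  have hB' : v B = m := hAB.symm
  have hm0 : 0 < m := by
    rw [zero_lt_iff]
    intro h0
    have hA0 : A = 0 := by rwa [hmdef, Valuation.zero_iff] at h0
    have hB0 : B = 0 := by
      have : v B = 0 := by rw [hB', h0]
      rwa [Valuation.zero_iff] at this
    apply hne
    rw [← hApB, hA0, hB0, add_zero]
  have hvX : v X ≤ m := by
    have h : v (δ * X) ≤ m := by
      rw [← hAmB]
      exact Valuation.map_sub_le v (le_refl _) (le_of_eq hB')
    rwa [map_mul, hδ, one_mul] at h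
  have hmm : m * m < m := by
    calc m * m < m * 1 := mul_lt_mul_of_pos_left hm hm0
      _ = m := mul_one _
  have h3X : v (3 * X ^ 2) < m := by
    rw [map_mul, map_pow, pow_two]
    calc v 3 * (v X * v X) ≤ 1 * (m * m) := mul_le_mul' val_three_le (mul_le_mul' hvX hvX)
      _ = m * m := one_mul _
      _ < m := hmm
  have hu1 : v (δ * A + 3 * X ^ 2) = m := by
    have h : v (δ * A) = m := by rw [map_mul, hδ, one_mul]
    rw [← h]
    exact Valuation.map_add_eq_of_lt_left v (by rw [h]; exact h3X)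
  have hu2 : v (-δ * B + 3 * X ^ 2) = m := by
    have h : v (-δ * B) = m := by rw [map_mul, Valuation.map_neg, hδ, one_mul, hB']
    rw [← h]
    exact Valuation.map_add_eq_of_lt_left v (by rw [h]; exact h3X)
  have hApBle : v (A + B) ≤ m := Valuation.map_add_le v (le_refl _) (le_of_eq hB')
  have hw : v (2 * X * (A + B) ^ 2) < m ^ 2 := by
    rw [map_mul, map_mul, map_pow]
    have hm2 : 0 < m ^ 2 := pow_pos hm0 2
    calc v 2 * v X * v (A + B) ^ 2 ≤ 1 * m * m ^ 2 :=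
          mul_le_mul' (mul_le_mul' val_two_le hvX) (pow_le_pow_left₀ zero_le hApBle 2)
      _ = m * m ^ 2 := by rw [one_mul]
      _ < 1 * m ^ 2 := mul_lt_mul_of_pos_right hm hm2
      _ = m ^ 2 := one_mul _
  have hu : v ((δ * A + 3 * X ^ 2) * (-δ * B + 3 * X ^ 2)) = m ^ 2 := by
    rw [map_mul, hu1, hu2, pow_two]
  have hfin : v X2 * v (A + B) ^ 2 = m ^ 2 := by
    rw [← map_pow, ← map_mul, hkey, ← hu]
    exact Valuation.map_sub_eq_of_lt_left v (by rw [hu]; exact hw)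
  exact val_eq_one_of_mul_sq hm0 hApBle hX2int hfin

/-- **Chord criterion.**  `P`, `Q` reduce to the node, `R = Q - P`; if the tangent coordinates of
`P` and `Q` have the same values and `v A_P ≠ v B_P`, the abscissa of `R` is a unit. -/
theorem chord_unit {XP YP XQ YQ l a1 a2 α₁ α₂ XR : K}
    (hsum : α₁ + α₂ = -a1) (hprod : α₁ * α₂ = -a2) (hδ : v (α₂ - α₁) = 1)
    (hl : l * (XQ - XP) = YQ + YP + a1 * XP)
    (hXR : XR = l ^ 2 + a1 * l - a2 - XQ - XP)
    (hA : v (YQ - α₁ * XQ) = v (YP - α₁ * XP)) (hB : v (YQ - α₂ * XQ) = v (YP - α₂ * XP))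
    (hne : v (YP - α₁ * XP) ≠ v (YP - α₂ * XP))
    (hXP : v XP < 1) (hXQ : v XQ < 1) (hXRint : v XR ≤ 1) : v XR = 1 := by
  set AP := YP - α₁ * XP with hAP
  set BP := YP - α₂ * XP with hBP
  set AQ := YQ - α₁ * XQ with hAQ
  set BQ := YQ - α₂ * XQ with hBQ
  set δ := α₂ - α₁ with hδdef
  have h1 : (l - α₁) * (XQ - XP) = AQ + BP := by
    rw [hAQ, hBP]; linear_combination hl + XP * hsum
  have h2 : (l - α₂) * (XQ - XP) = BQ + AP := by
    rw [hBQ, hAP]; linear_combination hl + XP * hsum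
  have h3 : XR = (l - α₁) * (l - α₂) - XQ - XP := by
    rw [hXR]; linear_combination l * hsum - hprod
  have hkey : XR * (XQ - XP) ^ 2 = (AQ + BP) * (BQ + AP) - (XQ + XP) * (XQ - XP) ^ 2 := by
    rw [h3, ← h1, ← h2]; ring
  have hdiff : (AQ + BP) - (BQ + AP) = δ * (XQ - XP) := by
    rw [hAQ, hBP, hBQ, hAP, hδdef]; ring
  -- the common value `M`
  obtain ⟨M, hM0, ha, hb⟩ : ∃ M : Γ₀, 0 < M ∧ v (AQ + BP) = M ∧ v (BQ + AP) = M := by
    rcases lt_or_gt_of_ne hne with h | h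
    · refine ⟨v BP, lt_of_le_of_lt zero_le h, ?_, ?_⟩
      · exact Valuation.map_add_eq_of_lt_right v (by rw [hA]; exact h)
      · rw [← hB]
        exact Valuation.map_add_eq_of_lt_left v (by rw [hB]; exact h)
    · refine ⟨v AP, lt_of_le_of_lt zero_le h, ?_, ?_⟩
      · rw [← hA]
        exact Valuation.map_add_eq_of_lt_left v (by rw [hA]; exact h)
      · exact Valuation.map_add_eq_of_lt_right v (by rw [hB]; exact h)
  have hd : v (XQ - XP) ≤ M := by
    have h : v (δ * (XQ - XP)) ≤ M := by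
      rw [← hdiff]
      exact Valuation.map_sub_le v (le_of_eq ha) (le_of_eq hb)
    rwa [map_mul, hδ, one_mul] at h
  have hM2 : 0 < M ^ 2 := pow_pos hM0 2
  have hw : v ((XQ + XP) * (XQ - XP) ^ 2) < M ^ 2 := by
    rw [map_mul, map_pow]
    calc v (XQ + XP) * v (XQ - XP) ^ 2 ≤ v (XQ + XP) * M ^ 2 :=
          mul_le_mul_right (pow_le_pow_left₀ zero_le hd 2) _
      _ < 1 * M ^ 2 := mul_lt_mul_of_pos_right (Valuation.map_add_lt v hXQ hXP) hM2
      _ = M ^ 2 := one_mul _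
  have hu : v ((AQ + BP) * (BQ + AP)) = M ^ 2 := by rw [map_mul, ha, hb, pow_two]
  have hfin : v XR * v (XQ - XP) ^ 2 = M ^ 2 := by
    rw [← map_pow, ← map_mul, hkey, ← hu]
    exact Valuation.map_sub_eq_of_lt_left v (by rw [hu]; exact hw)
  exact val_eq_one_of_mul_sq hM0 hd hXRint hfin

end Val

section Alg

variable {K : Type*} [Field K]

/-- Vieta for a chord of `Y² + a1 XY = X³ + a2 X² + e`. -/
theorem vieta_chord {x1 x2 x3 y1 y2 l a1 a2 e : K}
    (e1 : y1 ^ 2 + a1 * x1 * y1 = x1 ^ 3 + a2 * x1 ^ 2 + e)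
    (e2 : y2 ^ 2 + a1 * x2 * y2 = x2 ^ 3 + a2 * x2 ^ 2 + e)
    (hl : l * (x1 - x2) = y1 - y2) (hx3 : x3 = l ^ 2 + a1 * l - a2 - x1 - x2) (hne : x1 ≠ x2) :
    x1 * x2 * x3 = (y1 - l * x1) ^ 2 - e ∧
      x1 * x2 + (x1 + x2) * x3 = -(y1 - l * x1) * (2 * l + a1) := by
  have hy2 : y2 = y1 - l * (x1 - x2) := by linear_combination hl
  subst hx3
  subst hy2
  have hd : x1 - x2 ≠ 0 := sub_ne_zero.mpr hne
  constructor
  · apply mul_left_cancel₀ hd
    linear_combination x2 * e1 - x1 * e2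
  · apply mul_left_cancel₀ hd
    linear_combination e1 - e2

/-- Vieta for a tangent of `Y² + a1 XY = X³ + a2 X² + e`. -/
theorem vieta_tangent {x x3 y l a1 a2 e : K}
    (e1 : y ^ 2 + a1 * x * y = x ^ 3 + a2 * x ^ 2 + e)
    (hl : l * (2 * y + a1 * x) = 3 * x ^ 2 + 2 * a2 * x - a1 * y)
    (hx3 : x3 = l ^ 2 + a1 * l - a2 - 2 * x) :
    x * x * x3 = (y - l * x) ^ 2 - e ∧
      x * x + (x + x) * x3 = -(y - l * x) * (2 * l + a1) := by
  subst hx3
  constructor
  · linear_combination (-1 : K) * e1 + x * hl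
  · linear_combination hl

end Alg

section Main

variable {G : Type*} [AddCommGroup G] {K : Type*} [Field K]
variable {Γ₀ : Type*} [LinearOrderedCommGroupWithZero Γ₀]

/-- Integral coordinates, odd exponent, and an automorphism `σ` of `G` acting on coordinates
through a ring map `s` of `K` that preserves `v` and is trivial on the residue field. -/
structure Base (D : WData G K) (v : Valuation K Γ₀) (σ : G →+ G) (s : K →+* K) (N : ℕ) :
    Prop where
  hX : ∀ P, P ≠ 0 → v (D.X P) ≤ 1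
  hY : ∀ P, P ≠ 0 → v (D.Y P) ≤ 1
  ha1 : v D.a1 ≤ 1
  ha2 : v D.a2 ≤ 1
  hodd : Odd N
  htors : ∀ P : G, N • P = 0
  σX : ∀ P, P ≠ 0 → D.X (σ P) = s (D.X P)
  σY : ∀ P, P ≠ 0 → D.Y (σ P) = s (D.Y P)
  σne : ∀ P, P ≠ 0 → σ P ≠ 0
  sv : ∀ z, v (s z) = v z
  sres : ∀ z, v z ≤ 1 → v (s z - z) < 1

variable {D : WData G K} {v : Valuation K Γ₀} {σ : G →+ G} {s : K →+* K} {N : ℕ}

namespace Base

variable (B : Base D v σ s N)
include B

/-- The hypotheses are stable under an integral, `s`-fixed translation of the coordinates. -/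
theorem translate {x₀ y₀ : K} (hx₀ : v x₀ ≤ 1) (hy₀ : v y₀ ≤ 1) (sx : s x₀ = x₀)
    (sy : s y₀ = y₀) : Base (D.translate x₀ y₀) v σ s N where
  hX := fun P hP => Valuation.map_sub_le v (B.hX P hP) hx₀
  hY := fun P hP => Valuation.map_sub_le v (B.hY P hP) hy₀
  ha1 := B.ha1
  ha2 := by
    show v (D.a2 + 3 * x₀) ≤ 1
    refine Valuation.map_add_le v B.ha2 ?_
    rw [map_mul]
    calc v 3 * v x₀ ≤ 1 * 1 := mul_le_mul' val_three_le hx₀
      _ = 1 := one_mul _
  hodd := B.hodd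
  htors := B.htors
  σX := fun P hP => by
    show D.X (σ P) - x₀ = s (D.X P - x₀)
    rw [map_sub, sx, B.σX P hP]
  σY := fun P hP => by
    show D.Y (σ P) - y₀ = s (D.Y P - y₀)
    rw [map_sub, sy, B.σY P hP]
  σne := B.σne
  sv := B.sv
  sres := B.sres

/-- **The slope of a chord is integral.** -/
theorem chord {P Q : G} (hP : P ≠ 0) (hQ : Q ≠ 0) (hx : D.X P ≠ D.X Q) :
    ∃ l : K, v l ≤ 1 ∧ l * (D.X P - D.X Q) = D.Y P - D.Y Q ∧
      D.X (P + Q) = l ^ 2 + D.a1 * l - D.a2 - D.X P - D.X Q := by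
  have hd : D.X P - D.X Q ≠ 0 := sub_ne_zero.mpr hx
  have h := D.add_X P Q hP hQ hx
  obtain ⟨l, hl⟩ : ∃ l : K, l * (D.X P - D.X Q) = D.Y P - D.Y Q :=
    ⟨(D.Y P - D.Y Q) / (D.X P - D.X Q), div_mul_cancel₀ _ hd⟩
  have h3 : D.X (P + Q) = l ^ 2 + D.a1 * l - D.a2 - D.X P - D.X Q := by
    apply mul_right_cancel₀ (pow_ne_zero 2 hd)
    rw [h]
    linear_combination (-(D.Y P - D.Y Q + l * (D.X P - D.X Q) + D.a1 * (D.X P - D.X Q))) * hl
  refine ⟨l, ?_, hl, h3⟩
  have hPQ : P + Q ≠ 0 := D.add_ne_zero_of_X_ne hP hx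
  refine val_le_one_of_quad (c := D.X (P + Q) + D.a2 + D.X P + D.X Q) B.ha1 ?_ ?_
  · exact Valuation.map_add_le v (Valuation.map_add_le v (Valuation.map_add_le v
      (B.hX _ hPQ) B.ha2) (B.hX _ hP)) (B.hX _ hQ)
  · rw [h3]; ring

/-- **The slope of a tangent is integral.** -/
theorem tangent {P : G} (hP : P ≠ 0) (h2 : P + P ≠ 0) :
    ∃ l : K, v l ≤ 1 ∧
      l * (2 * D.Y P + D.a1 * D.X P + D.a3) =
        3 * D.X P ^ 2 + 2 * D.a2 * D.X P + D.a4 - D.a1 * D.Y P ∧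
      D.X (P + P) = l ^ 2 + D.a1 * l - D.a2 - 2 * D.X P := by
  have hd : 2 * D.Y P + D.a1 * D.X P + D.a3 ≠ 0 := D.dbl_ne hP h2
  have h := D.dbl_X P hP h2
  obtain ⟨l, hl⟩ : ∃ l : K, l * (2 * D.Y P + D.a1 * D.X P + D.a3) =
      3 * D.X P ^ 2 + 2 * D.a2 * D.X P + D.a4 - D.a1 * D.Y P :=
    ⟨(3 * D.X P ^ 2 + 2 * D.a2 * D.X P + D.a4 - D.a1 * D.Y P) /
      (2 * D.Y P + D.a1 * D.X P + D.a3), div_mul_cancel₀ _ hd⟩
  have h3 : D.X (P + P) = l ^ 2 + D.a1 * l - D.a2 - 2 * D.X P := by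
    apply mul_right_cancel₀ (pow_ne_zero 2 hd)
    rw [h]
    linear_combination (-(3 * D.X P ^ 2 + 2 * D.a2 * D.X P + D.a4 - D.a1 * D.Y P
      + l * (2 * D.Y P + D.a1 * D.X P + D.a3)
      + D.a1 * (2 * D.Y P + D.a1 * D.X P + D.a3))) * hl
  refine ⟨l, ?_, hl, h3⟩
  refine val_le_one_of_quad (c := D.X (P + P) + D.a2 + 2 * D.X P) B.ha1 ?_ ?_
  · refine Valuation.map_add_le v (Valuation.map_add_le v (B.hX _ h2) B.ha2) ?_
    rw [map_mul]
    calc v 2 * v (D.X P) ≤ 1 * 1 := mul_le_mul' val_two_le (B.hX _ hP)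
      _ = 1 := one_mul _
  · rw [h3]; ring

theorem dbl_ne_zero {P : G} (hP : P ≠ 0) : P + P ≠ 0 := by
  intro h
  obtain ⟨k, hk⟩ := B.hodd
  apply hP
  have h1 := B.htors P
  rw [hk, add_smul, mul_comm, mul_smul, two_smul, h, smul_zero, zero_add, one_smul] at h1
  exact h1

theorem eq_nsmul_dbl (P : G) : ∃ k : ℕ, P = k • (P + P) := by
  obtain ⟨k, hk⟩ := B.hodd
  have h1 := B.htors P
  refine ⟨k + 1, ?_⟩
  have : (k + 1) • (P + P) = N • P + P := by
    rw [hk, ← two_smul ℕ P, ← mul_smul, show (k + 1) * 2 = (2 * k + 1) + 1 by ring, add_smul,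
      one_smul]
  rw [this, h1, zero_add]

/-- **If `σ` moves `P`, both partial derivatives of the equation are non-units at `P`.** -/
theorem moved {P : G} (hP : P ≠ 0) (hne : σ P ≠ P) :
    v (2 * D.Y P + D.a1 * D.X P + D.a3) < 1 ∧
      v (3 * D.X P ^ 2 + 2 * D.a2 * D.X P + D.a4 - D.a1 * D.Y P) < 1 := by
  have hQ : σ P ≠ 0 := B.σne P hP
  have hXQ : D.X (σ P) = s (D.X P) := B.σX P hP
  have hYQ : D.Y (σ P) = s (D.Y P) := B.σY P hP
  have hFY : v (2 * D.Y P + D.a1 * D.X P + D.a3) < 1 := by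
    have hYd : v (D.Y (σ P) - D.Y P) < 1 := by rw [hYQ]; exact B.sres _ (B.hY P hP)
    by_cases hx : D.X (σ P) = D.X P
    · rcases D.eq_or_eq_neg hQ hP hx with h | h
      · exact absurd h hne
      · have hY : D.Y (σ P) = -D.Y P - D.a1 * D.X P - D.a3 := by rw [h, D.Y_neg P hP]
        have : 2 * D.Y P + D.a1 * D.X P + D.a3 = -(D.Y (σ P) - D.Y P) := by rw [hY]; ring
        rw [this, Valuation.map_neg]
        exact hYd
    · have hnP : -P ≠ 0 := neg_ne_zero.mpr hP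
      have hx' : D.X (σ P) ≠ D.X (-P) := by rw [D.X_neg P hP]; exact hx
      obtain ⟨l, hl, hl2, -⟩ := B.chord hQ hnP hx'
      rw [D.X_neg P hP, D.Y_neg P hP] at hl2
      have hXd : v (D.X (σ P) - D.X P) < 1 := by rw [hXQ]; exact B.sres _ (B.hX P hP)
      have h3 : v (D.Y (σ P) - (-D.Y P - D.a1 * D.X P - D.a3)) < 1 := by
        rw [← hl2, map_mul]
        calc v l * v (D.X (σ P) - D.X P) ≤ 1 * v (D.X (σ P) - D.X P) := mul_le_mul' hl le_rfl
          _ = v (D.X (σ P) - D.X P) := one_mul _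
          _ < 1 := hXd
      have : 2 * D.Y P + D.a1 * D.X P + D.a3 =
          (D.Y (σ P) - (-D.Y P - D.a1 * D.X P - D.a3)) - (D.Y (σ P) - D.Y P) := by ring
      rw [this]
      exact Valuation.map_sub_lt v h3 hYd
  refine ⟨hFY, ?_⟩
  have h2P : P + P ≠ 0 := B.dbl_ne_zero hP
  obtain ⟨l, hl, hl2, -⟩ := B.tangent hP h2P
  rw [← hl2, map_mul]
  calc v l * v (2 * D.Y P + D.a1 * D.X P + D.a3)
      ≤ 1 * v (2 * D.Y P + D.a1 * D.X P + D.a3) := mul_le_mul' hl le_rfl
    _ = v (2 * D.Y P + D.a1 * D.X P + D.a3) := one_mul _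
    _ < 1 := hFY

/-- **Good reduction: `σ` is trivial.** -/
theorem fixed_of_good
    (hgood : ∀ P, P ≠ 0 → ¬ (v (2 * D.Y P + D.a1 * D.X P + D.a3) < 1 ∧
      v (3 * D.X P ^ 2 + 2 * D.a2 * D.X P + D.a4 - D.a1 * D.Y P) < 1)) (P : G) : σ P = P := by
  by_cases hP : P = 0
  · subst hP; exact map_zero σ
  · by_contra hne
    exact hgood P hP (B.moved hP hne)

end Base

/-- A model centred at a node: `Y² + a₁XY = X³ + a₂X² + e`, `v e < 1`, with tangent directions
`α₁ ≠ α₂` modulo the maximal ideal, fixed by `s`. -/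
structure Node (D : WData G K) (v : Valuation K Γ₀) (s : K →+* K) (α₁ α₂ : K) : Prop where
  ha3 : D.a3 = 0
  ha4 : D.a4 = 0
  he : v D.a6 < 1
  hsum : α₁ + α₂ = -D.a1
  hprod : α₁ * α₂ = -D.a2
  hδ : v (α₂ - α₁) = 1
  sα₁ : s α₁ = α₁
  sα₂ : s α₂ = α₂

namespace Node

variable {α₁ α₂ : K} (B : Base D v σ s N) (H : Node D v s α₁ α₂)
include H

theorem eqn0 {P : G} (hP : P ≠ 0) :
    D.Y P ^ 2 + D.a1 * D.X P * D.Y P = D.X P ^ 3 + D.a2 * D.X P ^ 2 + D.a6 := by
  have h := D.eqn P hP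
  rw [H.ha3, H.ha4] at h
  linear_combination h

theorem Y_neg0 {P : G} (hP : P ≠ 0) : D.Y (-P) = -D.Y P - D.a1 * D.X P := by
  rw [D.Y_neg P hP, H.ha3, sub_zero]

include B

theorem tangent0 {P : G} (hP : P ≠ 0) (h2 : P + P ≠ 0) :
    ∃ l : K, v l ≤ 1 ∧
      l * (2 * D.Y P + D.a1 * D.X P) = 3 * D.X P ^ 2 + 2 * D.a2 * D.X P - D.a1 * D.Y P ∧
      D.X (P + P) = l ^ 2 + D.a1 * l - D.a2 - 2 * D.X P := by
  obtain ⟨l, hl, hl2, hl3⟩ := B.tangent hP h2
  rw [H.ha3, H.ha4, add_zero, add_zero] at hl2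
  exact ⟨l, hl, hl2, hl3⟩

omit B H in
/-- the valuation step of the Vieta rule -/
theorem rule_aux {x1 x2 x3 ν l a e : K} (hx1 : v x1 ≤ 1) (hx2 : v x2 ≤ 1) (hl : v l ≤ 1)
    (ha1 : v a ≤ 1) (he : v e < 1)
    (h3 : x1 * x2 * x3 = ν ^ 2 - e) (h2 : x1 * x2 + (x1 + x2) * x3 = -ν * (2 * l + a))
    (hx3 : v x3 < 1) : v (x1 * x2) < 1 := by
  have hν2 : v (ν ^ 2) < 1 := by
    have : ν ^ 2 = x1 * x2 * x3 + e := by linear_combination -h3
    rw [this]
    refine Valuation.map_add_lt v ?_ he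
    rw [map_mul, map_mul]
    calc v x1 * v x2 * v x3 ≤ 1 * 1 * v x3 := mul_le_mul' (mul_le_mul' hx1 hx2) le_rfl
      _ = v x3 := by rw [one_mul, one_mul]
      _ < 1 := hx3
  have hν : v ν < 1 := by
    rw [map_pow] at hν2
    exact (pow_lt_one_iff (by norm_num)).mp hν2
  have h12 : x1 * x2 = -ν * (2 * l + a) - (x1 + x2) * x3 := by linear_combination h2
  rw [h12]
  refine Valuation.map_sub_lt v ?_ ?_
  · rw [map_mul, Valuation.map_neg]
    have h2l : v (2 * l + a) ≤ 1 := by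
      refine Valuation.map_add_le v ?_ ha1
      rw [map_mul]
      calc v 2 * v l ≤ 1 * 1 := mul_le_mul' val_two_le hl
        _ = 1 := one_mul _
    calc v ν * v (2 * l + a) ≤ v ν * 1 := mul_le_mul' le_rfl h2l
      _ = v ν := mul_one _
      _ < 1 := hν
  · rw [map_mul]
    calc v (x1 + x2) * v x3 ≤ 1 * v x3 := mul_le_mul' (Valuation.map_add_le v hx1 hx2) le_rfl
      _ = v x3 := one_mul _
      _ < 1 := hx3

/-- **The sum of two points with unit abscissa has unit abscissa.** -/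
theorem unit_add {P Q : G} (hP : P ≠ 0) (hQ : Q ≠ 0) (hPQ : P + Q ≠ 0)
    (h1 : v (D.X P) = 1) (h2 : v (D.X Q) = 1) : v (D.X (P + Q)) = 1 := by
  by_contra hne
  have hlt : v (D.X (P + Q)) < 1 := lt_of_le_of_ne (B.hX _ hPQ) hne
  have hprod : v (D.X P * D.X Q) = 1 := by rw [map_mul, h1, h2, one_mul]
  by_cases hx : D.X P = D.X Q
  · rcases D.eq_or_eq_neg hP hQ hx with h | h
    · subst h
      obtain ⟨l, hl, hl2, hl3⟩ := H.tangent0 B hP hPQ
      obtain ⟨v3, v2⟩ := vieta_tangent (H.eqn0 hP) hl2 hl3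
      have := rule_aux (v := v) (le_of_eq h1) (le_of_eq h1) hl B.ha1 H.he v3 v2 hlt
      rw [hprod] at this
      exact lt_irrefl _ this
    · apply hPQ
      rw [h, neg_add_cancel]
  · obtain ⟨l, hl, hl2, hl3⟩ := B.chord hP hQ hx
    obtain ⟨v3, v2⟩ := vieta_chord (H.eqn0 hP) (H.eqn0 hQ) hl2 hl3 hx
    have := rule_aux (v := v) (le_of_eq h1) (le_of_eq h2) hl B.ha1 H.he v3 v2 hlt
    rw [hprod] at this
    exact lt_irrefl _ this

/-- The subgroup of points that do not reduce to the node. -/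
def T : AddSubgroup G where
  carrier := {P | P = 0 ∨ v (D.X P) = 1}
  zero_mem' := Or.inl rfl
  add_mem' := by
    intro P Q hP hQ
    by_cases hP0 : P = 0
    · subst hP0; rw [zero_add]; exact hQ
    by_cases hQ0 : Q = 0
    · subst hQ0; rw [add_zero]; exact hP
    by_cases hPQ : P + Q = 0
    · exact Or.inl hPQ
    · exact Or.inr (H.unit_add B hP0 hQ0 hPQ (hP.resolve_left hP0) (hQ.resolve_left hQ0))
  neg_mem' := by
    intro P hP
    by_cases hP0 : P = 0
    · subst hP0; rw [neg_zero]; exact Or.inl rfl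
    · right
      show v (D.X (-P)) = 1
      rw [D.X_neg P hP0]
      exact hP.resolve_left hP0

theorem mem_T_of_dbl {P : G} (h : P + P ∈ H.T B) : P ∈ H.T B := by
  obtain ⟨k, hk⟩ := B.eq_nsmul_dbl P
  rw [hk]
  exact (H.T B).nsmul_mem h _

/-- **Claim A.** `σ` fixes every point with unit abscissa. -/
theorem fixed_of_unit {P : G} (hP : P ≠ 0) (h1 : v (D.X P) = 1) : σ P = P := by
  by_contra hne
  obtain ⟨hFY, hFX⟩ := B.moved hP hne
  rw [H.ha3, add_zero] at hFY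
  rw [H.ha4, add_zero] at hFX
  -- Euler
  have hE : D.X P ^ 3 = 2 * D.a6 + D.X P * (3 * D.X P ^ 2 + 2 * D.a2 * D.X P - D.a1 * D.Y P)
      - D.Y P * (2 * D.Y P + D.a1 * D.X P) := by
    linear_combination (2 : K) * H.eqn0 hP
  have h3 : v (D.X P ^ 3) < 1 := by
    rw [hE]
    refine Valuation.map_sub_lt v (Valuation.map_add_lt v ?_ ?_) ?_
    · rw [map_mul]
      calc v 2 * v D.a6 ≤ 1 * v D.a6 := mul_le_mul' val_two_le le_rfl
        _ = v D.a6 := one_mul _
        _ < 1 := H.he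
    · rw [map_mul]
      calc v (D.X P) * v (3 * D.X P ^ 2 + 2 * D.a2 * D.X P - D.a1 * D.Y P)
          ≤ 1 * v (3 * D.X P ^ 2 + 2 * D.a2 * D.X P - D.a1 * D.Y P) :=
            mul_le_mul' (le_of_eq h1) le_rfl
        _ = v (3 * D.X P ^ 2 + 2 * D.a2 * D.X P - D.a1 * D.Y P) := one_mul _
        _ < 1 := hFX
    · rw [map_mul]
      calc v (D.Y P) * v (2 * D.Y P + D.a1 * D.X P)
          ≤ 1 * v (2 * D.Y P + D.a1 * D.X P) := mul_le_mul' (B.hY P hP) le_rfl
        _ = v (2 * D.Y P + D.a1 * D.X P) := one_mul _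
        _ < 1 := hFY
  rw [map_pow, h1, one_pow] at h3
  exact lt_irrefl _ h3

/-- **Claim C.** A point reducing to the node has tangent coordinates of different values. -/
theorem val_ne_of_node {P : G} (hP : P ≠ 0) (hlt : v (D.X P) < 1) :
    v (D.Y P - α₁ * D.X P) ≠ v (D.Y P - α₂ * D.X P) := by
  intro hAB
  have h2P : P + P ≠ 0 := B.dbl_ne_zero hP
  obtain ⟨l, -, hl2, hl3⟩ := H.tangent0 B hP h2P
  have hprodAB : (D.Y P - α₁ * D.X P) * (D.Y P - α₂ * D.X P) = D.X P ^ 3 + D.a6 := by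
    linear_combination H.eqn0 hP - (D.X P * D.Y P) * H.hsum + (D.X P ^ 2) * H.hprod
  have hm : v (D.Y P - α₁ * D.X P) < 1 := by
    have h : v (D.Y P - α₁ * D.X P) ^ 2 < 1 := by
      have h' : v ((D.Y P - α₁ * D.X P) * (D.Y P - α₂ * D.X P)) < 1 := by
        rw [hprodAB]
        refine Valuation.map_add_lt v ?_ H.he
        rw [map_pow]
        exact pow_lt_one₀ zero_le hlt (by norm_num)
      rwa [map_mul, ← hAB, ← pow_two] at h'
    exact (pow_lt_one_iff (by norm_num)).mp h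
  have hne2 : 2 * D.Y P + D.a1 * D.X P ≠ 0 := by
    have := D.dbl_ne hP h2P
    rwa [H.ha3, add_zero] at this
  have hu : v (D.X (P + P)) = 1 :=
    tangent_unit H.hsum H.hprod H.hδ hl2 hl3 hne2 hAB hm (B.hX _ h2P)
  have hT : P ∈ H.T B := H.mem_T_of_dbl B (Or.inr hu)
  rcases hT with h | h
  · exact hP h
  · rw [h] at hlt
    exact lt_irrefl _ hlt

/-- **Claim B.** For a point reducing to the node, `σ P - P` does not reduce to the node. -/
theorem sub_mem_T {P : G} (hP : P ≠ 0) (hlt : v (D.X P) < 1) : σ P - P ∈ H.T B := by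
  by_cases hQP : σ P = P
  · rw [hQP, sub_self]; exact (H.T B).zero_mem
  have hQ : σ P ≠ 0 := B.σne P hP
  have hXQ : D.X (σ P) = s (D.X P) := B.σX P hP
  have hYQ : D.Y (σ P) = s (D.Y P) := B.σY P hP
  have hA : v (D.Y (σ P) - α₁ * D.X (σ P)) = v (D.Y P - α₁ * D.X P) := by
    rw [hXQ, hYQ, ← H.sα₁, ← map_mul, ← map_sub, B.sv, H.sα₁]
  have hB : v (D.Y (σ P) - α₂ * D.X (σ P)) = v (D.Y P - α₂ * D.X P) := by
    rw [hXQ, hYQ, ← H.sα₂, ← map_mul, ← map_sub, B.sv, H.sα₂]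
  have hC := H.val_ne_of_node B hP hlt
  have hnP : -P ≠ 0 := neg_ne_zero.mpr hP
  by_cases hx : D.X (σ P) = D.X P
  · rcases D.eq_or_eq_neg hQ hP hx with h | h
    · exact absurd h hQP
    · exfalso
      apply hC
      rw [← hA, h, D.X_neg P hP, H.Y_neg0 hP]
      have : -D.Y P - D.a1 * D.X P - α₁ * D.X P = -(D.Y P - α₂ * D.X P) := by
        linear_combination (-D.X P) * H.hsum
      rw [this, Valuation.map_neg]
  · have hx' : D.X (σ P) ≠ D.X (-P) := by rw [D.X_neg P hP]; exact hx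
    obtain ⟨l, -, hl2, hl3⟩ := B.chord hQ hnP hx'
    rw [D.X_neg P hP, H.Y_neg0 hP] at hl2
    rw [D.X_neg P hP] at hl3
    have hR : σ P + -P ≠ 0 := D.add_ne_zero_of_X_ne hQ hx'
    have hl2' : l * (D.X (σ P) - D.X P) = D.Y (σ P) + D.Y P + D.a1 * D.X P := by
      rw [hl2]; ring
    have hXQlt : v (D.X (σ P)) < 1 := by rw [hXQ, B.sv]; exact hlt
    have hu : v (D.X (σ P + -P)) = 1 :=
      chord_unit H.hsum H.hprod H.hδ hl2' hl3 hA hB hC hlt hXQlt (B.hX _ hR)
    rw [sub_eq_add_neg]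
    exact Or.inr hu

/-- **Unipotence.** `(σ - 1)² = 0`. -/
theorem unipotent (P : G) : σ (σ P - P) = σ P - P := by
  by_cases hP : P = 0
  · subst hP; simp
  rcases lt_or_eq_of_le (B.hX P hP) with hlt | heq
  · rcases H.sub_mem_T B hP hlt with h | h
    · rw [h, map_zero]
    · by_cases hR : σ P - P = 0
      · rw [hR, map_zero]
      · exact H.fixed_of_unit B hR h
  · rw [H.fixed_of_unit B hP heq, sub_self, map_zero]

end Node

end Main

end Fermat.Agent.S58.InertiaCore
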