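import Mathlib
import Fermat.Prelude.Def_FLTPrelim_GaloisRep
import Fermat.Prelude.Def_FLTPrelim_Ramification
import Fermat.Prelude.Def_FLTPrelim_Modularity
import Fermat.Agent.S05.Inertia
import Fermat.Agent.Lib.DivPoly.OddTorsion
import Fermat.Agent.Lib.FrobAlt
import Fermat.Agent.P7.RedFix
import Fermat.Agent.S58.InertiaCore

/-!
# S58 package [E]: inertia on prime-to-`q` odd torsion of an integral Weierstrass model

For `W : WeierstrassCurve ℤ`, a prime `q`, an odd `m` prime to `q`, a valuation subring `A` of `ℚ̄`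
over `q` and `σ` in the inertia group of `A`:

* `inertia_trivial`: if `q ∤ Δ` then `σ • P = P` for every `P ∈ W(ℚ̄)[m]`;
* `inertia_unipotent`: if `q ∣ Δ` and `q ∤ c₄` then `σ • (σ • P - P) = σ • P - P` for every
  `P ∈ W(ℚ̄)[m]`.

Both are instances of the abstract core `Fermat.Agent.S58.InertiaCore`.
-/

set_option autoImplicit false

namespace Fermat.Agent.S58.InertiaTorsion

open WeierstrassCurve WeierstrassCurve.Affine
open Fermat.Agent.S58.InertiaCore

noncomputable section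

section Coord

variable {F : Type*} [Field F] (E : Affine F)

/-- abscissa of a point (`0` at infinity) -/
def px : E.Point → F
  | .zero => 0
  | .some x _ _ => x

/-- ordinate of a point (`0` at infinity) -/
def py : E.Point → F
  | .zero => 0
  | .some _ y _ => y

@[simp] lemma px_some {x y : F} (h : E.Nonsingular x y) : px E (Point.some x y h) = x := rfl
@[simp] lemma py_some {x y : F} (h : E.Nonsingular x y) : py E (Point.some x y h) = y := rfl

variable [DecidableEq F]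

/-- The coordinates on a subgroup of points, as abstract Weierstrass data. -/
def wdata (S : AddSubgroup E.Point) : WData S F where
  a1 := E.a₁
  a2 := E.a₂
  a3 := E.a₃
  a4 := E.a₄
  a6 := E.a₆
  X := fun P => px E (P : E.Point)
  Y := fun P => py E (P : E.Point)
  eqn := by
    rintro ⟨P, hPS⟩ hP
    rcases P with _ | ⟨x, y, h⟩
    · exact absurd (Subtype.ext rfl) hP
    · exact (Affine.equation_iff x y).mp h.1
  X_neg := by
    rintro ⟨P, hPS⟩ hP
    rcases P with _ | ⟨x, y, h⟩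
    · exact absurd (Subtype.ext rfl) hP
    · rfl
  Y_neg := by
    rintro ⟨P, hPS⟩ hP
    rcases P with _ | ⟨x, y, h⟩
    · exact absurd (Subtype.ext rfl) hP
    · show E.negY x y = -y - E.a₁ * x - E.a₃
      rfl
  inj := by
    rintro ⟨P, hPS⟩ ⟨Q, hQS⟩ hP hQ hx hy
    rcases P with _ | ⟨x, y, h⟩
    · exact absurd (Subtype.ext rfl) hP
    rcases Q with _ | ⟨x', y', h'⟩
    · exact absurd (Subtype.ext rfl) hQ
    · apply Subtype.ext
      change x = x' at hx
      change y = y' at hy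
      subst hx; subst hy; rfl
  add_X := by
    rintro ⟨P, hPS⟩ ⟨Q, hQS⟩ hP hQ hx
    rcases P with _ | ⟨x₁, y₁, h₁⟩
    · exact absurd (Subtype.ext rfl) hP
    rcases Q with _ | ⟨x₂, y₂, h₂⟩
    · exact absurd (Subtype.ext rfl) hQ
    change x₁ ≠ x₂ at hx
    have hxy : ¬(x₁ = x₂ ∧ y₁ = E.negY x₂ y₂) := fun h => hx h.1
    have hsum : px E (Point.some x₁ y₁ h₁ + Point.some x₂ y₂ h₂) =
        E.addX x₁ x₂ (E.slope x₁ x₂ y₁ y₂) := by
      rw [Point.add_some hxy]; rfl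
    show px E (Point.some x₁ y₁ h₁ + Point.some x₂ y₂ h₂) * (x₁ - x₂) ^ 2 = _
    rw [hsum, Affine.slope_of_X_ne hx]
    have hd : x₁ - x₂ ≠ 0 := sub_ne_zero.mpr hx
    have hL := div_mul_cancel₀ (y₁ - y₂) hd
    generalize (y₁ - y₂) / (x₁ - x₂) = L at hL ⊢
    simp only [Affine.addX, px_some, py_some]
    linear_combination (L * (x₁ - x₂) + (y₁ - y₂) + E.a₁ * (x₁ - x₂)) * hL
  dbl_X := by
    rintro ⟨P, hPS⟩ hP h2
    rcases P with _ | ⟨x, y, h⟩
    · exact absurd (Subtype.ext rfl) hP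
    have hy : y ≠ E.negY x y := by
      intro hy
      apply h2
      apply Subtype.ext
      show Point.some x y h + Point.some x y h = 0
      exact Point.add_of_Y_eq rfl hy
    have hxy : ¬(x = x ∧ y = E.negY x y) := fun h => hy h.2
    have hsum : px E (Point.some x y h + Point.some x y h) =
        E.addX x x (E.slope x x y y) := by
      rw [Point.add_some hxy]; rfl
    show px E (Point.some x y h + Point.some x y h) * (2 * y + E.a₁ * x + E.a₃) ^ 2 = _
    rw [hsum, Affine.slope_of_Y_ne rfl hy]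
    have hd : y - E.negY x y ≠ 0 := sub_ne_zero.mpr hy
    have hL := div_mul_cancel₀ (3 * x ^ 2 + 2 * E.a₂ * x + E.a₄ - E.a₁ * y) hd
    generalize (3 * x ^ 2 + 2 * E.a₂ * x + E.a₄ - E.a₁ * y) / (y - E.negY x y) = L at hL ⊢
    simp only [Affine.addX, Affine.negY, px_some, py_some] at hL ⊢
    linear_combination (L * (2 * y + E.a₁ * x + E.a₃)
      + (3 * x ^ 2 + 2 * E.a₂ * x + E.a₄ - E.a₁ * y) + E.a₁ * (2 * y + E.a₁ * x + E.a₃)) * hL

end Coord

section Center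

variable {K : Type*} [Field K]
variable {Γ₀ : Type*} [LinearOrderedCommGroupWithZero Γ₀] {v : Valuation K Γ₀}

theorem val_natCast_le (n : ℕ) : v (n : K) ≤ 1 := by
  induction n with
  | zero => simp
  | succ k ih =>
    rw [Nat.cast_succ]
    exact Valuation.map_add_le v ih (by simp)

theorem val_eq_one_of_sq {z : K} (h : v (z ^ 2) = 1) : v z = 1 := by
  rw [map_pow] at h
  exact (pow_eq_one_iff.mp h).resolve_right (by norm_num)

variable [IsAlgClosed K] [CharZero K]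

/-- **Centring at the node.**  If `v c₄ = 1` and `v Δ < 1`, there is an integral critical point
`(x₀, y₀)` of the Weierstrass equation at which the equation has a non-unit value, together with
the two tangent directions `α₁`, `α₂` there, whose difference is a unit; all four are fixed by
every valuation-preserving, residually trivial ring endomorphism fixing the coefficients. -/
theorem exists_center (E : WeierstrassCurve K) (h1 : v E.a₁ ≤ 1) (h2 : v E.a₂ ≤ 1)
    (h3 : v E.a₃ ≤ 1) (h4 : v E.a₄ ≤ 1) (h6 : v E.a₆ ≤ 1) (hc4 : v E.c₄ = 1)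
    (hΔ : v E.Δ < 1) :
    ∃ x₀ y₀ α₁ α₂ : K, v x₀ ≤ 1 ∧ v y₀ ≤ 1 ∧
      E.a₃ + E.a₁ * x₀ + 2 * y₀ = 0 ∧
      E.a₄ + 2 * E.a₂ * x₀ + 3 * x₀ ^ 2 - E.a₁ * y₀ = 0 ∧
      v (E.a₆ + E.a₄ * x₀ + E.a₂ * x₀ ^ 2 + x₀ ^ 3 - y₀ ^ 2 - E.a₁ * x₀ * y₀ - E.a₃ * y₀) < 1 ∧
      α₁ + α₂ = -E.a₁ ∧ α₁ * α₂ = -(E.a₂ + 3 * x₀) ∧ v (α₂ - α₁) = 1 ∧
      ∀ s : K →+* K, (∀ z, v (s z) = v z) → (∀ z, v z ≤ 1 → v (s z - z) < 1) →
        s E.a₁ = E.a₁ → s E.a₂ = E.a₂ → s E.a₃ = E.a₃ → s E.a₄ = E.a₄ → s E.a₆ = E.a₆ →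
        s x₀ = x₀ ∧ s y₀ = y₀ ∧ s α₁ = α₁ ∧ s α₂ = α₂ := by
  have h2K : (2 : K) ≠ 0 := two_ne_zero
  have h864K : (864 : K) ≠ 0 := by norm_num
  have hv2pos : 0 < v (2 : K) := by rw [zero_lt_iff]; exact (Valuation.ne_zero_iff v).mpr h2K
  have hv864pos : 0 < v (864 : K) := by
    rw [zero_lt_iff]; exact (Valuation.ne_zero_iff v).mpr h864K
  have hnum : ∀ n : ℕ, v ((n : ℕ) : K) ≤ 1 := fun n => val_natCast_le n
  have hv2 : v (2 : K) ≤ 1 := by simpa using hnum 2
  have hv3 : v (3 : K) ≤ 1 := by simpa using hnum 3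
  have hv4 : v (4 : K) ≤ 1 := by simpa using hnum 4
  have hv12 : v (12 : K) ≤ 1 := by simpa using hnum 12
  have hv18 : v (18 : K) ≤ 1 := by simpa using hnum 18
  have hv72 : v (72 : K) ≤ 1 := by simpa using hnum 72
  have hv432 : v (432 : K) ≤ 1 := by simpa using hnum 432
  -- integrality of the `b`'s
  have hb2 : v E.b₂ ≤ 1 := by
    rw [WeierstrassCurve.b₂]
    refine Valuation.map_add_le v ?_ ?_
    · rw [map_pow]; exact pow_le_one₀ zero_le h1
    · rw [map_mul]; exact mul_le_one' hv4 h2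
  have hb4 : v E.b₄ ≤ 1 := by
    rw [WeierstrassCurve.b₄]
    refine Valuation.map_add_le v ?_ ?_
    · rw [map_mul]; exact mul_le_one' hv2 h4
    · rw [map_mul]; exact mul_le_one' h1 h3
  have hb6 : v E.b₆ ≤ 1 := by
    rw [WeierstrassCurve.b₆]
    refine Valuation.map_add_le v ?_ ?_
    · rw [map_pow]; exact pow_le_one₀ zero_le h3
    · rw [map_mul]; exact mul_le_one' hv4 h6
  -- a square root of `c₄` with the good sign
  obtain ⟨s₀, hs₀⟩ := IsAlgClosed.exists_pow_nat_eq E.c₄ (n := 2) (by norm_num)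
  have hprodgen : ∀ s : K, s ^ 2 = E.c₄ →
      (E.c₆ + s ^ 3) * (E.c₆ - s ^ 3) = -(1728 * E.Δ) := by
    intro s hs
    rw [E.c_relation]
    linear_combination (-(s ^ 4 + s ^ 2 * E.c₄ + E.c₄ ^ 2)) * hs
  have key : ∀ s : K, s ^ 2 = E.c₄ → v (E.c₆ + s ^ 3) ≤ v (E.c₆ - s ^ 3) →
      v (E.c₆ + s ^ 3) < v (864 : K) := by
    intro s hs hle
    have hvs : v s = 1 := val_eq_one_of_sq (by rw [hs]; exact hc4)
    have hprod := hprodgen s hs
    have hdiff : (E.c₆ + s ^ 3) - (E.c₆ - s ^ 3) = 2 * s ^ 3 := by ring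
    have hw : v (2 : K) ≤ v (E.c₆ - s ^ 3) := by
      have : v (2 * s ^ 3) ≤ v (E.c₆ - s ^ 3) := by
        rw [← hdiff]; exact Valuation.map_sub_le v hle le_rfl
      rwa [map_mul, map_pow, hvs, one_pow, mul_one] at this
    have hvprod : v (E.c₆ + s ^ 3) * v (E.c₆ - s ^ 3) = v (2 : K) * (v (864 : K) * v E.Δ) := by
      rw [← map_mul, hprod, Valuation.map_neg, map_mul, show (1728 : K) = 2 * 864 by norm_num,
        map_mul, mul_assoc]
    have h2' : v (E.c₆ + s ^ 3) ≤ v (864 : K) * v E.Δ := by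
      by_contra hcon
      rw [not_le] at hcon
      have h1' : v (2 : K) * (v (864 : K) * v E.Δ) < v (2 : K) * v (E.c₆ + s ^ 3) :=
        mul_lt_mul_of_pos_left hcon hv2pos
      have h2'' : v (2 : K) * v (E.c₆ + s ^ 3) ≤ v (E.c₆ + s ^ 3) * v (E.c₆ - s ^ 3) := by
        rw [mul_comm]; exact mul_le_mul' le_rfl hw
      rw [hvprod] at h2''
      exact lt_irrefl _ (lt_of_lt_of_le h1' h2'')
    calc v (E.c₆ + s ^ 3) ≤ v (864 : K) * v E.Δ := h2'
      _ < v (864 : K) * 1 := mul_lt_mul_of_pos_left hΔ hv864pos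
      _ = v (864 : K) := mul_one _
  obtain ⟨s, hs, hslt⟩ : ∃ s : K, s ^ 2 = E.c₄ ∧ v (E.c₆ + s ^ 3) < v (864 : K) := by
    rcases le_total (v (E.c₆ + s₀ ^ 3)) (v (E.c₆ - s₀ ^ 3)) with h | h
    · exact ⟨s₀, hs₀, key s₀ hs₀ h⟩
    · have e1 : E.c₆ + (-s₀) ^ 3 = E.c₆ - s₀ ^ 3 := by ring
      have e2 : E.c₆ - (-s₀) ^ 3 = E.c₆ + s₀ ^ 3 := by ring
      refine ⟨-s₀, by rw [neg_sq]; exact hs₀, ?_⟩
      exact key (-s₀) (by rw [neg_sq]; exact hs₀) (by rw [e1, e2]; exact h)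
  have hvs : v s = 1 := val_eq_one_of_sq (by rw [hs]; exact hc4)
  -- the critical point
  set e : K := -(E.c₆ + s ^ 3) / 864 with he
  set r : K := (-E.b₂ + s) / 12 with hr
  set y₀ : K := -(E.a₁ * r + E.a₃) / 2 with hy₀
  have h12K : (12 : K) ≠ 0 := by norm_num
  have hve : v e < 1 := by
    rw [he, map_div₀, Valuation.map_neg]
    rw [div_lt_one₀ hv864pos]
    exact hslt
  have hs' : s ^ 2 = E.b₂ ^ 2 - 24 * E.b₄ := by rw [hs, WeierstrassCurve.c₄]
  have hc6 : E.c₆ = -E.b₂ ^ 3 + 36 * E.b₂ * E.b₄ - 216 * E.b₆ := by rw [WeierstrassCurve.c₆]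
  -- integrality of `r`
  have hrc : E.c₄ * r = 18 * E.b₆ - E.b₂ * E.b₄ - 72 * e := by
    rw [hr, he, hc6, ← hs]
    linear_combination (-E.b₂ / 12) * hs'
  have hvr : v r ≤ 1 := by
    have : v (E.c₄ * r) ≤ 1 := by
      rw [hrc]
      refine Valuation.map_sub_le v (Valuation.map_sub_le v ?_ ?_) ?_
      · rw [map_mul]; exact mul_le_one' hv18 hb6
      · rw [map_mul]; exact mul_le_one' hb2 hb4
      · rw [map_mul]; exact mul_le_one' hv72 (le_of_lt hve)
    rwa [map_mul, hc4, one_mul] at this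
  -- the quadratic equation of `r`
  have hquad : 6 * r ^ 2 + E.b₂ * r + E.b₄ = 0 := by
    rw [hr]
    linear_combination (1 / 24 : K) * hs'
  have hb2def : E.b₂ = E.a₁ ^ 2 + 4 * E.a₂ := by rw [WeierstrassCurve.b₂]
  have hb4def : E.b₄ = 2 * E.a₄ + E.a₁ * E.a₃ := by rw [WeierstrassCurve.b₄]
  have hb6def : E.b₆ = E.a₃ ^ 2 + 4 * E.a₆ := by rw [WeierstrassCurve.b₆]
  have hcrit1 : E.a₃ + E.a₁ * r + 2 * y₀ = 0 := by
    rw [hy₀]; field_simp; ring
  have hcrit2 : E.a₄ + 2 * E.a₂ * r + 3 * r ^ 2 - E.a₁ * y₀ = 0 := by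
    have h2y : 2 * y₀ = -(E.a₁ * r + E.a₃) := by rw [hy₀]; field_simp
    have : 2 * (E.a₄ + 2 * E.a₂ * r + 3 * r ^ 2 - E.a₁ * y₀) = 0 := by
      rw [hb2def, hb4def] at hquad
      linear_combination hquad - E.a₁ * h2y
    exact (mul_eq_zero.mp this).resolve_left h2K
  -- integrality of `y₀`
  have hvy : v y₀ ≤ 1 := by
    rcases lt_or_eq_of_le hv2 with h2lt | h2eq
    · -- residue characteristic 2: `a₁` is a unit
      have hvb2 : v E.b₂ = 1 := by
        apply val_eq_one_of_sq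
        have : E.b₂ ^ 2 = E.c₄ + 24 * E.b₄ := by rw [WeierstrassCurve.c₄]; ring
        rw [this, ← hc4]
        apply Valuation.map_add_eq_of_lt_left
        rw [hc4, show (24 : K) = 2 * 12 by norm_num, map_mul, map_mul]
        calc v 2 * v 12 * v E.b₄ ≤ v 2 * 1 * 1 := mul_le_mul' (mul_le_mul' le_rfl hv12) hb4
          _ = v 2 := by rw [mul_one, mul_one]
          _ < 1 := h2lt
      have hva1 : v E.a₁ = 1 := by
        apply val_eq_one_of_sq
        have : E.a₁ ^ 2 = E.b₂ - 4 * E.a₂ := by rw [hb2def]; ring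
        rw [this, ← hvb2]
        apply Valuation.map_sub_eq_of_lt_left
        rw [hvb2, show (4 : K) = 2 * 2 by norm_num, map_mul, map_mul]
        calc v 2 * v 2 * v E.a₂ ≤ v 2 * 1 * 1 := mul_le_mul' (mul_le_mul' le_rfl hv2) h2
          _ = v 2 := by rw [mul_one, mul_one]
          _ < 1 := h2lt
      have h : E.a₁ * y₀ = E.a₄ + 2 * E.a₂ * r + 3 * r ^ 2 := by linear_combination -hcrit2
      have h' : v (E.a₁ * y₀) ≤ 1 := by
        rw [h]
        refine Valuation.map_add_le v (Valuation.map_add_le v h4 ?_) ?_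
        · rw [map_mul, map_mul]; exact mul_le_one' (mul_le_one' hv2 h2) hvr
        · rw [map_mul, map_pow]; exact mul_le_one' hv3 (pow_le_one₀ zero_le hvr)
      rwa [map_mul, hva1, one_mul] at h'
    · rw [hy₀, map_div₀, h2eq, div_one, Valuation.map_neg]
      refine Valuation.map_add_le v ?_ h3
      rw [map_mul]; exact mul_le_one' h1 hvr
  -- the value of the equation at the critical point
  have hval : E.a₆ + E.a₄ * r + E.a₂ * r ^ 2 + r ^ 3 - y₀ ^ 2 - E.a₁ * r * y₀ - E.a₃ * y₀ = e := by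
    have h2y : 2 * y₀ = -(E.a₁ * r + E.a₃) := by rw [hy₀]; field_simp
    have hfour : 4 * (E.a₆ + E.a₄ * r + E.a₂ * r ^ 2 + r ^ 3 - y₀ ^ 2 - E.a₁ * r * y₀
        - E.a₃ * y₀) = 4 * r ^ 3 + E.b₂ * r ^ 2 + 2 * E.b₄ * r + E.b₆ := by
      rw [hb2def, hb4def, hb6def]
      linear_combination (-(2 * y₀ + E.a₁ * r + E.a₃)) * h2y
    have h4e : 4 * r ^ 3 + E.b₂ * r ^ 2 + 2 * E.b₄ * r + E.b₆ = 4 * e := by
      rw [hr, he, hc6]
      linear_combination (s / 144) * hs'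
    have h4K : (4 : K) ≠ 0 := by norm_num
    apply mul_left_cancel₀ h4K
    rw [hfour, h4e]
  -- the tangent directions
  obtain ⟨t, ht⟩ := IsAlgClosed.exists_pow_nat_eq s (n := 2) (by norm_num)
  have hvt : v t = 1 := val_eq_one_of_sq (by rw [ht]; exact hvs)
  set α₁ : K := (-E.a₁ - t) / 2 with hα₁
  set α₂ : K := (-E.a₁ + t) / 2 with hα₂
  have hsum : α₁ + α₂ = -E.a₁ := by rw [hα₁, hα₂]; ring
  have hprod : α₁ * α₂ = -(E.a₂ + 3 * r) := by
    rw [hα₁, hα₂, hr, hb2def]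
    linear_combination (-(1 : K) / 4) * ht
  have hdiff : α₂ - α₁ = t := by rw [hα₁, hα₂]; ring
  have hva23 : v (E.a₂ + 3 * r) ≤ 1 := by
    refine Valuation.map_add_le v h2 ?_
    rw [map_mul]; exact mul_le_one' hv3 hvr
  have hvα₁ : v α₁ ≤ 1 := by
    refine val_le_one_of_quad (a := E.a₁) (c := E.a₂ + 3 * r) h1 hva23 ?_
    linear_combination α₁ * hsum - hprod
  refine ⟨r, y₀, α₁, α₂, hvr, hvy, hcrit1, hcrit2, by rw [hval]; exact hve, hsum, hprod,
    by rw [hdiff]; exact hvt, ?_⟩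
  intro σ hσv hσres f1 f2 f3 f4 f6
  have fb2 : σ E.b₂ = E.b₂ := by
    rw [WeierstrassCurve.b₂]; simp only [map_add, map_pow, map_mul, map_ofNat, f1, f2]
  have fb4 : σ E.b₄ = E.b₄ := by
    rw [WeierstrassCurve.b₄]; simp only [map_add, map_mul, map_ofNat, f1, f3, f4]
  have fb6 : σ E.b₆ = E.b₆ := by
    rw [WeierstrassCurve.b₆]; simp only [map_add, map_pow, map_mul, map_ofNat, f3, f6]
  have fc4 : σ E.c₄ = E.c₄ := by
    rw [WeierstrassCurve.c₄]; simp only [map_sub, map_pow, map_mul, map_ofNat, fb2, fb4]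
  have fc6 : σ E.c₆ = E.c₆ := by
    rw [WeierstrassCurve.c₆]
    simp only [map_sub, map_add, map_neg, map_pow, map_mul, map_ofNat, fb2, fb4, fb6]
  have hσs : σ s = s := by
    have h : σ s ^ 2 = s ^ 2 := by rw [← map_pow, hs, fc4]
    rcases sq_eq_sq_iff_eq_or_eq_neg.mp h with h | h
    · exact h
    · exfalso
      have e1 : σ (E.c₆ + s ^ 3) = E.c₆ - s ^ 3 := by
        rw [map_add, map_pow, fc6, h]; ring
      have hw : v (E.c₆ - s ^ 3) = v (E.c₆ + s ^ 3) := by rw [← e1, hσv]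
      have hdiff2 : (E.c₆ + s ^ 3) - (E.c₆ - s ^ 3) = 2 * s ^ 3 := by ring
      have h2le : v (2 : K) ≤ v (E.c₆ + s ^ 3) := by
        have : v (2 * s ^ 3) ≤ v (E.c₆ + s ^ 3) := by
          rw [← hdiff2]; exact Valuation.map_sub_le v le_rfl (le_of_eq hw)
        rwa [map_mul, map_pow, hvs, one_pow, mul_one] at this
      have hvprod : v (E.c₆ + s ^ 3) * v (E.c₆ + s ^ 3) = v (2 : K) * (v (864 : K) * v E.Δ) := by
        have h0 := congrArg v (hprodgen s hs)
        rw [map_mul, hw, Valuation.map_neg, map_mul, show (1728 : K) = 2 * 864 by norm_num,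
          map_mul, mul_assoc] at h0
        exact h0
      have h864le : v (864 : K) ≤ v (2 : K) := by
        rw [show (864 : K) = 2 * 432 by norm_num, map_mul]
        calc v 2 * v 432 ≤ v 2 * 1 := mul_le_mul' le_rfl hv432
          _ = v 2 := mul_one _
      have hlt : v (2 : K) * (v (864 : K) * v E.Δ) < v (2 : K) * v (2 : K) := by
        refine mul_lt_mul_of_pos_left ?_ hv2pos
        calc v (864 : K) * v E.Δ < v (864 : K) * 1 := mul_lt_mul_of_pos_left hΔ hv864pos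
          _ = v (864 : K) := mul_one _
          _ ≤ v (2 : K) := h864le
      have hge : v (2 : K) * v (2 : K) ≤ v (E.c₆ + s ^ 3) * v (E.c₆ + s ^ 3) :=
        mul_le_mul' h2le h2le
      rw [hvprod] at hge
      exact lt_irrefl _ (lt_of_lt_of_le hlt hge)
  have hσr : σ r = r := by rw [hr, map_div₀, map_add, map_neg, fb2, hσs, map_ofNat]
  have hσy : σ y₀ = y₀ := by
    rw [hy₀, map_div₀, map_neg, map_add, map_mul, f1, f3, hσr, map_ofNat]
  have hσt : σ t = t := by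
    have h : σ t ^ 2 = t ^ 2 := by rw [← map_pow, ht, hσs]
    rcases sq_eq_sq_iff_eq_or_eq_neg.mp h with h | h
    · exact h
    · exfalso
      have e1 : σ α₁ = α₂ := by
        rw [hα₁, hα₂, map_div₀, map_sub, map_neg, f1, h, map_ofNat]; ring
      have : v (σ α₁ - α₁) < 1 := hσres α₁ hvα₁
      rw [e1, hdiff, hvt] at this
      exact lt_irrefl _ this
  refine ⟨hσr, hσy, ?_, ?_⟩
  · rw [hα₁, map_div₀, map_sub, map_neg, f1, hσt, map_ofNat]
  · rw [hα₂, map_div₀, map_add, map_neg, f1, hσt, map_ofNat]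

end Center

section Torsion

open Polynomial

local notation "Qb" => AlgebraicClosure ℚ

/-- The curve over `ℚ̄`. -/
abbrev EQ (W : WeierstrassCurve ℤ) : Affine Qb := ((W.map (Int.castRingHom ℚ)).toAffine⁄Qb)

variable (W : WeierstrassCurve ℤ)

lemma EQ_eq : EQ W = W.map (Int.castRingHom Qb) := Fermat.Agent.P7.RedFix.baseChange_eq W

lemma EQ_a₁ : (EQ W).a₁ = ((W.a₁ : ℤ) : Qb) := by rw [EQ_eq, WeierstrassCurve.map_a₁, eq_intCast]
lemma EQ_a₂ : (EQ W).a₂ = ((W.a₂ : ℤ) : Qb) := by rw [EQ_eq, WeierstrassCurve.map_a₂, eq_intCast]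
lemma EQ_a₃ : (EQ W).a₃ = ((W.a₃ : ℤ) : Qb) := by rw [EQ_eq, WeierstrassCurve.map_a₃, eq_intCast]
lemma EQ_a₄ : (EQ W).a₄ = ((W.a₄ : ℤ) : Qb) := by rw [EQ_eq, WeierstrassCurve.map_a₄, eq_intCast]
lemma EQ_a₆ : (EQ W).a₆ = ((W.a₆ : ℤ) : Qb) := by rw [EQ_eq, WeierstrassCurve.map_a₆, eq_intCast]
lemma EQ_c₄ : (EQ W).c₄ = ((W.c₄ : ℤ) : Qb) := by rw [EQ_eq, WeierstrassCurve.map_c₄, eq_intCast]
lemma EQ_Δ : (EQ W).Δ = ((W.Δ : ℤ) : Qb) := by rw [EQ_eq, WeierstrassCurve.map_Δ, eq_intCast]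

/-- The `m`-torsion subgroup. -/
def torS (m : ℕ) : AddSubgroup (EQ W).Point := (nsmulAddMonoidHom (α := (EQ W).Point) m).ker

lemma mem_torS {m : ℕ} {P : (EQ W).Point} : P ∈ torS W m ↔ m • P = 0 := by
  rw [torS, AddMonoidHom.mem_ker, nsmulAddMonoidHom_apply]

/-- The Galois action on the `m`-torsion subgroup. -/
def sigmaS (σ : Qb ≃ₐ[ℚ] Qb) (m : ℕ) : torS W m →+ torS W m where
  toFun P := ⟨σ • (P : (EQ W).Point), by
    rw [mem_torS, smul_comm, (mem_torS W).mp P.2]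
    exact smul_zero (A := (EQ W).Point) σ⟩
  map_zero' := Subtype.ext (smul_zero (A := (EQ W).Point) σ)
  map_add' P Q := Subtype.ext (smul_add σ (P : (EQ W).Point) (Q : (EQ W).Point))

lemma sigmaS_coe (σ : Qb ≃ₐ[ℚ] Qb) (m : ℕ) (P : torS W m) :
    ((sigmaS W σ m P : torS W m) : (EQ W).Point) = σ • (P : (EQ W).Point) := rfl

end Torsion

section Main

open Polynomial

local notation "Qb" => AlgebraicClosure ℚ

variable (W : WeierstrassCurve ℤ) {q m : ℕ}

/-- **Nonzero torsion points of odd order prime to `q` have `A`-integral coordinates.** -/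
theorem coord_mem (hq : q.Prime) (hm : Odd m) (hqm : ¬ q ∣ m) (A : ValuationSubring Qb)
    (hA : A.LiesOverPrime q) {x y : Qb} (h : (EQ W).Nonsingular x y)
    (hP : m • Point.some x y h = 0) : x ∈ A ∧ y ∈ A := by
  have hx0 := (Fermat.Agent.Lib.DivPoly.nsmul_eq_zero_iff_preΨ' (EQ W) h hm).mp hP
  have hpsi : (EQ W).preΨ' m = (W.preΨ' m).map (Int.castRingHom Qb) := by
    rw [EQ_eq, WeierstrassCurve.map_preΨ']
  rw [hpsi] at hx0
  have hm0 : m ≠ 0 := by
    rintro rfl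
    simp at hm
  have hlcf : (W.preΨ' m).leadingCoeff = (m : ℤ) := by
    rw [W.leadingCoeff_preΨ' (by exact_mod_cast hm0), if_neg (Nat.not_even_iff_odd.mpr hm)]
  have hqm' : ¬ (q : ℤ) ∣ (m : ℤ) := by
    rw [Int.natCast_dvd_natCast]; exact hqm
  have hlc : A.valuation (((W.preΨ' m).leadingCoeff : ℤ) : Qb) = 1 := by
    rw [hlcf]
    exact Fermat.Agent.Lib.FrobAlt.val_intCast_eq_one A hq hA hqm'
  have hx : x ∈ A := Fermat.Agent.P7.RedFix.mem_of_root A (W.preΨ' m) hlc hx0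
  have hintA : ∀ n : ℤ, ((n : ℤ) : Qb) ∈ A := fun n =>
    (A.valuation_le_one_iff _).mp (Fermat.Agent.Lib.FrobAlt.val_intCast_le_one A n)
  have he := (Affine.equation_iff x y).mp h.1
  rw [EQ_a₁, EQ_a₂, EQ_a₃, EQ_a₄, EQ_a₆] at he
  refine ⟨hx, Fermat.Agent.P7.RedFix.mem_of_quadratic A (b := (W.a₁ : Qb) * x + (W.a₃ : Qb))
    (c := x ^ 3 + (W.a₂ : Qb) * x ^ 2 + (W.a₄ : Qb) * x + (W.a₆ : Qb)) ?_ ?_ ?_⟩
  · exact add_mem (mul_mem (hintA _) hx) (hintA _)
  · exact add_mem (add_mem (add_mem (pow_mem hx 3) (mul_mem (hintA _) (pow_mem hx 2)))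
      (mul_mem (hintA _) hx)) (hintA _)
  · linear_combination he

/-- The hypotheses of the abstract core hold for the `m`-torsion and an inertia element. -/
theorem base (hq : q.Prime) (hm : Odd m) (hqm : ¬ q ∣ m) (A : ValuationSubring Qb)
    (hA : A.LiesOverPrime q) (σ : Qb ≃ₐ[ℚ] Qb) (hσ : σ ∈ A.inertiaSubgroupIn ℚ) :
    Base (wdata (EQ W) (torS W m)) A.valuation (sigmaS W σ m) (σ : Qb →+* Qb) m where
  hX := by
    rintro ⟨P, hPS⟩ hP
    rcases P with _ | ⟨x, y, h⟩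
    · exact absurd (Subtype.ext rfl) hP
    · exact (A.valuation_le_one_iff x).mpr
        (coord_mem W hq hm hqm A hA h ((mem_torS W).mp hPS)).1
  hY := by
    rintro ⟨P, hPS⟩ hP
    rcases P with _ | ⟨x, y, h⟩
    · exact absurd (Subtype.ext rfl) hP
    · exact (A.valuation_le_one_iff y).mpr
        (coord_mem W hq hm hqm A hA h ((mem_torS W).mp hPS)).2
  ha1 := by
    show A.valuation (EQ W).a₁ ≤ 1
    rw [EQ_a₁]; exact Fermat.Agent.Lib.FrobAlt.val_intCast_le_one A _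
  ha2 := by
    show A.valuation (EQ W).a₂ ≤ 1
    rw [EQ_a₂]; exact Fermat.Agent.Lib.FrobAlt.val_intCast_le_one A _
  hodd := hm
  htors := by
    rintro ⟨P, hPS⟩
    apply Subtype.ext
    rw [AddSubgroup.coe_nsmul]
    exact (mem_torS W).mp hPS
  σX := by
    rintro ⟨P, hPS⟩ hP
    rcases P with _ | ⟨x, y, h⟩
    · exact absurd (Subtype.ext rfl) hP
    · rfl
  σY := by
    rintro ⟨P, hPS⟩ hP
    rcases P with _ | ⟨x, y, h⟩
    · exact absurd (Subtype.ext rfl) hP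
    · rfl
  σne := by
    intro P hP h
    apply hP
    apply Subtype.ext
    have h' : σ • (P : (EQ W).Point) = 0 := congrArg Subtype.val h
    exact (smul_eq_zero_iff_eq σ).mp h'
  sv := fun z => Fermat.Agent.S05.Inertia.valuation_apply A
    (Fermat.Agent.S05.Inertia.mem_decomp_of_mem_inertiaIn A hσ) z
  sres := fun z hz => Fermat.Agent.S05.Inertia.valuation_sub_lt_one A hσ hz

/-- At a prime of good reduction, an integral point of the curve is nonsingular modulo `𝔪`. -/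
theorem good_aux (hq : q.Prime) (A : ValuationSubring Qb) (hA : A.LiesOverPrime q)
    (hgood : ¬ (q : ℤ) ∣ W.Δ) {x y : Qb} (hx : x ∈ A) (hy : y ∈ A)
    (heq : Fermat.Agent.P7.RedFix.Eqn W Qb x y)
    (h1 : A.valuation (2 * y + (W.a₁ : Qb) * x + (W.a₃ : Qb)) < 1)
    (h2 : A.valuation (3 * x ^ 2 + 2 * (W.a₂ : Qb) * x + (W.a₄ : Qb) - (W.a₁ : Qb) * y) < 1) :
    False := by
  let xA : A := ⟨x, hx⟩
  let yA : A := ⟨y, hy⟩
  have e1 : Fermat.Agent.P7.RedFix.Eqn W A xA yA :=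
    Fermat.Agent.P7.RedFix.Eqn.of_map W A.subtype Subtype.coe_injective heq
  have e2 := Fermat.Agent.P7.RedFix.Eqn.map W (IsLocalRing.residue A) e1
  have hΔ : (W.map (Int.castRingHom (IsLocalRing.ResidueField A))).Δ ≠ 0 := by
    rw [WeierstrassCurve.map_Δ, eq_intCast]
    exact Fermat.Agent.P7.RedFix.residue_intCast_ne_zero A
      (Fermat.Agent.Lib.FrobAlt.val_intCast_eq_one A hq hA hgood)
  have hns := ((W.map (Int.castRingHom (IsLocalRing.ResidueField A))).toAffine.equation_iff_nonsingular_of_Δ_ne_zero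
    hΔ).mp ((Fermat.Agent.P7.RedFix.equation_iff_eqn W _ _ _).mpr e2)
  rw [Affine.nonsingular_iff] at hns
  have r1 : IsLocalRing.residue A (2 * yA + (W.a₁ : A) * xA + (W.a₃ : A)) = 0 := by
    rw [IsLocalRing.residue_eq_zero_iff, A.valuation_lt_one_iff]
    push_cast
    exact h1
  have r2 : IsLocalRing.residue A
      (3 * xA ^ 2 + 2 * (W.a₂ : A) * xA + (W.a₄ : A) - (W.a₁ : A) * yA) = 0 := by
    rw [IsLocalRing.residue_eq_zero_iff, A.valuation_lt_one_iff]
    push_cast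
    exact h2
  simp only [map_sub, map_add, map_mul, map_pow, map_intCast, map_ofNat] at r1 r2
  rcases hns.2 with h | h
  · apply h
    simp only [WeierstrassCurve.map_a₁, WeierstrassCurve.map_a₂, WeierstrassCurve.map_a₄,
      eq_intCast]
    linear_combination -r2
  · apply h
    simp only [WeierstrassCurve.map_a₁, WeierstrassCurve.map_a₃, eq_intCast]
    linear_combination r1

/-- **[E-good]** At a prime `q` of good reduction, inertia at `q` acts trivially on the torsion of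
odd order prime to `q`. -/
theorem inertia_trivial (W : WeierstrassCurve ℤ) {q m : ℕ} (hq : q.Prime) (hm : Odd m)
    (hqm : ¬ q ∣ m) (hgood : W.IsGoodPrimeFor q)
    (A : ValuationSubring Qb) (hA : A.LiesOverPrime q) (σ : Qb ≃ₐ[ℚ] Qb)
    (hσ : σ ∈ A.inertiaSubgroupIn ℚ)
    (P : ((W.map (Int.castRingHom ℚ)).toAffine⁄Qb).Point) (hP : m • P = 0) :
    σ • P = P := by
  have B := base W hq hm hqm A hA σ hσ
  have hfix := B.fixed_of_good ?_ ⟨P, (mem_torS W).mpr hP⟩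
  · exact congrArg Subtype.val hfix
  · rintro ⟨Q, hQS⟩ hQ ⟨h1, h2⟩
    rcases Q with _ | ⟨x, y, h⟩
    · exact hQ (Subtype.ext rfl)
    · obtain ⟨hx, hy⟩ := coord_mem W hq hm hqm A hA h ((mem_torS W).mp hQS)
      have heq : Fermat.Agent.P7.RedFix.Eqn W Qb x y := by
        have h' : (W.map (Int.castRingHom Qb)).toAffine.Equation x y := by
          rw [← EQ_eq]; exact h.1
        exact (Fermat.Agent.P7.RedFix.equation_iff_eqn W Qb x y).mp h'
      change A.valuation (2 * y + (EQ W).a₁ * x + (EQ W).a₃) < 1 at h1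
      change A.valuation (3 * x ^ 2 + 2 * (EQ W).a₂ * x + (EQ W).a₄ - (EQ W).a₁ * y) < 1 at h2
      rw [EQ_a₁, EQ_a₃] at h1
      rw [EQ_a₁, EQ_a₂, EQ_a₄] at h2
      exact good_aux W hq A hA hgood hx hy heq h1 h2

/-- **[E-mult]** At a prime `q` of multiplicative reduction (`q ∣ Δ`, `q ∤ c₄`), inertia at `q`
acts unipotently on the torsion of odd order prime to `q`: `(σ - 1)² = 0`. -/
theorem inertia_unipotent (W : WeierstrassCurve ℤ) {q m : ℕ} (hq : q.Prime) (hm : Odd m)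
    (hqm : ¬ q ∣ m) (hΔ : (q : ℤ) ∣ W.Δ) (hc4 : ¬ (q : ℤ) ∣ W.c₄)
    (A : ValuationSubring Qb) (hA : A.LiesOverPrime q) (σ : Qb ≃ₐ[ℚ] Qb)
    (hσ : σ ∈ A.inertiaSubgroupIn ℚ)
    (P : ((W.map (Int.castRingHom ℚ)).toAffine⁄Qb).Point) (hP : m • P = 0) :
    σ • (σ • P - P) = σ • P - P := by
  have B := base W hq hm hqm A hA σ hσ
  have hint : ∀ n : ℤ, A.valuation ((n : ℤ) : Qb) ≤ 1 := fun n =>
    Fermat.Agent.Lib.FrobAlt.val_intCast_le_one A n
  have hvc4 : A.valuation (EQ W).c₄ = 1 := by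
    rw [EQ_c₄]; exact Fermat.Agent.Lib.FrobAlt.val_intCast_eq_one A hq hA hc4
  have hvΔ : A.valuation (EQ W).Δ < 1 := by
    rw [EQ_Δ]
    obtain ⟨k, hk⟩ := hΔ
    rw [hk]
    push_cast
    rw [map_mul]
    have hqv : A.valuation ((q : ℕ) : Qb) < 1 := A.mem_nonunits_iff.mp hA
    calc A.valuation ((q : ℕ) : Qb) * A.valuation ((k : ℤ) : Qb)
        ≤ A.valuation ((q : ℕ) : Qb) * 1 := mul_le_mul' le_rfl (hint k)
      _ = A.valuation ((q : ℕ) : Qb) := mul_one _
      _ < 1 := hqv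
  obtain ⟨x₀, y₀, α₁, α₂, hx₀, hy₀, hc1, hc2, he, hsum, hprod, hδ, hinv⟩ :=
    exists_center (v := A.valuation) (EQ W) (by rw [EQ_a₁]; exact hint _)
      (by rw [EQ_a₂]; exact hint _) (by rw [EQ_a₃]; exact hint _) (by rw [EQ_a₄]; exact hint _)
      (by rw [EQ_a₆]; exact hint _) hvc4 hvΔ
  obtain ⟨sx, sy, sα₁, sα₂⟩ := hinv (σ : Qb →+* Qb) B.sv B.sres
    (by rw [EQ_a₁]; exact map_intCast _ _) (by rw [EQ_a₂]; exact map_intCast _ _)
    (by rw [EQ_a₃]; exact map_intCast _ _) (by rw [EQ_a₄]; exact map_intCast _ _)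
    (by rw [EQ_a₆]; exact map_intCast _ _)
  have B' := B.translate hx₀ hy₀ sx sy
  have H : Node ((wdata (EQ W) (torS W m)).translate x₀ y₀) A.valuation (σ : Qb →+* Qb) α₁ α₂ :=
    { ha3 := hc1, ha4 := hc2, he := he, hsum := hsum, hprod := hprod, hδ := hδ,
      sα₁ := sα₁, sα₂ := sα₂ }
  have h := H.unipotent B' ⟨P, (mem_torS W).mpr hP⟩
  exact congrArg Subtype.val h

end Main

end

end Fermat.Agent.S58.InertiaTorsion
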