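import Mathlib
import Fermat.Prelude.Def_GaloisRep_LocalConditions
import Fermat.Prelude.Def_CuspForm_Newforms
import Fermat.Agent.S58.Att
import Fermat.Agent.S58.Transfer
import Fermat.Agent.S58.InertiaTorsion
import Fermat.Agent.P5.CycloDelta

/-!
# S58 (A2): the level of the newform of a semistable `W` has no square factor (hypothesis form)

`S36Core` is the frozen statement S36 (Carayol's theorem: the `λ`-adic representation of a newform
`g` of level `M` is not unipotent on inertia at a prime `q` with `q² ∥ M`) WITHOUT its hypothesis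
`hres` (residual absolute irreducibility and oddness).

`not_sq_dvd`: assume `S36Core`.  Let `W` be a semistable integral Weierstrass model and `g` a
newform of level `M` with `a_ℓ(g) = a_ℓ(W)` at almost all good primes.  Then no prime `q ≠ p`
(`p` an odd prime) has `v_q(M) = 2`.

Proof: on `W[pⁿ]` the inertia at `q` acts unipotently (`InertiaTorsion.inertia_unipotent` at a
multiplicative prime, `inertia_trivial` at a good prime) and fixes the `p`-power roots of unity,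
so `Transfer.charpoly_eq_of_unipotent` gives `charpoly ρ(σ) = (X - 1)²` for every `σ` in an inertia
group at `q`, i.e. `ρ.IsUnipotentOnInertiaAt q`.
-/

set_option autoImplicit false

open Polynomial WeierstrassCurve WeierstrassCurve.Affine WeierstrassCurve.Affine.Point

namespace Fermat.Agent.S58.NoSquare

local notation "Qb" => AlgebraicClosure ℚ

/-- The frozen statement S36 without the hypothesis `hres`. -/
def S36Core : Prop :=
  ∀ {M : ℕ} [NeZero M] {g : CuspForm (CongruenceSubgroup.Gamma0 M) 2} (_hg : g.IsNewform)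
    (lam : ℕ) [Fact lam.Prime]
    (S : Finset ℕ)
    (O' : Type) [CommRing O'] [IsDomain O'] [IsDiscreteValuationRing O']
    [IsAdicComplete (IsLocalRing.maximalIdeal O') O'] [Finite (IsLocalRing.ResidueField O')]
    [CharZero O'] (_hlamO' : (lam : O') ∈ IsLocalRing.maximalIdeal O')
    (_hlam2 : lam ≠ 2)
    (chig : CuspForm.heckeAlgebra M 2 (↑S : Set ℕ) →+* ℂ)
    (_hchig : ∀ (ℓ : ℕ) (hℓ : ℓ.Prime) (hℓM : ¬ ℓ ∣ M) (hℓS : ℓ ∉ (↑S : Set ℕ)),
      chig (CuspForm.heckeAlgebra.T hℓ hℓM hℓS) = ModularFormClass.qCoeff g ℓ)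
    (iota : chig.range →+* O')
    (_hlamS : lam ∈ S) (_hMS : ∀ q : ℕ, q.Prime → q ∣ M → q ∈ S),
    ∃ (O'' : Type) (_ : CommRing O'') (_ : IsDomain O'') (_ : IsDiscreteValuationRing O'')
      (_ : IsAdicComplete (IsLocalRing.maximalIdeal O'') O'')
      (_ : Finite (IsLocalRing.ResidueField O''))
      (_ : CharZero O'') (_ : Algebra O' O'') (_ : Module.Finite O' O'')
      (_ : IsLocalHom (algebraMap O' O'')),
      Function.Injective (algebraMap O' O'') ∧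
      ∃ ρ : GaloisRepAdic O'',
        (∀ (ℓ : ℕ) (hℓ : ℓ.Prime) (hℓM : ¬ ℓ ∣ M) (hℓS : ℓ ∉ (↑S : Set ℕ)),
          ∀ A : ValuationSubring (AlgebraicClosure ℚ), A.LiesOverPrime ℓ →
            ∀ σ : AlgebraicClosure ℚ ≃ₐ[ℚ] AlgebraicClosure ℚ, A.IsFrobeniusAt σ ℓ →
              LinearMap.charpoly (ρ.ρ σ) =
                X ^ 2 - C (algebraMap O' O'' ((iota.comp chig.rangeRestrict)
                  (CuspForm.heckeAlgebra.T hℓ hℓM hℓS))) * X + C ((ℓ : O''))) ∧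
        (∀ q : ℕ, q.Prime → q ≠ lam → M.factorization q = 2 → ¬ ρ.IsUnipotentOnInertiaAt q)

/-- **(A2)**: no prime `q ≠ p` has `v_q(M) = 2`. -/
theorem not_sq_dvd (h36 : S36Core) (W : WeierstrassCurve ℤ) (hss : W.IsSemistableModel)
    (hΔ : W.Δ ≠ 0) {M : ℕ} [NeZero M]
    {g : CuspForm (CongruenceSubgroup.Gamma0 M) 2} (hg : g.IsNewform) (S₁ : Finset ℕ)
    (hag : ∀ ℓ : ℕ, ℓ.Prime → ℓ ∉ S₁ → W.IsGoodPrimeFor ℓ →
      ModularFormClass.qCoeff g ℓ = (W.apOfModel ℓ : ℂ))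
    (p : ℕ) [Fact p.Prime] (hp2 : p ≠ 2)
    (hFQ : ∀ (n ℓ : ℕ), ℓ.Prime → 5 ≤ ℓ → ℓ ≠ p → W.IsGoodPrimeFor ℓ →
      ∀ A : ValuationSubring Qb, A.LiesOverPrime ℓ → ∀ σ : Qb ≃ₐ[ℚ] Qb, A.IsFrobeniusAt σ ℓ →
        ∀ P : ((W.map (Int.castRingHom ℚ)).toAffine⁄Qb).Point, p ^ n • P = 0 →
          σ • σ • P - W.apOfModel ℓ • σ • P + (ℓ : ℤ) • P = 0)
    {q : ℕ} (hq : q.Prime) (hqp : q ≠ p) (hfac : M.factorization q = 2) : False := by
  classical
  have hp : p.Prime := Fact.out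
  set S : Finset ℕ := insert p M.primeFactors with hS
  have hpS : p ∈ S := Finset.mem_insert_self _ _
  have hMS : ∀ r : ℕ, r.Prime → r ∣ M → r ∈ S := fun r hr hrM =>
    Finset.mem_insert_of_mem (Nat.mem_primeFactors.mpr ⟨hr, hrM, NeZero.ne M⟩)
  obtain ⟨O', _, _, _, _, _, _, chig, iota, hpO', hchig, -⟩ :=
    Fermat.Agent.S58.Att.exists_datum hg.1 p S
  obtain ⟨O'', _, _, _, _, _, _, _, _, _, -, ρ, hρ1, hρ2⟩ :=
    h36 hg p S O' hpO' hp2 chig hchig iota hpS hMS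
  have hpO'' : (p : O'') ∈ IsLocalRing.maximalIdeal O'' := by
    have h1 : algebraMap O' O'' (p : O') ∈ IsLocalRing.maximalIdeal O'' := by
      rw [IsLocalRing.mem_maximalIdeal, mem_nonunits_iff] at hpO' ⊢
      exact fun h => hpO' (isUnit_of_map_unit (algebraMap O' O'') _ h)
    rwa [map_natCast] at h1
  have hρ : ∀ ℓ : ℕ, ℓ.Prime → ℓ ∉ S ∪ S₁ → W.IsGoodPrimeFor ℓ → ℓ ≠ p →
      ∀ A : ValuationSubring Qb, A.LiesOverPrime ℓ → ∀ σ : Qb ≃ₐ[ℚ] Qb, A.IsFrobeniusAt σ ℓ →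
        LinearMap.charpoly (ρ.ρ σ) = X ^ 2 - C ((W.apOfModel ℓ : ℤ) : O'') * X + C (ℓ : O'') := by
    intro ℓ hℓ hℓS hgoodℓ hℓp A hA σ hσ
    have hℓS' : ℓ ∉ (↑S : Set ℕ) := fun h => hℓS (Finset.mem_union_left _ (Finset.mem_coe.mp h))
    have hℓS₁ : ℓ ∉ S₁ := fun h => hℓS (Finset.mem_union_right _ h)
    have hℓM : ¬ ℓ ∣ M := fun h => hℓS' (Finset.mem_coe.mpr (hMS ℓ hℓ h))
    rw [hρ1 ℓ hℓ hℓM hℓS' A hA σ hσ,
      Fermat.Agent.S58.Att.comp_eq_intCast chig iota (CuspForm.heckeAlgebra.T hℓ hℓM hℓS')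
        (W.apOfModel ℓ) ((hchig ℓ hℓ hℓM hℓS').trans (hag ℓ hℓ hℓS₁ hgoodℓ)), map_intCast]
  apply hρ2 q hq hqp hfac
  intro A hA σ hσ
  have hodd : ∀ n : ℕ, Odd (p ^ n) := fun n => (hp.odd_of_ne_two hp2).pow
  have hqpn : ∀ n : ℕ, ¬ q ∣ p ^ n := fun n h =>
    hqp ((Nat.prime_dvd_prime_iff_eq hq hp).mp (hq.dvd_of_dvd_pow h))
  refine Fermat.Agent.S58.Transfer.charpoly_eq_of_unipotent W hΔ hp2 hFQ hpO'' ρ (S ∪ S₁) hρ σ
    (fun k ζ hζ => Fermat.Agent.P5.CycloDelta.inertia_apply_rootOfUnity p hq hqp A hA σ hσ k ζ hζ)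
    ?_
  intro n P hP
  by_cases hbad : (q : ℤ) ∣ W.Δ
  · have h1 := Fermat.Agent.S58.InertiaTorsion.inertia_unipotent W hq (hodd n) (hqpn n) hbad
      (hss q hq hbad) A hA σ hσ P hP
    rw [smul_sub] at h1
    have h2 : σ • σ • P - (2 : ℤ) • σ • P + P = (σ • σ • P - σ • P) - (σ • P - P) := by
      rw [two_zsmul]
      abel
    rw [h2, h1, sub_self]
  · have h1 := Fermat.Agent.S58.InertiaTorsion.inertia_trivial W hq (hodd n) (hqpn n) hbad
      A hA σ hσ P hP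
    rw [h1, h1, two_zsmul]
    abel

end Fermat.Agent.S58.NoSquare
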