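import Mathlib
import Fermat.Agent.P5.WeakChebLift
import Fermat.Agent.Lib.WeakCheb.Main

/-!
# S58: two-sided weak Chebotarev

`Lib.WeakCheb.exists_frob_gens` produces, in a finite Galois extension `M / ℚ`, an unramified prime
`w` whose Frobenius generates the SAME cyclic subgroup as a given `g`.  The exported statement
`Lib.WeakCheb.weakChebotarev'` only keeps `g ∈ ⟨Frob⟩`.  Here both inclusions are lifted to
valuation subrings and Frobenius lifts in `AlgebraicClosure ℚ`: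
`weakChebotarev_two`: `σ ^ j = g` and `g ^ i = σ` on `M`.
-/

set_option autoImplicit false
set_option linter.style.haveILetI false

open NumberField

namespace Fermat.Agent.S58.ChebGen

open Fermat.Agent.Lib.InertiaGlue (Qb primeBelow mem_primeBelow)
open Fermat.Agent.P5.WeakChebLift (exists_valuationSubring_over frob_restrict)

/-- Finite level, two-sided: a prime `w` outside `S` such that every Frobenius at `w` generates
the same cyclic subgroup as `g`. -/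
theorem frobGen_two (M : Type) [Field M] [NumberField M] [IsGalois ℚ M] (g : M ≃ₐ[ℚ] M)
    (S : Finset ℕ) :
    ∃ (ℓ : ℕ) (w : IsDedekindDomain.HeightOneSpectrum (𝓞 M)), ℓ.Prime ∧ ℓ ∉ S ∧
      (ℓ : 𝓞 M) ∈ w.asIdeal ∧
      ∀ σ : M ≃ₐ[ℚ] M, (∀ x : 𝓞 M, σ • x - x ^ ℓ ∈ w.asIdeal) →
        Subgroup.zpowers σ = Subgroup.zpowers g := by
  obtain ⟨w, hun, hS, hz⟩ := Fermat.Agent.Lib.WeakCheb.exists_frob_gens g S
  refine ⟨Fermat.Agent.Lib.WeakCheb.chr w, w, Fermat.Agent.Lib.WeakCheb.chr_prime w, hS,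
    Fermat.Agent.Lib.WeakCheb.natCast_chr_mem w, fun σ hσ => ?_⟩
  rw [Fermat.Agent.Lib.WeakCheb.eq_frob_of_unram w hun σ hσ, hz]

/-- **Two-sided weak Chebotarev.**  For a finite Galois `M / ℚ` inside `AlgebraicClosure ℚ`,
every `g ∈ Gal(Q̄/ℚ)` and every finite set `S`, there are a prime `ℓ ∉ S`, a valuation subring `A`
over `ℓ`, a Frobenius lift `σ` at `A` and `j i : ℕ` with `σ ^ j = g` and `g ^ i = σ` on `M`. -/
theorem weakChebotarev_two (M : IntermediateField ℚ Qb) [FiniteDimensional ℚ M] [IsGalois ℚ M]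
    (g : Qb ≃ₐ[ℚ] Qb) (S : Finset ℕ) :
    ∃ ℓ : ℕ, ℓ.Prime ∧ ℓ ∉ S ∧ ∃ A : ValuationSubring Qb, A.LiesOverPrime ℓ ∧
      ∃ σ : Qb ≃ₐ[ℚ] Qb, A.IsFrobeniusAt σ ℓ ∧
        ∃ j i : ℕ, (∀ x ∈ M, (σ ^ j) x = g x) ∧ (∀ x ∈ M, (g ^ i) x = σ x) := by
  haveI : NumberField M := ⟨⟩
  set γ : M ≃ₐ[ℚ] M := AlgEquiv.restrictNormalHom M g with hγ
  obtain ⟨ℓ, w, hℓ, hℓS, hℓw, hgen⟩ := frobGen_two M γ S
  have hwmax : w.asIdeal.IsMaximal := w.isMaximal
  obtain ⟨A, hA⟩ := exists_valuationSubring_over M w.asIdeal hwmax.ne_top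
  have hAℓ : A.LiesOverPrime ℓ := by
    have h1 := hA (ℓ : 𝓞 M) hℓw
    have h2 : ((algebraMap (𝓞 M) M (ℓ : 𝓞 M) : M) : Qb) = (ℓ : Qb) := by
      rw [map_natCast]
      rfl
    rw [h2] at h1
    exact h1
  have hbelow : primeBelow M A = w.asIdeal := by
    have hle : w.asIdeal ≤ primeBelow M A := fun y hy => (mem_primeBelow M A y).mpr (hA y hy)
    exact (hwmax.eq_of_le (Ideal.IsPrime.ne_top inferInstance) hle).symm
  obtain ⟨σ, hσ⟩ := Fermat.Agent.Lib.FrobExists.exists_isFrobeniusAt A ℓ hℓ hAℓ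
  set ψ : M ≃ₐ[ℚ] M := AlgEquiv.restrictNormalHom M σ with hψdef
  have hψ : ∀ y : 𝓞 M, ψ • y - y ^ ℓ ∈ w.asIdeal := fun y =>
    hbelow ▸ frob_restrict M A σ ℓ hσ y
  have hz : Subgroup.zpowers ψ = Subgroup.zpowers γ := hgen ψ hψ
  have hmem1 : γ ∈ Subgroup.zpowers ψ := hz ▸ Subgroup.mem_zpowers γ
  have hmem2 : ψ ∈ Subgroup.zpowers γ := hz ▸ Subgroup.mem_zpowers ψ
  rw [← mem_powers_iff_mem_zpowers] at hmem1 hmem2
  obtain ⟨j, hj⟩ := hmem1
  obtain ⟨i, hi⟩ := hmem2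
  have hj' : ψ ^ j = γ := hj
  have hi' : γ ^ i = ψ := hi
  -- transfer an equality of restrictions to pointwise equality on `M`
  have key : ∀ a b : Qb ≃ₐ[ℚ] Qb,
      AlgEquiv.restrictNormalHom M a = AlgEquiv.restrictNormalHom M b → ∀ x ∈ M, a x = b x := by
    intro a b hab x hx
    have h2 := AlgEquiv.restrictNormal_commutes a M ⟨x, hx⟩
    have h3 := AlgEquiv.restrictNormal_commutes b M ⟨x, hx⟩
    have h4 : a.restrictNormal M = b.restrictNormal M := hab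
    rw [h4] at h2
    exact h2.symm.trans h3
  refine ⟨ℓ, hℓ, hℓS, A, hAℓ, σ, hσ, j, i, key (σ ^ j) g ?_, key (g ^ i) σ ?_⟩
  · rw [map_pow, ← hψdef, ← hγ, hj']
  · rw [map_pow, ← hψdef, ← hγ, hi']

end Fermat.Agent.S58.ChebGen
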