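import Mathlib
import Fermat.Agent.P7.RedFix

/-!
# S58: a Frobenius power with a fixed point of order `p` bounds `p`

Let `W` be an integral Weierstrass model, `q` a prime of good reduction, `p ≠ q` an odd prime,
`σ` a Frobenius element at a valuation subring `A` of `ℚ̄` over `q`.  If `σ ^ m` (`m ≠ 0`) fixes a
nonzero point `P ∈ W(ℚ̄)[p]`, then `p ≤ 2 q ^ m + 1` (`prime_le_of_fixed`).

Proof (abscissae only; the group law is never reduced).  The abscissae of `k • P`,
`1 ≤ k ≤ (p - 1) / 2`, are pairwise distinct roots of the `p`-th division polynomial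
`f = preΨ'_p`, whose leading coefficient `p` is a unit of `A`; so they lie in `A`.  The reduction
of `f` is separable, so their residues are pairwise distinct.  They are fixed by `σ ^ m`, so the
residues are roots of `X ^ (q ^ m) - X`; hence `(p - 1) / 2 ≤ q ^ m`.
-/

set_option autoImplicit false

namespace Fermat.Agent.S58.FixBound

open Polynomial WeierstrassCurve WeierstrassCurve.Affine WeierstrassCurve.Affine.Point
open Fermat.Agent.P7.RedFix

local notation "Qb" => AlgebraicClosure ℚ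

noncomputable section

/-- The abscissa of a point (`0` for the point at infinity). -/
def xc {K : Type*} [Field K] {W : Affine K} : W.Point → K
  | .zero => 0
  | .some x _ _ => x

lemma xc_smul {E : WeierstrassCurve ℚ} (τ : Qb ≃ₐ[ℚ] Qb) (P : (E⁄Qb).Point) :
    xc (τ • P) = τ (xc P) := by
  rcases P with _ | ⟨x, y, h⟩
  · exact (map_zero τ).symm
  · rfl

/-- Two nonzero points with the same abscissa are equal or opposite. -/
lemma eq_or_eq_neg_of_xc_eq {K : Type*} [Field K] [DecidableEq K] {W : Affine K} {P Q : W.Point}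
    (hP : P ≠ 0) (hQ : Q ≠ 0) (h : xc P = xc Q) : P = Q ∨ P = -Q := by
  rcases P with _ | ⟨x, y, hxy⟩
  · exact absurd rfl hP
  rcases Q with _ | ⟨x', y', hxy'⟩
  · exact absurd rfl hQ
  have hx : x = x' := h
  subst hx
  rcases Y_eq_of_X_eq hxy.1 hxy'.1 rfl with hy | hy
  · left
    subst hy
    rfl
  · right
    rw [Point.neg_some]
    simp only [Point.some.injEq, true_and]
    exact hy

/-- **A Frobenius power `σ ^ m` at a good prime `q` fixing a nonzero point of odd prime order
`p ≠ q` forces `p ≤ 2 q ^ m + 1`.** -/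
theorem prime_le_of_fixed (W : WeierstrassCurve ℤ) {p q : ℕ} (hp : p.Prime) (hp2 : p ≠ 2)
    (hq : q.Prime) (hqp : q ≠ p) (hgood : W.IsGoodPrimeFor q)
    (A : ValuationSubring Qb) (hA : A.LiesOverPrime q)
    (σ : Qb ≃ₐ[ℚ] Qb) (hσ : A.IsFrobeniusAt σ q) {m : ℕ} (hm : m ≠ 0)
    (P : ((W.map (Int.castRingHom ℚ)).toAffine⁄Qb).Point) (hP0 : P ≠ 0) (hpP : p • P = 0)
    (hfix : (σ ^ m) • P = P) : p ≤ 2 * q ^ m + 1 := by
  have hodd : Odd p := hp.odd_of_ne_two hp2
  have hint : ∀ n : ℤ, ¬ (q : ℤ) ∣ n → ((n : ℤ) : IsLocalRing.ResidueField A) ≠ 0 := fun n hn =>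
    residue_intCast_ne_zero A (Fermat.Agent.Lib.FrobAlt.val_intCast_eq_one A hq hA hn)
  set f : ℤ[X] := W.preΨ' p with hf
  have hqp' : ¬ (q : ℤ) ∣ (p : ℤ) := by
    rw [Int.natCast_dvd_natCast]
    exact fun h => hqp ((Nat.prime_dvd_prime_iff_eq hq hp).mp h)
  have hlcf : f.leadingCoeff = (p : ℤ) := by
    rw [hf, W.leadingCoeff_preΨ' (by exact_mod_cast hp.ne_zero),
      if_neg (Nat.not_even_iff_odd.mpr hodd)]
  have hlc : A.valuation ((f.leadingCoeff : ℤ) : Qb) = 1 := by
    rw [hlcf]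
    exact Fermat.Agent.Lib.FrobAlt.val_intCast_eq_one A hq hA hqp'
  have hsep : (f.map (Int.castRingHom (IsLocalRing.ResidueField A))).Separable := by
    have h1 := Fermat.Agent.Lib.DivPoly.separable_preΨ'
      (W := (W.map (Int.castRingHom (IsLocalRing.ResidueField A))).toAffine) (n := p) ?_ hodd ?_
    · rwa [WeierstrassCurve.map_preΨ'] at h1
    · rw [WeierstrassCurve.map_Δ]
      exact hint _ hgood
    · have := hint (p : ℤ) hqp'
      exact_mod_cast this
  have hEeq : ((W.map (Int.castRingHom ℚ)).toAffine⁄Qb) = W.map (Int.castRingHom Qb) :=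
    baseChange_eq W
  have hEpsi : ((W.map (Int.castRingHom ℚ)).toAffine⁄Qb).preΨ' p =
      f.map (Int.castRingHom Qb) := by
    rw [hEeq, WeierstrassCurve.map_preΨ']
  -- `P` has exact order `p`
  have hord : ∀ k : ℕ, k • P = 0 → p ∣ k := by
    intro k hk
    have h1 : addOrderOf P ∣ p := addOrderOf_dvd_of_nsmul_eq_zero hpP
    have h2 : addOrderOf P = p := by
      rcases (Nat.dvd_prime hp).mp h1 with h | h
      · exact absurd (AddMonoid.addOrderOf_eq_one_iff.mp h) hP0
      · exact h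
    rw [← h2]
    exact addOrderOf_dvd_of_nsmul_eq_zero hk
  have hp3 : 3 ≤ p := by
    have := hp.two_le
    omega
  -- the abscissae of the multiples of `P`
  let xk : ℕ → Qb := fun k => xc (k • P)
  have hk0 : ∀ k : ℕ, 1 ≤ k → k ≤ (p - 1) / 2 → k • P ≠ 0 := by
    intro k h1 h2 h0
    have := Nat.le_of_dvd (by omega) (hord k h0)
    omega
  have hroot : ∀ k : ℕ, 1 ≤ k → k ≤ (p - 1) / 2 →
      (f.map (Int.castRingHom Qb)).eval (xk k) = 0 := by
    intro k h1 h2
    have hne := hk0 k h1 h2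
    have hpk : p • (k • P) = 0 := by
      rw [← mul_nsmul, mul_comm, mul_nsmul, hpP, nsmul_zero]
    show (f.map (Int.castRingHom Qb)).eval (xc (k • P)) = 0
    generalize k • P = Q at hne hpk
    rcases Q with _ | ⟨x, y, h⟩
    · exact absurd rfl hne
    · rw [← hEpsi]
      exact (Fermat.Agent.Lib.DivPoly.nsmul_eq_zero_iff_preΨ' _ h hodd).mp hpk
  have hinj : ∀ k k' : ℕ, 1 ≤ k → k ≤ (p - 1) / 2 → 1 ≤ k' → k' ≤ (p - 1) / 2 →
      xk k = xk k' → k = k' := by
    intro k k' h1 h2 h1' h2' hx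
    rcases eq_or_eq_neg_of_xc_eq (hk0 k h1 h2) (hk0 k' h1' h2') hx with h | h
    · by_contra hne
      rcases Nat.lt_or_gt_of_ne hne with hlt | hlt
      · have h0 : (k' - k) • P = 0 := by
          rw [sub_nsmul _ hlt.le, h, add_neg_cancel]
        have := Nat.le_of_dvd (by omega) (hord _ h0)
        omega
      · have h0 : (k - k') • P = 0 := by
          rw [sub_nsmul _ hlt.le, h, add_neg_cancel]
        have := Nat.le_of_dvd (by omega) (hord _ h0)
        omega
    · have h0 : (k + k') • P = 0 := by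
        rw [add_nsmul, h, neg_add_cancel]
      have := Nat.le_of_dvd (by omega) (hord _ h0)
      omega
  have hfixk : ∀ k : ℕ, (σ ^ m) (xk k) = xk k := by
    intro k
    show (σ ^ m) (xc (k • P)) = xc (k • P)
    rw [← xc_smul]
    have h1 : (σ ^ m) • (k • P) = k • ((σ ^ m) • P) :=
      map_nsmul (DistribSMul.toAddMonoidHom
        ((W.map (Int.castRingHom ℚ)).toAffine⁄Qb).Point (σ ^ m)) k P
    rw [h1, hfix]
  have hmemA : ∀ k : ℕ, 1 ≤ k → k ≤ (p - 1) / 2 → xk k ∈ A := fun k h1 h2 =>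
    mem_of_root A f hlc (hroot k h1 h2)
  -- the Frobenius element on residues
  let g : A.decompositionSubgroup ℚ := ⟨σ, hσ.mem_decompositionSubgroup⟩
  have hgres : ∀ a : A, IsLocalRing.residue A (g • a) = IsLocalRing.residue A a ^ q := fun a => by
    rw [IsLocalRing.ResidueField.residue_smul]
    exact hσ.smul_residue_eq _
  have hgcoe : ∀ a : A, ((g • a : A) : Qb) = σ (a : Qb) := fun a => rfl
  have hgpow : ∀ (j : ℕ) (a : A),
      IsLocalRing.residue A ((g ^ j) • a) = IsLocalRing.residue A a ^ (q ^ j) := by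
    intro j
    induction j with
    | zero =>
      intro a
      rw [pow_zero, one_smul, pow_zero, pow_one]
    | succ j ih =>
      intro a
      rw [pow_succ, mul_smul, ih, hgres, ← pow_mul, pow_succ, mul_comm]
  have hgpowcoe : ∀ (j : ℕ) (a : A), (((g ^ j) • a : A) : Qb) = (σ ^ j) (a : Qb) := by
    intro j
    induction j with
    | zero =>
      intro a
      rw [pow_zero, one_smul, pow_zero]
      rfl
    | succ j ih =>
      intro a
      rw [pow_succ, mul_smul, ih, hgcoe, pow_succ]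
      rfl
  have hres : ∀ (k : ℕ) (h1 : 1 ≤ k) (h2 : k ≤ (p - 1) / 2),
      IsLocalRing.residue A ⟨xk k, hmemA k h1 h2⟩ ^ (q ^ m) =
        IsLocalRing.residue A ⟨xk k, hmemA k h1 h2⟩ := by
    intro k h1 h2
    rw [← hgpow]
    congr 1
    apply Subtype.ext
    rw [hgpowcoe]
    exact hfixk k
  -- counting
  classical
  let F : Polynomial (IsLocalRing.ResidueField A) := X ^ (q ^ m) - X
  have hqm : 1 < q ^ m := Nat.one_lt_pow hm hq.one_lt
  have hFdeg : F.natDegree = q ^ m :=
    FiniteField.X_pow_card_sub_X_natDegree_eq (IsLocalRing.ResidueField A) hqm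
  have hF0 : F ≠ 0 := FiniteField.X_pow_card_sub_X_ne_zero (IsLocalRing.ResidueField A) hqm
  let r : ℕ → IsLocalRing.ResidueField A := fun k =>
    if h : 1 ≤ k ∧ k ≤ (p - 1) / 2 then IsLocalRing.residue A ⟨xk k, hmemA k h.1 h.2⟩ else 0
  have hrinj : Set.InjOn r (Finset.Icc 1 ((p - 1) / 2) : Finset ℕ) := by
    intro k hk k' hk' hrr
    rw [Finset.coe_Icc, Set.mem_Icc] at hk hk'
    simp only [r, dif_pos hk, dif_pos hk'] at hrr
    have h3 := residue_injOn_roots A f hlc hsep (x := ⟨xk k, hmemA k hk.1 hk.2⟩)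
      (x' := ⟨xk k', hmemA k' hk'.1 hk'.2⟩) (hroot k hk.1 hk.2) (hroot k' hk'.1 hk'.2) hrr
    exact hinj k k' hk.1 hk.2 hk'.1 hk'.2 (congrArg Subtype.val h3)
  have hrroot : ∀ k ∈ (Finset.Icc 1 ((p - 1) / 2) : Finset ℕ), r k ∈ F.roots.toFinset := by
    intro k hk
    rw [Finset.mem_Icc] at hk
    rw [Multiset.mem_toFinset, mem_roots hF0]
    simp only [r, dif_pos hk, F, IsRoot.def, eval_sub, eval_pow, eval_X]
    rw [hres k hk.1 hk.2, sub_self]
  have hcard : (Finset.Icc 1 ((p - 1) / 2) : Finset ℕ).card ≤ F.roots.toFinset.card :=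
    Finset.card_le_card_of_injOn r hrroot hrinj
  have h2 : F.roots.toFinset.card ≤ q ^ m :=
    (Multiset.toFinset_card_le _).trans ((card_roots' F).trans hFdeg.le)
  rw [Nat.card_Icc] at hcard
  obtain ⟨t, ht⟩ := hodd
  omega

end

end Fermat.Agent.S58.FixBound
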