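import Mathlib
import Fermat.Agent.S58.ChebGen
import Fermat.Agent.S58.FixBound
import Fermat.Agent.P7.NonEis
import Fermat.Agent.S31.Alg

/-!
# S58: a prime at which an attached `λ`-adic representation is "Steinberg" is bad

Let `W` be an integral Weierstrass model and `ρ` a rank-two `λ`-adic Galois representation (over a
local ring `O` with `λ ∈ 𝔪`) whose Frobenius characteristic polynomials at almost all good primes
`ℓ` are `X² - a_ℓ(W) X + ℓ`.

* `exists_fixed_of_det`: every `γ ∈ Gal(ℚ̄/ℚ)` with `det(1 - ρ(γ)) = 0` fixes a nonzero point of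
  `W(ℚ̄)[λ]`.  (Two-sided weak Chebotarev `ChebGen.weakChebotarev_two` on a finite Galois level
  containing the level-one field of `ρ` and the coordinates of `W[λ]`; trace congruences mod `𝔪`;
  `P7.RedFix.exists_fixed_torsion`.)
* `not_isGoodPrimeFor_of_frob`: if moreover a Frobenius element `σ₀` at `q` has characteristic
  polynomial `X² ∓ (q + 1) X + q` and `λ > 2 q² + 1`, then `q` is a bad prime of `W`
  (`det(1 - ρ(σ₀²)) = 0`, so `σ₀²` fixes a nonzero point of order `λ`, contradicting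
  `FixBound.prime_le_of_fixed`).
-/

set_option autoImplicit false

namespace Fermat.Agent.S58.BadPrime

open Polynomial WeierstrassCurve WeierstrassCurve.Affine WeierstrassCurve.Affine.Point

local notation "Qb" => AlgebraicClosure ℚ

section Algebra

variable {T : Type*} [CommRing T] {V : Type*} [AddCommGroup V] [Module T V]
  [Module.Free T V] [Module.Finite T V]

/-- Rank two: `charpoly = X² - tr X + det`, `det(1 ∓ f) = 1 ∓ tr f + det f` and
`tr(f²) = tr(f)² - 2 det f`. -/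
theorem rank_two_identities (f : Module.End T V) (hrank : Module.finrank T V = 2) :
    f.charpoly = X ^ 2 - C (LinearMap.trace T V f) * X + C (LinearMap.det f) ∧
    LinearMap.det (1 - f) = 1 - LinearMap.trace T V f + LinearMap.det f ∧
    LinearMap.det (1 + f) = 1 + LinearMap.trace T V f + LinearMap.det f ∧
    LinearMap.trace T V (f * f) = LinearMap.trace T V f ^ 2 - 2 * LinearMap.det f := by
  nontriviality T
  let b : Module.Basis (Fin 2) T V := Module.finBasisOfFinrankEq T V hrank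
  refine ⟨?_, ?_, ?_, ?_⟩
  · rw [← LinearMap.charpoly_toMatrix f b, Matrix.charpoly_fin_two,
      LinearMap.trace_eq_matrix_trace T b, ← LinearMap.det_toMatrix b]
  · rw [LinearMap.trace_eq_matrix_trace T b, ← LinearMap.det_toMatrix b,
      ← LinearMap.det_toMatrix b, map_sub, LinearMap.toMatrix_one, Matrix.trace_fin_two,
      Matrix.det_fin_two, Matrix.det_fin_two]
    simp only [Matrix.sub_apply, Matrix.one_apply_eq, Matrix.one_apply_ne, ne_eq,
      Fin.isValue, zero_ne_one, one_ne_zero, not_false_eq_true]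
    ring
  · rw [LinearMap.trace_eq_matrix_trace T b, ← LinearMap.det_toMatrix b,
      ← LinearMap.det_toMatrix b, map_add, LinearMap.toMatrix_one, Matrix.trace_fin_two,
      Matrix.det_fin_two, Matrix.det_fin_two]
    simp only [Matrix.add_apply, Matrix.one_apply_eq, Matrix.one_apply_ne, ne_eq,
      Fin.isValue, zero_ne_one, one_ne_zero, not_false_eq_true]
    ring
  · rw [LinearMap.trace_eq_matrix_trace T b, LinearMap.trace_eq_matrix_trace T b,
      ← LinearMap.det_toMatrix b, LinearMap.toMatrix_mul, Matrix.trace_fin_two,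
      Matrix.trace_fin_two, Matrix.det_fin_two, Matrix.mul_apply, Matrix.mul_apply,
      Fin.sum_univ_two, Fin.sum_univ_two]
    ring

omit [Module.Free T V] [Module.Finite T V] in
/-- `det(1 - f ^ i) = 0` if `det(1 - f) = 0`. -/
theorem det_one_sub_pow_eq_zero (f : Module.End T V) (h : LinearMap.det (1 - f) = 0) (i : ℕ) :
    LinearMap.det (1 - f ^ i) = 0 := by
  rw [← mul_neg_geom_sum f i, map_mul, h, zero_mul]

/-- Comparing the coefficients of two monic quadratics. -/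
theorem quad_coeff {R : Type*} [CommRing R] {a b a' b' : R}
    (h : (X ^ 2 - C a * X + C b : R[X]) = X ^ 2 - C a' * X + C b') : a = a' ∧ b = b' := by
  have h0 := congrArg (fun p : R[X] => p.coeff 0) h
  have h1 := congrArg (fun p : R[X] => p.coeff 1) h
  simp only [coeff_add, coeff_sub, coeff_X_pow, coeff_C_mul, coeff_X, coeff_C] at h0 h1
  norm_num at h0 h1
  exact ⟨h1, h0⟩

end Algebra

section Trace

/-- Traces of two Galois elements agreeing on the level-one field of `ρ` are congruent mod `𝔪`. -/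
theorem trace_sub_mem {T : Type} [CommRing T] [IsLocalRing T] (ρ : GaloisRepAdic T)
    (L : IntermediateField ℚ Qb)
    (hL : ∀ σ : Qb ≃ₐ[ℚ] Qb, (∀ x ∈ L, σ x = x) →
      ∀ v : ρ.V, ρ.ρ σ v - v ∈ (IsLocalRing.maximalIdeal T ^ 1) • (⊤ : Submodule T ρ.V))
    (a b : Qb ≃ₐ[ℚ] Qb) (hab : ∀ x ∈ L, a x = b x) :
    LinearMap.trace T ρ.V (ρ.ρ a) - LinearMap.trace T ρ.V (ρ.ρ b) ∈
      IsLocalRing.maximalIdeal T := by
  have hη : ∀ x ∈ L, (b⁻¹ * a) x = x := by
    intro x hx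
    rw [AlgEquiv.mul_apply, hab x hx, AlgEquiv.aut_inv]
    exact b.symm_apply_apply x
  have hfac : ρ.ρ a = ρ.ρ b * ρ.ρ (b⁻¹ * a) := by rw [← map_mul, mul_inv_cancel_left]
  have hdiff : LinearMap.trace T ρ.V (ρ.ρ a) - LinearMap.trace T ρ.V (ρ.ρ b)
      = LinearMap.trace T ρ.V (ρ.ρ b * (ρ.ρ (b⁻¹ * a) - 1)) := by
    rw [mul_sub, mul_one, map_sub, ← hfac]
  rw [hdiff]
  apply Fermat.Agent.S31.Alg.trace_mem_of_forall_mem_smul_top
  intro v
  rw [Module.End.mul_apply, LinearMap.sub_apply, Module.End.one_apply]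
  have h1 := hL _ hη v
  rw [pow_one] at h1
  refine Submodule.smul_induction_on
    (p := fun w => ρ.ρ b w ∈ (IsLocalRing.maximalIdeal T) • (⊤ : Submodule T ρ.V)) h1 ?_ ?_
  · intro r hr w _
    rw [map_smul]
    exact Submodule.smul_mem_smul hr Submodule.mem_top
  · intro x y hx hy
    rw [map_add]
    exact Submodule.add_mem _ hx hy

/-- A Galois element preserves a normal intermediate field. -/
theorem apply_mem_normal (M : IntermediateField ℚ Qb) [Normal ℚ M] (g : Qb ≃ₐ[ℚ] Qb) {y : Qb}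
    (hy : y ∈ M) : g y ∈ M := by
  have h := AlgEquiv.restrictNormal_commutes g M ⟨y, hy⟩
  have h' : g y = ((g.restrictNormal M ⟨y, hy⟩ : M) : Qb) := h.symm
  rw [h']
  exact (g.restrictNormal M ⟨y, hy⟩).2

/-- If `(z : O) ∈ 𝔪` for an integer `z` and `(λ : O) ∈ 𝔪` for a prime `λ`, then `λ ∣ z`. -/
theorem dvd_of_intCast_mem {O : Type*} [CommRing O] [IsLocalRing O] {lam : ℕ} (hlam : lam.Prime)
    (hlamO : (lam : O) ∈ IsLocalRing.maximalIdeal O) {z : ℤ}
    (hz : (z : O) ∈ IsLocalRing.maximalIdeal O) : (lam : ℤ) ∣ z := by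
  by_contra hnd
  have hirr : Irreducible (lam : ℤ) := (Nat.prime_iff_prime_int.mp hlam).irreducible
  obtain ⟨u, v, huv⟩ := (hirr.coprime_iff_not_dvd).mpr hnd
  have h1 : ((u : O) * (lam : O) + (v : O) * (z : O)) ∈ IsLocalRing.maximalIdeal O :=
    add_mem (Ideal.mul_mem_left _ _ hlamO) (Ideal.mul_mem_left _ _ hz)
  have h2 : ((u : O) * (lam : O) + (v : O) * (z : O)) = 1 := by
    have := congrArg (Int.cast : ℤ → O) huv
    push_cast at this
    exact this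
  rw [h2] at h1
  exact (Ideal.ne_top_iff_one _).mp (IsLocalRing.maximalIdeal.isMaximal O).ne_top h1

end Trace

section Main

/-- **Every `γ` with `det(1 - ρ(γ)) = 0` fixes a nonzero point of `W[λ]`**, for a `λ`-adic
representation `ρ` whose Frobenius characteristic polynomials at almost all good primes are those
of `W`. -/
theorem exists_fixed_of_det (W : WeierstrassCurve ℤ) (hΔ : W.Δ ≠ 0) {lam : ℕ} (hlam : lam.Prime)
    (hlam2 : lam ≠ 2) {O : Type} [CommRing O] [IsLocalRing O] (ρ : GaloisRepAdic O)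
    (hlamO : (lam : O) ∈ IsLocalRing.maximalIdeal O) (S₀ : Finset ℕ)
    (hfrob : ∀ ℓ : ℕ, ℓ.Prime → ℓ ∉ S₀ → W.IsGoodPrimeFor ℓ → ℓ ≠ lam →
      ∀ A : ValuationSubring Qb, A.LiesOverPrime ℓ → ∀ σ : Qb ≃ₐ[ℚ] Qb, A.IsFrobeniusAt σ ℓ →
        LinearMap.charpoly (ρ.ρ σ) = X ^ 2 - C ((W.apOfModel ℓ : ℤ) : O) * X + C (ℓ : O))
    (γ : Qb ≃ₐ[ℚ] Qb) (hdet : LinearMap.det (1 - ρ.ρ γ) = 0) :
    ∃ P : ((W.map (Int.castRingHom ℚ)).toAffine⁄Qb).Point, P ≠ 0 ∧ lam • P = 0 ∧ γ • P = P := by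
  obtain ⟨L₁, hL₁fin, hL₁⟩ := ρ.isAdicContinuous 1
  have hEΔ : ((W.map (Int.castRingHom ℚ)).toAffine⁄Qb).Δ ≠ 0 := by
    rw [Fermat.Agent.P7.RedFix.baseChange_eq, WeierstrassCurve.map_Δ, eq_intCast]
    exact_mod_cast hΔ
  have hcard : Nat.card
      (Submodule.torsionBy ℤ ((W.map (Int.castRingHom ℚ)).toAffine⁄Qb).Point lam) = lam ^ 2 :=
    Fermat.Agent.Lib.DivPoly.card_torsionBy_of_natCast_ne_zero _ hEΔ lam
      (Nat.cast_ne_zero.mpr hlam.ne_zero)
  have : Finite (Submodule.torsionBy ℤ ((W.map (Int.castRingHom ℚ)).toAffine⁄Qb).Point lam) :=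
    Nat.finite_of_card_ne_zero (by rw [hcard]; exact pow_ne_zero 2 hlam.ne_zero)
  -- a finite Galois level containing the level-one field of `ρ` and the coordinates of `W[λ]`
  let Cset : Set Qb :=
    ⋃ x : Submodule.torsionBy ℤ ((W.map (Int.castRingHom ℚ)).toAffine⁄Qb).Point lam,
      Fermat.Agent.P7.NonEis.coords (x : ((W.map (Int.castRingHom ℚ)).toAffine⁄Qb).Point)
  have hCfin : Cset.Finite := Set.finite_iUnion fun x => Fermat.Agent.P7.NonEis.coords_finite _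
  have : Finite Cset := hCfin
  have : FiniteDimensional ℚ (IntermediateField.adjoin ℚ Cset) :=
    IntermediateField.finiteDimensional_adjoin fun x _ => Algebra.IsIntegral.isIntegral x
  have : FiniteDimensional ℚ L₁ := hL₁fin
  let M : IntermediateField ℚ Qb :=
    IntermediateField.normalClosure ℚ ↥(L₁ ⊔ IntermediateField.adjoin ℚ Cset) Qb
  have : FiniteDimensional ℚ M := normalClosure.is_finiteDimensional ℚ _ Qb
  have : Normal ℚ M := normalClosure.normal ℚ _ Qb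
  have : IsGalois ℚ M := ⟨⟩
  have hLM : ∀ x ∈ L₁, x ∈ M := fun x hx =>
    IntermediateField.le_normalClosure (L₁ ⊔ IntermediateField.adjoin ℚ Cset)
      ((le_sup_left : L₁ ≤ L₁ ⊔ IntermediateField.adjoin ℚ Cset) hx)
  have hCM : ∀ c ∈ Cset, c ∈ M := fun c hc =>
    IntermediateField.le_normalClosure (L₁ ⊔ IntermediateField.adjoin ℚ Cset)
      ((le_sup_right : IntermediateField.adjoin ℚ Cset ≤ L₁ ⊔ IntermediateField.adjoin ℚ Cset)
        (IntermediateField.subset_adjoin ℚ Cset hc))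
  -- a Frobenius element generating the same cyclic group as `γ` on `M`
  obtain ⟨ℓ, hℓ, hℓS, A, hA, σ, hσ, j, i, hj, hi⟩ :=
    Fermat.Agent.S58.ChebGen.weakChebotarev_two M γ (S₀ ∪ {lam} ∪ W.Δ.natAbs.primeFactors)
  have hℓS' : ℓ ∉ S₀ := fun hmem => hℓS (by simp [hmem])
  have hℓlam : ℓ ≠ lam := fun hmem => hℓS (by simp [hmem])
  have hgood : W.IsGoodPrimeFor ℓ := by
    intro hdvd
    apply hℓS
    have h1 : ℓ ∣ W.Δ.natAbs := Int.natCast_dvd.mp hdvd
    have h2 : ℓ ∈ W.Δ.natAbs.primeFactors :=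
      Nat.mem_primeFactors.mpr ⟨hℓ, h1, Int.natAbs_ne_zero.mpr hΔ⟩
    simp [h2]
  have hch := hfrob ℓ hℓ hℓS' hgood hℓlam A hA σ hσ
  obtain ⟨hc, hd1, -, hsq⟩ := rank_two_identities (ρ.ρ σ) ρ.finrank_eq
  rw [hc] at hch
  obtain ⟨htr, hdt⟩ := quad_coeff hch
  -- the same identities for `γ ^ i`
  obtain ⟨-, hd1', -, hsq'⟩ := rank_two_identities (ρ.ρ (γ ^ i)) ρ.finrank_eq
  have hdet' : LinearMap.det (1 - ρ.ρ (γ ^ i)) = 0 := by
    rw [map_pow]
    exact det_one_sub_pow_eq_zero _ hdet i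
  -- trace congruences
  have hσγ : ∀ x ∈ L₁, σ x = (γ ^ i) x := fun x hx => (hi x (hLM x hx)).symm
  have hσγ2 : ∀ x ∈ L₁, (σ * σ) x = (γ ^ i * γ ^ i) x := by
    intro x hx
    rw [AlgEquiv.mul_apply, AlgEquiv.mul_apply, hi x (hLM x hx),
      hi (σ x) (apply_mem_normal M σ (hLM x hx))]
  have t1 := trace_sub_mem ρ L₁ hL₁ σ (γ ^ i) hσγ
  have t2 := trace_sub_mem ρ L₁ hL₁ (σ * σ) (γ ^ i * γ ^ i) hσγ2
  rw [map_mul ρ.ρ σ σ, map_mul ρ.ρ (γ ^ i) (γ ^ i)] at t2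
  have hmem : (((2 * (1 - W.apOfModel ℓ + (ℓ : ℤ)) : ℤ)) : O) ∈ IsLocalRing.maximalIdeal O := by
    have hkey : (((2 * (1 - W.apOfModel ℓ + (ℓ : ℤ)) : ℤ)) : O) =
        -2 * (LinearMap.trace O ρ.V (ρ.ρ σ) - LinearMap.trace O ρ.V (ρ.ρ (γ ^ i)))
        + (LinearMap.trace O ρ.V (ρ.ρ σ) + LinearMap.trace O ρ.V (ρ.ρ (γ ^ i))) *
          (LinearMap.trace O ρ.V (ρ.ρ σ) - LinearMap.trace O ρ.V (ρ.ρ (γ ^ i)))
        - (LinearMap.trace O ρ.V (ρ.ρ σ * ρ.ρ σ) -
            LinearMap.trace O ρ.V (ρ.ρ (γ ^ i) * ρ.ρ (γ ^ i))) := by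
      rw [hdet'] at hd1'
      push_cast
      rw [hsq, hsq', ← htr, ← hdt]
      linear_combination (-2 : O) * hd1'
    rw [hkey]
    exact sub_mem (add_mem (Ideal.mul_mem_left _ _ t1) (Ideal.mul_mem_left _ _ t1)) t2
  have hdvd2 : (lam : ℤ) ∣ 2 * (1 - W.apOfModel ℓ + (ℓ : ℤ)) := dvd_of_intCast_mem hlam hlamO hmem
  have hdvd : (lam : ℤ) ∣ W.apOfModel ℓ - (ℓ + 1) := by
    rcases (Nat.prime_iff_prime_int.mp hlam).dvd_or_dvd hdvd2 with h | h
    · exfalso
      have h2 : lam ∣ 2 := by exact_mod_cast h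
      exact hlam2 ((Nat.prime_dvd_prime_iff_eq hlam Nat.prime_two).mp h2)
    · have h3 : W.apOfModel ℓ - (ℓ + 1) = -(1 - W.apOfModel ℓ + (ℓ : ℤ)) := by ring
      rw [h3]
      exact (dvd_neg).mpr h
  obtain ⟨P, hP0, hlamP, hσP⟩ :=
    Fermat.Agent.P7.RedFix.exists_fixed_torsion W hlam hlam2 hℓ hℓlam hgood hdvd A hA σ hσ
  refine ⟨P, hP0, hlamP, ?_⟩
  have hPt : P ∈ Submodule.torsionBy ℤ ((W.map (Int.castRingHom ℚ)).toAffine⁄Qb).Point lam := by
    rw [Submodule.mem_torsionBy_iff, natCast_zsmul]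
    exact hlamP
  have hpow : (σ ^ j) • P = P := by
    have hmem : σ ∈ MulAction.stabilizer (Qb ≃ₐ[ℚ] Qb) P := hσP
    exact (MulAction.stabilizer (Qb ≃ₐ[ℚ] Qb) P).pow_mem hmem j
  have hγP : γ • P = (σ ^ j) • P := by
    refine Fermat.Agent.P7.NonEis.smul_eq_smul_of_coords γ (σ ^ j) P fun c hc => ?_
    exact (hj c (hCM c (Set.mem_iUnion.mpr ⟨⟨P, hPt⟩, hc⟩))).symm
  rw [hγP, hpow]

/-- **A prime `q` at which `ρ` looks Steinberg is a bad prime of `W`.**  `ρ` is a `λ`-adic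
representation with `λ > 2 q² + 1` whose Frobenius characteristic polynomials at almost all good
primes are those of `W`, and one Frobenius element `σ₀` at `q` has characteristic polynomial
`X² ∓ (q + 1) X + q`. -/
theorem not_isGoodPrimeFor_of_frob (W : WeierstrassCurve ℤ) {q lam : ℕ} (hq : q.Prime)
    (hlam : lam.Prime) (hlt : 2 * q ^ 2 + 1 < lam)
    {O : Type} [CommRing O] [IsLocalRing O] (ρ : GaloisRepAdic O)
    (hlamO : (lam : O) ∈ IsLocalRing.maximalIdeal O) (S₀ : Finset ℕ)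
    (hfrob : ∀ ℓ : ℕ, ℓ.Prime → ℓ ∉ S₀ → W.IsGoodPrimeFor ℓ → ℓ ≠ lam →
      ∀ A : ValuationSubring Qb, A.LiesOverPrime ℓ → ∀ σ : Qb ≃ₐ[ℚ] Qb, A.IsFrobeniusAt σ ℓ →
        LinearMap.charpoly (ρ.ρ σ) = X ^ 2 - C ((W.apOfModel ℓ : ℤ) : O) * X + C (ℓ : O))
    (A₀ : ValuationSubring Qb) (hA₀ : A₀.LiesOverPrime q) (σ₀ : Qb ≃ₐ[ℚ] Qb)
    (hσ₀ : A₀.IsFrobeniusAt σ₀ q)
    (hch : LinearMap.charpoly (ρ.ρ σ₀) = X ^ 2 - C ((q : O) + 1) * X + C (q : O) ∨
      LinearMap.charpoly (ρ.ρ σ₀) = X ^ 2 + C ((q : O) + 1) * X + C (q : O)) :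
    ¬ W.IsGoodPrimeFor q := by
  intro hgood
  have hΔ : W.Δ ≠ 0 := fun h => hgood (h ▸ dvd_zero _)
  have hq2 := hq.two_le
  have hlam2 : lam ≠ 2 := by
    have : 2 * q ^ 2 + 1 ≥ 2 := by nlinarith
    omega
  have hqlam : q ≠ lam := by
    have : q ≤ q ^ 2 := Nat.le_self_pow (by norm_num) q
    omega
  obtain ⟨hc, hd1, hd2, -⟩ := rank_two_identities (ρ.ρ σ₀) ρ.finrank_eq
  have hprod : LinearMap.det (1 - ρ.ρ σ₀) * LinearMap.det (1 + ρ.ρ σ₀) = 0 := by
    rcases hch with h | h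
    · rw [hc] at h
      obtain ⟨htr, hdt⟩ := quad_coeff h
      rw [hd1, htr, hdt]
      ring
    · rw [hc] at h
      have h' : (X ^ 2 - C (LinearMap.trace O ρ.V (ρ.ρ σ₀)) * X + C (LinearMap.det (ρ.ρ σ₀)) : O[X])
          = X ^ 2 - C (-((q : O) + 1)) * X + C (q : O) := by
        rw [h, map_neg, neg_mul, sub_neg_eq_add]
      obtain ⟨htr, hdt⟩ := quad_coeff h'
      rw [hd2, htr, hdt]
      ring
  have hdet : LinearMap.det (1 - ρ.ρ (σ₀ ^ 2)) = 0 := by
    have h1 : (1 : Module.End O ρ.V) - ρ.ρ (σ₀ ^ 2) = (1 - ρ.ρ σ₀) * (1 + ρ.ρ σ₀) := by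
      rw [map_pow]
      noncomm_ring
    rw [h1, map_mul, hprod]
  obtain ⟨P, hP0, hlamP, hfix⟩ :=
    exists_fixed_of_det W hΔ hlam hlam2 ρ hlamO S₀ hfrob (σ₀ ^ 2) hdet
  have hle := Fermat.Agent.S58.FixBound.prime_le_of_fixed W hlam hlam2 hq hqlam hgood A₀ hA₀ σ₀ hσ₀
    (m := 2) (by norm_num) P hP0 hlamP hfix
  omega

/-- The same with the Steinberg shape required at every Frobenius element at `q` (the form in
which the attached representations are produced). -/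
theorem not_isGoodPrimeFor_of_rep (W : WeierstrassCurve ℤ) {q lam : ℕ} (hq : q.Prime)
    (hlam : lam.Prime) (hlt : 2 * q ^ 2 + 1 < lam)
    {O : Type} [CommRing O] [IsLocalRing O] (ρ : GaloisRepAdic O)
    (hlamO : (lam : O) ∈ IsLocalRing.maximalIdeal O) (S₀ : Finset ℕ)
    (hfrob : ∀ ℓ : ℕ, ℓ.Prime → ℓ ∉ S₀ → W.IsGoodPrimeFor ℓ → ℓ ≠ lam →
      ∀ A : ValuationSubring Qb, A.LiesOverPrime ℓ → ∀ σ : Qb ≃ₐ[ℚ] Qb, A.IsFrobeniusAt σ ℓ →
        LinearMap.charpoly (ρ.ρ σ) = X ^ 2 - C ((W.apOfModel ℓ : ℤ) : O) * X + C (ℓ : O))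
    (hst : ∀ A : ValuationSubring Qb, A.LiesOverPrime q → ∀ σ : Qb ≃ₐ[ℚ] Qb,
      A.IsFrobeniusAt σ q →
        LinearMap.charpoly (ρ.ρ σ) = X ^ 2 - C ((q : O) + 1) * X + C (q : O) ∨
        LinearMap.charpoly (ρ.ρ σ) = X ^ 2 + C ((q : O) + 1) * X + C (q : O)) :
    ¬ W.IsGoodPrimeFor q := by
  obtain ⟨A₀, hA₀, σ₀, hσ₀⟩ := Fermat.Agent.Lib.FrobAlt.exists_isFrobeniusAt q hq
  exact not_isGoodPrimeFor_of_frob W hq hlam hlt ρ hlamO S₀ hfrob A₀ hA₀ σ₀ hσ₀
    (hst A₀ hA₀ σ₀ hσ₀)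

end Main

end Fermat.Agent.S58.BadPrime
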