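import Mathlib
import Fermat.Agent.S35
import Fermat.Agent.S58.Att
import Fermat.Agent.S58.BadPrime

/-!
# S58 (A1): a prime exactly dividing the level of the newform of `W` is a bad prime of `W`

`dvd_Δ_of_newform`: let `g` be a newform of level `M` whose Hecke eigenvalues at almost all good
primes of the integral Weierstrass model `W` are the `a_ℓ(W)`.  Then every prime `q ∥ M` divides
`W.Δ`.

Proof: pick a prime `λ > 2 q² + 1`; the `λ`-adic representation of `g` given by S35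
(`Fermat.Agent.S35.result`, with the datum of `Att.exists_datum`) has Frobenius characteristic
polynomials `X² - a_ℓ(W) X + ℓ` at almost all good primes and `X² ∓ (q + 1) X + q` at `q`;
conclude by `BadPrime.not_isGoodPrimeFor_of_rep`.
-/

set_option autoImplicit false

open Polynomial

namespace Fermat.Agent.S58.BadNewform

/-- **(A1)**: a prime `q ∥ M` is a bad prime of `W`. -/
theorem dvd_Δ_of_newform (W : WeierstrassCurve ℤ) {M : ℕ} [NeZero M]
    {g : CuspForm (CongruenceSubgroup.Gamma0 M) 2} (hg : g.IsNewform) (S₁ : Finset ℕ)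
    (hag : ∀ ℓ : ℕ, ℓ.Prime → ℓ ∉ S₁ → W.IsGoodPrimeFor ℓ →
      ModularFormClass.qCoeff g ℓ = (W.apOfModel ℓ : ℂ))
    {q : ℕ} (hq : q.Prime) (hqM : q ∣ M) (hq2 : ¬ q ^ 2 ∣ M) : (q : ℤ) ∣ W.Δ := by
  classical
  by_contra hgood
  obtain ⟨lam, hlamge, hlam⟩ := Nat.exists_infinite_primes (2 * q ^ 2 + 2)
  have : Fact lam.Prime := ⟨hlam⟩
  have hqlam : q ≠ lam := by
    have : q ≤ q ^ 2 := Nat.le_self_pow (by norm_num) q
    omega
  set S : Finset ℕ := insert lam M.primeFactors with hS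
  have hlamS : lam ∈ S := Finset.mem_insert_self _ _
  have hMS : ∀ p : ℕ, p.Prime → p ∣ M → p ∈ S := fun p hp hpM =>
    Finset.mem_insert_of_mem (Nat.mem_primeFactors.mpr ⟨hp, hpM, NeZero.ne M⟩)
  obtain ⟨O', _, _, _, _, _, _, chig, iota, hlamO', hchig, -⟩ :=
    Fermat.Agent.S58.Att.exists_datum hg.1 lam S
  obtain ⟨O'', _, _, _, _, _, _, _, _, _, -, ρ, hρ1, hρ2⟩ :=
    Fermat.Agent.S35.result hg lam S O' hlamO' chig hchig iota hlamS hMS
  have hlamO'' : (lam : O'') ∈ IsLocalRing.maximalIdeal O'' := by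
    have h1 : algebraMap O' O'' (lam : O') ∈ IsLocalRing.maximalIdeal O'' := by
      rw [IsLocalRing.mem_maximalIdeal, mem_nonunits_iff] at hlamO' ⊢
      exact fun h => hlamO' (isUnit_of_map_unit (algebraMap O' O'') _ h)
    rwa [map_natCast] at h1
  refine Fermat.Agent.S58.BadPrime.not_isGoodPrimeFor_of_rep W hq hlam (by omega) ρ hlamO''
    (S ∪ S₁) ?_ ?_ hgood
  · intro ℓ hℓ hℓS hgoodℓ hℓlam A hA σ hσ
    have hℓS' : ℓ ∉ (↑S : Set ℕ) := fun h => hℓS (Finset.mem_union_left _ (Finset.mem_coe.mp h))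
    have hℓS₁ : ℓ ∉ S₁ := fun h => hℓS (Finset.mem_union_right _ h)
    have hℓM : ¬ ℓ ∣ M := fun h => hℓS' (Finset.mem_coe.mpr (hMS ℓ hℓ h))
    rw [hρ1 ℓ hℓ hℓM hℓS' A hA σ hσ,
      Fermat.Agent.S58.Att.comp_eq_intCast chig iota (CuspForm.heckeAlgebra.T hℓ hℓM hℓS')
        (W.apOfModel ℓ) ((hchig ℓ hℓ hℓM hℓS').trans (hag ℓ hℓ hℓS₁ hgoodℓ)), map_intCast]
  · intro A hA σ hσ
    exact hρ2 q hq hqlam hqM hq2 A hA σ hσ

end Fermat.Agent.S58.BadNewform
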