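import Mathlib
import Fermat.Prelude.Def_CuspForm_Newforms
import Fermat.Agent.Lib.EigenNormalize
import Fermat.Agent.Lib.IntLatticeCongr
import Fermat.Agent.Lib.CoeffLattice
import Fermat.Agent.Lib.DeligneSerre
import Fermat.Agent.P5.G9.EigenHom

/-!
# S58 — [LEVEL-UP]: a good eigensystem of level `M` occurs at every multiple `C` of `M` (helper35)

`exists_eigenform_of_dvd`: for a normalised eigenform `g` of level `M` and `M ∣ C`, `C ≠ 0`, there
is a NORMALISED EIGENFORM `h` of level `C` with `a_ℓ(h) = a_ℓ(g)` for all primes `ℓ ∤ C`.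

Proof (no `V_r` operators).  `Γ₀(C) ≤ Γ₀(M)`, so the same function `g` is a cusp form `up g` of
level `C` with the same `q`-expansion.  For `ℓ ∤ C` the `q`-coefficient formula for `T_ℓ` and the
Hecke relations of `g` at `ℓ` (`ℓ ∤ M`) give `T_ℓ (up g) = a_ℓ(g) • up g`.  The joint eigenspace
of the `T_ℓ`, `ℓ ∤ C`, with these eigenvalues is a nonzero finite-dimensional subspace stable under
the whole commuting family `T_ℓ`, `U_p` of level `C`; a common eigenvector in it normalises to a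
normalised eigenform of level `C`.

`exists_eigenform_of_dvd'` is the same statement with `C ≠ 0` as an explicit hypothesis.
-/

set_option autoImplicit false

namespace Fermat.Agent.S58.LevelUp

open ModularFormClass CongruenceSubgroup
open Fermat.Agent.Lib.EigenNormalize
open Fermat.Agent.Lib.IntLatticeCongr (heckeFam heckeFam_commute heckeFam_of_not_dvd
  exists_normalizedEigenform_of_heckeFam_eigen)

/-- `Γ₀(C) ≤ Γ₀(M)` for `M ∣ C`. -/
theorem gamma0_le_of_dvd {M C : ℕ} (h : M ∣ C) : Gamma0 C ≤ Gamma0 M := by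
  intro A hA
  rw [Gamma0_mem] at hA ⊢
  rw [ZMod.intCast_zmod_eq_zero_iff_dvd] at hA ⊢
  exact (Int.natCast_dvd_natCast.mpr h).trans hA

/-- A cusp form of level `M`, viewed at level `C` for `M ∣ C` (same underlying function). -/
def up {M C : ℕ} (h : M ∣ C) (g : CuspForm (Gamma0 M) 2) : CuspForm (Gamma0 C) 2 where
  toFun := g
  slash_action_eq' := fun γ hγ =>
    SlashInvariantFormClass.slash_action_eq g γ (Subgroup.map_mono (gamma0_le_of_dvd h) hγ)
  holo' := CuspFormClass.holo g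
  zero_at_cusps' := fun hc =>
    CuspFormClass.zero_at_cusps g (hc.mono (Subgroup.map_mono (gamma0_le_of_dvd h)))

theorem coe_up {M C : ℕ} (h : M ∣ C) (g : CuspForm (Gamma0 M) 2) : ⇑(up h g) = ⇑g := rfl

theorem qCoeff_up {M C : ℕ} (h : M ∣ C) (g : CuspForm (Gamma0 M) 2) (n : ℕ) :
    qCoeff (⇑(up h g)) n = qCoeff (⇑g) n := rfl

/-- `up g` is an eigenvector of `T_ℓ` of level `C` (`ℓ ∤ C`) with eigenvalue `a_ℓ(g)`. -/
theorem heckeTLin_up {M C : ℕ} (h : M ∣ C) {g : CuspForm (Gamma0 M) 2}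
    (hg : g.IsNormalizedEigenform) {ℓ : ℕ} (hℓ : ℓ.Prime) (hℓC : ¬ ℓ ∣ C) :
    CuspForm.heckeTLin 2 hℓ hℓC (up h g) = qCoeff (⇑g) ℓ • up h g := by
  apply Fermat.Agent.P5.G9.EigenHom.eq_of_qCoeff_eq
  intro n
  rw [qCoeff_heckeTLin (up h g) hℓ hℓC, qCoeff_smul]
  simp only [qCoeff_up]
  exact Fermat.Agent.P5.G9.EigenHom.hecke_rel_of_recursive (a := fun n => qCoeff ⇑g n) (ℓ : ℂ)
    (qCoeff_zero g) hg.qCoeff_mul_of_coprime hℓ
    (fun r => hg.qCoeff_prime_pow_of_not_dvd ℓ r hℓ (fun d => hℓC (d.trans h))) n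

theorem up_ne_zero {M C : ℕ} (h : M ∣ C) {g : CuspForm (Gamma0 M) 2}
    (hg : g.IsNormalizedEigenform) : up h g ≠ 0 := by
  intro h0
  have h1 : qCoeff (⇑(up h g)) 1 = 0 := by
    rw [h0]
    exact Fermat.Agent.Lib.IntLatticeCongr.qCoeff_zero_form 1
  rw [qCoeff_up, hg.1] at h1
  exact one_ne_zero h1

/-- **Level raising by inclusion.**  The good eigensystem of a normalised eigenform of level `M`
occurs (as a normalised eigenform) at every nonzero multiple `C` of `M`. -/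
theorem exists_eigenform_of_dvd {M C : ℕ} [NeZero C] (hMC : M ∣ C)
    (g : CuspForm (Gamma0 M) 2) (hg : g.IsNormalizedEigenform) :
    ∃ h : CuspForm (Gamma0 C) 2, h.IsNormalizedEigenform ∧
      ∀ ℓ : ℕ, ℓ.Prime → ¬ ℓ ∣ C → qCoeff h ℓ = qCoeff g ℓ := by
  classical
  have : FiniteDimensional ℂ (CuspForm (Gamma0 C) 2) :=
    Fermat.Agent.Lib.CoeffLattice.finiteDimensional_cuspForm C 2
  -- the joint eigenspace
  let W : Submodule ℂ (CuspForm (Gamma0 C) 2) :=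
    { carrier := {w | ∀ (ℓ : ℕ) (hℓ : ℓ.Prime) (hℓC : ¬ ℓ ∣ C),
        CuspForm.heckeTLin 2 hℓ hℓC w = qCoeff (⇑g) ℓ • w}
      add_mem' := by
        intro a b ha hb ℓ hℓ hℓC
        rw [map_add, ha ℓ hℓ hℓC, hb ℓ hℓ hℓC, smul_add]
      zero_mem' := by
        intro ℓ hℓ hℓC
        rw [map_zero, smul_zero]
      smul_mem' := by
        intro r a ha ℓ hℓ hℓC
        rw [map_smul, ha ℓ hℓ hℓC, smul_comm] }
  have hfW : up hMC g ∈ W := fun ℓ hℓ hℓC => heckeTLin_up hMC hg hℓ hℓC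
  have hW : W ≠ ⊥ := fun hb => up_ne_zero hMC hg (by rw [hb] at hfW; simpa using hfW)
  let T : Set (Module.End ℂ (CuspForm (Gamma0 C) 2)) := Set.range (heckeFam C)
  have hcomm : ∀ s ∈ T, ∀ t ∈ T, s * t = t * s := by
    rintro _ ⟨i, rfl⟩ _ ⟨j, rfl⟩
    exact (heckeFam_commute i j).eq
  have hstab : ∀ t ∈ T, ∀ w ∈ W, t w ∈ W := by
    rintro _ ⟨i, rfl⟩ w hw ℓ hℓ hℓC
    have hc : Commute (heckeFam C ⟨ℓ, hℓ⟩) (heckeFam C i) := heckeFam_commute _ _
    rw [heckeFam_of_not_dvd hℓ hℓC] at hc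
    have h1 := congrArg (fun F : Module.End ℂ (CuspForm (Gamma0 C) 2) => F w) hc.eq
    simp only [Module.End.mul_apply] at h1
    rw [h1, hw ℓ hℓ hℓC, map_smul]
  obtain ⟨w, hwW, hw0, hw⟩ :=
    Fermat.Agent.Lib.DeligneSerre.exists_common_eigenvector T hcomm _ W rfl hW hstab
  choose! lam hlam using hw
  obtain ⟨g', hg', hcoef⟩ := exists_normalizedEigenform_of_heckeFam_eigen w hw0
    (fun i => lam (heckeFam C i)) (fun i => hlam _ ⟨i, rfl⟩)
  refine ⟨g', hg', fun ℓ hℓ hℓC => ?_⟩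
  have h1 := hcoef ⟨ℓ, hℓ⟩
  have h2 := hlam (heckeFam C ⟨ℓ, hℓ⟩) ⟨_, rfl⟩
  rw [heckeFam_of_not_dvd hℓ hℓC] at h2
  have h3 : (qCoeff (⇑g) ℓ - lam (CuspForm.heckeTLin 2 hℓ hℓC)) • w = 0 := by
    rw [sub_smul, ← h2, ← hwW ℓ hℓ hℓC, sub_self]
  have h4 : qCoeff (⇑g) ℓ - lam (CuspForm.heckeTLin 2 hℓ hℓC) = 0 := by
    rcases smul_eq_zero.mp h3 with h5 | h5
    · exact h5
    · exact absurd h5 hw0
  show qCoeff (⇑g') ℓ = qCoeff (⇑g) ℓ
  rw [show qCoeff (⇑g') ℓ = lam (heckeFam C ⟨ℓ, hℓ⟩) from h1, heckeFam_of_not_dvd hℓ hℓC]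
  exact (sub_eq_zero.mp h4).symm

/-- `exists_eigenform_of_dvd` with `C ≠ 0` as an explicit hypothesis. -/
theorem exists_eigenform_of_dvd' {M C : ℕ} (hC : C ≠ 0) (hMC : M ∣ C)
    (g : CuspForm (Gamma0 M) 2) (hg : g.IsNormalizedEigenform) :
    ∃ h : CuspForm (Gamma0 C) 2, h.IsNormalizedEigenform ∧
      ∀ ℓ : ℕ, ℓ.Prime → ¬ ℓ ∣ C → qCoeff h ℓ = qCoeff g ℓ :=
  haveI : NeZero C := ⟨hC⟩
  exists_eigenform_of_dvd hMC g hg

end Fermat.Agent.S58.LevelUp
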