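import Mathlib
import Fermat.Prelude.Def_CuspForm_Newforms

/-!
# S58 — [NEW-DESC]: newform descent (helper35)

Prelude vocabulary: `CuspForm.IsNewform g` = `g` is a normalised eigenform whose good eigensystem
occurs at no proper divisor of its level.

`exists_newform_dvd`: for a normalised eigenform `f` of level `N ≠ 0` there are a divisor `M` of
`N` and a NEWFORM `g` of level `M` with `a_ℓ(g) = a_ℓ(f)` for all primes `ℓ ∤ N`.

Proof: take `M ∣ N` minimal such that the good eigensystem of `f` occurs at `M`, and a witness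
`g`.  A witness for `g` at a proper divisor `M'` of `M` would be a witness for `f` at `M' < M`.
-/

set_option autoImplicit false

namespace Fermat.Agent.S58.NewDesc

open ModularFormClass

/-- **Newform descent.** -/
theorem exists_newform_dvd {N : ℕ} (hN : N ≠ 0) (f : CuspForm (CongruenceSubgroup.Gamma0 N) 2)
    (hf : f.IsNormalizedEigenform) :
    ∃ (M : ℕ) (_ : M ∣ N) (g : CuspForm (CongruenceSubgroup.Gamma0 M) 2), g.IsNewform ∧
      ∀ ℓ : ℕ, ℓ.Prime → ¬ ℓ ∣ N → qCoeff g ℓ = qCoeff f ℓ := by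
  classical
  have hex : ∃ M : ℕ, M ∣ N ∧ CuspForm.GoodEigensystemOccursAt f M :=
    ⟨N, dvd_rfl, CuspForm.GoodEigensystemOccursAt.refl hf⟩
  obtain ⟨hMN, g, hg, hgf⟩ := Nat.find_spec hex
  refine ⟨Nat.find hex, hMN, g, ⟨hg, ?_⟩, hgf⟩
  rintro M' hM'M hne ⟨g', hg', hg'g⟩
  have hM0 : Nat.find hex ≠ 0 := fun h0 => hN (by rw [h0] at hMN; exact zero_dvd_iff.mp hMN)
  have hlt : M' < Nat.find hex :=
    lt_of_le_of_ne (Nat.le_of_dvd (Nat.pos_of_ne_zero hM0) hM'M) hne
  refine Nat.find_min hex hlt ⟨hM'M.trans hMN, g', hg', fun ℓ hℓ hℓN => ?_⟩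
  rw [hg'g ℓ hℓ (fun h => hℓN (h.trans hMN)), hgf ℓ hℓ hℓN]

end Fermat.Agent.S58.NewDesc
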