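import Mathlib
import Fermat.Prelude.Def_WeierstrassCurve_ConductorLevel
import Fermat.Prelude.Def_FLTPrelim_ModularRep
import Fermat.Prelude.Def_CuspForm_Newforms
import Fermat.Agent.S58.NewDesc
import Fermat.Agent.S58.LevelUp
import Fermat.Agent.S58.BadNewform

/-!
# S58, top assembly (owner: helper32)

`W` an integral Weierstrass model that is modular of a cube-free level `N` divisible by all bad
primes.  Let `g` be the newform of level `M ∣ N` carrying the good eigensystem (`NewDesc`).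

* (A1) a prime `q ∥ M` divides `Δ` (`BadNewform.dvd_Δ_of_newform`, landed, from S35);
* (A2) no prime `q` has `q² ∥ M` (hypothesis `hA2` here; provider `NoSquare.not_sq_dvd`);
* (A3) `a_ℓ(g) = a_ℓ(W)` at every good prime `ℓ ∤ M` (hypothesis `hA3` here; provider
  `GoodCoeff.qCoeff_eq_apOfModel`).

Hence `M ∣ rad |Δ| = W.conductorLevel`, and `LevelUp` produces a normalised eigenform of level
`W.conductorLevel` with the eigenvalues of `g` outside the level.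
-/

set_option autoImplicit false

namespace Fermat.Agent.S58.Top

open WeierstrassCurve ModularFormClass

/-- A cube-free level is nonzero. -/
theorem ne_zero_of_cubefree {N : ℕ} (hN3 : ∀ q : ℕ, q.Prime → ¬ q ^ 3 ∣ N) : N ≠ 0 := by
  rintro rfl
  exact hN3 2 Nat.prime_two (dvd_zero _)

/-- If every bad prime divides a nonzero level, the discriminant is nonzero. -/
theorem Δ_ne_zero_of_bad (W : WeierstrassCurve ℤ) {N : ℕ} (hN0 : N ≠ 0)
    (hbad : ∀ ℓ : ℕ, ℓ.Prime → (ℓ : ℤ) ∣ W.Δ → ℓ ∣ N) : W.Δ ≠ 0 := by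
  intro hΔ
  obtain ⟨ℓ, hℓN, hℓ⟩ := Nat.exists_infinite_primes (N + 1)
  have h1 : ℓ ∣ N := hbad ℓ hℓ (by rw [hΔ]; exact dvd_zero _)
  have h2 : ℓ ≤ N := Nat.le_of_dvd (Nat.pos_of_ne_zero hN0) h1
  omega

/-- A squarefree-at-every-prime number all of whose prime factors divide `C ≠ 0` divides `C`. -/
theorem dvd_of_factorization_le_one {M C : ℕ} (hM0 : M ≠ 0) (hC0 : C ≠ 0)
    (h : ∀ q : ℕ, q.Prime → q ∣ M → M.factorization q = 1 ∧ q ∣ C) : M ∣ C := by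
  rw [← Nat.factorization_prime_le_iff_dvd hM0 hC0]
  intro q hq
  by_cases hqM : q ∣ M
  · obtain ⟨h1, h2⟩ := h q hq hqM
    rw [h1]
    exact hq.factorization_pos_of_dvd hC0 h2
  · rw [Nat.factorization_eq_zero_of_not_dvd hqM]
    exact Nat.zero_le _

/-- **S58 from (A2) and (A3).** -/
theorem result_of_A2_A3
    (W : WeierstrassCurve ℤ) (N : ℕ)
    (hN : W.IsModularModelOfLevel N) (hbad : ∀ ℓ : ℕ, ℓ.Prime → (ℓ : ℤ) ∣ W.Δ → ℓ ∣ N)
    (hN3 : ∀ q : ℕ, q.Prime → ¬ q ^ 3 ∣ N)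
    (hA2 : ∀ {M : ℕ} [NeZero M] {g : CuspForm (CongruenceSubgroup.Gamma0 M) 2}, g.IsNewform →
      (∀ ℓ : ℕ, ℓ.Prime → ℓ ∉ N.primeFactors → W.IsGoodPrimeFor ℓ →
        qCoeff g ℓ = (W.apOfModel ℓ : ℂ)) →
      ∀ {q : ℕ}, q.Prime → M.factorization q = 2 → False)
    (hA3 : ∀ {M : ℕ} [NeZero M] {g : CuspForm (CongruenceSubgroup.Gamma0 M) 2}, g.IsNewform →
      (∀ ℓ : ℕ, ℓ.Prime → ℓ ∉ N.primeFactors → W.IsGoodPrimeFor ℓ →
        qCoeff g ℓ = (W.apOfModel ℓ : ℂ)) →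
      ∀ {ℓ0 : ℕ}, ℓ0.Prime → W.IsGoodPrimeFor ℓ0 → ¬ ℓ0 ∣ M →
        qCoeff g ℓ0 = (W.apOfModel ℓ0 : ℂ)) :
    W.IsModularModelOfLevel W.conductorLevel := by
  classical
  have hN0 : N ≠ 0 := ne_zero_of_cubefree hN3
  have hΔ : W.Δ ≠ 0 := Δ_ne_zero_of_bad W hN0 hbad
  obtain ⟨f, hf, hfW⟩ := hN
  obtain ⟨M, hMN, g, hg, hgf⟩ := Fermat.Agent.S58.NewDesc.exists_newform_dvd hN0 f hf
  have hM0 : M ≠ 0 := fun h0 => hN0 (by rw [h0] at hMN; exact zero_dvd_iff.mp hMN)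
  have : NeZero M := ⟨hM0⟩
  -- the good eigensystem of `g` is that of `W` outside `N`
  have hag : ∀ ℓ : ℕ, ℓ.Prime → ℓ ∉ N.primeFactors → W.IsGoodPrimeFor ℓ →
      qCoeff g ℓ = (W.apOfModel ℓ : ℂ) := by
    intro ℓ hℓ hℓS hgood
    have hℓN : ¬ ℓ ∣ N := fun h => hℓS (Nat.mem_primeFactors.mpr ⟨hℓ, h, hN0⟩)
    rw [hgf ℓ hℓ hℓN]
    exact hfW ℓ hℓ hgood hℓN
  -- the level of `g` divides the conductor level
  have hC0 : W.conductorLevel ≠ 0 := W.conductorLevel_pos.ne'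
  have hMC : M ∣ W.conductorLevel := by
    refine dvd_of_factorization_le_one hM0 hC0 fun q hq hqM => ?_
    have hpos : 0 < M.factorization q := hq.factorization_pos_of_dvd hM0 hqM
    have hle2 : M.factorization q ≤ 2 := by
      by_contra hgt
      have h3 : q ^ 3 ∣ M := by
        rw [hq.pow_dvd_iff_le_factorization hM0]
        omega
      exact hN3 q hq (h3.trans hMN)
    have hne2 : M.factorization q ≠ 2 := fun h2 => hA2 hg hag hq h2
    have h1 : M.factorization q = 1 := by omega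
    refine ⟨h1, ?_⟩
    have hq2 : ¬ q ^ 2 ∣ M := by
      rw [hq.pow_dvd_iff_le_factorization hM0]
      omega
    have hqΔ : (q : ℤ) ∣ W.Δ :=
      Fermat.Agent.S58.BadNewform.dvd_Δ_of_newform W hg N.primeFactors hag hq hqM hq2
    exact (W.prime_dvd_conductorLevel_iff hΔ hq).mpr hqΔ
  -- level raising
  obtain ⟨h, hh, hhg⟩ :=
    Fermat.Agent.S58.LevelUp.exists_eigenform_of_dvd hMC g hg.1
  refine ⟨h, hh, fun ℓ hℓ hgood hℓC => ?_⟩
  rw [hhg ℓ hℓ hℓC]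
  exact hA3 hg hag hℓ hgood (fun hℓM => hℓC (hℓM.trans hMC))

end Fermat.Agent.S58.Top
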