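import Mathlib
import Fermat.Agent.S58.Top
import Fermat.Agent.S58.GoodCoeff
import Fermat.Agent.S58.NoSquare
import Fermat.Agent.S58.FrobQuadTorsion

/-!
# S58 in hypothesis form (owner: helper32)

`result_of`: the frozen statement S58 from

* `h36 : NoSquare.S36Core` — the frozen statement S36 without its hypothesis `hres`;
* `hFQ2`, `hFQ3` — the Frobenius quadratic relation `φ² - a φ + ℓ = 0` (true point count) for all
  Weierstrass curves with `Δ ≠ 0` over `𝔽_2` and over `𝔽_3` (the shape consumed by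
  `FrobQuadTorsion.frob_quad_torsion_all`).

Everything else is on main: newform descent (`NewDesc`), (A1) `BadNewform.dvd_Δ_of_newform`,
(A2) `NoSquare.not_sq_dvd`, (A3) `GoodCoeff.qCoeff_eq_apOfModel`, level raising (`LevelUp`),
assembled in `Top.result_of_A2_A3`.

The hypotheses `p`, `hp2`, `hirr`, `hp2N` of the frozen statement are not used: with the
`hres`-free form of S36 the auxiliary prime may be chosen freely (`3` or `5`, different from the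
prime `q` under consideration).
-/

set_option autoImplicit false

namespace Fermat.Agent.S58.Final

open WeierstrassCurve WeierstrassCurve.Affine WeierstrassCurve.Affine.Point ModularFormClass
open Fermat.Agent.S52.M2

local notation "Qb" => AlgebraicClosure ℚ

/-- (A3) from the Frobenius quadratic relations over `𝔽_2` and `𝔽_3`. -/
theorem a3_of_fq
    (hFQ2 : ∀ (E0 : WeierstrassCurve (ZMod 2)) (K : Type) [Field K] [Algebra (ZMod 2) K]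
      [IsAlgClosed K] [DecidableEq K], E0.Δ ≠ 0 → ∀ P : (E0.toAffine⁄K).Point,
        frobPt 2 E0 K (frobPt 2 E0 K P)
          - (((2 : ℕ) : ℤ) + 1 - (Nat.card E0.toAffine.Point : ℤ)) • frobPt 2 E0 K P
          + ((2 : ℕ) : ℤ) • P = 0)
    (hFQ3 : ∀ (E0 : WeierstrassCurve (ZMod 3)) (K : Type) [Field K] [Algebra (ZMod 3) K]
      [IsAlgClosed K] [DecidableEq K], E0.Δ ≠ 0 → ∀ P : (E0.toAffine⁄K).Point,
        frobPt 3 E0 K (frobPt 3 E0 K P)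
          - (((3 : ℕ) : ℤ) + 1 - (Nat.card E0.toAffine.Point : ℤ)) • frobPt 3 E0 K P
          + ((3 : ℕ) : ℤ) • P = 0)
    (W : WeierstrassCurve ℤ) (hΔ : W.Δ ≠ 0) {M : ℕ} [NeZero M]
    {g : CuspForm (CongruenceSubgroup.Gamma0 M) 2} (hg : g.IsNewform) (S₁ : Finset ℕ)
    (hag : ∀ ℓ : ℕ, ℓ.Prime → ℓ ∉ S₁ → W.IsGoodPrimeFor ℓ →
      qCoeff g ℓ = (W.apOfModel ℓ : ℂ))
    {ℓ0 : ℕ} (hℓ0 : ℓ0.Prime) (hgood : W.IsGoodPrimeFor ℓ0) (hℓ0M : ¬ ℓ0 ∣ M) :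
    qCoeff g ℓ0 = (W.apOfModel ℓ0 : ℂ) := by
  refine Fermat.Agent.S58.GoodCoeff.qCoeff_eq_apOfModel W hΔ hg S₁ hag hℓ0 hgood hℓ0M ?_
  intro lam n ℓ hlam hlam2 hℓ _ hℓlam hgoodℓ A hA σ hσ P hP
  have hodd : Odd (lam ^ n) := (hlam.odd_of_ne_two hlam2).pow
  have hndvd : ¬ ℓ ∣ lam ^ n := fun h =>
    hℓlam ((Nat.prime_dvd_prime_iff_eq hℓ hlam).mp (hℓ.dvd_of_dvd_pow h))
  exact Fermat.Agent.S58.FrobQuadTorsion.frob_quad_torsion_all hFQ2 hFQ3 W hodd hℓ hndvd hgoodℓ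
    A hA σ hσ P hP

/-- (A2) with a free choice of the auxiliary odd prime. -/
theorem a2_of_s36 (h36 : Fermat.Agent.S58.NoSquare.S36Core)
    (W : WeierstrassCurve ℤ) (hss : W.IsSemistableModel) (hΔ : W.Δ ≠ 0) {M : ℕ} [NeZero M]
    {g : CuspForm (CongruenceSubgroup.Gamma0 M) 2} (hg : g.IsNewform) (S₁ : Finset ℕ)
    (hag : ∀ ℓ : ℕ, ℓ.Prime → ℓ ∉ S₁ → W.IsGoodPrimeFor ℓ →
      qCoeff g ℓ = (W.apOfModel ℓ : ℂ))
    {q : ℕ} (hq : q.Prime) (hfac : M.factorization q = 2) : False := by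
  -- an odd prime `p' ≠ q`
  obtain ⟨p', hp', hp'2, hqp'⟩ : ∃ p' : ℕ, p'.Prime ∧ p' ≠ 2 ∧ q ≠ p' := by
    by_cases h3 : q = 3
    · exact ⟨5, by norm_num, by norm_num, by omega⟩
    · exact ⟨3, by norm_num, by norm_num, h3⟩
  have : Fact p'.Prime := ⟨hp'⟩
  refine Fermat.Agent.S58.NoSquare.not_sq_dvd h36 W hss hΔ hg S₁ hag p' hp'2 ?_ hq hqp' hfac
  intro n ℓ hℓ h5 hℓp' hgoodℓ A hA σ hσ P hP
  have hodd : Odd (p' ^ n) := (hp'.odd_of_ne_two hp'2).pow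
  have hndvd : ¬ ℓ ∣ p' ^ n := fun h =>
    hℓp' ((Nat.prime_dvd_prime_iff_eq hℓ hp').mp (hℓ.dvd_of_dvd_pow h))
  exact Fermat.Agent.S58.FrobQuadTorsion.frob_quad_torsion W hodd hℓ h5 hndvd hgoodℓ
    A hA σ hσ P hP

/-- **The frozen statement S58 from the `hres`-free S36 and the Frobenius quadratic relations
over `𝔽_2` and `𝔽_3`.** -/
theorem result_of (h36 : Fermat.Agent.S58.NoSquare.S36Core)
    (hFQ2 : ∀ (E0 : WeierstrassCurve (ZMod 2)) (K : Type) [Field K] [Algebra (ZMod 2) K]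
      [IsAlgClosed K] [DecidableEq K], E0.Δ ≠ 0 → ∀ P : (E0.toAffine⁄K).Point,
        frobPt 2 E0 K (frobPt 2 E0 K P)
          - (((2 : ℕ) : ℤ) + 1 - (Nat.card E0.toAffine.Point : ℤ)) • frobPt 2 E0 K P
          + ((2 : ℕ) : ℤ) • P = 0)
    (hFQ3 : ∀ (E0 : WeierstrassCurve (ZMod 3)) (K : Type) [Field K] [Algebra (ZMod 3) K]
      [IsAlgClosed K] [DecidableEq K], E0.Δ ≠ 0 → ∀ P : (E0.toAffine⁄K).Point,
        frobPt 3 E0 K (frobPt 3 E0 K P)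
          - (((3 : ℕ) : ℤ) + 1 - (Nat.card E0.toAffine.Point : ℤ)) • frobPt 3 E0 K P
          + ((3 : ℕ) : ℤ) • P = 0)
    (W : WeierstrassCurve ℤ) (hss : W.IsSemistableModel) (N : ℕ)
    (p : ℕ) [Fact p.Prime] (_hp2 : p ≠ 2) (_hirr : W.ModRepIsIrreducible p)
    (_hp2N : ¬ p ^ 2 ∣ N)
    (hN : W.IsModularModelOfLevel N) (hbad : ∀ ℓ : ℕ, ℓ.Prime → (ℓ : ℤ) ∣ W.Δ → ℓ ∣ N)
    (hN3 : ∀ q : ℕ, q.Prime → ¬ q ^ 3 ∣ N) :
    W.IsModularModelOfLevel W.conductorLevel := by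
  have hN0 : N ≠ 0 := Fermat.Agent.S58.Top.ne_zero_of_cubefree hN3
  have hΔ : W.Δ ≠ 0 := Fermat.Agent.S58.Top.Δ_ne_zero_of_bad W hN0 hbad
  exact Fermat.Agent.S58.Top.result_of_A2_A3 W N hN hbad hN3
    (fun hg hag _ hq hfac => a2_of_s36 h36 W hss hΔ hg _ hag hq hfac)
    (fun hg hag _ hℓ0 hgood hℓ0M => a3_of_fq hFQ2 hFQ3 W hΔ hg _ hag hℓ0 hgood hℓ0M)

end Fermat.Agent.S58.Final
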