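import Mathlib
import Fermat.Agent.S58.FrobQuadGen
import Fermat.Agent.S58.FQS.Char2
import Fermat.Agent.S58.FQS.Char3Ord
import Fermat.Agent.S58.FQS.Char3SS

/-!
# S58 / [FQ-small] — the Frobenius quadratic equation for Weierstrass curves over `𝔽_2`, `𝔽_3`

`S52.M2.frob_quadratic` (short models) and `FrobQuadGen.frob_quadratic_general` prove
`φ² - a φ + ℓ = 0` on `E0(K)` for Weierstrass curves over `𝔽_ℓ`, `ℓ ≥ 5`.  This file proves the same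
statement for `ℓ = 2` and `ℓ = 3` (`frob_quadratic_small`) — where short models are not available —
and hence for every prime `ℓ` (`frob_quadratic_all`).  Owner: helper11.

Proof: an `𝔽_ℓ`-rational change of variables (`nf2`, `nf3`, by `decide`) carries every Weierstrass
curve with `Δ ≠ 0` to one of 14 normal forms; the relation is transported by
`P7.VCAdd.baseEquivBC` (`transport`); on the normal forms the number of rational points is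
computed by `decide` and the relation is proved by explicit point computations
(`FQS.Char2`, `FQS.Char3Ord`, `FQS.Char3SS`).
-/

set_option autoImplicit false

namespace Fermat.Agent.S58.FrobQuadSmall

open WeierstrassCurve WeierstrassCurve.Affine
open Fermat.Agent.S52.M2 Fermat.Agent.S52.VC Fermat.Agent.P7.VCAdd

noncomputable section

/-! ### Counting points -/

section Count

variable {R : Type*} [CommRing R]

/-- The explicit nonsingularity predicate. -/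
def NS (W : WeierstrassCurve R) (xy : R × R) : Prop :=
  xy.2 ^ 2 + W.a₁ * xy.1 * xy.2 + W.a₃ * xy.2
      - (xy.1 ^ 3 + W.a₂ * xy.1 ^ 2 + W.a₄ * xy.1 + W.a₆) = 0 ∧
    (W.a₁ * xy.2 - (3 * xy.1 ^ 2 + 2 * W.a₂ * xy.1 + W.a₄) ≠ 0 ∨
      2 * xy.2 + W.a₁ * xy.1 + W.a₃ ≠ 0)

instance decidablePredNS [DecidableEq R] (W : WeierstrassCurve R) : DecidablePred (NS W) :=
  fun _ => inferInstanceAs (Decidable (_ ∧ _))

/-- The number of points of a Weierstrass curve over a finite ring, as a decidable count. -/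
theorem card_point [Fintype R] [DecidableEq R] (W : WeierstrassCurve R) :
    Nat.card W.toAffine.Point = Fintype.card {xy : R × R // NS W xy} + 1 := by
  have e1 : W.toAffine.Point ≃ Option {xy : R × R // NS W xy} :=
    (nonsingularPointEquiv W.toAffine).trans
      (Equiv.optionCongr (Equiv.subtypeEquivRight fun xy => by
        rw [NS, Affine.nonsingular_iff', Affine.equation_iff']))
  rw [Nat.card_congr e1, Nat.card_eq_fintype_card, Fintype.card_option]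

end Count

/-! ### The Frobenius endomorphism in coordinates -/

section Frob

variable (ℓ : ℕ) [Fact ℓ.Prime]

/-- A field which is an `𝔽_ℓ`-algebra has characteristic `ℓ`. -/
theorem char_eq_zero (K : Type*) [Field K] [Algebra (ZMod ℓ) K] : ((ℓ : ℕ) : K) = 0 := by
  rw [← map_natCast (algebraMap (ZMod ℓ) K), ZMod.natCast_self, _root_.map_zero]

/-- The Frobenius `𝔽_ℓ`-algebra endomorphism is `x ↦ x ^ ℓ`. -/
theorem frobeniusAlgHom_apply_eq (K : Type*) [Field K] [Algebra (ZMod ℓ) K] (x : K) :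
    FiniteField.frobeniusAlgHom (ZMod ℓ) K x = x ^ ℓ := by
  rw [FiniteField.coe_frobeniusAlgHom, ZMod.card]

/-- `frobPt` in coordinates. -/
theorem frobPt_some (E0 : WeierstrassCurve (ZMod ℓ)) (K : Type) [Field K] [Algebra (ZMod ℓ) K]
    [DecidableEq K] (x y : K) (h : (E0.toAffine⁄K).Nonsingular x y) :
    ∃ h' : (E0.toAffine⁄K).Nonsingular (x ^ ℓ) (y ^ ℓ),
      frobPt ℓ E0 K (Point.some x y h) = Point.some _ _ h' := by
  have e : frobPt ℓ E0 K (Point.some x y h) =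
      Point.some (FiniteField.frobeniusAlgHom (ZMod ℓ) K x)
        (FiniteField.frobeniusAlgHom (ZMod ℓ) K y)
        ((E0.toAffine.baseChange_nonsingular
          (FiniteField.frobeniusAlgHom (ZMod ℓ) K).injective ..).mpr h) := rfl
  rw [e]
  exact FQS.Basic.some_congr _ _ (frobeniusAlgHom_apply_eq ℓ K x) (frobeniusAlgHom_apply_eq ℓ K y)

/-- Transport of the Frobenius quadratic equation along a change of variables over `𝔽_ℓ`. -/
theorem transport (E0 : WeierstrassCurve (ZMod ℓ)) (C : VariableChange (ZMod ℓ))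
    (K : Type) [Field K] [Algebra (ZMod ℓ) K] [DecidableEq K]
    (key : ∀ Q : ((C • E0).toAffine⁄K).Point,
      frobPt ℓ (C • E0) K (frobPt ℓ (C • E0) K Q)
        - ((ℓ : ℤ) + 1 - (Nat.card (C • E0).toAffine.Point : ℤ)) • frobPt ℓ (C • E0) K Q
        + (ℓ : ℤ) • Q = 0)
    (P : (E0.toAffine⁄K).Point) :
    frobPt ℓ E0 K (frobPt ℓ E0 K P)
      - ((ℓ : ℤ) + 1 - (Nat.card E0.toAffine.Point : ℤ)) • frobPt ℓ E0 K P + (ℓ : ℤ) • P = 0 := by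
  have hcard : Nat.card (C • E0).toAffine.Point = Nat.card E0.toAffine.Point :=
    card_variableChange C E0
  have key' := key (baseEquivBC (K := K) C E0 P)
  have hfrob : ∀ Q : (E0.toAffine⁄K).Point,
      frobPt ℓ (C • E0) K (baseEquivBC (K := K) C E0 Q) =
        baseEquivBC (K := K) C E0 (frobPt ℓ E0 K Q) := fun Q =>
    (FrobQuadGen.baseEquivBC_map C E0 (FiniteField.frobeniusAlgHom (ZMod ℓ) K) Q).symm
  rw [hcard] at key'
  apply (baseEquivBC (K := K) C E0).injective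
  rw [_root_.map_zero, map_add, map_sub, map_zsmul, map_zsmul, ← hfrob (frobPt ℓ E0 K P),
    ← hfrob P]
  exact key'

end Frob

/-! ### The normal forms (machine-generated instantiations) -/

theorem card_c2o0 : Nat.card (⟨1, 0, 0, 0, 1⟩ : WeierstrassCurve (ZMod 2)).toAffine.Point = 4 := by
  rw [card_point]; decide

theorem delta_c2o0 : (⟨1, 0, 0, 0, 1⟩ : WeierstrassCurve (ZMod 2)).Δ ≠ 0 := by decide

theorem fq_c2o0 [Fact (Nat.Prime 2)] (K : Type) [Field K] [Algebra (ZMod 2) K] [IsAlgClosed K]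
    [DecidableEq K] (Q : ((⟨1, 0, 0, 0, 1⟩ : WeierstrassCurve (ZMod 2)).toAffine⁄K).Point) :
    frobPt 2 (⟨1, 0, 0, 0, 1⟩ : WeierstrassCurve (ZMod 2)) K (frobPt 2 (⟨1, 0, 0, 0, 1⟩ : WeierstrassCurve (ZMod 2)) K Q)
      - (((2 : ℕ) : ℤ) + 1 - (Nat.card (⟨1, 0, 0, 0, 1⟩ : WeierstrassCurve (ZMod 2)).toAffine.Point : ℤ)) • frobPt 2 (⟨1, 0, 0, 0, 1⟩ : WeierstrassCurve (ZMod 2)) K Q
      + ((2 : ℕ) : ℤ) • Q = 0 := by
  have hp : (2 : K) = 0 := by simpa using char_eq_zero 2 K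
  have hq := FQS.Char2.quad_c2o0 ((⟨1, 0, 0, 0, 1⟩ : WeierstrassCurve (ZMod 2)).map (algebraMap (ZMod 2) K))
    (by simp [WeierstrassCurve.map]) (by simp [WeierstrassCurve.map]) (by simp [WeierstrassCurve.map])
    (by simp [WeierstrassCurve.map]) (by simp [WeierstrassCurve.map])
    (by rw [WeierstrassCurve.map_Δ]; exact (map_ne_zero_iff _ (algebraMap (ZMod 2) K).injective).mpr delta_c2o0)
    hp (frobPt 2 (⟨1, 0, 0, 0, 1⟩ : WeierstrassCurve (ZMod 2)) K) (frobPt_some 2 (⟨1, 0, 0, 0, 1⟩ : WeierstrassCurve (ZMod 2)) K) Q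
  rw [card_c2o0]
  have e : ((2 : ℕ) : ℤ) + 1 - ((4 : ℕ) : ℤ) = (-1) := by norm_num
  rw [e, Nat.cast_ofNat]
  exact hq

theorem card_c2o1 : Nat.card (⟨1, 1, 0, 0, 1⟩ : WeierstrassCurve (ZMod 2)).toAffine.Point = 2 := by
  rw [card_point]; decide

theorem delta_c2o1 : (⟨1, 1, 0, 0, 1⟩ : WeierstrassCurve (ZMod 2)).Δ ≠ 0 := by decide

theorem fq_c2o1 [Fact (Nat.Prime 2)] (K : Type) [Field K] [Algebra (ZMod 2) K] [IsAlgClosed K]
    [DecidableEq K] (Q : ((⟨1, 1, 0, 0, 1⟩ : WeierstrassCurve (ZMod 2)).toAffine⁄K).Point) :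
    frobPt 2 (⟨1, 1, 0, 0, 1⟩ : WeierstrassCurve (ZMod 2)) K (frobPt 2 (⟨1, 1, 0, 0, 1⟩ : WeierstrassCurve (ZMod 2)) K Q)
      - (((2 : ℕ) : ℤ) + 1 - (Nat.card (⟨1, 1, 0, 0, 1⟩ : WeierstrassCurve (ZMod 2)).toAffine.Point : ℤ)) • frobPt 2 (⟨1, 1, 0, 0, 1⟩ : WeierstrassCurve (ZMod 2)) K Q
      + ((2 : ℕ) : ℤ) • Q = 0 := by
  have hp : (2 : K) = 0 := by simpa using char_eq_zero 2 K
  have hq := FQS.Char2.quad_c2o1 ((⟨1, 1, 0, 0, 1⟩ : WeierstrassCurve (ZMod 2)).map (algebraMap (ZMod 2) K))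
    (by simp [WeierstrassCurve.map]) (by simp [WeierstrassCurve.map]) (by simp [WeierstrassCurve.map])
    (by simp [WeierstrassCurve.map]) (by simp [WeierstrassCurve.map])
    (by rw [WeierstrassCurve.map_Δ]; exact (map_ne_zero_iff _ (algebraMap (ZMod 2) K).injective).mpr delta_c2o1)
    hp (frobPt 2 (⟨1, 1, 0, 0, 1⟩ : WeierstrassCurve (ZMod 2)) K) (frobPt_some 2 (⟨1, 1, 0, 0, 1⟩ : WeierstrassCurve (ZMod 2)) K) Q
  rw [card_c2o1]
  have e : ((2 : ℕ) : ℤ) + 1 - ((2 : ℕ) : ℤ) = 1 := by norm_num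
  rw [e, Nat.cast_ofNat]
  exact hq

theorem card_c2s00 : Nat.card (⟨0, 0, 1, 0, 0⟩ : WeierstrassCurve (ZMod 2)).toAffine.Point = 3 := by
  rw [card_point]; decide

theorem delta_c2s00 : (⟨0, 0, 1, 0, 0⟩ : WeierstrassCurve (ZMod 2)).Δ ≠ 0 := by decide

theorem fq_c2s00 [Fact (Nat.Prime 2)] (K : Type) [Field K] [Algebra (ZMod 2) K] [IsAlgClosed K]
    [DecidableEq K] (Q : ((⟨0, 0, 1, 0, 0⟩ : WeierstrassCurve (ZMod 2)).toAffine⁄K).Point) :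
    frobPt 2 (⟨0, 0, 1, 0, 0⟩ : WeierstrassCurve (ZMod 2)) K (frobPt 2 (⟨0, 0, 1, 0, 0⟩ : WeierstrassCurve (ZMod 2)) K Q)
      - (((2 : ℕ) : ℤ) + 1 - (Nat.card (⟨0, 0, 1, 0, 0⟩ : WeierstrassCurve (ZMod 2)).toAffine.Point : ℤ)) • frobPt 2 (⟨0, 0, 1, 0, 0⟩ : WeierstrassCurve (ZMod 2)) K Q
      + ((2 : ℕ) : ℤ) • Q = 0 := by
  have hp : (2 : K) = 0 := by simpa using char_eq_zero 2 K
  have hq := FQS.Char2.quad_c2s00 ((⟨0, 0, 1, 0, 0⟩ : WeierstrassCurve (ZMod 2)).map (algebraMap (ZMod 2) K))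
    (by simp [WeierstrassCurve.map]) (by simp [WeierstrassCurve.map]) (by simp [WeierstrassCurve.map])
    (by simp [WeierstrassCurve.map]) (by simp [WeierstrassCurve.map])
    (by rw [WeierstrassCurve.map_Δ]; exact (map_ne_zero_iff _ (algebraMap (ZMod 2) K).injective).mpr delta_c2s00)
    hp (frobPt 2 (⟨0, 0, 1, 0, 0⟩ : WeierstrassCurve (ZMod 2)) K) (frobPt_some 2 (⟨0, 0, 1, 0, 0⟩ : WeierstrassCurve (ZMod 2)) K) Q
  rw [card_c2s00]
  have e : ((2 : ℕ) : ℤ) + 1 - ((3 : ℕ) : ℤ) = 0 := by norm_num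
  rw [e, Nat.cast_ofNat]
  exact hq

theorem card_c2s01 : Nat.card (⟨0, 0, 1, 0, 1⟩ : WeierstrassCurve (ZMod 2)).toAffine.Point = 3 := by
  rw [card_point]; decide

theorem delta_c2s01 : (⟨0, 0, 1, 0, 1⟩ : WeierstrassCurve (ZMod 2)).Δ ≠ 0 := by decide

theorem fq_c2s01 [Fact (Nat.Prime 2)] (K : Type) [Field K] [Algebra (ZMod 2) K] [IsAlgClosed K]
    [DecidableEq K] (Q : ((⟨0, 0, 1, 0, 1⟩ : WeierstrassCurve (ZMod 2)).toAffine⁄K).Point) :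
    frobPt 2 (⟨0, 0, 1, 0, 1⟩ : WeierstrassCurve (ZMod 2)) K (frobPt 2 (⟨0, 0, 1, 0, 1⟩ : WeierstrassCurve (ZMod 2)) K Q)
      - (((2 : ℕ) : ℤ) + 1 - (Nat.card (⟨0, 0, 1, 0, 1⟩ : WeierstrassCurve (ZMod 2)).toAffine.Point : ℤ)) • frobPt 2 (⟨0, 0, 1, 0, 1⟩ : WeierstrassCurve (ZMod 2)) K Q
      + ((2 : ℕ) : ℤ) • Q = 0 := by
  have hp : (2 : K) = 0 := by simpa using char_eq_zero 2 K
  have hq := FQS.Char2.quad_c2s01 ((⟨0, 0, 1, 0, 1⟩ : WeierstrassCurve (ZMod 2)).map (algebraMap (ZMod 2) K))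
    (by simp [WeierstrassCurve.map]) (by simp [WeierstrassCurve.map]) (by simp [WeierstrassCurve.map])
    (by simp [WeierstrassCurve.map]) (by simp [WeierstrassCurve.map])
    (by rw [WeierstrassCurve.map_Δ]; exact (map_ne_zero_iff _ (algebraMap (ZMod 2) K).injective).mpr delta_c2s01)
    hp (frobPt 2 (⟨0, 0, 1, 0, 1⟩ : WeierstrassCurve (ZMod 2)) K) (frobPt_some 2 (⟨0, 0, 1, 0, 1⟩ : WeierstrassCurve (ZMod 2)) K) Q
  rw [card_c2s01]
  have e : ((2 : ℕ) : ℤ) + 1 - ((3 : ℕ) : ℤ) = 0 := by norm_num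
  rw [e, Nat.cast_ofNat]
  exact hq

theorem card_c2s10 : Nat.card (⟨0, 0, 1, 1, 0⟩ : WeierstrassCurve (ZMod 2)).toAffine.Point = 5 := by
  rw [card_point]; decide

theorem delta_c2s10 : (⟨0, 0, 1, 1, 0⟩ : WeierstrassCurve (ZMod 2)).Δ ≠ 0 := by decide

theorem fq_c2s10 [Fact (Nat.Prime 2)] (K : Type) [Field K] [Algebra (ZMod 2) K] [IsAlgClosed K]
    [DecidableEq K] (Q : ((⟨0, 0, 1, 1, 0⟩ : WeierstrassCurve (ZMod 2)).toAffine⁄K).Point) :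
    frobPt 2 (⟨0, 0, 1, 1, 0⟩ : WeierstrassCurve (ZMod 2)) K (frobPt 2 (⟨0, 0, 1, 1, 0⟩ : WeierstrassCurve (ZMod 2)) K Q)
      - (((2 : ℕ) : ℤ) + 1 - (Nat.card (⟨0, 0, 1, 1, 0⟩ : WeierstrassCurve (ZMod 2)).toAffine.Point : ℤ)) • frobPt 2 (⟨0, 0, 1, 1, 0⟩ : WeierstrassCurve (ZMod 2)) K Q
      + ((2 : ℕ) : ℤ) • Q = 0 := by
  have hp : (2 : K) = 0 := by simpa using char_eq_zero 2 K
  have hq := FQS.Char2.quad_c2s10 ((⟨0, 0, 1, 1, 0⟩ : WeierstrassCurve (ZMod 2)).map (algebraMap (ZMod 2) K))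
    (by simp [WeierstrassCurve.map]) (by simp [WeierstrassCurve.map]) (by simp [WeierstrassCurve.map])
    (by simp [WeierstrassCurve.map]) (by simp [WeierstrassCurve.map])
    (by rw [WeierstrassCurve.map_Δ]; exact (map_ne_zero_iff _ (algebraMap (ZMod 2) K).injective).mpr delta_c2s10)
    hp (frobPt 2 (⟨0, 0, 1, 1, 0⟩ : WeierstrassCurve (ZMod 2)) K) (frobPt_some 2 (⟨0, 0, 1, 1, 0⟩ : WeierstrassCurve (ZMod 2)) K) Q
  rw [card_c2s10]
  have e : ((2 : ℕ) : ℤ) + 1 - ((5 : ℕ) : ℤ) = (-2) := by norm_num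
  rw [e, Nat.cast_ofNat]
  exact hq

theorem card_c2s11 : Nat.card (⟨0, 0, 1, 1, 1⟩ : WeierstrassCurve (ZMod 2)).toAffine.Point = 1 := by
  rw [card_point]; decide

theorem delta_c2s11 : (⟨0, 0, 1, 1, 1⟩ : WeierstrassCurve (ZMod 2)).Δ ≠ 0 := by decide

theorem fq_c2s11 [Fact (Nat.Prime 2)] (K : Type) [Field K] [Algebra (ZMod 2) K] [IsAlgClosed K]
    [DecidableEq K] (Q : ((⟨0, 0, 1, 1, 1⟩ : WeierstrassCurve (ZMod 2)).toAffine⁄K).Point) :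
    frobPt 2 (⟨0, 0, 1, 1, 1⟩ : WeierstrassCurve (ZMod 2)) K (frobPt 2 (⟨0, 0, 1, 1, 1⟩ : WeierstrassCurve (ZMod 2)) K Q)
      - (((2 : ℕ) : ℤ) + 1 - (Nat.card (⟨0, 0, 1, 1, 1⟩ : WeierstrassCurve (ZMod 2)).toAffine.Point : ℤ)) • frobPt 2 (⟨0, 0, 1, 1, 1⟩ : WeierstrassCurve (ZMod 2)) K Q
      + ((2 : ℕ) : ℤ) • Q = 0 := by
  have hp : (2 : K) = 0 := by simpa using char_eq_zero 2 K
  have hq := FQS.Char2.quad_c2s11 ((⟨0, 0, 1, 1, 1⟩ : WeierstrassCurve (ZMod 2)).map (algebraMap (ZMod 2) K))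
    (by simp [WeierstrassCurve.map]) (by simp [WeierstrassCurve.map]) (by simp [WeierstrassCurve.map])
    (by simp [WeierstrassCurve.map]) (by simp [WeierstrassCurve.map])
    (by rw [WeierstrassCurve.map_Δ]; exact (map_ne_zero_iff _ (algebraMap (ZMod 2) K).injective).mpr delta_c2s11)
    hp (frobPt 2 (⟨0, 0, 1, 1, 1⟩ : WeierstrassCurve (ZMod 2)) K) (frobPt_some 2 (⟨0, 0, 1, 1, 1⟩ : WeierstrassCurve (ZMod 2)) K) Q
  rw [card_c2s11]
  have e : ((2 : ℕ) : ℤ) + 1 - ((1 : ℕ) : ℤ) = 2 := by norm_num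
  rw [e, Nat.cast_ofNat]
  exact hq

theorem card_c3o11 : Nat.card (⟨0, 1, 0, 0, 1⟩ : WeierstrassCurve (ZMod 3)).toAffine.Point = 6 := by
  rw [card_point]; decide

theorem delta_c3o11 : (⟨0, 1, 0, 0, 1⟩ : WeierstrassCurve (ZMod 3)).Δ ≠ 0 := by decide

theorem fq_c3o11 [Fact (Nat.Prime 3)] (K : Type) [Field K] [Algebra (ZMod 3) K] [IsAlgClosed K]
    [DecidableEq K] (Q : ((⟨0, 1, 0, 0, 1⟩ : WeierstrassCurve (ZMod 3)).toAffine⁄K).Point) :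
    frobPt 3 (⟨0, 1, 0, 0, 1⟩ : WeierstrassCurve (ZMod 3)) K (frobPt 3 (⟨0, 1, 0, 0, 1⟩ : WeierstrassCurve (ZMod 3)) K Q)
      - (((3 : ℕ) : ℤ) + 1 - (Nat.card (⟨0, 1, 0, 0, 1⟩ : WeierstrassCurve (ZMod 3)).toAffine.Point : ℤ)) • frobPt 3 (⟨0, 1, 0, 0, 1⟩ : WeierstrassCurve (ZMod 3)) K Q
      + ((3 : ℕ) : ℤ) • Q = 0 := by
  have hp : (3 : K) = 0 := by simpa using char_eq_zero 3 K
  have hq := FQS.Char3Ord.quad_c3o11 ((⟨0, 1, 0, 0, 1⟩ : WeierstrassCurve (ZMod 3)).map (algebraMap (ZMod 3) K))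
    (by simp [WeierstrassCurve.map]) (by simp [WeierstrassCurve.map]) (by simp [WeierstrassCurve.map])
    (by simp [WeierstrassCurve.map]) (by simp [WeierstrassCurve.map])
    (by rw [WeierstrassCurve.map_Δ]; exact (map_ne_zero_iff _ (algebraMap (ZMod 3) K).injective).mpr delta_c3o11)
    hp (frobPt 3 (⟨0, 1, 0, 0, 1⟩ : WeierstrassCurve (ZMod 3)) K) (frobPt_some 3 (⟨0, 1, 0, 0, 1⟩ : WeierstrassCurve (ZMod 3)) K) Q
  rw [card_c3o11]
  have e : ((3 : ℕ) : ℤ) + 1 - ((6 : ℕ) : ℤ) = (-2) := by norm_num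
  rw [e, Nat.cast_ofNat]
  exact hq

theorem card_c3o1m : Nat.card (⟨0, 1, 0, 0, -1⟩ : WeierstrassCurve (ZMod 3)).toAffine.Point = 3 := by
  rw [card_point]; decide

theorem delta_c3o1m : (⟨0, 1, 0, 0, -1⟩ : WeierstrassCurve (ZMod 3)).Δ ≠ 0 := by decide

theorem fq_c3o1m [Fact (Nat.Prime 3)] (K : Type) [Field K] [Algebra (ZMod 3) K] [IsAlgClosed K]
    [DecidableEq K] (Q : ((⟨0, 1, 0, 0, -1⟩ : WeierstrassCurve (ZMod 3)).toAffine⁄K).Point) :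
    frobPt 3 (⟨0, 1, 0, 0, -1⟩ : WeierstrassCurve (ZMod 3)) K (frobPt 3 (⟨0, 1, 0, 0, -1⟩ : WeierstrassCurve (ZMod 3)) K Q)
      - (((3 : ℕ) : ℤ) + 1 - (Nat.card (⟨0, 1, 0, 0, -1⟩ : WeierstrassCurve (ZMod 3)).toAffine.Point : ℤ)) • frobPt 3 (⟨0, 1, 0, 0, -1⟩ : WeierstrassCurve (ZMod 3)) K Q
      + ((3 : ℕ) : ℤ) • Q = 0 := by
  have hp : (3 : K) = 0 := by simpa using char_eq_zero 3 K
  have hq := FQS.Char3Ord.quad_c3o1m ((⟨0, 1, 0, 0, -1⟩ : WeierstrassCurve (ZMod 3)).map (algebraMap (ZMod 3) K))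
    (by simp [WeierstrassCurve.map]) (by simp [WeierstrassCurve.map]) (by simp [WeierstrassCurve.map])
    (by simp [WeierstrassCurve.map]) (by simp [WeierstrassCurve.map])
    (by rw [WeierstrassCurve.map_Δ]; exact (map_ne_zero_iff _ (algebraMap (ZMod 3) K).injective).mpr delta_c3o1m)
    hp (frobPt 3 (⟨0, 1, 0, 0, -1⟩ : WeierstrassCurve (ZMod 3)) K) (frobPt_some 3 (⟨0, 1, 0, 0, -1⟩ : WeierstrassCurve (ZMod 3)) K) Q
  rw [card_c3o1m]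
  have e : ((3 : ℕ) : ℤ) + 1 - ((3 : ℕ) : ℤ) = 1 := by norm_num
  rw [e, Nat.cast_ofNat]
  exact hq

theorem card_c3om1 : Nat.card (⟨0, -1, 0, 0, 1⟩ : WeierstrassCurve (ZMod 3)).toAffine.Point = 5 := by
  rw [card_point]; decide

theorem delta_c3om1 : (⟨0, -1, 0, 0, 1⟩ : WeierstrassCurve (ZMod 3)).Δ ≠ 0 := by decide

theorem fq_c3om1 [Fact (Nat.Prime 3)] (K : Type) [Field K] [Algebra (ZMod 3) K] [IsAlgClosed K]
    [DecidableEq K] (Q : ((⟨0, -1, 0, 0, 1⟩ : WeierstrassCurve (ZMod 3)).toAffine⁄K).Point) :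
    frobPt 3 (⟨0, -1, 0, 0, 1⟩ : WeierstrassCurve (ZMod 3)) K (frobPt 3 (⟨0, -1, 0, 0, 1⟩ : WeierstrassCurve (ZMod 3)) K Q)
      - (((3 : ℕ) : ℤ) + 1 - (Nat.card (⟨0, -1, 0, 0, 1⟩ : WeierstrassCurve (ZMod 3)).toAffine.Point : ℤ)) • frobPt 3 (⟨0, -1, 0, 0, 1⟩ : WeierstrassCurve (ZMod 3)) K Q
      + ((3 : ℕ) : ℤ) • Q = 0 := by
  have hp : (3 : K) = 0 := by simpa using char_eq_zero 3 K
  have hq := FQS.Char3Ord.quad_c3om1 ((⟨0, -1, 0, 0, 1⟩ : WeierstrassCurve (ZMod 3)).map (algebraMap (ZMod 3) K))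
    (by simp [WeierstrassCurve.map]) (by simp [WeierstrassCurve.map]) (by simp [WeierstrassCurve.map])
    (by simp [WeierstrassCurve.map]) (by simp [WeierstrassCurve.map])
    (by rw [WeierstrassCurve.map_Δ]; exact (map_ne_zero_iff _ (algebraMap (ZMod 3) K).injective).mpr delta_c3om1)
    hp (frobPt 3 (⟨0, -1, 0, 0, 1⟩ : WeierstrassCurve (ZMod 3)) K) (frobPt_some 3 (⟨0, -1, 0, 0, 1⟩ : WeierstrassCurve (ZMod 3)) K) Q
  rw [card_c3om1]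
  have e : ((3 : ℕ) : ℤ) + 1 - ((5 : ℕ) : ℤ) = (-1) := by norm_num
  rw [e, Nat.cast_ofNat]
  exact hq

theorem card_c3omm : Nat.card (⟨0, -1, 0, 0, -1⟩ : WeierstrassCurve (ZMod 3)).toAffine.Point = 2 := by
  rw [card_point]; decide

theorem delta_c3omm : (⟨0, -1, 0, 0, -1⟩ : WeierstrassCurve (ZMod 3)).Δ ≠ 0 := by decide

theorem fq_c3omm [Fact (Nat.Prime 3)] (K : Type) [Field K] [Algebra (ZMod 3) K] [IsAlgClosed K]
    [DecidableEq K] (Q : ((⟨0, -1, 0, 0, -1⟩ : WeierstrassCurve (ZMod 3)).toAffine⁄K).Point) :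
    frobPt 3 (⟨0, -1, 0, 0, -1⟩ : WeierstrassCurve (ZMod 3)) K (frobPt 3 (⟨0, -1, 0, 0, -1⟩ : WeierstrassCurve (ZMod 3)) K Q)
      - (((3 : ℕ) : ℤ) + 1 - (Nat.card (⟨0, -1, 0, 0, -1⟩ : WeierstrassCurve (ZMod 3)).toAffine.Point : ℤ)) • frobPt 3 (⟨0, -1, 0, 0, -1⟩ : WeierstrassCurve (ZMod 3)) K Q
      + ((3 : ℕ) : ℤ) • Q = 0 := by
  have hp : (3 : K) = 0 := by simpa using char_eq_zero 3 K
  have hq := FQS.Char3Ord.quad_c3omm ((⟨0, -1, 0, 0, -1⟩ : WeierstrassCurve (ZMod 3)).map (algebraMap (ZMod 3) K))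
    (by simp [WeierstrassCurve.map]) (by simp [WeierstrassCurve.map]) (by simp [WeierstrassCurve.map])
    (by simp [WeierstrassCurve.map]) (by simp [WeierstrassCurve.map])
    (by rw [WeierstrassCurve.map_Δ]; exact (map_ne_zero_iff _ (algebraMap (ZMod 3) K).injective).mpr delta_c3omm)
    hp (frobPt 3 (⟨0, -1, 0, 0, -1⟩ : WeierstrassCurve (ZMod 3)) K) (frobPt_some 3 (⟨0, -1, 0, 0, -1⟩ : WeierstrassCurve (ZMod 3)) K) Q
  rw [card_c3omm]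
  have e : ((3 : ℕ) : ℤ) + 1 - ((2 : ℕ) : ℤ) = 2 := by norm_num
  rw [e, Nat.cast_ofNat]
  exact hq

theorem card_c3s1 : Nat.card (⟨0, 0, 0, 1, 0⟩ : WeierstrassCurve (ZMod 3)).toAffine.Point = 4 := by
  rw [card_point]; decide

theorem delta_c3s1 : (⟨0, 0, 0, 1, 0⟩ : WeierstrassCurve (ZMod 3)).Δ ≠ 0 := by decide

theorem fq_c3s1 [Fact (Nat.Prime 3)] (K : Type) [Field K] [Algebra (ZMod 3) K] [IsAlgClosed K]
    [DecidableEq K] (Q : ((⟨0, 0, 0, 1, 0⟩ : WeierstrassCurve (ZMod 3)).toAffine⁄K).Point) :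
    frobPt 3 (⟨0, 0, 0, 1, 0⟩ : WeierstrassCurve (ZMod 3)) K (frobPt 3 (⟨0, 0, 0, 1, 0⟩ : WeierstrassCurve (ZMod 3)) K Q)
      - (((3 : ℕ) : ℤ) + 1 - (Nat.card (⟨0, 0, 0, 1, 0⟩ : WeierstrassCurve (ZMod 3)).toAffine.Point : ℤ)) • frobPt 3 (⟨0, 0, 0, 1, 0⟩ : WeierstrassCurve (ZMod 3)) K Q
      + ((3 : ℕ) : ℤ) • Q = 0 := by
  have hp : (3 : K) = 0 := by simpa using char_eq_zero 3 K
  have hq := FQS.Char3SS.quad_c3s1 ((⟨0, 0, 0, 1, 0⟩ : WeierstrassCurve (ZMod 3)).map (algebraMap (ZMod 3) K))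
    (by simp [WeierstrassCurve.map]) (by simp [WeierstrassCurve.map]) (by simp [WeierstrassCurve.map])
    (by simp [WeierstrassCurve.map]) (by simp [WeierstrassCurve.map])
    (by rw [WeierstrassCurve.map_Δ]; exact (map_ne_zero_iff _ (algebraMap (ZMod 3) K).injective).mpr delta_c3s1)
    hp (frobPt 3 (⟨0, 0, 0, 1, 0⟩ : WeierstrassCurve (ZMod 3)) K) (frobPt_some 3 (⟨0, 0, 0, 1, 0⟩ : WeierstrassCurve (ZMod 3)) K) Q
  rw [card_c3s1]
  have e : ((3 : ℕ) : ℤ) + 1 - ((4 : ℕ) : ℤ) = 0 := by norm_num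
  rw [e, Nat.cast_ofNat]
  exact hq

theorem card_c3sm0 : Nat.card (⟨0, 0, 0, -1, 0⟩ : WeierstrassCurve (ZMod 3)).toAffine.Point = 4 := by
  rw [card_point]; decide

theorem delta_c3sm0 : (⟨0, 0, 0, -1, 0⟩ : WeierstrassCurve (ZMod 3)).Δ ≠ 0 := by decide

theorem fq_c3sm0 [Fact (Nat.Prime 3)] (K : Type) [Field K] [Algebra (ZMod 3) K] [IsAlgClosed K]
    [DecidableEq K] (Q : ((⟨0, 0, 0, -1, 0⟩ : WeierstrassCurve (ZMod 3)).toAffine⁄K).Point) :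
    frobPt 3 (⟨0, 0, 0, -1, 0⟩ : WeierstrassCurve (ZMod 3)) K (frobPt 3 (⟨0, 0, 0, -1, 0⟩ : WeierstrassCurve (ZMod 3)) K Q)
      - (((3 : ℕ) : ℤ) + 1 - (Nat.card (⟨0, 0, 0, -1, 0⟩ : WeierstrassCurve (ZMod 3)).toAffine.Point : ℤ)) • frobPt 3 (⟨0, 0, 0, -1, 0⟩ : WeierstrassCurve (ZMod 3)) K Q
      + ((3 : ℕ) : ℤ) • Q = 0 := by
  have hp : (3 : K) = 0 := by simpa using char_eq_zero 3 K
  have hq := FQS.Char3SS.quad_c3sm0 ((⟨0, 0, 0, -1, 0⟩ : WeierstrassCurve (ZMod 3)).map (algebraMap (ZMod 3) K))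
    (by simp [WeierstrassCurve.map]) (by simp [WeierstrassCurve.map]) (by simp [WeierstrassCurve.map])
    (by simp [WeierstrassCurve.map]) (by simp [WeierstrassCurve.map])
    (by rw [WeierstrassCurve.map_Δ]; exact (map_ne_zero_iff _ (algebraMap (ZMod 3) K).injective).mpr delta_c3sm0)
    hp (frobPt 3 (⟨0, 0, 0, -1, 0⟩ : WeierstrassCurve (ZMod 3)) K) (frobPt_some 3 (⟨0, 0, 0, -1, 0⟩ : WeierstrassCurve (ZMod 3)) K) Q
  rw [card_c3sm0]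
  have e : ((3 : ℕ) : ℤ) + 1 - ((4 : ℕ) : ℤ) = 0 := by norm_num
  rw [e, Nat.cast_ofNat]
  exact hq

theorem card_c3sm1 : Nat.card (⟨0, 0, 0, -1, 1⟩ : WeierstrassCurve (ZMod 3)).toAffine.Point = 7 := by
  rw [card_point]; decide

theorem delta_c3sm1 : (⟨0, 0, 0, -1, 1⟩ : WeierstrassCurve (ZMod 3)).Δ ≠ 0 := by decide

theorem fq_c3sm1 [Fact (Nat.Prime 3)] (K : Type) [Field K] [Algebra (ZMod 3) K] [IsAlgClosed K]
    [DecidableEq K] (Q : ((⟨0, 0, 0, -1, 1⟩ : WeierstrassCurve (ZMod 3)).toAffine⁄K).Point) :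
    frobPt 3 (⟨0, 0, 0, -1, 1⟩ : WeierstrassCurve (ZMod 3)) K (frobPt 3 (⟨0, 0, 0, -1, 1⟩ : WeierstrassCurve (ZMod 3)) K Q)
      - (((3 : ℕ) : ℤ) + 1 - (Nat.card (⟨0, 0, 0, -1, 1⟩ : WeierstrassCurve (ZMod 3)).toAffine.Point : ℤ)) • frobPt 3 (⟨0, 0, 0, -1, 1⟩ : WeierstrassCurve (ZMod 3)) K Q
      + ((3 : ℕ) : ℤ) • Q = 0 := by
  have hp : (3 : K) = 0 := by simpa using char_eq_zero 3 K
  have hq := FQS.Char3SS.quad_c3sm1 ((⟨0, 0, 0, -1, 1⟩ : WeierstrassCurve (ZMod 3)).map (algebraMap (ZMod 3) K))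
    (by simp [WeierstrassCurve.map]) (by simp [WeierstrassCurve.map]) (by simp [WeierstrassCurve.map])
    (by simp [WeierstrassCurve.map]) (by simp [WeierstrassCurve.map])
    (by rw [WeierstrassCurve.map_Δ]; exact (map_ne_zero_iff _ (algebraMap (ZMod 3) K).injective).mpr delta_c3sm1)
    hp (frobPt 3 (⟨0, 0, 0, -1, 1⟩ : WeierstrassCurve (ZMod 3)) K) (frobPt_some 3 (⟨0, 0, 0, -1, 1⟩ : WeierstrassCurve (ZMod 3)) K) Q
  rw [card_c3sm1]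
  have e : ((3 : ℕ) : ℤ) + 1 - ((7 : ℕ) : ℤ) = (-3) := by norm_num
  rw [e, Nat.cast_ofNat]
  exact hq

theorem card_c3smm : Nat.card (⟨0, 0, 0, -1, -1⟩ : WeierstrassCurve (ZMod 3)).toAffine.Point = 1 := by
  rw [card_point]; decide

theorem delta_c3smm : (⟨0, 0, 0, -1, -1⟩ : WeierstrassCurve (ZMod 3)).Δ ≠ 0 := by decide

theorem fq_c3smm [Fact (Nat.Prime 3)] (K : Type) [Field K] [Algebra (ZMod 3) K] [IsAlgClosed K]
    [DecidableEq K] (Q : ((⟨0, 0, 0, -1, -1⟩ : WeierstrassCurve (ZMod 3)).toAffine⁄K).Point) :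
    frobPt 3 (⟨0, 0, 0, -1, -1⟩ : WeierstrassCurve (ZMod 3)) K (frobPt 3 (⟨0, 0, 0, -1, -1⟩ : WeierstrassCurve (ZMod 3)) K Q)
      - (((3 : ℕ) : ℤ) + 1 - (Nat.card (⟨0, 0, 0, -1, -1⟩ : WeierstrassCurve (ZMod 3)).toAffine.Point : ℤ)) • frobPt 3 (⟨0, 0, 0, -1, -1⟩ : WeierstrassCurve (ZMod 3)) K Q
      + ((3 : ℕ) : ℤ) • Q = 0 := by
  have hp : (3 : K) = 0 := by simpa using char_eq_zero 3 K
  have hq := FQS.Char3SS.quad_c3smm ((⟨0, 0, 0, -1, -1⟩ : WeierstrassCurve (ZMod 3)).map (algebraMap (ZMod 3) K))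
    (by simp [WeierstrassCurve.map]) (by simp [WeierstrassCurve.map]) (by simp [WeierstrassCurve.map])
    (by simp [WeierstrassCurve.map]) (by simp [WeierstrassCurve.map])
    (by rw [WeierstrassCurve.map_Δ]; exact (map_ne_zero_iff _ (algebraMap (ZMod 3) K).injective).mpr delta_c3smm)
    hp (frobPt 3 (⟨0, 0, 0, -1, -1⟩ : WeierstrassCurve (ZMod 3)) K) (frobPt_some 3 (⟨0, 0, 0, -1, -1⟩ : WeierstrassCurve (ZMod 3)) K) Q
  rw [card_c3smm]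
  have e : ((3 : ℕ) : ℤ) + 1 - ((1 : ℕ) : ℤ) = 3 := by norm_num
  rw [e, Nat.cast_ofNat]
  exact hq

/-! ### Reduction to the normal forms -/

/-- Normal forms in characteristic `2`: `y² + xy = x³ + a₂x² + 1` and `y² + y = x³ + a₄x + a₆`. -/
def NF2 (W : WeierstrassCurve (ZMod 2)) : Prop :=
  (W.a₁ = 1 ∧ W.a₃ = 0 ∧ W.a₄ = 0 ∧ W.a₆ = 1) ∨ (W.a₁ = 0 ∧ W.a₂ = 0 ∧ W.a₃ = 1)

instance decidablePredNF2 : DecidablePred NF2 := fun _ => inferInstanceAs (Decidable (_ ∨ _))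

/-- Every Weierstrass curve over `𝔽_2` with `Δ ≠ 0` has a normal form. -/
theorem nf2 : ∀ a1 a2 a3 a4 a6 : ZMod 2,
    (⟨a1, a2, a3, a4, a6⟩ : WeierstrassCurve (ZMod 2)).Δ ≠ 0 →
    ∃ r s t : ZMod 2, NF2 ((⟨1, r, s, t⟩ : VariableChange (ZMod 2)) • ⟨a1, a2, a3, a4, a6⟩) := by
  decide

/-- Normal forms in characteristic `3`: `y² = x³ + a₂x² + a₆` (`a₂ ≠ 0`), `y² = x³ + x`,
`y² = x³ - x + a₆`. -/
def NF3 (W : WeierstrassCurve (ZMod 3)) : Prop :=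
  W.a₁ = 0 ∧ W.a₃ = 0 ∧
    ((W.a₂ ≠ 0 ∧ W.a₄ = 0) ∨ (W.a₂ = 0 ∧ W.a₄ = 1 ∧ W.a₆ = 0) ∨ (W.a₂ = 0 ∧ W.a₄ = -1))

instance decidablePredNF3 : DecidablePred NF3 := fun _ => inferInstanceAs (Decidable (_ ∧ _))

set_option maxRecDepth 100000 in
/-- Every Weierstrass curve over `𝔽_3` with `Δ ≠ 0` has a normal form. -/
theorem nf3 : ∀ a1 a2 a3 a4 a6 : ZMod 3,
    (⟨a1, a2, a3, a4, a6⟩ : WeierstrassCurve (ZMod 3)).Δ ≠ 0 →
    ∃ r s t : ZMod 3, NF3 ((⟨1, r, s, t⟩ : VariableChange (ZMod 3)) • ⟨a1, a2, a3, a4, a6⟩) := by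
  decide +kernel

theorem zmod2_cases : ∀ z : ZMod 2, z = 0 ∨ z = 1 := by decide

theorem delta_zero_c3p : (⟨0, 1, 0, 0, 0⟩ : WeierstrassCurve (ZMod 3)).Δ = 0 := by decide

theorem delta_zero_c3m : (⟨0, -1, 0, 0, 0⟩ : WeierstrassCurve (ZMod 3)).Δ = 0 := by decide

theorem zmod3_cases : ∀ z : ZMod 3, z = 0 ∨ z = 1 ∨ z = -1 := by decide

/-- The Frobenius quadratic equation on the normal forms over `𝔽_2`. -/
theorem frob_quadratic_nf2 [Fact (Nat.Prime 2)] (E1 : WeierstrassCurve (ZMod 2)) (hNF : NF2 E1)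
    (K : Type) [Field K] [Algebra (ZMod 2) K] [IsAlgClosed K] [DecidableEq K]
    (Q : (E1.toAffine⁄K).Point) :
    frobPt 2 E1 K (frobPt 2 E1 K Q)
      - (((2 : ℕ) : ℤ) + 1 - (Nat.card E1.toAffine.Point : ℤ)) • frobPt 2 E1 K Q
      + ((2 : ℕ) : ℤ) • Q = 0 := by
  obtain ⟨b1, b2, b3, b4, b6⟩ := E1
  rcases hNF with ⟨h1, h3, h4, h6⟩ | ⟨h1, h2, h3⟩
  · dsimp only at h1 h3 h4 h6
    subst h1 h3 h4 h6
    rcases zmod2_cases b2 with rfl | rfl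
    · exact fq_c2o0 K Q
    · exact fq_c2o1 K Q
  · dsimp only at h1 h2 h3
    subst h1 h2 h3
    rcases zmod2_cases b4 with rfl | rfl <;> rcases zmod2_cases b6 with rfl | rfl
    · exact fq_c2s00 K Q
    · exact fq_c2s01 K Q
    · exact fq_c2s10 K Q
    · exact fq_c2s11 K Q

/-- The Frobenius quadratic equation on the normal forms over `𝔽_3`. -/
theorem frob_quadratic_nf3 [Fact (Nat.Prime 3)] (E1 : WeierstrassCurve (ZMod 3)) (hNF : NF3 E1)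
    (hΔ : E1.Δ ≠ 0)
    (K : Type) [Field K] [Algebra (ZMod 3) K] [IsAlgClosed K] [DecidableEq K]
    (Q : (E1.toAffine⁄K).Point) :
    frobPt 3 E1 K (frobPt 3 E1 K Q)
      - (((3 : ℕ) : ℤ) + 1 - (Nat.card E1.toAffine.Point : ℤ)) • frobPt 3 E1 K Q
      + ((3 : ℕ) : ℤ) • Q = 0 := by
  obtain ⟨b1, b2, b3, b4, b6⟩ := E1
  obtain ⟨h1, h3, hrest⟩ := hNF
  dsimp only at h1 h3 hrest
  subst h1 h3
  rcases hrest with ⟨h2, h4⟩ | ⟨h2, h4, h6⟩ | ⟨h2, h4⟩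
  · subst h4
    rcases zmod3_cases b2 with rfl | rfl | rfl
    · exact absurd rfl h2
    · rcases zmod3_cases b6 with rfl | rfl | rfl
      · exact absurd delta_zero_c3p hΔ
      · exact fq_c3o11 K Q
      · exact fq_c3o1m K Q
    · rcases zmod3_cases b6 with rfl | rfl | rfl
      · exact absurd delta_zero_c3m hΔ
      · exact fq_c3om1 K Q
      · exact fq_c3omm K Q
  · subst h2 h4 h6
    exact fq_c3s1 K Q
  · subst h2 h4
    rcases zmod3_cases b6 with rfl | rfl | rfl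
    · exact fq_c3sm0 K Q
    · exact fq_c3sm1 K Q
    · exact fq_c3smm K Q

/-! ### The main theorems -/

/-- The Frobenius quadratic equation for every Weierstrass curve over `𝔽_2` with `Δ ≠ 0`. -/
theorem frob_quadratic_two [Fact (Nat.Prime 2)] (E0 : WeierstrassCurve (ZMod 2)) (hΔ : E0.Δ ≠ 0)
    (K : Type) [Field K] [Algebra (ZMod 2) K] [IsAlgClosed K] [DecidableEq K]
    (P : (E0.toAffine⁄K).Point) :
    frobPt 2 E0 K (frobPt 2 E0 K P)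
      - (((2 : ℕ) : ℤ) + 1 - (Nat.card E0.toAffine.Point : ℤ)) • frobPt 2 E0 K P
      + ((2 : ℕ) : ℤ) • P = 0 := by
  obtain ⟨a1, a2, a3, a4, a6⟩ := E0
  obtain ⟨r, s, t, hNF⟩ := nf2 a1 a2 a3 a4 a6 hΔ
  refine transport 2 _ ⟨1, r, s, t⟩ K (fun Q => ?_) P
  exact frob_quadratic_nf2 _ hNF K Q

/-- The Frobenius quadratic equation for every Weierstrass curve over `𝔽_3` with `Δ ≠ 0`. -/
theorem frob_quadratic_three [Fact (Nat.Prime 3)] (E0 : WeierstrassCurve (ZMod 3)) (hΔ : E0.Δ ≠ 0)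
    (K : Type) [Field K] [Algebra (ZMod 3) K] [IsAlgClosed K] [DecidableEq K]
    (P : (E0.toAffine⁄K).Point) :
    frobPt 3 E0 K (frobPt 3 E0 K P)
      - (((3 : ℕ) : ℤ) + 1 - (Nat.card E0.toAffine.Point : ℤ)) • frobPt 3 E0 K P
      + ((3 : ℕ) : ℤ) • P = 0 := by
  obtain ⟨a1, a2, a3, a4, a6⟩ := E0
  obtain ⟨r, s, t, hNF⟩ := nf3 a1 a2 a3 a4 a6 hΔ
  refine transport 3 _ ⟨1, r, s, t⟩ K (fun Q => ?_) P
  refine frob_quadratic_nf3 _ hNF ?_ K Q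
  rw [variableChange_Δ]
  exact mul_ne_zero (pow_ne_zero _ (Units.ne_zero _)) hΔ

theorem eq_two_or_three {ℓ : ℕ} (hℓ : ℓ.Prime) (h5 : ℓ < 5) : ℓ = 2 ∨ ℓ = 3 := by
  have h2 := hℓ.two_le
  interval_cases ℓ
  · exact Or.inl rfl
  · exact Or.inr rfl
  · exact absurd hℓ (by decide)

/-- **The Frobenius quadratic equation for a general Weierstrass curve over `𝔽_ℓ`, `ℓ ∈ {2, 3}`.** -/
theorem frob_quadratic_small (ℓ : ℕ) [Fact ℓ.Prime] (h5 : ℓ < 5) (E0 : WeierstrassCurve (ZMod ℓ))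
    (hΔ : E0.Δ ≠ 0) (K : Type) [Field K] [Algebra (ZMod ℓ) K] [IsAlgClosed K] [DecidableEq K]
    (P : (E0.toAffine⁄K).Point) :
    frobPt ℓ E0 K (frobPt ℓ E0 K P)
      - ((ℓ : ℤ) + 1 - (Nat.card E0.toAffine.Point : ℤ)) • frobPt ℓ E0 K P + (ℓ : ℤ) • P = 0 := by
  rcases eq_two_or_three (Fact.out : ℓ.Prime) h5 with rfl | rfl
  · exact frob_quadratic_two E0 hΔ K P
  · exact frob_quadratic_three E0 hΔ K P

/-- **The Frobenius quadratic equation for a general Weierstrass curve over `𝔽_ℓ`, every prime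
`ℓ`.** -/
theorem frob_quadratic_all (ℓ : ℕ) [Fact ℓ.Prime] (E0 : WeierstrassCurve (ZMod ℓ))
    (hΔ : E0.Δ ≠ 0) (K : Type) [Field K] [Algebra (ZMod ℓ) K] [IsAlgClosed K] [DecidableEq K]
    (P : (E0.toAffine⁄K).Point) :
    frobPt ℓ E0 K (frobPt ℓ E0 K P)
      - ((ℓ : ℤ) + 1 - (Nat.card E0.toAffine.Point : ℤ)) • frobPt ℓ E0 K P + (ℓ : ℤ) • P = 0 := by
  rcases lt_or_ge ℓ 5 with h | h
  · exact frob_quadratic_small ℓ h E0 hΔ K P
  · exact FrobQuadGen.frob_quadratic_general ℓ h E0 hΔ K P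

end

end Fermat.Agent.S58.FrobQuadSmall
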