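import Mathlib
import Fermat.Agent.S58.FrobQuadGen

/-!
# S58 / [FQ-kit] — tools for the Frobenius quadratic relation on non-short Weierstrass curves

Shared by `S58/FrobQuadTwo.lean` (curves over `𝔽₂`) and the files for `𝔽₃`.

* `add_of_chord`, `add_self_of_tangent`: Mathlib's chord / tangent addition with an explicit
  slope `L` (given by a division-free equation) and explicit target coordinates; the
  nonsingularity of the target comes out of the statement (`∃ h₃, …`).
* `eq_zero_of_generic`: on a smooth Weierstrass curve over an algebraically closed field, an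
  additive map that vanishes at all affine points with abscissa outside a finite set vanishes
  identically (no shortness hypothesis); `infinite_point`, `finite_fiber`.
* `quadHom ℓ E0 k a = φ² - a φ + ℓ` as an additive map, `quadHom_apply`.
* `card_eq_count`: the number of points of a Weierstrass curve over `ZMod n`, in a form that
  `decide` evaluates.
* `frobQuad_of_variableChange`: the quadratic relation (with the true point count) transports
  along an `𝔽_ℓ`-rational change of variables.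
-/

set_option autoImplicit false

namespace Fermat.Agent.S58.FrobQuadKit

open WeierstrassCurve WeierstrassCurve.Affine Fermat.Agent.S52.M2

universe u

section Generic

variable {k : Type*} [Field k] {W : Affine k}

lemma some_eq_some {x y x' y' : k} (h : W.Nonsingular x y) (hx : x = x') (hy : y = y') :
    ∃ h' : W.Nonsingular x' y', Point.some x y h = Point.some x' y' h' := by
  subst hx hy; exact ⟨h, rfl⟩

variable [DecidableEq k]

/-- Chord addition with an explicit slope and explicit target coordinates. -/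
lemma add_of_chord {x₁ y₁ x₂ y₂ x₃ y₃ L : k} (h₁ : W.Nonsingular x₁ y₁)
    (h₂ : W.Nonsingular x₂ y₂) (hx : x₁ ≠ x₂) (hL : L * (x₁ - x₂) = y₁ - y₂)
    (hx₃ : x₃ = L ^ 2 + W.a₁ * L - W.a₂ - x₁ - x₂)
    (hy₃ : y₃ = -(L * (x₃ - x₁) + y₁) - W.a₁ * x₃ - W.a₃) :
    ∃ h₃ : W.Nonsingular x₃ y₃,
      Point.some x₁ y₁ h₁ + Point.some x₂ y₂ h₂ = Point.some x₃ y₃ h₃ := by
  have hs : W.slope x₁ x₂ y₁ y₂ = L := by
    rw [slope_of_X_ne hx, div_eq_iff (sub_ne_zero.mpr hx)]; exact hL.symm
  rw [Point.add_of_X_ne hx]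
  apply some_eq_some
  · rw [hs, hx₃]; rfl
  · rw [hs, hy₃, hx₃]; rfl

/-- Tangent doubling with an explicit slope and explicit target coordinates. -/
lemma add_self_of_tangent {x₁ y₁ x₃ y₃ L : k} (h₁ : W.Nonsingular x₁ y₁)
    (hy : y₁ ≠ W.negY x₁ y₁)
    (hL : L * (y₁ - W.negY x₁ y₁) = 3 * x₁ ^ 2 + 2 * W.a₂ * x₁ + W.a₄ - W.a₁ * y₁)
    (hx₃ : x₃ = L ^ 2 + W.a₁ * L - W.a₂ - x₁ - x₁)
    (hy₃ : y₃ = -(L * (x₃ - x₁) + y₁) - W.a₁ * x₃ - W.a₃) :
    ∃ h₃ : W.Nonsingular x₃ y₃,
      Point.some x₁ y₁ h₁ + Point.some x₁ y₁ h₁ = Point.some x₃ y₃ h₃ := by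
  have hs : W.slope x₁ x₁ y₁ y₁ = L := by
    rw [slope_of_Y_ne rfl hy, div_eq_iff (sub_ne_zero.mpr hy)]; exact hL.symm
  rw [Point.add_self_of_Y_ne hy]
  apply some_eq_some
  · rw [hs, hx₃]; rfl
  · rw [hs, hy₃, hx₃]; rfl

/-- A subgroup with finite complement in an infinite group is everything (pointwise form). -/
lemma eq_zero_of_finite_compl {G H : Type*} [AddGroup G] [Infinite G] [AddGroup H] (ψ : G →+ H)
    (hfin : {g : G | ψ g ≠ 0}.Finite) (g : G) : ψ g = 0 := by
  by_contra hg
  have hKinf : {g : G | ψ g = 0}.Infinite := by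
    intro hK
    have : (Set.univ : Set G).Finite := by
      refine (hK.union hfin).subset ?_
      intro a _
      by_cases ha : ψ a = 0
      · exact Or.inl ha
      · exact Or.inr ha
    exact Set.infinite_univ this
  have hsub : (fun a => g + a) '' {a : G | ψ a = 0} ⊆ {a : G | ψ a ≠ 0} := by
    rintro _ ⟨a, ha, rfl⟩
    show ψ (g + a) ≠ 0
    rw [map_add, show ψ a = 0 from ha, add_zero]
    exact hg
  exact hKinf ((hfin.subset hsub).of_finite_image (fun a _ b _ hab => add_left_cancel hab))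

omit [DecidableEq k] in
/-- The points with a given abscissa form a finite set. -/
lemma finite_fiber (W : Affine k) (x₀ : k) :
    {P : W.Point | ∃ (y : k) (h : W.Nonsingular x₀ y), P = Point.some x₀ y h}.Finite := by
  by_cases hne : ∃ (y : k) (_ : W.Nonsingular x₀ y), True
  · obtain ⟨y₀, h₀, -⟩ := hne
    refine Set.Finite.subset (Set.toFinite {Point.some x₀ y₀ h₀, -Point.some x₀ y₀ h₀}) ?_
    rintro P ⟨y, h, rfl⟩
    rcases (Point.X_eq_iff (h₁ := h) (h₂ := h₀)).mp rfl with e | e
    · exact Or.inl e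
    · exact Or.inr e
  · refine Set.Finite.subset Set.finite_empty ?_
    rintro P ⟨y, h, rfl⟩
    exact hne ⟨y, h, trivial⟩

omit [DecidableEq k] in
/-- Over an algebraically closed field a smooth Weierstrass curve has infinitely many points. -/
lemma infinite_point [IsAlgClosed k] (W : Affine k) (hΔ : W.Δ ≠ 0) : Infinite W.Point := by
  have hex : ∀ x : k, ∃ y : k, W.Nonsingular x y := by
    intro x
    obtain ⟨y, hy⟩ := IsAlgClosed.exists_root
      (Polynomial.X ^ 2 + Polynomial.C (W.a₁ * x + W.a₃) * Polynomial.X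
        - Polynomial.C (x ^ 3 + W.a₂ * x ^ 2 + W.a₄ * x + W.a₆) : Polynomial k) (by
        have : (Polynomial.X ^ 2 + Polynomial.C (W.a₁ * x + W.a₃) * Polynomial.X
          - Polynomial.C (x ^ 3 + W.a₂ * x ^ 2 + W.a₄ * x + W.a₆) : Polynomial k).degree = 2 := by
          compute_degree!
        rw [this]; norm_num)
    refine ⟨y, (equation_iff_nonsingular_of_Δ_ne_zero hΔ).mp ?_⟩
    rw [equation_iff]
    simp only [Polynomial.IsRoot, Polynomial.eval_sub, Polynomial.eval_add, Polynomial.eval_pow,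
      Polynomial.eval_X, Polynomial.eval_mul, Polynomial.eval_C] at hy
    linear_combination hy
  choose y hy using hex
  refine Infinite.of_injective (fun x => Point.some x (y x) (hy x)) ?_
  intro x x' h
  simp only [Point.some.injEq] at h
  exact h.1

/-- An additive map on the points of a smooth curve over an algebraically closed field that
vanishes at all affine points with abscissa outside a finite set vanishes identically. -/
theorem eq_zero_of_generic [IsAlgClosed k] (hΔ : W.Δ ≠ 0) {H : Type*} [AddGroup H]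
    (ψ : W.Point →+ H) (S : Finset k)
    (h : ∀ (x y : k) (hxy : W.Nonsingular x y), x ∉ S → ψ (Point.some x y hxy) = 0)
    (P : W.Point) : ψ P = 0 := by
  have := infinite_point W hΔ
  refine eq_zero_of_finite_compl ψ ?_ P
  refine Set.Finite.subset (s := ⋃ x₀ ∈ (S : Set k),
    {P : W.Point | ∃ (y : k) (h : W.Nonsingular x₀ y), P = Point.some x₀ y h}) ?_ ?_
  · exact Set.Finite.biUnion S.finite_toSet (fun x₀ _ => finite_fiber W x₀)
  · intro Q hQ
    rcases Q with _ | ⟨x, y, hxy⟩
    · exact absurd (map_zero ψ) hQ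
    · by_cases hx : x ∈ S
      · simp only [Set.mem_iUnion]
        exact ⟨x, hx, y, hxy, rfl⟩
      · exact absurd (h x y hxy hx) hQ

end Generic

/-! ### The additive map `φ² - a φ + ℓ` -/

section QuadHom

variable (ℓ : ℕ) [Fact ℓ.Prime] (E0 : WeierstrassCurve (ZMod ℓ)) (k : Type u) [Field k]
  [Algebra (ZMod ℓ) k]

lemma natCast_char_eq_zero : ((ℓ : ℕ) : k) = 0 := by
  have h : algebraMap (ZMod ℓ) k ((ℓ : ℕ) : ZMod ℓ) = algebraMap (ZMod ℓ) k 0 :=
    congrArg _ (ZMod.natCast_self ℓ)
  rwa [map_natCast, map_zero] at h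

variable [DecidableEq k]

/-- The additive map `φ² - a φ + ℓ` on `E0(k)`. -/
noncomputable def quadHom (a : ℤ) : (E0.toAffine⁄k).Point →+ (E0.toAffine⁄k).Point :=
  (frobPt ℓ E0 k).comp (frobPt ℓ E0 k) - a • frobPt ℓ E0 k + (ℓ : ℤ) • AddMonoidHom.id _

lemma quadHom_apply (a : ℤ) (P : (E0.toAffine⁄k).Point) :
    quadHom ℓ E0 k a P
      = frobPt ℓ E0 k (frobPt ℓ E0 k P) - a • frobPt ℓ E0 k P + (ℓ : ℤ) • P := rfl

/-- The Frobenius endomorphism on an affine point. -/
lemma frob_some {x y : k} (h : (E0.toAffine⁄k).Nonsingular x y) :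
    ∃ h' : (E0.toAffine⁄k).Nonsingular (x ^ ℓ) (y ^ ℓ),
      frobPt ℓ E0 k (Point.some x y h) = Point.some _ _ h' := by
  have e := Point.map_some (W' := E0.toAffine) (FiniteField.frobeniusAlgHom (ZMod ℓ) k) h
  have hx : (FiniteField.frobeniusAlgHom (ZMod ℓ) k) x = x ^ ℓ := by
    rw [FiniteField.coe_frobeniusAlgHom, ZMod.card]
  have hy : (FiniteField.frobeniusAlgHom (ZMod ℓ) k) y = y ^ ℓ := by
    rw [FiniteField.coe_frobeniusAlgHom, ZMod.card]
  obtain ⟨h'', e'⟩ := some_eq_some
    ((E0.toAffine.baseChange_nonsingular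
      (FiniteField.frobeniusAlgHom (ZMod ℓ) k).injective ..).mpr h) hx hy
  exact ⟨h'', e.trans e'⟩

/-- The quadratic relation, with the true point count, transports along an `𝔽_ℓ`-rational
change of variables. -/
theorem frobQuad_of_variableChange (C : VariableChange (ZMod ℓ))
    (h : ∀ Q : ((C • E0).toAffine⁄k).Point,
      frobPt ℓ (C • E0) k (frobPt ℓ (C • E0) k Q)
        - ((ℓ : ℤ) + 1 - (Nat.card (C • E0).toAffine.Point : ℤ)) • frobPt ℓ (C • E0) k Q
        + (ℓ : ℤ) • Q = 0)
    (P : (E0.toAffine⁄k).Point) :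
    frobPt ℓ E0 k (frobPt ℓ E0 k P)
      - ((ℓ : ℤ) + 1 - (Nat.card E0.toAffine.Point : ℤ)) • frobPt ℓ E0 k P + (ℓ : ℤ) • P = 0 := by
  have hcard : Nat.card (C • E0).toAffine.Point = Nat.card E0.toAffine.Point :=
    Fermat.Agent.S52.VC.card_variableChange C E0
  have key := h (Fermat.Agent.P7.VCAdd.baseEquivBC (K := k) C E0 P)
  have hfrob : ∀ Q : (E0.toAffine⁄k).Point,
      frobPt ℓ (C • E0) k (Fermat.Agent.P7.VCAdd.baseEquivBC (K := k) C E0 Q) =
        Fermat.Agent.P7.VCAdd.baseEquivBC (K := k) C E0 (frobPt ℓ E0 k Q) := fun Q =>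
    (Fermat.Agent.S58.FrobQuadGen.baseEquivBC_map C E0
      (FiniteField.frobeniusAlgHom (ZMod ℓ) k) Q).symm
  rw [hcard] at key
  apply (Fermat.Agent.P7.VCAdd.baseEquivBC (K := k) C E0).injective
  rw [_root_.map_zero, map_add, map_sub, map_zsmul, map_zsmul, ← hfrob (frobPt ℓ E0 k P),
    ← hfrob P]
  exact key

end QuadHom

/-! ### Point counts over `ZMod n` -/

section Count

variable {n : ℕ} [NeZero n]

/-- The nonsingularity condition over `ZMod n`, in decidable form. -/
def nsP (E : WeierstrassCurve (ZMod n)) (xy : ZMod n × ZMod n) : Prop :=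
  xy.2 ^ 2 + E.a₁ * xy.1 * xy.2 + E.a₃ * xy.2 = xy.1 ^ 3 + E.a₂ * xy.1 ^ 2 + E.a₄ * xy.1 + E.a₆ ∧
    (E.a₁ * xy.2 ≠ 3 * xy.1 ^ 2 + 2 * E.a₂ * xy.1 + E.a₄ ∨ xy.2 ≠ -xy.2 - E.a₁ * xy.1 - E.a₃)

instance nsP_decidable (E : WeierstrassCurve (ZMod n)) : DecidablePred (nsP E) := fun xy => by
  unfold nsP; infer_instance

omit [NeZero n] in
lemma nsP_iff (E : WeierstrassCurve (ZMod n)) (xy : ZMod n × ZMod n) :
    E.toAffine.Nonsingular xy.1 xy.2 ↔ nsP E xy := by
  rw [nonsingular_iff, equation_iff]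
  rfl

/-- The number of points of a Weierstrass curve over `ZMod n`, in computable form. -/
theorem card_eq_count (E : WeierstrassCurve (ZMod n)) :
    Nat.card E.toAffine.Point
      = (Finset.univ.filter (fun xy : ZMod n × ZMod n => nsP E xy)).card + 1 := by
  rw [Nat.card_congr E.toAffine.nonsingularPointEquiv]
  show Nat.card (Option {xy : ZMod n × ZMod n // E.toAffine.Nonsingular xy.1 xy.2}) = _
  rw [Finite.card_option, Nat.card_congr (Equiv.subtypeEquivRight (nsP_iff E)),
    Nat.card_eq_fintype_card, Fintype.card_subtype]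

end Count

end Fermat.Agent.S58.FrobQuadKit
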