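import Mathlib
import Fermat.Agent.S52.M2.Defs
import Fermat.Agent.P7.VCAdd

/-!
# S58 / (T9), char 3 — the quadratic twist by `-1` over `𝔽_3`

For a Weierstrass curve `E : y² = x³ + a₂x² + a₄x + a₆` over `𝔽_3` the curve
`twist E : y² = x³ - a₂x² + a₄x - a₆` is its quadratic twist by `-1`: over a field `k ⊇ 𝔽_3` with
`i² = -1` the map `(x, y) ↦ (-x, i y)` is a group isomorphism `E(k) ≃ (twist E)(k)` which
anti-commutes with the Frobenius endomorphism (`i³ = -i`).  Hence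

  `φ² - a φ + 3 = 0` on `E(k)`  ⟹  `φ² + a φ + 3 = 0` on `(twist E)(k)`

(`frobQuad_twist`), and with the point counts (`#E(𝔽_3) + #(twist E)(𝔽_3) = 8`) the Frobenius
quadratic equation with the true trace passes from `E` to `twist E` (`frobQuad_twist_card`).
-/

set_option autoImplicit false

namespace Fermat.Agent.S58.FrobQuadTwist

open WeierstrassCurve WeierstrassCurve.Affine
open Fermat.Agent.S52.M2 Fermat.Agent.S52.VC Fermat.Agent.P7.VCAdd

noncomputable section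

universe u

/-- The quadratic twist by `-1` of `y² = x³ + a₂x² + a₄x + a₆`. -/
def twist (E : WeierstrassCurve (ZMod 3)) : WeierstrassCurve (ZMod 3) :=
  ⟨0, -E.a₂, 0, E.a₄, -E.a₆⟩

theorem twist_mk (a₂ a₄ a₆ : ZMod 3) :
    twist ⟨0, a₂, 0, a₄, a₆⟩ = ⟨0, -a₂, 0, a₄, -a₆⟩ := rfl

/-- `y² = x³ + x² + 1` and `y² = x³ - x² - 1` are twists of each other. -/
theorem twist_one_one : twist ⟨0, 1, 0, 0, 1⟩ = ⟨0, 2, 0, 0, 2⟩ := by
  rw [twist_mk]; congr 1

/-- `y² = x³ + x² - 1` and `y² = x³ - x² + 1` are twists of each other. -/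
theorem twist_one_two : twist ⟨0, 1, 0, 0, 2⟩ = ⟨0, 2, 0, 0, 1⟩ := by
  rw [twist_mk]; congr 1

theorem twist_two_two : twist ⟨0, 2, 0, 0, 2⟩ = ⟨0, 1, 0, 0, 1⟩ := by
  rw [twist_mk]; congr 1

theorem twist_two_one : twist ⟨0, 2, 0, 0, 1⟩ = ⟨0, 1, 0, 0, 2⟩ := by
  rw [twist_mk]; congr 1

variable (E : WeierstrassCurve (ZMod 3)) (k : Type u) [Field k] [Algebra (ZMod 3) k]

/-- The change of variables `(x, y) ↦ (-x, i⁻³ y)` for `i² = -1`. -/
def twistVC (i : k) (hi : i ^ 2 = -1) : VariableChange k :=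
  ⟨Units.mk0 i (fun h => by rw [h] at hi; simp at hi), 0, 0, 0⟩

variable {k}

omit [Algebra (ZMod 3) k] in
lemma twistVC_uinv_sq (i : k) (hi : i ^ 2 = -1) : ((↑(twistVC k i hi).u⁻¹ : k)) ^ 2 = -1 := by
  have h0 : i ≠ 0 := fun h => by rw [h] at hi; simp at hi
  show ((↑(Units.mk0 i h0)⁻¹ : k)) ^ 2 = -1
  rw [Units.val_inv_eq_inv_val, Units.val_mk0, inv_pow, hi]
  norm_num

lemma twistVC_smul (h1 : E.a₁ = 0) (h3 : E.a₃ = 0) (i : k) (hi : i ^ 2 = -1) :
    twistVC k i hi • E.map (algebraMap (ZMod 3) k) = (twist E).map (algebraMap (ZMod 3) k) := by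
  have hu := twistVC_uinv_sq i hi
  have hu4 : ((↑(twistVC k i hi).u⁻¹ : k)) ^ 4 = 1 := by
    have : ((↑(twistVC k i hi).u⁻¹ : k)) ^ 4 = (((↑(twistVC k i hi).u⁻¹ : k)) ^ 2) ^ 2 := by ring
    rw [this, hu]; ring
  have hu6 : ((↑(twistVC k i hi).u⁻¹ : k)) ^ 6 = -1 := by
    have : ((↑(twistVC k i hi).u⁻¹ : k)) ^ 6 = (((↑(twistVC k i hi).u⁻¹ : k)) ^ 2) ^ 3 := by ring
    rw [this, hu]; ring
  have hr : (twistVC k i hi).r = 0 := rfl
  have hs : (twistVC k i hi).s = 0 := rfl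
  have ht : (twistVC k i hi).t = 0 := rfl
  ext
  · simp only [variableChange_a₁, map_a₁, twist, h1, hs, _root_.map_zero]; ring
  · simp only [variableChange_a₂, map_a₂, map_a₁, twist, h1, hs, hr, map_neg, hu]; ring
  · simp only [variableChange_a₃, map_a₃, map_a₁, twist, h3, hr, ht, _root_.map_zero]; ring
  · simp only [variableChange_a₄, map_a₄, map_a₂, map_a₁, map_a₃, twist, h1, h3, hr, hs, ht,
      _root_.map_zero, hu4]; ring
  · simp only [variableChange_a₆, map_a₆, map_a₄, map_a₂, map_a₁, map_a₃, twist, h1, h3, hr, ht,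
      _root_.map_zero, map_neg, hu6]; ring

variable [DecidableEq k]

/-- The twisting isomorphism, spelled with `map (algebraMap _ k)`. -/
def twistEquivMap (h1 : E.a₁ = 0) (h3 : E.a₃ = 0) (i : k) (hi : i ^ 2 = -1) :
    (E.map (algebraMap (ZMod 3) k)).toAffine.Point ≃+
      ((twist E).map (algebraMap (ZMod 3) k)).toAffine.Point :=
  (pointAddEquiv (twistVC k i hi) (E.map (algebraMap (ZMod 3) k))).trans
    (congrPt (twistVC_smul E h1 h3 i hi))

lemma twistEquivMap_some (h1 : E.a₁ = 0) (h3 : E.a₃ = 0) (i : k) (hi : i ^ 2 = -1) (x y : k)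
    (h : (E.map (algebraMap (ZMod 3) k)).toAffine.Nonsingular x y) :
    ∃ h' : ((twist E).map (algebraMap (ZMod 3) k)).toAffine.Nonsingular
        (xMap (twistVC k i hi) x) (yMap (twistVC k i hi) x y),
      twistEquivMap E h1 h3 i hi (Point.some x y h) = Point.some _ _ h' := by
  refine ⟨(twistVC_smul E h1 h3 i hi) ▸
    (nonsingular_map_iff (twistVC k i hi) (E.map (algebraMap (ZMod 3) k)) x y).mpr h, ?_⟩
  show congrPt _ (pointAddEquiv (twistVC k i hi) (E.map (algebraMap (ZMod 3) k))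
    (Point.some x y h)) = _
  rw [pointAddEquiv_some, congrPt_some]

/-- The twisting isomorphism `E(k) ≃+ (twist E)(k)`. -/
def twistEquiv (h1 : E.a₁ = 0) (h3 : E.a₃ = 0) (i : k) (hi : i ^ 2 = -1) :
    (E.toAffine⁄k).Point ≃+ ((twist E).toAffine⁄k).Point :=
  twistEquivMap E h1 h3 i hi

lemma twistEquiv_some (h1 : E.a₁ = 0) (h3 : E.a₃ = 0) (i : k) (hi : i ^ 2 = -1) (x y : k)
    (h : (E.toAffine⁄k).Nonsingular x y) :
    ∃ h' : ((twist E).toAffine⁄k).Nonsingular (xMap (twistVC k i hi) x) (yMap (twistVC k i hi) x y),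
      twistEquiv E h1 h3 i hi (Point.some x y h) = Point.some _ _ h' :=
  twistEquivMap_some E h1 h3 i hi x y h

/-- The twisting isomorphism anti-commutes with the Frobenius endomorphism. -/
theorem twistEquiv_frobPt (h1 : E.a₁ = 0) (h3 : E.a₃ = 0) (i : k) (hi : i ^ 2 = -1)
    (P : (E.toAffine⁄k).Point) :
    twistEquiv E h1 h3 i hi (frobPt 3 E k P) =
      -(frobPt 3 (twist E) k (twistEquiv E h1 h3 i hi P)) := by
  rcases P with _ | ⟨x, y, h⟩
  · show twistEquiv E h1 h3 i hi (frobPt 3 E k 0) = -(frobPt 3 (twist E) k (twistEquiv E h1 h3 i hi 0))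
    simp only [_root_.map_zero, neg_zero]
  · obtain ⟨h', e'⟩ := twistEquiv_some E h1 h3 i hi x y h
    rw [e']
    simp only [frobPt, Point.map_some]
    generalize_proofs _ hφ
    obtain ⟨h'', e''⟩ := twistEquiv_some E h1 h3 i hi _ _ hφ
    rw [e'', Point.neg_some]
    have hu := twistVC_uinv_sq i hi
    have hc : Fintype.card (ZMod 3) = 3 := ZMod.card 3
    refine some_congr _ _ ?_ ?_
    · show xMap (twistVC k i hi) (x ^ Fintype.card (ZMod 3)) =
        (xMap (twistVC k i hi) x) ^ Fintype.card (ZMod 3)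
      rw [hc]
      simp only [xMap]
      have hr : (twistVC k i hi).r = 0 := rfl
      rw [hr, sub_zero, sub_zero, hu]
      ring
    · show yMap (twistVC k i hi) (x ^ Fintype.card (ZMod 3)) (y ^ Fintype.card (ZMod 3)) =
        ((twist E).toAffine⁄k).negY ((xMap (twistVC k i hi) x) ^ Fintype.card (ZMod 3))
          ((yMap (twistVC k i hi) x y) ^ Fintype.card (ZMod 3))
      rw [hc]
      have ha1 : ((twist E).toAffine⁄k).a₁ = 0 := by
        show ((twist E).map (algebraMap (ZMod 3) k)).a₁ = 0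
        simp [twist]
      have ha3 : ((twist E).toAffine⁄k).a₃ = 0 := by
        show ((twist E).map (algebraMap (ZMod 3) k)).a₃ = 0
        simp [twist]
      simp only [Affine.negY, ha1, ha3, yMap]
      have hr : (twistVC k i hi).r = 0 := rfl
      have hs : (twistVC k i hi).s = 0 := rfl
      have ht : (twistVC k i hi).t = 0 := rfl
      rw [hr, hs, ht]
      have h9 : ((↑(twistVC k i hi).u⁻¹ : k) ^ 3) ^ 3 = -((↑(twistVC k i hi).u⁻¹ : k) ^ 3) := by
        have : ((↑(twistVC k i hi).u⁻¹ : k) ^ 3) ^ 3 =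
            (((↑(twistVC k i hi).u⁻¹ : k)) ^ 2) ^ 3 * (↑(twistVC k i hi).u⁻¹ : k) ^ 3 := by ring
        rw [this, hu]; ring
      linear_combination (y ^ 3) * h9

/-- **Twist transport.**  If `φ² - a φ + 3 = 0` on `E(k)` then `φ² + a φ + 3 = 0` on
`(twist E)(k)`. -/
theorem frobQuad_twist (h1 : E.a₁ = 0) (h3 : E.a₃ = 0) (i : k) (hi : i ^ 2 = -1) (a : ℤ)
    (hE : ∀ P : (E.toAffine⁄k).Point,
      frobPt 3 E k (frobPt 3 E k P) - a • frobPt 3 E k P + (3 : ℤ) • P = 0)
    (P : ((twist E).toAffine⁄k).Point) :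
    frobPt 3 (twist E) k (frobPt 3 (twist E) k P) - (-a) • frobPt 3 (twist E) k P
      + (3 : ℤ) • P = 0 := by
  set τ := twistEquiv E h1 h3 i hi with hτ
  obtain ⟨Q, rfl⟩ := τ.surjective P
  have key := congrArg τ (hE Q)
  rw [_root_.map_zero, map_add, map_sub, map_zsmul, map_zsmul, hτ, twistEquiv_frobPt,
    twistEquiv_frobPt, map_neg, neg_neg, ← hτ] at key
  rw [neg_zsmul, sub_neg_eq_add]
  rw [zsmul_neg, sub_neg_eq_add] at key
  exact key

/-- **Twist transport with the true traces**: given `#E(𝔽_3) + #(twist E)(𝔽_3) = 8`, the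
Frobenius quadratic equation passes from `E` to `twist E`. -/
theorem frobQuad_twist_card (h1 : E.a₁ = 0) (h3 : E.a₃ = 0) [IsAlgClosed k]
    (hcard : Nat.card E.toAffine.Point + Nat.card (twist E).toAffine.Point = 8)
    (hE : ∀ P : (E.toAffine⁄k).Point,
      frobPt 3 E k (frobPt 3 E k P)
        - ((3 : ℤ) + 1 - (Nat.card E.toAffine.Point : ℤ)) • frobPt 3 E k P + (3 : ℤ) • P = 0)
    (P : ((twist E).toAffine⁄k).Point) :
    frobPt 3 (twist E) k (frobPt 3 (twist E) k P)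
      - ((3 : ℤ) + 1 - (Nat.card (twist E).toAffine.Point : ℤ)) • frobPt 3 (twist E) k P
      + (3 : ℤ) • P = 0 := by
  obtain ⟨i, hi⟩ := IsAlgClosed.exists_pow_nat_eq (-1 : k) (n := 2) (by norm_num)
  have key := frobQuad_twist E h1 h3 i hi _ hE P
  have hc : ((3 : ℤ) + 1 - (Nat.card (twist E).toAffine.Point : ℤ)) =
      -((3 : ℤ) + 1 - (Nat.card E.toAffine.Point : ℤ)) := by
    have : (Nat.card E.toAffine.Point : ℤ) + (Nat.card (twist E).toAffine.Point : ℤ) = 8 := by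
      exact_mod_cast hcard
    linarith
  rw [hc]
  exact key

end

end Fermat.Agent.S58.FrobQuadTwist
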