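import Mathlib
import Fermat.Agent.S58.FrobQuadKit

/-!
# S58 / [FQ-2] — the Frobenius quadratic relation on every elliptic curve over `𝔽₂`

`S52.M2.frob_quadratic` proves `φ² - a φ + ℓ = 0` on short Weierstrass models, which do not exist
in characteristic `2`.  This file proves the relation, with the true point count
`a = 2 + 1 - #E0(𝔽₂)`, for EVERY Weierstrass curve `E0` over `𝔽₂` with `Δ ≠ 0`
(`frobQuad_two`), by brute force on normal forms: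

* an `𝔽₂`-rational change of variables `(u, r, s, t) = (1, r, 0, t)` carries `E0` to one of
  `y² + y = x³ + c x + d` (four curves, `a = 0, 0, -2, 2`) or `y² + xy = x³ + e x² + 1`
  (two curves, `a = -1, 1`); the classification of the 32 equations and the six point counts
  are by `decide`;
* on `y² + y = x³ + c x + d` the doubling is polynomial, `2P = (x⁴ + c, …)`, and the relation is
  one chord (no exceptional points);
* on `y² + xy = x³ + e x² + 1` the point `Q = a P - φ P` is one chord, `x(Q) = x + 1/x`, and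
  `2P = φ Q` is one tangent, for `x ∉ {0, 1}`; the remaining points are handled by additivity
  (`FrobQuadKit.eq_zero_of_generic`: an additive map vanishing at all points with abscissa outside a finite
  set vanishes);
* transport along the change of variables: `FrobQuadKit.frobQuad_of_variableChange`
  (`P7.VCAdd.baseEquivBC`, `S58.FrobQuadGen.baseEquivBC_map`, `S52.VC.card_variableChange`).

All polynomial identities hold modulo `2` and the curve equation; the cofactors in the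
`linear_combination` calls were computed mechanically.
-/

set_option autoImplicit false

namespace Fermat.Agent.S58.FrobQuadTwo

open WeierstrassCurve WeierstrassCurve.Affine Fermat.Agent.S52.M2 Fermat.Agent.S58.FrobQuadKit

universe u

section Frob

variable (E0 : WeierstrassCurve (ZMod 2)) (k : Type u) [Field k] [Algebra (ZMod 2) k]

lemma two_eq_zero : (2 : k) = 0 := by
  have h : algebraMap (ZMod 2) k (2 : ZMod 2) = algebraMap (ZMod 2) k 0 := congrArg _ (by decide)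
  rwa [map_ofNat, map_zero] at h

end Frob

/-! ### The supersingular normal forms `y² + y = x³ + c x + d` -/

section N1

/-- `y² + y = x³ + c x + d`. -/
def N1 (c d : ZMod 2) : WeierstrassCurve (ZMod 2) := ⟨0, 0, 1, c, d⟩

variable (k : Type u) [Field k] [Algebra (ZMod 2) k]

lemma N1_a₁ (c d : ZMod 2) : ((N1 c d).toAffine⁄k).a₁ = 0 := by
  show algebraMap (ZMod 2) k 0 = 0
  exact map_zero _

lemma N1_a₂ (c d : ZMod 2) : ((N1 c d).toAffine⁄k).a₂ = 0 := by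
  show algebraMap (ZMod 2) k 0 = 0
  exact map_zero _

lemma N1_a₃ (c d : ZMod 2) : ((N1 c d).toAffine⁄k).a₃ = 1 := by
  show algebraMap (ZMod 2) k 1 = 1
  exact map_one _

lemma N1_a₄ (c d : ZMod 2) : ((N1 c d).toAffine⁄k).a₄ = algebraMap (ZMod 2) k c := rfl

lemma N1_a₆ (c d : ZMod 2) : ((N1 c d).toAffine⁄k).a₆ = algebraMap (ZMod 2) k d := rfl

end N1

section N1quad

/-- Doubling on `y² + y = x³ + 0 x + 0` (characteristic `2`): no exceptional points. -/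
theorem N1_00_double {k : Type*} [Field k] [DecidableEq k] {W : Affine k} (h2 : (2 : k) = 0)
    (ha₁ : W.a₁ = 0) (ha₂ : W.a₂ = 0) (ha₃ : W.a₃ = 1) (ha₄ : W.a₄ = 0) (ha₆ : W.a₆ = 0)
    {x y : k} (h : W.Nonsingular x y) :
    ∃ h' : W.Nonsingular (x ^ 4) (x ^ 6 + x ^ 3 + y + 1),
      Point.some x y h + Point.some x y h = Point.some _ _ h' := by
  have hc : y ^ 2 + 0 * x * y + 1 * y = x ^ 3 + 0 * x ^ 2 + 0 * x + 0 := by
    have e := (equation_iff _ _).mp h.1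
    rw [ha₁, ha₂, ha₃, ha₄, ha₆] at e
    exact e
  refine add_self_of_tangent h (L := x ^ 2) ?_ ?_ ?_ ?_
  · intro e
    rw [negY, ha₁, ha₃] at e
    exact one_ne_zero (α := k) (by linear_combination e - y * h2)
  · rw [negY, ha₁, ha₂, ha₃, ha₄]
    linear_combination (x ^ 2 * y - x ^ 2) * h2
  · rw [ha₁, ha₂]
    linear_combination (x) * h2
  · rw [ha₁, ha₃]
    linear_combination (x ^ 6 + y + 1) * h2

theorem N1_00_quad (k : Type u) [Field k] [Algebra (ZMod 2) k] [DecidableEq k]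
    (P : ((N1 0 0).toAffine⁄k).Point) :
    frobPt 2 (N1 0 0) k (frobPt 2 (N1 0 0) k P) - (0 : ℤ) • frobPt 2 (N1 0 0) k P + (2 : ℤ) • P = 0 := by
  have h2 := two_eq_zero k
  rcases P with _ | ⟨x, y, h⟩
  · show frobPt 2 (N1 0 0) k (frobPt 2 (N1 0 0) k 0) - (0 : ℤ) • frobPt 2 (N1 0 0) k 0 + (2 : ℤ) • 0 = 0
    simp only [map_zero, smul_zero, sub_zero, add_zero]
  · obtain ⟨h₁, e₁⟩ := frob_some 2 (N1 0 0) k h
    obtain ⟨h₂, e₂⟩ := frob_some 2 (N1 0 0) k h₁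
    obtain ⟨h₃, e₃⟩ := N1_00_double h2 (N1_a₁ k _ _) (N1_a₂ k _ _) (N1_a₃ k _ _) (by rw [N1_a₄]; simp) (by rw [N1_a₆]; simp) h
    have hc : y ^ 2 + 0 * x * y + 1 * y = x ^ 3 + 0 * x ^ 2 + 0 * x + 0 := by
      have e := (equation_iff _ _).mp h.1
      rw [N1_a₁, N1_a₂, N1_a₃, N1_a₄, N1_a₆] at e
      simp only [map_zero] at e
      exact e
    rw [e₁, e₂, zero_smul, sub_zero, two_zsmul, e₃]
    refine Point.add_of_Y_eq (by ring) ?_
    rw [negY, N1_a₁, N1_a₃]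
    linear_combination (x ^ 6 - x ^ 3 * y + x ^ 3 + 1) * h2 + (x ^ 3 + y ^ 2 - y + 1) * hc

/-- Doubling on `y² + y = x³ + 0 x + 1` (characteristic `2`): no exceptional points. -/
theorem N1_01_double {k : Type*} [Field k] [DecidableEq k] {W : Affine k} (h2 : (2 : k) = 0)
    (ha₁ : W.a₁ = 0) (ha₂ : W.a₂ = 0) (ha₃ : W.a₃ = 1) (ha₄ : W.a₄ = 0) (ha₆ : W.a₆ = 1)
    {x y : k} (h : W.Nonsingular x y) :
    ∃ h' : W.Nonsingular (x ^ 4) (x ^ 6 + x ^ 3 + y + 1),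
      Point.some x y h + Point.some x y h = Point.some _ _ h' := by
  have hc : y ^ 2 + 0 * x * y + 1 * y = x ^ 3 + 0 * x ^ 2 + 0 * x + 1 := by
    have e := (equation_iff _ _).mp h.1
    rw [ha₁, ha₂, ha₃, ha₄, ha₆] at e
    exact e
  refine add_self_of_tangent h (L := x ^ 2) ?_ ?_ ?_ ?_
  · intro e
    rw [negY, ha₁, ha₃] at e
    exact one_ne_zero (α := k) (by linear_combination e - y * h2)
  · rw [negY, ha₁, ha₂, ha₃, ha₄]
    linear_combination (x ^ 2 * y - x ^ 2) * h2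
  · rw [ha₁, ha₂]
    linear_combination (x) * h2
  · rw [ha₁, ha₃]
    linear_combination (x ^ 6 + y + 1) * h2

theorem N1_01_quad (k : Type u) [Field k] [Algebra (ZMod 2) k] [DecidableEq k]
    (P : ((N1 0 1).toAffine⁄k).Point) :
    frobPt 2 (N1 0 1) k (frobPt 2 (N1 0 1) k P) - (0 : ℤ) • frobPt 2 (N1 0 1) k P + (2 : ℤ) • P = 0 := by
  have h2 := two_eq_zero k
  rcases P with _ | ⟨x, y, h⟩
  · show frobPt 2 (N1 0 1) k (frobPt 2 (N1 0 1) k 0) - (0 : ℤ) • frobPt 2 (N1 0 1) k 0 + (2 : ℤ) • 0 = 0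
    simp only [map_zero, smul_zero, sub_zero, add_zero]
  · obtain ⟨h₁, e₁⟩ := frob_some 2 (N1 0 1) k h
    obtain ⟨h₂, e₂⟩ := frob_some 2 (N1 0 1) k h₁
    obtain ⟨h₃, e₃⟩ := N1_01_double h2 (N1_a₁ k _ _) (N1_a₂ k _ _) (N1_a₃ k _ _) (by rw [N1_a₄]; simp) (by rw [N1_a₆]; simp) h
    have hc : y ^ 2 + 0 * x * y + 1 * y = x ^ 3 + 0 * x ^ 2 + 0 * x + 1 := by
      have e := (equation_iff _ _).mp h.1
      rw [N1_a₁, N1_a₂, N1_a₃, N1_a₄, N1_a₆] at e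
      simp only [map_zero, map_one] at e
      exact e
    rw [e₁, e₂, zero_smul, sub_zero, two_zsmul, e₃]
    refine Point.add_of_Y_eq (by ring) ?_
    rw [negY, N1_a₁, N1_a₃]
    linear_combination (x ^ 6 - x ^ 3 * y + 2 * x ^ 3 - y + 2) * h2 + (x ^ 3 + y ^ 2 - y + 2) * hc

/-- Doubling on `y² + y = x³ + 1 x + 0` (characteristic `2`): no exceptional points. -/
theorem N1_10_double {k : Type*} [Field k] [DecidableEq k] {W : Affine k} (h2 : (2 : k) = 0)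
    (ha₁ : W.a₁ = 0) (ha₂ : W.a₂ = 0) (ha₃ : W.a₃ = 1) (ha₄ : W.a₄ = 1) (ha₆ : W.a₆ = 0)
    {x y : k} (h : W.Nonsingular x y) :
    ∃ h' : W.Nonsingular (x ^ 4 + 1) (x ^ 6 + x ^ 4 + x ^ 3 + x ^ 2 + x + y),
      Point.some x y h + Point.some x y h = Point.some _ _ h' := by
  have hc : y ^ 2 + 0 * x * y + 1 * y = x ^ 3 + 0 * x ^ 2 + 1 * x + 0 := by
    have e := (equation_iff _ _).mp h.1
    rw [ha₁, ha₂, ha₃, ha₄, ha₆] at e
    exact e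
  refine add_self_of_tangent h (L := x ^ 2 + 1) ?_ ?_ ?_ ?_
  · intro e
    rw [negY, ha₁, ha₃] at e
    exact one_ne_zero (α := k) (by linear_combination e - y * h2)
  · rw [negY, ha₁, ha₂, ha₃, ha₄]
    linear_combination (x ^ 2 * y - x ^ 2 + y) * h2
  · rw [ha₁, ha₂]
    linear_combination (-x ^ 2 + x) * h2
  · rw [ha₁, ha₃]
    linear_combination (x ^ 6 + x ^ 4 + x ^ 2 + y + 1) * h2

theorem N1_10_quad (k : Type u) [Field k] [Algebra (ZMod 2) k] [DecidableEq k]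
    (P : ((N1 1 0).toAffine⁄k).Point) :
    frobPt 2 (N1 1 0) k (frobPt 2 (N1 1 0) k P) - (-2 : ℤ) • frobPt 2 (N1 1 0) k P + (2 : ℤ) • P = 0 := by
  have h2 := two_eq_zero k
  rcases P with _ | ⟨x, y, h⟩
  · show frobPt 2 (N1 1 0) k (frobPt 2 (N1 1 0) k 0) - (-2 : ℤ) • frobPt 2 (N1 1 0) k 0 + (2 : ℤ) • 0 = 0
    simp only [map_zero, smul_zero, sub_zero, add_zero]
  · obtain ⟨h₁, e₁⟩ := frob_some 2 (N1 1 0) k h
    obtain ⟨h₂, e₂⟩ := frob_some 2 (N1 1 0) k h₁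
    obtain ⟨h₃, e₃⟩ := N1_10_double h2 (N1_a₁ k _ _) (N1_a₂ k _ _) (N1_a₃ k _ _) (by rw [N1_a₄]; simp) (by rw [N1_a₆]; simp) h
    have hc : y ^ 2 + 0 * x * y + 1 * y = x ^ 3 + 0 * x ^ 2 + 1 * x + 0 := by
      have e := (equation_iff _ _).mp h.1
      rw [N1_a₁, N1_a₂, N1_a₃, N1_a₄, N1_a₆] at e
      simp only [map_zero, map_one] at e
      exact e
    obtain ⟨h₄, e₄⟩ := N1_10_double h2 (N1_a₁ k _ _) (N1_a₂ k _ _) (N1_a₃ k _ _) (by rw [N1_a₄]; simp) (by rw [N1_a₆]; simp) h₁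
    have key : ∃ h₅ : ((N1 1 0).toAffine⁄k).Nonsingular ((x ^ 2) ^ 4 + 1) (-((x ^ 2) ^ 6 + (x ^ 2) ^ 4 + (x ^ 2) ^ 3 + (x ^ 2) ^ 2 + (x ^ 2) + (y ^ 2)) - 1),
        Point.some _ _ h₂ + Point.some _ _ h₃ = Point.some _ _ h₅ := by
      refine add_of_chord h₂ h₃ (L := x ^ 4) ?_ ?_ ?_ ?_
      · intro e
        exact one_ne_zero (α := k) (by linear_combination (-1 : k) * e)
      · linear_combination (-x ^ 4 + x ^ 3 * y + x * y + y) * h2 + (-x ^ 3 - x - y ^ 2 + y - 1) * hc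
      · rw [N1_a₁, N1_a₂]
        linear_combination (x ^ 4 + 1) * h2
      · rw [N1_a₁, N1_a₃]
        linear_combination (-x ^ 8 + x ^ 4 - x ^ 3 * y - x * y) * h2 + (x ^ 3 + x + y ^ 2 - y) * hc
    obtain ⟨h₅, e₅⟩ := key
    rw [e₁, e₂]
    rw [neg_smul, sub_neg_eq_add, two_zsmul, two_zsmul, e₃, e₄, add_right_comm, e₅]
    refine Point.add_of_Y_eq rfl ?_
    rw [negY, N1_a₁, N1_a₃]
    ring

/-- Doubling on `y² + y = x³ + 1 x + 1` (characteristic `2`): no exceptional points. -/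
theorem N1_11_double {k : Type*} [Field k] [DecidableEq k] {W : Affine k} (h2 : (2 : k) = 0)
    (ha₁ : W.a₁ = 0) (ha₂ : W.a₂ = 0) (ha₃ : W.a₃ = 1) (ha₄ : W.a₄ = 1) (ha₆ : W.a₆ = 1)
    {x y : k} (h : W.Nonsingular x y) :
    ∃ h' : W.Nonsingular (x ^ 4 + 1) (x ^ 6 + x ^ 4 + x ^ 3 + x ^ 2 + x + y),
      Point.some x y h + Point.some x y h = Point.some _ _ h' := by
  have hc : y ^ 2 + 0 * x * y + 1 * y = x ^ 3 + 0 * x ^ 2 + 1 * x + 1 := by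
    have e := (equation_iff _ _).mp h.1
    rw [ha₁, ha₂, ha₃, ha₄, ha₆] at e
    exact e
  refine add_self_of_tangent h (L := x ^ 2 + 1) ?_ ?_ ?_ ?_
  · intro e
    rw [negY, ha₁, ha₃] at e
    exact one_ne_zero (α := k) (by linear_combination e - y * h2)
  · rw [negY, ha₁, ha₂, ha₃, ha₄]
    linear_combination (x ^ 2 * y - x ^ 2 + y) * h2
  · rw [ha₁, ha₂]
    linear_combination (-x ^ 2 + x) * h2
  · rw [ha₁, ha₃]
    linear_combination (x ^ 6 + x ^ 4 + x ^ 2 + y + 1) * h2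

theorem N1_11_quad (k : Type u) [Field k] [Algebra (ZMod 2) k] [DecidableEq k]
    (P : ((N1 1 1).toAffine⁄k).Point) :
    frobPt 2 (N1 1 1) k (frobPt 2 (N1 1 1) k P) - (2 : ℤ) • frobPt 2 (N1 1 1) k P + (2 : ℤ) • P = 0 := by
  have h2 := two_eq_zero k
  rcases P with _ | ⟨x, y, h⟩
  · show frobPt 2 (N1 1 1) k (frobPt 2 (N1 1 1) k 0) - (2 : ℤ) • frobPt 2 (N1 1 1) k 0 + (2 : ℤ) • 0 = 0
    simp only [map_zero, smul_zero, sub_zero, add_zero]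
  · obtain ⟨h₁, e₁⟩ := frob_some 2 (N1 1 1) k h
    obtain ⟨h₂, e₂⟩ := frob_some 2 (N1 1 1) k h₁
    obtain ⟨h₃, e₃⟩ := N1_11_double h2 (N1_a₁ k _ _) (N1_a₂ k _ _) (N1_a₃ k _ _) (by rw [N1_a₄]; simp) (by rw [N1_a₆]; simp) h
    have hc : y ^ 2 + 0 * x * y + 1 * y = x ^ 3 + 0 * x ^ 2 + 1 * x + 1 := by
      have e := (equation_iff _ _).mp h.1
      rw [N1_a₁, N1_a₂, N1_a₃, N1_a₄, N1_a₆] at e
      simp only [map_one] at e
      exact e
    obtain ⟨h₄, e₄⟩ := N1_11_double h2 (N1_a₁ k _ _) (N1_a₂ k _ _) (N1_a₃ k _ _) (by rw [N1_a₄]; simp) (by rw [N1_a₆]; simp) h₁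
    have key : ∃ h₅ : ((N1 1 1).toAffine⁄k).Nonsingular ((x ^ 2) ^ 4 + 1) ((x ^ 2) ^ 6 + (x ^ 2) ^ 4 + (x ^ 2) ^ 3 + (x ^ 2) ^ 2 + (x ^ 2) + (y ^ 2)),
        Point.some _ _ h₂ + Point.some _ _ h₃ = Point.some _ _ h₅ := by
      refine add_of_chord h₂ h₃ (L := x ^ 4) ?_ ?_ ?_ ?_
      · intro e
        exact one_ne_zero (α := k) (by linear_combination (-1 : k) * e)
      · linear_combination (-x ^ 4 + x ^ 3 * y - x ^ 3 + x * y - x + 2 * y - 1) * h2 + (-x ^ 3 - x - y ^ 2 + y - 2) * hc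
      · rw [N1_a₁, N1_a₂]
        linear_combination (x ^ 4 + 1) * h2
      · rw [N1_a₁, N1_a₃]
        linear_combination (x ^ 12 + x ^ 6 + 2 * x ^ 4 - x ^ 3 * y + 2 * x ^ 3 + x ^ 2 - x * y + 2 * x - 2 * y + 2) * h2 + (x ^ 3 + x + y ^ 2 - y + 3) * hc
    obtain ⟨h₅, e₅⟩ := key
    rw [e₁, e₂]
    rw [two_zsmul, two_zsmul, e₃, e₄, sub_add_eq_add_sub, e₅]
    exact sub_self _

end N1quad

/-! ### The ordinary normal forms `y² + xy = x³ + e x² + 1` -/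

/-- `y² + xy = x³ + e x² + 1`. -/
def N2 (e : ZMod 2) : WeierstrassCurve (ZMod 2) := ⟨1, e, 0, 0, 1⟩

section N2coeff

variable (k : Type u) [Field k] [Algebra (ZMod 2) k]

lemma N2_a₁ (e : ZMod 2) : ((N2 e).toAffine⁄k).a₁ = 1 := by
  show algebraMap (ZMod 2) k 1 = 1
  exact map_one _

lemma N2_a₂ (e : ZMod 2) : ((N2 e).toAffine⁄k).a₂ = algebraMap (ZMod 2) k e := rfl

lemma N2_a₃ (e : ZMod 2) : ((N2 e).toAffine⁄k).a₃ = 0 := by
  show algebraMap (ZMod 2) k 0 = 0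
  exact map_zero _

lemma N2_a₄ (e : ZMod 2) : ((N2 e).toAffine⁄k).a₄ = 0 := by
  show algebraMap (ZMod 2) k 0 = 0
  exact map_zero _

lemma N2_a₆ (e : ZMod 2) : ((N2 e).toAffine⁄k).a₆ = 1 := by
  show algebraMap (ZMod 2) k 1 = 1
  exact map_one _

lemma N2_Δ_ne (e : ZMod 2) : ((N2 e).toAffine⁄k).Δ ≠ 0 := by
  have h : (N2 e).Δ = 1 := by revert e; decide
  show ((N2 e).map (algebraMap (ZMod 2) k)).Δ ≠ 0
  rw [WeierstrassCurve.map_Δ, h, map_one]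
  exact one_ne_zero

end N2coeff

/-- `y² + xy = x³ + 0 x² + 1`: the point `-1•P - φ P` at a generic point, by one chord. -/
theorem N2_0_chord {k : Type*} [Field k] [DecidableEq k] {W : Affine k} (h2 : (2 : k) = 0)
    (ha₁ : W.a₁ = 1) (ha₂ : W.a₂ = 0) (ha₃ : W.a₃ = 0) (ha₄ : W.a₄ = 0) (ha₆ : W.a₆ = 1)
    {x y u : k} (hu : x * u = 1) (hx1 : x ≠ 1)
    (h : W.Nonsingular x y) (h₁ : W.Nonsingular (x ^ 2) (y ^ 2)) :
    ∃ hQ : W.Nonsingular ((x ^ 2 + 1) * u) ((y * (x ^ 2 + 1) + x ^ 2 + x + 1) * u ^ 2),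
      -Point.some x y h - Point.some _ _ h₁ = Point.some _ _ hQ := by
  have hc : y ^ 2 + 1 * x * y + 0 * y = x ^ 3 + 0 * x ^ 2 + 0 * x + 1 := by
    have e := (equation_iff _ _).mp h.1
    rw [ha₁, ha₂, ha₃, ha₄, ha₆] at e
    exact e
  rw [sub_eq_add_neg, Point.neg_some, Point.neg_some]
  refine add_of_chord _ _ (L := (y + x ^ 2 + 1) * u) ?_ ?_ ?_ ?_
  · intro e
    have hx : x = 1 := by linear_combination (-u) * e + (1 - x) * hu
    exact hx1 hx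
  · simp only [negY, ha₁, ha₃]
    linear_combination (-x ^ 3 + y) * h2 + (-1) * hc + (-x ^ 3 + x ^ 2 - x * y - x + y + 1) * hu
  · rw [ha₁, ha₂]
    linear_combination (-y * u ^ 2 - y - u ^ 2 - 1) * h2 + (-u ^ 2) * hc + (-x ^ 3 * u - x ^ 2 * u - x ^ 2 - 2 * x * y * u - 2 * x * u - x + y * u - 2 * y - 2) * hu
  · simp only [negY, ha₁, ha₃]
    linear_combination (y * u ^ 2 + u ^ 2 + u + 1) * h2 + (x ^ 3 * u + 2 * x * y * u + 3 * x * u + x + y + u + 2) * hu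

/-- `y² + xy = x³ + 0 x² + 1`: doubling at a point with `x ≠ 0`, written as a square. -/
theorem N2_0_double {k : Type*} [Field k] [DecidableEq k] {W : Affine k} (h2 : (2 : k) = 0)
    (ha₁ : W.a₁ = 1) (ha₂ : W.a₂ = 0) (ha₃ : W.a₃ = 0) (ha₄ : W.a₄ = 0) (ha₆ : W.a₆ = 1)
    {x y u : k} (hu : x * u = 1)
    (h : W.Nonsingular x y) :
    ∃ h' : W.Nonsingular (((x ^ 2 + 1) * u) ^ 2) (((y * (x ^ 2 + 1) + x ^ 2 + x + 1) * u ^ 2) ^ 2),
      Point.some x y h + Point.some x y h = Point.some _ _ h' := by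
  have hc : y ^ 2 + 1 * x * y + 0 * y = x ^ 3 + 0 * x ^ 2 + 0 * x + 1 := by
    have e := (equation_iff _ _).mp h.1
    rw [ha₁, ha₂, ha₃, ha₄, ha₆] at e
    exact e
  refine add_self_of_tangent h (L := (x ^ 2 + y) * u) ?_ ?_ ?_ ?_
  · intro e
    rw [negY, ha₁, ha₃] at e
    have hx0 : x = 0 := by linear_combination e - y * h2
    rw [hx0, zero_mul] at hu
    exact zero_ne_one hu
  · rw [negY, ha₁, ha₂, ha₃, ha₄]
    linear_combination (x * y + u) * h2 + (2 * u) * hc + (3 * x ^ 2 + 2 * x * y - y) * hu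
  · rw [ha₁, ha₂]
    linear_combination (-y + 1) * h2 + (-u ^ 2) * hc + (-x ^ 2 * u - 2 * x * y * u + 2 * x * u - 2 * x + y * u - 2 * y + 2) * hu
  · rw [ha₁, ha₃]
    linear_combination (x ^ 3 + 2 * x + y * u ^ 4 + y * u ^ 3 + 2 * y * u ^ 2 + y * u + y + u ^ 4 + u ^ 3 + 3 * u ^ 2 + 2 * u + 2) * h2 + (x ^ 4 * u ^ 4 + 2 * x ^ 2 * u ^ 4 + u ^ 4) * hc + (x ^ 6 * u ^ 3 + 2 * x ^ 5 * u ^ 2 - x ^ 4 * y * u ^ 3 + 2 * x ^ 4 * u ^ 3 + 2 * x ^ 4 * u + 2 * x ^ 3 * y * u ^ 3 + 2 * x ^ 3 * u ^ 3 + 4 * x ^ 3 * u ^ 2 + x ^ 3 * u + 2 * x ^ 3 + 2 * x ^ 2 * y * u ^ 2 + 3 * x ^ 2 * u ^ 3 + 2 * x ^ 2 * u ^ 2 + 4 * x ^ 2 * u + 4 * x * y * u ^ 3 + 2 * x * y * u ^ 2 + 2 * x * y * u + 5 * x * u ^ 3 + 4 * x * u ^ 2 + 4 * x * u + 4 * x + y * u ^ 3 + 4 * y * u ^ 2 + 2 * y * u + y + 2 * u ^ 3 + 5 * u ^ 2 + 4 * u + 4) * hu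

theorem N2_0_quad (k : Type u) [Field k] [Algebra (ZMod 2) k] [IsAlgClosed k] [DecidableEq k]
    (P : ((N2 0).toAffine⁄k).Point) :
    frobPt 2 (N2 0) k (frobPt 2 (N2 0) k P) - (-1 : ℤ) • frobPt 2 (N2 0) k P + (2 : ℤ) • P = 0 := by
  have h2 := two_eq_zero k
  have key : ∀ Q : ((N2 0).toAffine⁄k).Point, quadHom 2 (N2 0) k (-1) Q = 0 := by
    refine eq_zero_of_generic (N2_Δ_ne k _) _ {0, 1} ?_
    intro x y h hx
    have hx0 : x ≠ 0 := fun h0 => hx (by rw [h0]; simp)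
    have hx1 : x ≠ 1 := fun h1 => hx (by rw [h1]; simp)
    have hu : x * x⁻¹ = 1 := mul_inv_cancel₀ hx0
    obtain ⟨h₁, e₁⟩ := frob_some 2 (N2 0) k h
    obtain ⟨hQ, eA⟩ := N2_0_chord h2 (N2_a₁ k _) (by rw [N2_a₂, map_zero]) (N2_a₃ k _) (N2_a₄ k _) (N2_a₆ k _) hu hx1 h h₁
    obtain ⟨h₃, eB⟩ := N2_0_double h2 (N2_a₁ k _) (by rw [N2_a₂, map_zero]) (N2_a₃ k _) (N2_a₄ k _) (N2_a₆ k _) hu h
    obtain ⟨h₄, e₄⟩ := frob_some 2 (N2 0) k hQ
    show frobPt 2 (N2 0) k (frobPt 2 (N2 0) k (Point.some x y h))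
      - (-1 : ℤ) • frobPt 2 (N2 0) k (Point.some x y h) + (2 : ℤ) • Point.some x y h = 0
    have e₅ := congrArg (frobPt 2 (N2 0) k) eA
    rw [map_sub, map_neg, e₁, e₄] at e₅
    rw [e₁, neg_smul, one_smul, two_zsmul, eB, ← e₅]
    abel
  exact key P

/-- `y² + xy = x³ + 1 x² + 1`: the point `1•P - φ P` at a generic point, by one chord. -/
theorem N2_1_chord {k : Type*} [Field k] [DecidableEq k] {W : Affine k} (h2 : (2 : k) = 0)
    (ha₁ : W.a₁ = 1) (ha₂ : W.a₂ = 1) (ha₃ : W.a₃ = 0) (ha₄ : W.a₄ = 0) (ha₆ : W.a₆ = 1)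
    {x y u : k} (hu : x * u = 1) (hx1 : x ≠ 1)
    (h : W.Nonsingular x y) (h₁ : W.Nonsingular (x ^ 2) (y ^ 2)) :
    ∃ hQ : W.Nonsingular ((x ^ 2 + 1) * u) ((y * (x ^ 2 + 1) + x ^ 3 + x ^ 2 + 1) * u ^ 2),
      Point.some x y h - Point.some _ _ h₁ = Point.some _ _ hQ := by
  have hc : y ^ 2 + 1 * x * y + 0 * y = x ^ 3 + 1 * x ^ 2 + 0 * x + 1 := by
    have e := (equation_iff _ _).mp h.1
    rw [ha₁, ha₂, ha₃, ha₄, ha₆] at e
    exact e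
  rw [sub_eq_add_neg, Point.neg_some]
  refine add_of_chord _ _ (L := (y + x ^ 2 + x + 1) * u) ?_ ?_ ?_ ?_
  · intro e
    have hx : x = 1 := by linear_combination (-u) * e + (1 - x) * hu
    exact hx1 hx
  · simp only [negY, ha₁, ha₃]
    linear_combination (-x ^ 3 - x ^ 2) * h2 + (-1) * hc + (-x ^ 3 - x * y + y + 1) * hu
  · rw [ha₁, ha₂]
    linear_combination (-x - y * u ^ 2 - y * u - y - u ^ 2 - u - 2) * h2 + (-u ^ 2) * hc + (-x ^ 3 * u - 3 * x ^ 2 * u - x ^ 2 - 2 * x * y * u - 4 * x * u - 3 * x - y * u - 2 * y - 2 * u - 5) * hu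
  · rw [ha₁, ha₃]
    linear_combination (x + y * u ^ 2 + y + u ^ 2 + u + 1) * h2 + (x ^ 3 * u + 2 * x ^ 2 * u + 2 * x * y * u + 3 * x * u + 2 * x + y + u + 2) * hu

/-- `y² + xy = x³ + 1 x² + 1`: doubling at a point with `x ≠ 0`, written as a square. -/
theorem N2_1_double {k : Type*} [Field k] [DecidableEq k] {W : Affine k} (h2 : (2 : k) = 0)
    (ha₁ : W.a₁ = 1) (ha₂ : W.a₂ = 1) (ha₃ : W.a₃ = 0) (ha₄ : W.a₄ = 0) (ha₆ : W.a₆ = 1)
    {x y u : k} (hu : x * u = 1)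
    (h : W.Nonsingular x y) :
    ∃ h' : W.Nonsingular (((x ^ 2 + 1) * u) ^ 2) (((y * (x ^ 2 + 1) + x ^ 3 + x ^ 2 + 1) * u ^ 2) ^ 2),
      Point.some x y h + Point.some x y h = Point.some _ _ h' := by
  have hc : y ^ 2 + 1 * x * y + 0 * y = x ^ 3 + 1 * x ^ 2 + 0 * x + 1 := by
    have e := (equation_iff _ _).mp h.1
    rw [ha₁, ha₂, ha₃, ha₄, ha₆] at e
    exact e
  refine add_self_of_tangent h (L := (x ^ 2 + y) * u) ?_ ?_ ?_ ?_
  · intro e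
    rw [negY, ha₁, ha₃] at e
    have hx0 : x = 0 := by linear_combination e - y * h2
    rw [hx0, zero_mul] at hu
    exact zero_ne_one hu
  · rw [negY, ha₁, ha₂, ha₃, ha₄]
    linear_combination (x * y + u) * h2 + (2 * u) * hc + (3 * x ^ 2 + 2 * x * y + 2 * x - y) * hu
  · rw [ha₁, ha₂]
    linear_combination (-y + 1) * h2 + (-u ^ 2) * hc + (-x ^ 2 * u - 2 * x * y * u + x * u - 2 * x + y * u - 2 * y + 1) * hu
  · rw [ha₁, ha₃]
    linear_combination (x ^ 3 + x ^ 2 + x * y + 3 * x + y * u ^ 4 + 2 * y * u ^ 2 + y * u + y + u ^ 4 + 3 * u ^ 2 + 2 * u + 3) * h2 + (x ^ 4 * u ^ 4 + 2 * x ^ 2 * u ^ 4 + u ^ 4) * hc + (x ^ 6 * u ^ 3 + 2 * x ^ 5 * u ^ 3 + 2 * x ^ 5 * u ^ 2 + x ^ 4 * y * u ^ 3 + 4 * x ^ 4 * u ^ 3 + 2 * x ^ 4 * u ^ 2 + 2 * x ^ 4 * u + 2 * x ^ 3 * y * u ^ 3 + 2 * x ^ 3 * y * u ^ 2 + 4 * x ^ 3 * u ^ 3 + 6 * x ^ 3 * u ^ 2 + 3 * x ^ 3 * u + 2 * x ^ 3 + 2 * x ^ 2 * y *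 u ^ 2 + 2 * x ^ 2 * y * u + 3 * x ^ 2 * u ^ 3 + 4 * x ^ 2 * u ^ 2 + 6 * x ^ 2 * u + 2 * x ^ 2 + 4 * x * y * u ^ 3 + 2 * x * y * u ^ 2 + 2 * x * y * u + 2 * x * y + 5 * x * u ^ 3 + 4 * x * u ^ 2 + 6 * x * u + 6 * x - y * u ^ 3 + 4 * y * u ^ 2 + 2 * y * u + y + 5 * u ^ 2 + 4 * u + 6) * hu

theorem N2_1_quad (k : Type u) [Field k] [Algebra (ZMod 2) k] [IsAlgClosed k] [DecidableEq k]
    (P : ((N2 1).toAffine⁄k).Point) :
    frobPt 2 (N2 1) k (frobPt 2 (N2 1) k P) - (1 : ℤ) • frobPt 2 (N2 1) k P + (2 : ℤ) • P = 0 := by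
  have h2 := two_eq_zero k
  have key : ∀ Q : ((N2 1).toAffine⁄k).Point, quadHom 2 (N2 1) k (1) Q = 0 := by
    refine eq_zero_of_generic (N2_Δ_ne k _) _ {0, 1} ?_
    intro x y h hx
    have hx0 : x ≠ 0 := fun h0 => hx (by rw [h0]; simp)
    have hx1 : x ≠ 1 := fun h1 => hx (by rw [h1]; simp)
    have hu : x * x⁻¹ = 1 := mul_inv_cancel₀ hx0
    obtain ⟨h₁, e₁⟩ := frob_some 2 (N2 1) k h
    obtain ⟨hQ, eA⟩ := N2_1_chord h2 (N2_a₁ k _) (by rw [N2_a₂, map_one]) (N2_a₃ k _) (N2_a₄ k _) (N2_a₆ k _) hu hx1 h h₁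
    obtain ⟨h₃, eB⟩ := N2_1_double h2 (N2_a₁ k _) (by rw [N2_a₂, map_one]) (N2_a₃ k _) (N2_a₄ k _) (N2_a₆ k _) hu h
    obtain ⟨h₄, e₄⟩ := frob_some 2 (N2 1) k hQ
    show frobPt 2 (N2 1) k (frobPt 2 (N2 1) k (Point.some x y h))
      - (1 : ℤ) • frobPt 2 (N2 1) k (Point.some x y h) + (2 : ℤ) • Point.some x y h = 0
    have e₅ := congrArg (frobPt 2 (N2 1) k) eA
    rw [map_sub, e₁, e₄] at e₅
    rw [e₁, one_smul, two_zsmul, eB, ← e₅]
    abel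
  exact key P

/-! ### Point counts over `𝔽₂` -/

section Count

lemma card_N1_00 : Nat.card (N1 0 0).toAffine.Point = 3 := by rw [card_eq_count]; decide
lemma card_N1_01 : Nat.card (N1 0 1).toAffine.Point = 3 := by rw [card_eq_count]; decide
lemma card_N1_10 : Nat.card (N1 1 0).toAffine.Point = 5 := by rw [card_eq_count]; decide
lemma card_N1_11 : Nat.card (N1 1 1).toAffine.Point = 1 := by rw [card_eq_count]; decide
lemma card_N2_0 : Nat.card (N2 0).toAffine.Point = 4 := by rw [card_eq_count]; decide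
lemma card_N2_1 : Nat.card (N2 1).toAffine.Point = 2 := by rw [card_eq_count]; decide

end Count

/-! ### Classification and the main theorem -/

section Main

lemma zmod2_cases : ∀ a : ZMod 2, a = 0 ∨ a = 1 := by decide

/-- Classification of the Weierstrass equations over `𝔽₂` with `Δ ≠ 0`, coefficientwise. -/
lemma class_aux : ∀ a₁ a₂ a₃ a₄ a₆ : ZMod 2,
    (⟨a₁, a₂, a₃, a₄, a₆⟩ : WeierstrassCurve (ZMod 2)).Δ ≠ 0 →
    ∃ r t : ZMod 2,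
      ((((⟨1, r, 0, t⟩ : VariableChange (ZMod 2)) •
            (⟨a₁, a₂, a₃, a₄, a₆⟩ : WeierstrassCurve (ZMod 2))).a₁ = 0 ∧
        ((⟨1, r, 0, t⟩ : VariableChange (ZMod 2)) •
            (⟨a₁, a₂, a₃, a₄, a₆⟩ : WeierstrassCurve (ZMod 2))).a₂ = 0 ∧
        ((⟨1, r, 0, t⟩ : VariableChange (ZMod 2)) •
            (⟨a₁, a₂, a₃, a₄, a₆⟩ : WeierstrassCurve (ZMod 2))).a₃ = 1) ∨
       (((⟨1, r, 0, t⟩ : VariableChange (ZMod 2)) •
            (⟨a₁, a₂, a₃, a₄, a₆⟩ : WeierstrassCurve (ZMod 2))).a₁ = 1 ∧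
        ((⟨1, r, 0, t⟩ : VariableChange (ZMod 2)) •
            (⟨a₁, a₂, a₃, a₄, a₆⟩ : WeierstrassCurve (ZMod 2))).a₃ = 0 ∧
        ((⟨1, r, 0, t⟩ : VariableChange (ZMod 2)) •
            (⟨a₁, a₂, a₃, a₄, a₆⟩ : WeierstrassCurve (ZMod 2))).a₄ = 0 ∧
        ((⟨1, r, 0, t⟩ : VariableChange (ZMod 2)) •
            (⟨a₁, a₂, a₃, a₄, a₆⟩ : WeierstrassCurve (ZMod 2))).a₆ = 1)) := by
  decide

/-- Every Weierstrass curve over `𝔽₂` with `Δ ≠ 0` is carried by an `𝔽₂`-rational change of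
variables to one of the six normal forms. -/
theorem exists_normal (E0 : WeierstrassCurve (ZMod 2)) (hΔ : E0.Δ ≠ 0) :
    ∃ C : VariableChange (ZMod 2), (∃ c d, C • E0 = N1 c d) ∨ (∃ e, C • E0 = N2 e) := by
  obtain ⟨a₁, a₂, a₃, a₄, a₆⟩ := E0
  obtain ⟨r, t, h⟩ := class_aux a₁ a₂ a₃ a₄ a₆ hΔ
  refine ⟨⟨1, r, 0, t⟩, ?_⟩
  generalize ((⟨1, r, 0, t⟩ : VariableChange (ZMod 2)) •
    (⟨a₁, a₂, a₃, a₄, a₆⟩ : WeierstrassCurve (ZMod 2))) = E' at h ⊢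
  rcases h with h | h
  · exact Or.inl ⟨E'.a₄, E'.a₆, WeierstrassCurve.ext h.1 h.2.1 h.2.2 rfl rfl⟩
  · exact Or.inr ⟨E'.a₂, WeierstrassCurve.ext h.1 rfl h.2.1 h.2.2.1 h.2.2.2⟩

variable (k : Type u) [Field k] [Algebra (ZMod 2) k] [IsAlgClosed k] [DecidableEq k]

/-- The Frobenius quadratic relation on the six normal forms, with the true point count. -/
theorem frobQuad_normal (E : WeierstrassCurve (ZMod 2))
    (hE : (∃ c d, E = N1 c d) ∨ (∃ e, E = N2 e)) (P : (E.toAffine⁄k).Point) :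
    frobPt 2 E k (frobPt 2 E k P)
      - ((2 : ℤ) + 1 - (Nat.card E.toAffine.Point : ℤ)) • frobPt 2 E k P + (2 : ℤ) • P = 0 := by
  rcases hE with ⟨c, d, rfl⟩ | ⟨e, rfl⟩
  · rcases zmod2_cases c with rfl | rfl <;> rcases zmod2_cases d with rfl | rfl
    · rw [card_N1_00, show ((2 : ℤ) + 1 - ((3 : ℕ) : ℤ)) = 0 by norm_num]
      exact N1_00_quad k P
    · rw [card_N1_01, show ((2 : ℤ) + 1 - ((3 : ℕ) : ℤ)) = 0 by norm_num]
      exact N1_01_quad k P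
    · rw [card_N1_10, show ((2 : ℤ) + 1 - ((5 : ℕ) : ℤ)) = -2 by norm_num]
      exact N1_10_quad k P
    · rw [card_N1_11, show ((2 : ℤ) + 1 - ((1 : ℕ) : ℤ)) = 2 by norm_num]
      exact N1_11_quad k P
  · rcases zmod2_cases e with rfl | rfl
    · rw [card_N2_0, show ((2 : ℤ) + 1 - ((4 : ℕ) : ℤ)) = -1 by norm_num]
      exact N2_0_quad k P
    · rw [card_N2_1, show ((2 : ℤ) + 1 - ((2 : ℕ) : ℤ)) = 1 by norm_num]
      exact N2_1_quad k P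

/-- **[FQ-2]** The Frobenius quadratic relation `φ² - a φ + 2 = 0`, `a = 2 + 1 - #E0(𝔽₂)`, on the
`k`-points of EVERY Weierstrass curve `E0` over `𝔽₂` with `Δ ≠ 0` (`k ⊇ 𝔽₂` algebraically
closed). -/
theorem frobQuad_two (E0 : WeierstrassCurve (ZMod 2)) (k : Type u) [Field k]
    [Algebra (ZMod 2) k] [IsAlgClosed k] [DecidableEq k] (hΔ : E0.Δ ≠ 0)
    (P : (E0.toAffine⁄k).Point) :
    frobPt 2 E0 k (frobPt 2 E0 k P)
      - ((2 : ℤ) + 1 - (Nat.card E0.toAffine.Point : ℤ)) • frobPt 2 E0 k P + (2 : ℤ) • P = 0 := by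
  obtain ⟨C, hC⟩ := exists_normal E0 hΔ
  exact frobQuad_of_variableChange 2 E0 k C (fun Q => frobQuad_normal k (C • E0) hC Q) P

end Main

end Fermat.Agent.S58.FrobQuadTwo
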