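import Mathlib
import Fermat.Agent.S58.Final
import Fermat.Agent.S58.FrobQuadTwo
import Fermat.Agent.S58.FrobQuadSmall
import Fermat.Agent.S36.Final

/-!
# S58 from the two all-level contracts of P8 (owner: helper32)

`result_of_all` : the frozen statement S58 from `S36.Plan.OneAllStmt` and `S36.Plan.LiftAllStmt`
(the two contracts from which `S36.Final.result_of_all` proves the frozen conclusion of S36
without its hypothesis `hres`).  The Frobenius quadratic relations over `𝔽_2` and `𝔽_3` are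
`FrobQuadTwo.frobQuad_two` and `FrobQuadSmall.frob_quadratic_three`.
-/

set_option autoImplicit false

namespace Fermat.Agent.S58.FromAll

open WeierstrassCurve

/-- The `hres`-free S36 from the two all-level contracts of P8. -/
theorem s36Core_of_all (hOne : Fermat.Agent.S36.Plan.OneAllStmt)
    (hLift : Fermat.Agent.S36.Plan.LiftAllStmt) : Fermat.Agent.S58.NoSquare.S36Core := by
  intro M _ g hg lam _ S O' _ _ _ _ _ _ hlamO' hlam2 chig hchig iota hlamS hMS
  exact Fermat.Agent.S36.Final.result_of_all hOne hLift hg lam S O' hlamO' hlam2 chig hchig iota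
    hlamS hMS

/-- **The frozen statement S58 from [ONE] and [LIFT-ONE] at all levels.** -/
theorem result_of_all (hOne : Fermat.Agent.S36.Plan.OneAllStmt)
    (hLift : Fermat.Agent.S36.Plan.LiftAllStmt)
    (W : WeierstrassCurve ℤ) (hss : W.IsSemistableModel) (N : ℕ)
    (p : ℕ) [Fact p.Prime] (hp2 : p ≠ 2) (hirr : W.ModRepIsIrreducible p)
    (hp2N : ¬ p ^ 2 ∣ N)
    (hN : W.IsModularModelOfLevel N) (hbad : ∀ ℓ : ℕ, ℓ.Prime → (ℓ : ℤ) ∣ W.Δ → ℓ ∣ N)
    (hN3 : ∀ q : ℕ, q.Prime → ¬ q ^ 3 ∣ N) :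
    W.IsModularModelOfLevel W.conductorLevel :=
  Fermat.Agent.S58.Final.result_of (s36Core_of_all hOne hLift)
    (fun E0 K _ _ _ _ hΔ P => Fermat.Agent.S58.FrobQuadTwo.frobQuad_two E0 K hΔ P)
    (fun E0 K _ _ _ _ hΔ P => Fermat.Agent.S58.FrobQuadSmall.frob_quadratic_three E0 hΔ K P)
    W hss N p hp2 hirr hp2N hN hbad hN3

end Fermat.Agent.S58.FromAll
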