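import Mathlib
import Fermat.Agent.P7.RedFix
import Fermat.Agent.Lib.DivPoly.MulX

/-!
# S58 / [GOOD-q] — a Frobenius element at a good prime is not "multiplicative" on `W[λ]`

For an integral Weierstrass model `W` with good reduction at a prime `q`, a Frobenius element `σ`
at a place over `q`, a sign `ε = ±1` and a prime `λ > 2 q² + 1`, the relation
`(σ - ε)(σ - ε q) = 0` does **not** hold on all of `W(ℚ̄)[λ]` (`not_forall_frob_split`).

The proof uses abscissas only (no group law on the reduction, no Hasse bound), uniformly in `q`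
(including `q = 2, 3`).  Suppose the relation holds.

* If some nonzero `P ∈ W[λ]` has `σ P = ε P`, the abscissas of `k P`, `1 ≤ k ≤ (λ - 1) / 2`, are
  distinct roots of the `λ`-th division polynomial, fixed by `σ²`; their residues are distinct
  (the reduction of the division polynomial is separable) and lie in `𝔽_{q²}`, so
  `(λ - 1) / 2 ≤ q²`.
* Otherwise `σ P = ε q P` for every `P ∈ W[λ]`, hence `σ(x) ΨSq_q(x) = Φ_q(x)` for every root `x`
  of the division polynomial; as these have `(λ² - 1) / 2` distinct residues, the polynomial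
  identity `X^q ΨSq_q = Φ_q` holds modulo `q`.  Then `ΨSq_q` has no root modulo `q` (`Φ_q` and
  `ΨSq_q` have no common root on an elliptic curve), so it is a constant, and the monic polynomial
  `Φ_q` of degree `q²` would have degree `≤ q`.
-/

set_option autoImplicit false

namespace Fermat.Agent.S58.GoodFrob

open Polynomial
open Fermat.Agent.P7.RedFix

noncomputable section

section Count

variable {L : Type*} [Field L] [IsAlgClosed L] (A : ValuationSubring L)

/-- If the reduction of `f` is separable and a nonzero polynomial `G` over the residue field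
vanishes at the residues of all roots of `f`, then `deg f ≤ deg G`. -/
theorem natDegree_le_of_eval_residue_eq_zero (f : ℤ[X])
    (hlc : A.valuation ((f.leadingCoeff : ℤ) : L) = 1)
    (hsep : (f.map (Int.castRingHom (IsLocalRing.ResidueField A))).Separable)
    (G : (IsLocalRing.ResidueField A)[X]) (hG0 : G ≠ 0)
    (hG : ∀ x : A, (f.map (Int.castRingHom L)).eval (x : L) = 0 →
      G.eval (IsLocalRing.residue A x) = 0) :
    f.natDegree ≤ G.natDegree := by
  classical
  obtain ⟨s, hs, hmem⟩ := exists_multiset A f hlc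
  have hres := map_residue_eq A f s hs
  have hlc0 := residue_intCast_ne_zero A hlc
  have hnd := nodup_roots hsep
  rw [hres, roots_C_mul _ hlc0, roots_multiset_prod_X_sub_C] at hnd
  have hsub : s.map (IsLocalRing.residue A) ⊆ G.roots := by
    intro r hr
    obtain ⟨a, ha, rfl⟩ := Multiset.mem_map.mp hr
    exact (mem_roots hG0).mpr (hG a ((hmem a).mp ha))
  have hle := (Multiset.le_iff_subset hnd).mpr hsub
  have hcard : (s.map (IsLocalRing.residue A)).card ≤ G.natDegree :=
    (Multiset.card_le_card hle).trans (card_roots' G)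
  have hdeg : f.natDegree = s.card := by
    have h1 : (f.map (Int.castRingHom (IsLocalRing.ResidueField A))).natDegree = f.natDegree :=
      natDegree_map_of_leadingCoeff_ne_zero _ (by simpa using hlc0)
    rw [← h1, hres, natDegree_C_mul hlc0, natDegree_multiset_prod_X_sub_C_eq_card,
      Multiset.card_map]
  rw [hdeg]
  simpa using hcard

end Count

section Group

variable {G : Type*} [AddCommGroup G]

/-- An element killed by a prime `p` and by an integer prime to `p` is zero. -/
theorem eq_zero_of_nsmul_of_nsmul {p k : ℕ} (hp : p.Prime) (hk : ¬ p ∣ k) {P : G}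
    (h1 : p • P = 0) (h2 : k • P = 0) : P = 0 := by
  have hcop : Nat.Coprime p k := (Nat.Prime.coprime_iff_not_dvd hp).mpr hk
  have h3 := Nat.dvd_gcd (addOrderOf_dvd_of_nsmul_eq_zero h1) (addOrderOf_dvd_of_nsmul_eq_zero h2)
  rw [hcop.gcd_eq_one, Nat.dvd_one, AddMonoid.addOrderOf_eq_one_iff] at h3
  exact h3

theorem natAbs_nsmul_eq_zero {z : ℤ} {P : G} (h : z • P = 0) : z.natAbs • P = 0 := by
  rcases Int.natAbs_eq z with hz | hz
  · rw [hz, natCast_zsmul] at h
    exact h
  · rw [hz, neg_zsmul, natCast_zsmul, neg_eq_zero] at h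
    exact h

end Group

section Main

open WeierstrassCurve WeierstrassCurve.Affine WeierstrassCurve.Affine.Point
open Fermat.Agent.Lib.DivPoly

local notation "Qb" => AlgebraicClosure ℚ

/-- **[GOOD-q]** For a good prime `q` of `W`, a Frobenius element `σ` at `q`, `ε = ±1` and a prime
`λ > 2 q² + 1`: the relation `σ² - ε (q + 1) σ + q = 0` fails somewhere on `W(ℚ̄)[λ]`. -/
theorem not_forall_frob_split (W : WeierstrassCurve ℤ) {q lam : ℕ} (hq : q.Prime)
    (hgood : W.IsGoodPrimeFor q) (hlam : lam.Prime) (hbig : 2 * q ^ 2 + 1 < lam)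
    (A : ValuationSubring Qb) (hA : A.LiesOverPrime q)
    (σ : Qb ≃ₐ[ℚ] Qb) (hσ : A.IsFrobeniusAt σ q) (ε : ℤ) (hε : ε = 1 ∨ ε = -1) :
    ¬ ∀ P : ((W.map (Int.castRingHom ℚ)).toAffine⁄Qb).Point, lam • P = 0 →
        σ • σ • P - (ε * ((q : ℤ) + 1)) • σ • P + (q : ℤ) • P = 0 := by
  intro H
  have : Fact q.Prime := ⟨hq⟩
  have hq2 : 2 ≤ q := hq.two_le
  have hqsq : q ≤ q ^ 2 := by nlinarith
  have hlam2 : lam ≠ 2 := by omega
  have hodd : Odd lam := hlam.odd_of_ne_two hlam2
  have hlamq : ¬ lam ∣ q := fun h => by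
    have := Nat.le_of_dvd hq.pos h
    omega
  have hεsq : ε * ε = 1 := by rcases hε with rfl | rfl <;> norm_num
  -- the residue field has characteristic `q`
  have hqk : ((q : ℕ) : IsLocalRing.ResidueField A) = 0 := by
    have h1 : ((q : ℕ) : IsLocalRing.ResidueField A) = IsLocalRing.residue A ((q : ℕ) : A) := by
      rw [map_natCast]
    rw [h1, IsLocalRing.residue_eq_zero_iff, ← ValuationSubring.coe_mem_nonunits_iff]
    exact_mod_cast hA
  have : CharP (IsLocalRing.ResidueField A) q := (CharP.charP_iff_prime_eq_zero hq).mpr hqk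
  have hint : ∀ n : ℤ, ¬ (q : ℤ) ∣ n → ((n : ℤ) : IsLocalRing.ResidueField A) ≠ 0 := fun n hn =>
    residue_intCast_ne_zero A (Fermat.Agent.Lib.FrobAlt.val_intCast_eq_one A hq hA hn)
  set f : ℤ[X] := W.preΨ' lam with hf
  have hqlam' : ¬ (q : ℤ) ∣ (lam : ℤ) := by
    rw [Int.natCast_dvd_natCast]
    intro h
    have h1 := (Nat.prime_dvd_prime_iff_eq hq hlam).mp h
    have := Nat.le_of_dvd hq.pos (h1 ▸ dvd_refl lam)
    omega
  have hlcf : f.leadingCoeff = (lam : ℤ) := by
    rw [hf, W.leadingCoeff_preΨ' (by exact_mod_cast hlam.ne_zero),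
      if_neg (Nat.not_even_iff_odd.mpr hodd)]
  have hlc : A.valuation ((f.leadingCoeff : ℤ) : Qb) = 1 := by
    rw [hlcf]
    exact Fermat.Agent.Lib.FrobAlt.val_intCast_eq_one A hq hA hqlam'
  have hsep : (f.map (Int.castRingHom (IsLocalRing.ResidueField A))).Separable := by
    have h1 := Fermat.Agent.Lib.DivPoly.separable_preΨ'
      (W := (W.map (Int.castRingHom (IsLocalRing.ResidueField A))).toAffine) (n := lam) ?_ hodd ?_
    · rwa [WeierstrassCurve.map_preΨ'] at h1
    · rw [WeierstrassCurve.map_Δ]
      exact hint _ hgood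
    · have := hint (lam : ℤ) hqlam'
      exact_mod_cast this
  have hfdeg : f.natDegree = (lam ^ 2 - 1) / 2 := by
    rw [hf, W.natDegree_preΨ' (by exact_mod_cast hlam.ne_zero),
      if_neg (Nat.not_even_iff_odd.mpr hodd)]
  -- the curve over `ℚ̄`
  set E : Affine Qb := ((W.map (Int.castRingHom ℚ)).toAffine⁄Qb) with hE
  have hEeq : E = W.map (Int.castRingHom Qb) := baseChange_eq W
  have hEΔ : E.Δ ≠ 0 := by
    rw [hEeq, WeierstrassCurve.map_Δ]
    have hΔ0 : W.Δ ≠ 0 := fun h => hgood (h ▸ dvd_zero _)
    rw [eq_intCast]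
    exact_mod_cast hΔ0
  have hEpsi : E.preΨ' lam = f.map (Int.castRingHom Qb) := by
    rw [hEeq, WeierstrassCurve.map_preΨ']
  have hroot : ∀ {x y : Qb} (h : E.Nonsingular x y), lam • Point.some x y h = 0 →
      (f.map (Int.castRingHom Qb)).eval x = 0 := fun h hP => by
    rw [← hEpsi]
    exact (nsmul_eq_zero_iff_preΨ' E h hodd).mp hP
  have htors : ∀ {x y : Qb} (h : E.Nonsingular x y), (f.map (Int.castRingHom Qb)).eval x = 0 →
      lam • Point.some x y h = 0 := fun h hx => by
    rw [nsmul_eq_zero_iff_preΨ' E h hodd, hEpsi]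
    exact hx
  have hkill : ∀ (P : E.Point) (k : ℕ), lam • P = 0 → k • P = 0 → ¬ lam ∣ k → P = 0 :=
    fun P k h1 h2 hk => eq_zero_of_nsmul_of_nsmul hlam hk h1 h2
  -- the Frobenius element
  let g : A.decompositionSubgroup ℚ := ⟨σ, hσ.mem_decompositionSubgroup⟩
  have hgres : ∀ a : A, IsLocalRing.residue A (g • a) = IsLocalRing.residue A a ^ q := fun a => by
    rw [IsLocalRing.ResidueField.residue_smul]
    exact hσ.smul_residue_eq _
  have hgcoe : ∀ a : A, ((g • a : A) : Qb) = σ (a : Qb) := fun a => rfl
  have hxσ : ∀ P : E.Point, P ≠ 0 → xc E (σ • P) = σ (xc E P) := by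
    intro P hP
    rcases P with _ | ⟨x, y, h⟩
    · exact absurd rfl hP
    · rw [algEquiv_smul_def, Point.map_some]
      rfl
  have hσne : ∀ P : E.Point, P ≠ 0 → σ • P ≠ 0 := by
    intro P hP h0
    exact hP ((smul_eq_zero_iff_eq σ).mp h0)
  -- integrality of abscissas of torsion points
  have hmemA : ∀ P : E.Point, P ≠ 0 → lam • P = 0 →
      (f.map (Int.castRingHom Qb)).eval (xc E P) = 0 ∧ xc E P ∈ A := by
    intro P hP hlamP
    rcases P with _ | ⟨x, y, h⟩
    · exact absurd rfl hP
    · have h1 := hroot h hlamP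
      exact ⟨h1, mem_of_root A f hlc h1⟩
  ------------------------------------------------------------------------------------------
  -- Case A is impossible: no nonzero `P ∈ W[λ]` with `σ P = ε P`.
  have hcaseA : ¬ ∃ P : E.Point, P ≠ 0 ∧ lam • P = 0 ∧ σ • P = ε • P := by
    rintro ⟨P, hP0, hPlam, hPσ⟩
    have hkP0 : ∀ k : ℕ, 1 ≤ k → k < lam → k • P ≠ 0 := by
      intro k hk1 hk2 h0
      apply hP0
      refine hkill P k hPlam h0 (fun hd => ?_)
      have := Nat.le_of_dvd (by omega) hd
      omega
    have hkPlam : ∀ k : ℕ, lam • (k • P) = 0 := fun k => by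
      rw [smul_comm, hPlam, nsmul_zero]
    have hσσ : ∀ k : ℕ, σ • σ • (k • P) = k • P := by
      intro k
      rw [← smul_comm k σ P, ← smul_comm k σ (σ • P), hPσ, algEquiv_smul_zsmul, hPσ, smul_smul,
        hεsq, one_smul]
    -- the abscissas as elements of `A`
    let hdec : ∀ k : ℕ, Decidable (xc E (k • P) ∈ A) := fun k => Classical.dec _
    let a : ℕ → A := fun k =>
      if h : xc E (k • P) ∈ A then (⟨xc E (k • P), h⟩ : A) else 0
    have ha : ∀ k : ℕ, 1 ≤ k → k < lam → ((a k : A) : Qb) = xc E (k • P) := by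
      intro k hk1 hk2
      have := (hmemA (k • P) (hkP0 k hk1 hk2) (hkPlam k)).2
      simp only [a, dif_pos this]
    have haroot : ∀ k : ℕ, 1 ≤ k → k < lam →
        (f.map (Int.castRingHom Qb)).eval ((a k : A) : Qb) = 0 := by
      intro k hk1 hk2
      rw [ha k hk1 hk2]
      exact (hmemA (k • P) (hkP0 k hk1 hk2) (hkPlam k)).1
    have hafix : ∀ k : ℕ, 1 ≤ k → k < lam → g • g • a k = a k := by
      intro k hk1 hk2
      apply Subtype.ext
      rw [hgcoe, hgcoe, ha k hk1 hk2, ← hxσ _ (hkP0 k hk1 hk2),
        ← hxσ _ (hσne _ (hkP0 k hk1 hk2)), hσσ]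
    set m : ℕ := (lam - 1) / 2 with hm
    have hmlt : ∀ k ∈ Finset.Icc 1 m, 1 ≤ k ∧ k < lam := by
      intro k hk
      rw [Finset.mem_Icc] at hk
      omega
    let hdeck : DecidableEq (IsLocalRing.ResidueField A) := Classical.decEq _
    set T : (IsLocalRing.ResidueField A)[X] := X ^ (q ^ 2) - X with hT
    have hTdeg : T.natDegree = q ^ 2 :=
      FiniteField.X_pow_card_sub_X_natDegree_eq _ (by nlinarith)
    have hT0 : T ≠ 0 := by
      intro h
      rw [h, natDegree_zero] at hTdeg
      nlinarith
    have hmaps : ∀ k ∈ Finset.Icc 1 m, IsLocalRing.residue A (a k) ∈ T.roots.toFinset := by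
      intro k hk
      obtain ⟨hk1, hk2⟩ := hmlt k hk
      rw [Multiset.mem_toFinset, mem_roots hT0, IsRoot.def, hT, eval_sub, eval_pow, eval_X,
        sub_eq_zero]
      have h1 := congrArg (IsLocalRing.residue A) (hafix k hk1 hk2)
      rw [hgres, hgres, ← pow_mul, ← pow_two] at h1
      exact h1
    have hinj : Set.InjOn (fun k => IsLocalRing.residue A (a k)) (Finset.Icc 1 m : Set ℕ) := by
      intro k hk k' hk' hkk'
      obtain ⟨hk1, hk2⟩ := hmlt k hk
      obtain ⟨hk1', hk2'⟩ := hmlt k' hk'
      have hkm : k ≤ m := (Finset.mem_Icc.mp hk).2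
      have hkm' : k' ≤ m := (Finset.mem_Icc.mp hk').2
      have h1 : a k = a k' :=
        residue_injOn_roots A f hlc hsep (haroot k hk1 hk2) (haroot k' hk1' hk2') hkk'
      have h2 : xc E (k • P) = xc E (k' • P) := by
        rw [← ha k hk1 hk2, ← ha k' hk1' hk2', h1]
      rcases (xc_eq_iff E (hkP0 k hk1 hk2) (hkP0 k' hk1' hk2')).mp h2 with h3 | h3
      · -- `(k - k') P = 0`
        have h4 : ((k : ℤ) - (k' : ℤ)) • P = 0 := by
          rw [sub_smul, natCast_zsmul, natCast_zsmul, h3, sub_self]
        have h5 := natAbs_nsmul_eq_zero h4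
        by_contra hne
        apply hP0
        refine hkill P _ hPlam h5 (fun hd => ?_)
        have h6 := Nat.le_of_dvd (by omega) hd
        omega
      · -- `(k + k') P = 0`
        exfalso
        have h4 : (k + k') • P = 0 := by
          rw [add_smul, h3, neg_add_cancel]
        apply hP0
        refine hkill P _ hPlam h4 (fun hd => ?_)
        have h6 := Nat.le_of_dvd (by omega) hd
        omega
    have hcard := Finset.card_le_card_of_injOn _ hmaps hinj
    rw [Nat.card_Icc] at hcard
    have h2 : T.roots.toFinset.card ≤ q ^ 2 :=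
      (Multiset.toFinset_card_le _).trans ((card_roots' T).trans hTdeg.le)
    obtain ⟨t, ht⟩ := hodd
    omega
  ------------------------------------------------------------------------------------------
  -- Hence `σ P = ε q P` on `W[λ]`.
  have hB : ∀ P : E.Point, lam • P = 0 → σ • P = (ε * (q : ℤ)) • P := by
    intro P hP
    by_contra hne
    apply hcaseA
    refine ⟨σ • P - (ε * (q : ℤ)) • P, sub_ne_zero.mpr hne, ?_, ?_⟩
    · rw [nsmul_sub, smul_comm lam σ P, smul_comm lam (ε * (q : ℤ)) P, hP, smul_zero, smul_zero,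
        sub_zero]
    · have h1 := H P hP
      have e1 : (ε * ((q : ℤ) + 1)) • σ • P = (ε * (q : ℤ)) • σ • P + ε • σ • P := by
        rw [← add_zsmul]
        congr 1
        ring
      have e2 : ε • (ε * (q : ℤ)) • P = (q : ℤ) • P := by
        rw [smul_smul, ← mul_assoc, hεsq, one_mul]
      rw [smul_sub, algEquiv_smul_zsmul, zsmul_sub, e2]
      rw [e1] at h1
      generalize σ • σ • P = a at h1 ⊢
      generalize (ε * (q : ℤ)) • σ • P = u at h1 ⊢
      generalize ε • σ • P = v at h1 ⊢
      generalize (q : ℤ) • P = w at h1 ⊢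
      have h2 : a = u + v - w := by
        rw [← sub_eq_zero, ← h1]
        abel
      rw [h2]
      abel
  ------------------------------------------------------------------------------------------
  -- The polynomial identity modulo `q`.
  set k := IsLocalRing.ResidueField A with hk
  set Gp : k[X] := X ^ q * (W.ΨSq q).map (Int.castRingHom k) - (W.Φ q).map (Int.castRingHom k)
    with hGp
  have hGvan : ∀ x : A, (f.map (Int.castRingHom Qb)).eval (x : Qb) = 0 →
      Gp.eval (IsLocalRing.residue A x) = 0 := by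
    intro x hx
    obtain ⟨y, h⟩ := exists_nonsingular_of_Δ_ne_zero E hEΔ (x : Qb)
    have hPlam := htors h hx
    have hσP := hB _ hPlam
    have hqP : q • Point.some (x : Qb) y h ≠ 0 := fun h0 =>
      Point.some_ne_zero h (hkill _ q hPlam h0 hlamq)
    have h1 := xc_nsmul_mul_eval_ΨSq E h q hqP
    have h2 : xc E (q • Point.some (x : Qb) y h) = σ (x : Qb) := by
      have h3 := hxσ _ (Point.some_ne_zero h)
      rw [xc_some] at h3
      rw [← h3, hσP]
      rcases hε with rfl | rfl
      · rw [one_mul, natCast_zsmul]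
      · rw [neg_one_mul, neg_zsmul, natCast_zsmul, xc_neg]
    rw [h2, hEeq, WeierstrassCurve.map_ΨSq, WeierstrassCurve.map_Φ] at h1
    -- move to `A`
    have h4 : g • x * ((W.ΨSq q).map (Int.castRingHom A)).eval x =
        ((W.Φ q).map (Int.castRingHom A)).eval x := by
      apply Subtype.ext
      have e1 := eval_map_intCast A.subtype (W.ΨSq q) x
      have e2 := eval_map_intCast A.subtype (W.Φ q) x
      simp only [ValuationSubring.subtype_apply] at e1 e2
      show ((g • x : A) : Qb) * ((((W.ΨSq q).map (Int.castRingHom A)).eval x : A) : Qb) =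
        ((((W.Φ q).map (Int.castRingHom A)).eval x : A) : Qb)
      rw [hgcoe, ← e1, ← e2]
      exact h1
    have h5 := congrArg (IsLocalRing.residue A) h4
    rw [map_mul, hgres, ← eval_map_intCast (IsLocalRing.residue A) (W.ΨSq q) x,
      ← eval_map_intCast (IsLocalRing.residue A) (W.Φ q) x] at h5
    rw [hGp, eval_sub, eval_mul, eval_pow, eval_X, sub_eq_zero]
    exact h5
  have hGp0 : Gp = 0 := by
    by_contra hne
    have h1 := natDegree_le_of_eval_residue_eq_zero A f hlc hsep Gp hne hGvan
    have h2 : Gp.natDegree ≤ q ^ 2 + q := by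
      refine (natDegree_sub_le _ _).trans (max_le ?_ ?_)
      · refine natDegree_mul_le.trans ?_
        have e1 : (X ^ q : k[X]).natDegree ≤ q := natDegree_X_pow_le q
        have e2 : ((W.ΨSq q).map (Int.castRingHom k)).natDegree ≤ q ^ 2 - 1 := by
          refine natDegree_map_le.trans ?_
          have := W.natDegree_ΨSq_le (q : ℤ)
          rwa [Int.natAbs_natCast] at this
        omega
      · refine natDegree_map_le.trans ?_
        have := W.natDegree_Φ_le (q : ℤ)
        rw [Int.natAbs_natCast] at this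
        omega
    rw [hfdeg] at h1
    have h3 : 2 * (q ^ 2 + q) + 3 ≤ lam ^ 2 := by nlinarith
    generalize lam ^ 2 = L2 at h1 h3
    generalize q ^ 2 = Q2 at h1 h2 h3
    omega
  ------------------------------------------------------------------------------------------
  -- Contradiction over the algebraic closure of the residue field.
  let K := AlgebraicClosure k
  let hdecK : DecidableEq K := Classical.decEq K
  let ι : k →+* K := algebraMap k K
  have hcomp : ι.comp (Int.castRingHom k) = Int.castRingHom K := RingHom.ext_int _ _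
  set WK : WeierstrassCurve K := W.map (Int.castRingHom K) with hWK
  have hid : X ^ q * WK.ΨSq q = WK.Φ q := by
    have h1 := congrArg (Polynomial.map ι) hGp0
    rw [hGp, Polynomial.map_sub, Polynomial.map_mul, Polynomial.map_pow, Polynomial.map_X,
      Polynomial.map_map, Polynomial.map_map, hcomp, Polynomial.map_zero, sub_eq_zero] at h1
    rw [hWK, WeierstrassCurve.map_ΨSq, WeierstrassCurve.map_Φ]
    exact h1
  have hΔK : WK.Δ ≠ 0 := by
    rw [hWK, WeierstrassCurve.map_Δ, ← hcomp, RingHom.comp_apply]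
    exact (map_ne_zero ι).mpr (hint _ hgood)
  have hnoroot : ∀ x0 : K, (WK.ΨSq q).eval x0 ≠ 0 := by
    intro x0 h0
    obtain ⟨y0, hy0⟩ := exists_nonsingular_of_Δ_ne_zero WK.toAffine hΔK x0
    refine eval_Φ_ΨSq_not_both_zero WK.toAffine hy0 q ⟨?_, h0⟩
    have h1 := congrArg (Polynomial.eval x0) hid
    rw [eval_mul, h0, mul_zero] at h1
    exact h1.symm
  have hdeg0 : (WK.ΨSq q).degree = 0 := by
    by_contra hne
    obtain ⟨x0, hx0⟩ := IsAlgClosed.exists_root (WK.ΨSq q) hne
    exact hnoroot x0 hx0
  have hC := eq_C_of_degree_eq_zero hdeg0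
  have hΦdeg : (WK.Φ q).natDegree = q ^ 2 := by
    have := WK.natDegree_Φ (q : ℤ)
    rwa [Int.natAbs_natCast] at this
  have hle : (WK.Φ q).natDegree ≤ q := by
    rw [← hid, hC]
    refine natDegree_mul_le.trans ?_
    rw [natDegree_C, add_zero]
    exact natDegree_X_pow_le q
  rw [hΦdeg] at hle
  nlinarith

end Main

end

end Fermat.Agent.S58.GoodFrob
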