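import Mathlib
import Fermat.Prelude.Def_WeierstrassCurve_ConductorLevel
import Fermat.Agent.S58.NewDesc
import Fermat.Agent.S58.LevelUp
import Fermat.Agent.S58.BadNewform
import Fermat.Agent.S58.GoodCoeff
import Fermat.Agent.S58.NoSquare
import Fermat.Agent.S58.FrobQuadTorsion

/-!
# S58 in hypothesis form (second provider of the top; the owner of `S58/Top.lean` is helper32)

`result_of`: the frozen statement S58 (a semistable modular integral Weierstrass model `W` of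
cube-free level `N` is modular of level `rad Δ`) from

* `h36 : NoSquare.S36Core` — the frozen S36 (Carayol) without its hypothesis `hres`,
* `hFQ2`, `hFQ3` — the Frobenius quadratic equation with the true point count for every
  Weierstrass curve with `Δ ≠ 0` over `𝔽_2` and over `𝔽_3` (the shape consumed by
  `FrobQuadTorsion.frob_quad_torsion_all`).

Chain: `NewDesc.exists_newform_dvd` (newform `g` of level `M ∣ N`), `NoSquare.not_sq_dvd` (A2: `M`
squarefree), `BadNewform.dvd_Δ_of_newform` (A1: primes of `M` are bad), hence `M ∣ rad Δ`;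
`LevelUp.exists_eigenform_of_dvd`; `GoodCoeff.qCoeff_eq_apOfModel` (A3: `a_ℓ(g) = a_ℓ(W)` at every
good prime).
-/

set_option autoImplicit false

open WeierstrassCurve WeierstrassCurve.Affine WeierstrassCurve.Affine.Point
open Fermat.Agent.S52.M2 (frobPt)

namespace Fermat.Agent.S58.TopDraft

local notation "Qb" => AlgebraicClosure ℚ

theorem result_of (h36 : Fermat.Agent.S58.NoSquare.S36Core)
    (hFQ2 : ∀ (E0 : WeierstrassCurve (ZMod 2)) (K : Type) [Field K] [Algebra (ZMod 2) K]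
      [IsAlgClosed K] [DecidableEq K], E0.Δ ≠ 0 → ∀ P : (E0.toAffine⁄K).Point,
        frobPt 2 E0 K (frobPt 2 E0 K P)
          - (((2 : ℕ) : ℤ) + 1 - (Nat.card E0.toAffine.Point : ℤ)) • frobPt 2 E0 K P
          + ((2 : ℕ) : ℤ) • P = 0)
    (hFQ3 : ∀ (E0 : WeierstrassCurve (ZMod 3)) (K : Type) [Field K] [Algebra (ZMod 3) K]
      [IsAlgClosed K] [DecidableEq K], E0.Δ ≠ 0 → ∀ P : (E0.toAffine⁄K).Point,
        frobPt 3 E0 K (frobPt 3 E0 K P)
          - (((3 : ℕ) : ℤ) + 1 - (Nat.card E0.toAffine.Point : ℤ)) • frobPt 3 E0 K P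
          + ((3 : ℕ) : ℤ) • P = 0)
    (W : WeierstrassCurve ℤ) (hss : W.IsSemistableModel) (N : ℕ)
    (p : ℕ) [Fact p.Prime] (hp2 : p ≠ 2) (_hirr : W.ModRepIsIrreducible p)
    (hp2N : ¬ p ^ 2 ∣ N)
    (hN : W.IsModularModelOfLevel N) (hbad : ∀ ℓ : ℕ, ℓ.Prime → (ℓ : ℤ) ∣ W.Δ → ℓ ∣ N)
    (hN3 : ∀ q : ℕ, q.Prime → ¬ q ^ 3 ∣ N) :
    W.IsModularModelOfLevel W.conductorLevel := by
  classical
  have hp : p.Prime := Fact.out
  have hN0 : N ≠ 0 := by
    rintro rfl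
    exact hN3 2 Nat.prime_two (dvd_zero _)
  have hΔ : W.Δ ≠ 0 := by
    intro h0
    obtain ⟨ℓ, hℓge, hℓ⟩ := Nat.exists_infinite_primes (N + 1)
    have h1 : ℓ ∣ N := hbad ℓ hℓ (h0 ▸ dvd_zero _)
    have := Nat.le_of_dvd (Nat.pos_of_ne_zero hN0) h1
    omega
  obtain ⟨f, hf, hfa⟩ := hN
  obtain ⟨M, hMN, g, hg, hgf⟩ := Fermat.Agent.S58.NewDesc.exists_newform_dvd hN0 f hf
  have hM0 : M ≠ 0 := fun h => hN0 (by rw [h] at hMN; exact zero_dvd_iff.mp hMN)
  have : NeZero M := ⟨hM0⟩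
  have hag : ∀ ℓ : ℕ, ℓ.Prime → ℓ ∉ N.primeFactors → W.IsGoodPrimeFor ℓ →
      ModularFormClass.qCoeff g ℓ = (W.apOfModel ℓ : ℂ) := by
    intro ℓ hℓ hℓN hgood
    have hℓN' : ¬ ℓ ∣ N := fun h => hℓN (Nat.mem_primeFactors.mpr ⟨hℓ, h, hN0⟩)
    rw [hgf ℓ hℓ hℓN']
    exact hfa ℓ hℓ hgood hℓN'
  -- (A2): `M` is squarefree
  have hA2 : ∀ q : ℕ, q.Prime → ¬ q ^ 2 ∣ M := by
    intro q hq hq2
    have hqp : q ≠ p := by
      rintro rfl
      exact hp2N (hq2.trans hMN)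
    have hfac : M.factorization q = 2 := by
      have h2 : 2 ≤ M.factorization q := (hq.pow_dvd_iff_le_factorization hM0).mp hq2
      have h3 : ¬ 3 ≤ M.factorization q := fun h =>
        hN3 q hq (((hq.pow_dvd_iff_le_factorization hM0).mpr h).trans hMN)
      omega
    refine Fermat.Agent.S58.NoSquare.not_sq_dvd h36 W hss hΔ hg N.primeFactors hag p hp2 ?_
      hq hqp hfac
    intro n ℓ hℓ h5 hℓp hgood A hA σ hσ P hP
    refine Fermat.Agent.S58.FrobQuadTorsion.frob_quad_torsion W ((hp.odd_of_ne_two hp2).pow) hℓ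
      h5 ?_ hgood A hA σ hσ P hP
    exact fun h => hℓp ((Nat.prime_dvd_prime_iff_eq hℓ hp).mp (hℓ.dvd_of_dvd_pow h))
  -- (A1): every prime of `M` is bad
  have hA1 : ∀ q : ℕ, q.Prime → q ∣ M → (q : ℤ) ∣ W.Δ := fun q hq hqM =>
    Fermat.Agent.S58.BadNewform.dvd_Δ_of_newform W hg N.primeFactors hag hq hqM (hA2 q hq)
  -- `M ∣ rad Δ`
  have hD0 : W.Δ.natAbs ≠ 0 := Int.natAbs_ne_zero.mpr hΔ
  have hMC : M ∣ W.conductorLevel := by
    have hsq : Squarefree M := by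
      rw [Nat.squarefree_iff_prime_squarefree]
      intro q hq hqq
      exact hA2 q hq (by rw [pow_two]; exact hqq)
    have h1 : M ∣ UniqueFactorizationMonoid.radical M := hsq.isRadical.dvd_radical hM0
    have h2 : UniqueFactorizationMonoid.radical M ∣ UniqueFactorizationMonoid.radical W.Δ.natAbs := by
      rw [UniqueFactorizationMonoid.radical_dvd_radical_iff_primeFactors_subset_primeFactors,
        UniqueFactorizationMonoid.primeFactors_eq_natPrimeFactors]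
      intro q hq
      have hq' := Nat.mem_primeFactors.mp hq
      exact Nat.mem_primeFactors.mpr ⟨hq'.1, Int.natCast_dvd.mp (hA1 q hq'.1 hq'.2.1), hD0⟩
    exact h1.trans h2
  obtain ⟨h, hh, hha⟩ := Fermat.Agent.S58.LevelUp.exists_eigenform_of_dvd hMC g hg.1
  refine ⟨h, hh, fun ℓ hℓ hgood hℓC => ?_⟩
  rw [hha ℓ hℓ hℓC]
  have hℓM : ¬ ℓ ∣ M := fun hdvd => hℓC (hdvd.trans hMC)
  refine Fermat.Agent.S58.GoodCoeff.qCoeff_eq_apOfModel W hΔ hg N.primeFactors hag hℓ hgood hℓM ?_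
  intro lam n ℓ' hlam hlam2 hℓ' _ hℓ'lam hgood' A hA σ hσ P hP
  refine Fermat.Agent.S58.FrobQuadTorsion.frob_quad_torsion_all hFQ2 hFQ3 W
    ((hlam.odd_of_ne_two hlam2).pow) hℓ' ?_ hgood' A hA σ hσ P hP
  exact fun hd => hℓ'lam ((Nat.prime_dvd_prime_iff_eq hℓ' hlam).mp (hℓ'.dvd_of_dvd_pow hd))

end Fermat.Agent.S58.TopDraft
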