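import Mathlib
import Fermat.Agent.S58.Transfer

/-!
# S58 block [TRANSFER], uniform form (owner: helper42)

`Transfer.core` produces, for ONE point `P ∈ W[λⁿ]`, integers `t`, `d` with `t ≡ tr ρ(g)`,
`d ≡ det ρ(g)` modulo `λⁿ` and `g² P - t g P + d P = 0`.  Here the same for all points of a finite
set at once (`core_finite`), in particular for all of `W[λⁿ]` (`core_all`), and the case `n = 1`
modulo the maximal ideal (`core_one`).  Same hypotheses and same proof as `Transfer.core`.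
-/

set_option autoImplicit false

namespace Fermat.Agent.S58.TransferAll

open Polynomial WeierstrassCurve WeierstrassCurve.Affine WeierstrassCurve.Affine.Point
open Fermat.Agent.S58.Transfer

local notation "Qb" => AlgebraicClosure ℚ

local instance isAlgebraicQbar_s58a : Algebra.IsAlgebraic ℚ (AlgebraicClosure ℚ) :=
  AlgebraicClosure.isAlgebraic ℚ
local instance isAlgClosureQbar_s58a : IsAlgClosure ℚ (AlgebraicClosure ℚ) :=
  ⟨inferInstance, inferInstance⟩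
local instance normalQbar_s58a : Normal ℚ (AlgebraicClosure ℚ) :=
  IsAlgClosure.normal ℚ (AlgebraicClosure ℚ)

set_option maxHeartbeats 1600000 in
/-- **[TRANSFER], core for a finite set of points.**  For every `g`, `n` and every finite set
`Ps` of points there are `t : ℤ`, `d : ℕ` such that `t ≡ tr ρ(g)` and `d ≡ det ρ(g)` modulo `λⁿ`,
`g² P - t g P + d P = 0` for all `P ∈ Ps ∩ W[λⁿ]`, and `g ζ = ζ ^ d` for all `λⁿ`-th roots of
unity `ζ`. -/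
theorem core_finite (W : WeierstrassCurve ℤ) (hΔ : W.Δ ≠ 0) {lam : ℕ} [Fact lam.Prime] (hlam2 : lam ≠ 2)
    (hFQ : ∀ (n ℓ : ℕ), ℓ.Prime → 5 ≤ ℓ → ℓ ≠ lam → W.IsGoodPrimeFor ℓ →
      ∀ A : ValuationSubring Qb, A.LiesOverPrime ℓ → ∀ σ : Qb ≃ₐ[ℚ] Qb, A.IsFrobeniusAt σ ℓ →
        ∀ P : ((W.map (Int.castRingHom ℚ)).toAffine⁄Qb).Point, lam ^ n • P = 0 →
          σ • σ • P - W.apOfModel ℓ • σ • P + (ℓ : ℤ) • P = 0)
    {O : Type} [CommRing O] [IsDomain O] [IsDiscreteValuationRing O] [CharZero O]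
    (hlamO : (lam : O) ∈ IsLocalRing.maximalIdeal O) (ρ : GaloisRepAdic O) (S₀ : Finset ℕ)
    (hρ : ∀ ℓ : ℕ, ℓ.Prime → ℓ ∉ S₀ → W.IsGoodPrimeFor ℓ → ℓ ≠ lam →
      ∀ A : ValuationSubring Qb, A.LiesOverPrime ℓ → ∀ σ : Qb ≃ₐ[ℚ] Qb, A.IsFrobeniusAt σ ℓ →
        LinearMap.charpoly (ρ.ρ σ) = X ^ 2 - C ((W.apOfModel ℓ : ℤ) : O) * X + C (ℓ : O))
    (g : Qb ≃ₐ[ℚ] Qb) (n : ℕ) (Ps : Set ((W.map (Int.castRingHom ℚ)).toAffine⁄Qb).Point)
    (hPs : Ps.Finite) :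
    ∃ (t : ℤ) (d : ℕ),
      (t : O) - LinearMap.trace O ρ.V (ρ.ρ g) ∈ Ideal.span {(lam : O) ^ n} ∧
      (d : O) - LinearMap.det (ρ.ρ g) ∈ Ideal.span {(lam : O) ^ n} ∧
      (∀ P ∈ Ps, lam ^ n • P = 0 → g • g • P - t • g • P + (d : ℤ) • P = 0) ∧
      ∀ ζ : Qb, ζ ^ lam ^ n = 1 → g ζ = ζ ^ d := by
  have hlam : lam.Prime := Fact.out
  obtain ⟨k, hk⟩ := exists_maximalIdeal_pow_le (O := O) hlam n
  obtain ⟨L, hLfin, hL⟩ := ρ.isAdicContinuous k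
  -- a finite Galois extension containing everything
  let Cset : Set Qb := ⋃ P ∈ Ps,
    (Fermat.Agent.P7.NonEis.coords P ∪ Fermat.Agent.P7.NonEis.coords (g • P))
  have hCfin : Cset.Finite := hPs.biUnion fun P _ =>
    (Fermat.Agent.P7.NonEis.coords_finite P).union (Fermat.Agent.P7.NonEis.coords_finite _)
  have : Finite Cset := hCfin
  have : FiniteDimensional ℚ (IntermediateField.adjoin ℚ Cset) :=
    IntermediateField.finiteDimensional_adjoin fun x _ => Algebra.IsIntegral.isIntegral x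
  have : FiniteDimensional ℚ L := hLfin
  let M₀ : IntermediateField ℚ Qb :=
    (L ⊔ IntermediateField.adjoin ℚ Cset) ⊔ Fermat.Agent.P5.CycloDelta.level lam n
  have : FiniteDimensional ℚ M₀ := by
    have h1 : FiniteDimensional ℚ (L ⊔ IntermediateField.adjoin ℚ Cset : IntermediateField ℚ Qb) :=
      IntermediateField.finiteDimensional_sup _ _
    exact IntermediateField.finiteDimensional_sup _ _
  let M : IntermediateField ℚ Qb := IntermediateField.normalClosure ℚ M₀ Qb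
  have : FiniteDimensional ℚ M := normalClosure.is_finiteDimensional ℚ M₀ Qb
  have : Normal ℚ M := normalClosure.normal ℚ M₀ Qb
  have : IsGalois ℚ M := ⟨⟩
  have hM₀ : M₀ ≤ M := IntermediateField.le_normalClosure M₀
  have hLM : ∀ x ∈ L, x ∈ M := fun x hx =>
    hM₀ ((le_sup_left : L ⊔ IntermediateField.adjoin ℚ Cset ≤ M₀)
      ((le_sup_left : L ≤ L ⊔ IntermediateField.adjoin ℚ Cset) hx))
  have hCM : ∀ c ∈ Cset, c ∈ M := fun c hc =>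
    hM₀ ((le_sup_left : L ⊔ IntermediateField.adjoin ℚ Cset ≤ M₀)
      ((le_sup_right : IntermediateField.adjoin ℚ Cset ≤ L ⊔ IntermediateField.adjoin ℚ Cset)
        (IntermediateField.subset_adjoin ℚ Cset hc)))
  have hζM : ∀ ζ : Qb, ζ ^ lam ^ n = 1 → ζ ∈ M := fun ζ hζ =>
    hM₀ ((le_sup_right : Fermat.Agent.P5.CycloDelta.level lam n ≤ M₀)
      (Fermat.Agent.P5.CycloDelta.mem_level lam hζ))
  -- weak Chebotarev
  obtain ⟨ℓ, hℓ, hℓS, A, hA, σ, hσ, j, hj⟩ :=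
    Fermat.Agent.Lib.WeakCheb.weakChebotarev' M g (S₀ ∪ {lam, 2, 3} ∪ W.Δ.natAbs.primeFactors)
  have hℓS₀ : ℓ ∉ S₀ := fun hmem => hℓS (by simp [hmem])
  have hℓlam : ℓ ≠ lam := fun hmem => hℓS (by simp [hmem])
  have hℓ2 : ℓ ≠ 2 := fun hmem => hℓS (by simp [hmem])
  have hℓ3 : ℓ ≠ 3 := fun hmem => hℓS (by simp [hmem])
  have h5 : 5 ≤ ℓ := by
    by_contra hlt
    have hlt' : ℓ < 5 := Nat.lt_of_not_ge hlt
    interval_cases ℓ
    · exact Nat.not_prime_zero hℓ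
    · exact Nat.not_prime_one hℓ
    · exact hℓ2 rfl
    · exact hℓ3 rfl
    · exact (by decide : ¬ Nat.Prime 4) hℓ
  have hgood : W.IsGoodPrimeFor ℓ := by
    intro hdvd
    apply hℓS
    have h1 : ℓ ∣ W.Δ.natAbs := Int.natCast_dvd.mp hdvd
    have h2 : ℓ ∈ W.Δ.natAbs.primeFactors :=
      Nat.mem_primeFactors.mpr ⟨hℓ, h1, Int.natAbs_ne_zero.mpr hΔ⟩
    simp [h2]
  -- the `ρ`-side
  have hchar := hρ ℓ hℓ hℓS₀ hgood hℓlam A hA σ hσ
  have hchar' : LinearMap.charpoly (ρ.ρ σ)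
      = X ^ 2 - C ((W.apOfModel ℓ : ℤ) : O) * X + C (((ℓ : ℤ) : ℤ) : O) := by
    rw [hchar, Int.cast_natCast]
  have htr := Fermat.Agent.S31.Alg.trace_pow_eq_aeval_lucas (ρ.ρ σ) ((W.apOfModel ℓ : ℤ) : O)
    (ℓ : ℤ) ρ.finrank_eq hchar' j
  have htr' : LinearMap.trace O ρ.V (ρ.ρ (σ ^ j))
      = (((Fermat.Agent.S31.Alg.lucas (ℓ : ℤ) j).eval (W.apOfModel ℓ) : ℤ) : O) := by
    rw [map_pow, htr, ← eq_intCast (algebraMap ℤ O) (W.apOfModel ℓ),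
      Polynomial.aeval_algebraMap_apply, eq_intCast, Polynomial.coe_aeval_eq_eval]
  have hdet : LinearMap.det (ρ.ρ (σ ^ j)) = ((ℓ ^ j : ℕ) : O) := by
    rw [map_pow, map_pow, (tr_det_of_charpoly (ρ.ρ σ) ρ.finrank_eq _ _ hchar).2, Nat.cast_pow]
  have hLM' : ∀ τ : Qb ≃ₐ[ℚ] Qb, (∀ x ∈ M, τ x = x) → ∀ v : ρ.V,
      ρ.ρ τ v - v ∈ (IsLocalRing.maximalIdeal O ^ k) • (⊤ : Submodule O ρ.V) :=
    fun τ hτ => hL τ fun x hx => hτ x (hLM x hx)
  have h1 := trace_sub_mem ρ (IsLocalRing.maximalIdeal O ^ k) M hLM' (σ ^ j) g hj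
  have h2 := trace_sub_mem ρ (IsLocalRing.maximalIdeal O ^ k) M hLM' (σ ^ j * σ ^ j) (g * g)
    (fun x hx => by
      rw [AlgEquiv.mul_apply, AlgEquiv.mul_apply, hj x hx, hj _ (apply_mem_of_normal' M g hx)])
  rw [map_mul ρ.ρ (σ ^ j) (σ ^ j), map_mul ρ.ρ g g, (charpoly_tr_det (ρ.ρ (σ ^ j)) ρ.finrank_eq).2,
    (charpoly_tr_det (ρ.ρ g) ρ.finrank_eq).2] at h2
  have hdet' : ((ℓ ^ j : ℕ) : O) - LinearMap.det (ρ.ρ g) ∈ IsLocalRing.maximalIdeal O ^ k := by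
    have h3 : (2 : O) * (((ℓ ^ j : ℕ) : O) - LinearMap.det (ρ.ρ g))
        ∈ IsLocalRing.maximalIdeal O ^ k := by
      have e : (2 : O) * (((ℓ ^ j : ℕ) : O) - LinearMap.det (ρ.ρ g))
          = (LinearMap.trace O ρ.V (ρ.ρ (σ ^ j)) - LinearMap.trace O ρ.V (ρ.ρ g))
              * (LinearMap.trace O ρ.V (ρ.ρ (σ ^ j)) + LinearMap.trace O ρ.V (ρ.ρ g))
            - (LinearMap.trace O ρ.V (ρ.ρ (σ ^ j)) ^ 2 - 2 * LinearMap.det (ρ.ρ (σ ^ j))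
              - (LinearMap.trace O ρ.V (ρ.ρ g) ^ 2 - 2 * LinearMap.det (ρ.ρ g))) := by
        rw [hdet]; ring
      rw [e]
      exact Ideal.sub_mem _ (Ideal.mul_mem_right _ _ h1) h2
    exact (Ideal.unit_mul_mem_iff_mem _ (isUnit_two hlam hlam2 hlamO)).mp h3
  rw [htr'] at h1
  -- the `W`-side
  have hstab : ∀ (τ : Qb ≃ₐ[ℚ] Qb) (x : ((W.map (Int.castRingHom ℚ)).toAffine⁄Qb).Point),
      lam ^ n • x = 0 → lam ^ n • (τ • x) = 0 := by
    intro τ x hx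
    rw [smul_comm, hx]
    exact smul_zero (A := ((W.map (Int.castRingHom ℚ)).toAffine⁄Qb).Point) τ
  refine ⟨(Fermat.Agent.S31.Alg.lucas (ℓ : ℤ) j).eval (W.apOfModel ℓ), ℓ ^ j, hk ?_, hk hdet',
    ?_, ?_⟩
  · exact h1
  · intro P hPPs hP
    have hW := Fermat.Agent.S31.Alg.aeval_lucas_apply (G := Qb ≃ₐ[ℚ] Qb)
      (J := ((W.map (Int.castRingHom ℚ)).toAffine⁄Qb).Point) σ
      (algebraMap ℤ (Module.End ℤ ((W.map (Int.castRingHom ℚ)).toAffine⁄Qb).Point)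
        (W.apOfModel ℓ)) (ℓ : ℤ) (fun x => lam ^ n • x = 0) (hstab σ) (hstab σ⁻¹)
      (fun x hx => by
        rw [Module.algebraMap_end_apply]
        exact hFQ n ℓ hℓ h5 hℓlam hgood A hA σ hσ x hx) j (σ ^ j • P) (hstab _ P hP)
    rw [Polynomial.aeval_algebraMap_apply, Module.algebraMap_end_apply,
      Polynomial.coe_aeval_eq_eval, inv_smul_smul] at hW
    have e1 : σ ^ j • P = g • P :=
      Fermat.Agent.P7.NonEis.smul_eq_smul_of_coords (σ ^ j) g P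
        fun c hc => hj c (hCM c (Set.mem_biUnion hPPs (Or.inl hc)))
    have e2 : σ ^ j • (g • P) = g • (g • P) :=
      Fermat.Agent.P7.NonEis.smul_eq_smul_of_coords (σ ^ j) g (g • P)
        fun c hc => hj c (hCM c (Set.mem_biUnion hPPs (Or.inr hc)))
    rw [e1, e2] at hW
    rw [hW]
    push_cast
    abel
  · intro ζ hζ
    rw [← hj ζ (hζM ζ hζ)]
    exact frob_pow_apply' lam hℓ hℓlam A hA σ hσ n j ζ hζ

section Corollaries

variable (W : WeierstrassCurve ℤ) (hΔ : W.Δ ≠ 0) {lam : ℕ} [Fact lam.Prime] (hlam2 : lam ≠ 2)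
    (hFQ : ∀ (n ℓ : ℕ), ℓ.Prime → 5 ≤ ℓ → ℓ ≠ lam → W.IsGoodPrimeFor ℓ →
      ∀ A : ValuationSubring Qb, A.LiesOverPrime ℓ → ∀ σ : Qb ≃ₐ[ℚ] Qb, A.IsFrobeniusAt σ ℓ →
        ∀ P : ((W.map (Int.castRingHom ℚ)).toAffine⁄Qb).Point, lam ^ n • P = 0 →
          σ • σ • P - W.apOfModel ℓ • σ • P + (ℓ : ℤ) • P = 0)
    {O : Type} [CommRing O] [IsDomain O] [IsDiscreteValuationRing O] [CharZero O]
    (hlamO : (lam : O) ∈ IsLocalRing.maximalIdeal O) (ρ : GaloisRepAdic O) (S₀ : Finset ℕ)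
    (hρ : ∀ ℓ : ℕ, ℓ.Prime → ℓ ∉ S₀ → W.IsGoodPrimeFor ℓ → ℓ ≠ lam →
      ∀ A : ValuationSubring Qb, A.LiesOverPrime ℓ → ∀ σ : Qb ≃ₐ[ℚ] Qb, A.IsFrobeniusAt σ ℓ →
        LinearMap.charpoly (ρ.ρ σ) = X ^ 2 - C ((W.apOfModel ℓ : ℤ) : O) * X + C (ℓ : O))
    (g : Qb ≃ₐ[ℚ] Qb)

omit [Fact lam.Prime] in
/-- `W[m]` is finite (`m ≠ 0`). -/
theorem finite_torsion (hΔ : W.Δ ≠ 0) (m : ℕ) (hm : m ≠ 0) :
    {P : ((W.map (Int.castRingHom ℚ)).toAffine⁄Qb).Point | m • P = 0}.Finite := by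
  have hEΔ : ((W.map (Int.castRingHom ℚ)).toAffine⁄Qb).Δ ≠ 0 := by
    rw [Fermat.Agent.P7.RedFix.baseChange_eq W, WeierstrassCurve.map_Δ]
    simpa using hΔ
  have hc := Fermat.Agent.Lib.DivPoly.card_torsionBy_of_natCast_ne_zero
    ((W.map (Int.castRingHom ℚ)).toAffine⁄Qb) hEΔ m (Nat.cast_ne_zero.mpr hm)
  have hfin : Finite (Submodule.torsionBy ℤ ((W.map (Int.castRingHom ℚ)).toAffine⁄Qb).Point
      ((m : ℕ) : ℤ)) :=
    Nat.finite_of_card_ne_zero (by rw [hc]; exact pow_ne_zero 2 hm)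
  have hset : {P : ((W.map (Int.castRingHom ℚ)).toAffine⁄Qb).Point | m • P = 0}
      = (Submodule.torsionBy ℤ ((W.map (Int.castRingHom ℚ)).toAffine⁄Qb).Point ((m : ℕ) : ℤ)
          : Set ((W.map (Int.castRingHom ℚ)).toAffine⁄Qb).Point) := by
    ext P
    rw [SetLike.mem_coe, Submodule.mem_torsionBy_iff, natCast_zsmul]
    exact Iff.rfl
  rw [hset]
  exact Set.toFinite _

include hΔ hlam2 hFQ hlamO hρ

/-- **[TRANSFER], uniform core.**  For every `g` and `n` there are `t : ℤ`, `d : ℕ` such that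
`t ≡ tr ρ(g)`, `d ≡ det ρ(g)` modulo `λⁿ`, `g² - t g + d = 0` on ALL of `W[λⁿ]`, and
`g ζ = ζ ^ d` for all `λⁿ`-th roots of unity `ζ`. -/
theorem core_all (n : ℕ) :
    ∃ (t : ℤ) (d : ℕ),
      (t : O) - LinearMap.trace O ρ.V (ρ.ρ g) ∈ Ideal.span {(lam : O) ^ n} ∧
      (d : O) - LinearMap.det (ρ.ρ g) ∈ Ideal.span {(lam : O) ^ n} ∧
      (∀ P : ((W.map (Int.castRingHom ℚ)).toAffine⁄Qb).Point, lam ^ n • P = 0 →
        g • g • P - t • g • P + (d : ℤ) • P = 0) ∧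
      ∀ ζ : Qb, ζ ^ lam ^ n = 1 → g ζ = ζ ^ d := by
  have hlam : lam.Prime := Fact.out
  obtain ⟨t, d, ht, hd, hrel, hζ⟩ := core_finite W hΔ hlam2 hFQ hlamO ρ S₀ hρ g n _
    (finite_torsion W hΔ (lam ^ n) (pow_ne_zero _ hlam.ne_zero))
  exact ⟨t, d, ht, hd, fun P hP => hrel P hP hP, hζ⟩

/-- **[TRANSFER], uniform core at `n = 1`, modulo the maximal ideal.** -/
theorem core_one :
    ∃ (t : ℤ) (d : ℕ),
      (t : O) - LinearMap.trace O ρ.V (ρ.ρ g) ∈ IsLocalRing.maximalIdeal O ∧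
      (d : O) - LinearMap.det (ρ.ρ g) ∈ IsLocalRing.maximalIdeal O ∧
      (∀ P : ((W.map (Int.castRingHom ℚ)).toAffine⁄Qb).Point, lam • P = 0 →
        g • g • P - t • g • P + (d : ℤ) • P = 0) ∧
      ∀ ζ : Qb, ζ ^ lam = 1 → g ζ = ζ ^ d := by
  obtain ⟨t, d, ht, hd, hrel, hζ⟩ := core_all W hΔ hlam2 hFQ hlamO ρ S₀ hρ g 1
  have hle : Ideal.span {(lam : O) ^ 1} ≤ IsLocalRing.maximalIdeal O := by
    have h1 := span_pow_le_maximalIdeal_pow hlamO 1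
    rw [pow_one (IsLocalRing.maximalIdeal O)] at h1
    exact h1
  refine ⟨t, d, hle ht, hle hd, fun P hP => hrel P (by rwa [pow_one]), fun ζ hζ1 => ?_⟩
  exact hζ ζ (by rwa [pow_one])

end Corollaries

end Fermat.Agent.S58.TransferAll
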