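import Mathlib
import Fermat.Prelude.Def_GaloisRep_LocalConditions
import Fermat.Agent.S58.Transfer

/-!
# S58: inertia acts unipotently on `ρ` (owner: helper42)

Junction of `Transfer.charpoly_eq_of_unipotent` (T1) with the Prelude's
`GaloisRepAdic.IsUnipotentOnInertiaAt`: if every inertia element `σ` at `q ≠ λ` satisfies
`σ (σ P - P) = σ P - P` on all `W[λⁿ]` (the shape of the inertia leaves [E-mult] / [E-good]),
then `ρ` is unipotent on inertia at `q`.  Same standing hypotheses as `Transfer`.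
-/

set_option autoImplicit false

namespace Fermat.Agent.S58.UnipInertia

open Polynomial WeierstrassCurve WeierstrassCurve.Affine WeierstrassCurve.Affine.Point

local notation "Qb" => AlgebraicClosure ℚ

/-- **Inertia is unipotent on `ρ`** as soon as it is unipotent on every `W[λⁿ]`. -/
theorem isUnipotentOnInertiaAt (W : WeierstrassCurve ℤ) (hΔ : W.Δ ≠ 0) {lam : ℕ} [Fact lam.Prime]
    (hlam2 : lam ≠ 2)
    (hFQ : ∀ (n ℓ : ℕ), ℓ.Prime → 5 ≤ ℓ → ℓ ≠ lam → W.IsGoodPrimeFor ℓ →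
      ∀ A : ValuationSubring Qb, A.LiesOverPrime ℓ → ∀ σ : Qb ≃ₐ[ℚ] Qb, A.IsFrobeniusAt σ ℓ →
        ∀ P : ((W.map (Int.castRingHom ℚ)).toAffine⁄Qb).Point, lam ^ n • P = 0 →
          σ • σ • P - W.apOfModel ℓ • σ • P + (ℓ : ℤ) • P = 0)
    {O : Type} [CommRing O] [IsDomain O] [IsDiscreteValuationRing O] [CharZero O]
    (hlamO : (lam : O) ∈ IsLocalRing.maximalIdeal O) (ρ : GaloisRepAdic O) (S₀ : Finset ℕ)
    (hρ : ∀ ℓ : ℕ, ℓ.Prime → ℓ ∉ S₀ → W.IsGoodPrimeFor ℓ → ℓ ≠ lam →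
      ∀ A : ValuationSubring Qb, A.LiesOverPrime ℓ → ∀ σ : Qb ≃ₐ[ℚ] Qb, A.IsFrobeniusAt σ ℓ →
        LinearMap.charpoly (ρ.ρ σ) = X ^ 2 - C ((W.apOfModel ℓ : ℤ) : O) * X + C (ℓ : O))
    {q : ℕ} (hq : q.Prime) (hqlam : q ≠ lam)
    (hI : ∀ A : ValuationSubring Qb, A.LiesOverPrime q → ∀ σ ∈ A.inertiaSubgroupIn ℚ,
      ∀ (n : ℕ) (P : ((W.map (Int.castRingHom ℚ)).toAffine⁄Qb).Point), lam ^ n • P = 0 →
        σ • (σ • P - P) = σ • P - P) :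
    ρ.IsUnipotentOnInertiaAt q := by
  intro A hA σ hσ
  refine Fermat.Agent.S58.Transfer.charpoly_eq_of_unipotent W hΔ hlam2 hFQ hlamO ρ S₀ hρ σ
    (fun k ζ hζ => Fermat.Agent.P5.CycloDelta.inertia_apply_rootOfUnity lam hq hqlam A hA σ hσ
      k ζ hζ) ?_
  intro n P hP
  have h := hI A hA σ hσ n P hP
  have h' : σ • σ • P - σ • P = σ • P - P := by
    rw [← h]
    exact (smul_sub σ (σ • P) P).symm
  have e : σ • σ • P - (2 : ℤ) • σ • P + P = (σ • σ • P - σ • P) - (σ • P - P) := by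
    abel
  rw [e, h', sub_self]

/-- Contrapositive form against the conclusion of S36: a representation which is NOT unipotent on
inertia at `q` excludes the inertia relation on the torsion of `W`. -/
theorem false_of_not_isUnipotentOnInertiaAt (W : WeierstrassCurve ℤ) (hΔ : W.Δ ≠ 0) {lam : ℕ}
    [Fact lam.Prime] (hlam2 : lam ≠ 2)
    (hFQ : ∀ (n ℓ : ℕ), ℓ.Prime → 5 ≤ ℓ → ℓ ≠ lam → W.IsGoodPrimeFor ℓ →
      ∀ A : ValuationSubring Qb, A.LiesOverPrime ℓ → ∀ σ : Qb ≃ₐ[ℚ] Qb, A.IsFrobeniusAt σ ℓ →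
        ∀ P : ((W.map (Int.castRingHom ℚ)).toAffine⁄Qb).Point, lam ^ n • P = 0 →
          σ • σ • P - W.apOfModel ℓ • σ • P + (ℓ : ℤ) • P = 0)
    {O : Type} [CommRing O] [IsDomain O] [IsDiscreteValuationRing O] [CharZero O]
    (hlamO : (lam : O) ∈ IsLocalRing.maximalIdeal O) (ρ : GaloisRepAdic O) (S₀ : Finset ℕ)
    (hρ : ∀ ℓ : ℕ, ℓ.Prime → ℓ ∉ S₀ → W.IsGoodPrimeFor ℓ → ℓ ≠ lam →
      ∀ A : ValuationSubring Qb, A.LiesOverPrime ℓ → ∀ σ : Qb ≃ₐ[ℚ] Qb, A.IsFrobeniusAt σ ℓ →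
        LinearMap.charpoly (ρ.ρ σ) = X ^ 2 - C ((W.apOfModel ℓ : ℤ) : O) * X + C (ℓ : O))
    {q : ℕ} (hq : q.Prime) (hqlam : q ≠ lam) (hnu : ¬ ρ.IsUnipotentOnInertiaAt q)
    (hI : ∀ A : ValuationSubring Qb, A.LiesOverPrime q → ∀ σ ∈ A.inertiaSubgroupIn ℚ,
      ∀ (n : ℕ) (P : ((W.map (Int.castRingHom ℚ)).toAffine⁄Qb).Point), lam ^ n • P = 0 →
        σ • (σ • P - P) = σ • P - P) : False :=
  hnu (isUnipotentOnInertiaAt W hΔ hlam2 hFQ hlamO ρ S₀ hρ hq hqlam hI)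

end Fermat.Agent.S58.UnipInertia
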