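import Mathlib
import Fermat.Agent.S58.UnipInertia
import Fermat.Agent.S58.InertiaTorsion

/-!
# S58: a representation attached to a semistable `W` is unipotent on inertia (owner: helper42)

`UnipInertia.isUnipotentOnInertiaAt` instantiated with the landed inertia package [E]
(`InertiaTorsion.inertia_unipotent` at the multiplicative primes, `inertia_trivial` at the good
primes): for a semistable integral model `W` with `Δ ≠ 0`, an odd prime `λ` and a `λ`-adic
representation `ρ` attached to `W` (`hρ`), `ρ` is unipotent on inertia at EVERY prime `q ≠ λ`.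
Remaining hypotheses: `hFQ` (the Frobenius quadratic on `W[λⁿ]` at good primes `ℓ ≥ 5`) and `hρ`.
This is what contradicts the conclusion `¬ ρ.IsUnipotentOnInertiaAt q` of S36 at `q² ∥ M`.
-/

set_option autoImplicit false

namespace Fermat.Agent.S58.UnipSemistable

open Polynomial WeierstrassCurve WeierstrassCurve.Affine WeierstrassCurve.Affine.Point

local notation "Qb" => AlgebraicClosure ℚ

/-- **Unipotent inertia for a semistable curve.** -/
theorem isUnipotentOnInertiaAt (W : WeierstrassCurve ℤ) (hΔ : W.Δ ≠ 0)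
    (hss : W.IsSemistableModel) {lam : ℕ} [Fact lam.Prime] (hlam2 : lam ≠ 2)
    (hFQ : ∀ (n ℓ : ℕ), ℓ.Prime → 5 ≤ ℓ → ℓ ≠ lam → W.IsGoodPrimeFor ℓ →
      ∀ A : ValuationSubring Qb, A.LiesOverPrime ℓ → ∀ σ : Qb ≃ₐ[ℚ] Qb, A.IsFrobeniusAt σ ℓ →
        ∀ P : ((W.map (Int.castRingHom ℚ)).toAffine⁄Qb).Point, lam ^ n • P = 0 →
          σ • σ • P - W.apOfModel ℓ • σ • P + (ℓ : ℤ) • P = 0)
    {O : Type} [CommRing O] [IsDomain O] [IsDiscreteValuationRing O] [CharZero O]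
    (hlamO : (lam : O) ∈ IsLocalRing.maximalIdeal O) (ρ : GaloisRepAdic O) (S₀ : Finset ℕ)
    (hρ : ∀ ℓ : ℕ, ℓ.Prime → ℓ ∉ S₀ → W.IsGoodPrimeFor ℓ → ℓ ≠ lam →
      ∀ A : ValuationSubring Qb, A.LiesOverPrime ℓ → ∀ σ : Qb ≃ₐ[ℚ] Qb, A.IsFrobeniusAt σ ℓ →
        LinearMap.charpoly (ρ.ρ σ) = X ^ 2 - C ((W.apOfModel ℓ : ℤ) : O) * X + C (ℓ : O))
    {q : ℕ} (hq : q.Prime) (hqlam : q ≠ lam) :
    ρ.IsUnipotentOnInertiaAt q := by
  have hlam : lam.Prime := Fact.out
  refine Fermat.Agent.S58.UnipInertia.isUnipotentOnInertiaAt W hΔ hlam2 hFQ hlamO ρ S₀ hρ hq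
    hqlam ?_
  intro A hA σ hσ n P hP
  have hodd : Odd (lam ^ n) := (hlam.odd_of_ne_two hlam2).pow
  have hqn : ¬ q ∣ lam ^ n := fun h =>
    hqlam ((Nat.prime_dvd_prime_iff_eq hq hlam).mp (hq.dvd_of_dvd_pow h))
  by_cases hbad : (q : ℤ) ∣ W.Δ
  · exact Fermat.Agent.S58.InertiaTorsion.inertia_unipotent W hq hodd hqn hbad (hss q hq hbad)
      A hA σ hσ P hP
  · have h1 := Fermat.Agent.S58.InertiaTorsion.inertia_trivial W hq hodd hqn hbad A hA σ hσ P hP
    rw [h1, sub_self]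
    exact smul_zero (A := ((W.map (Int.castRingHom ℚ)).toAffine⁄Qb).Point) σ

end Fermat.Agent.S58.UnipSemistable
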